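/-
PROJECT P (S44), frame brick (helper19): THE NODAL CHART FRAME OF `X₀(M p)` TOGETHER WITH THE LOCAL
NODE HYPOTHESES.

Main's `S34.CoreZX0Datum.X0Datum` (hence `S33.X0.Frame.ChartFrame`) only remembers the GLOBAL pole
control and gluing `GNodalDatum.pcg` (every pole in a good disc over one admissible pair).  The
LOCAL hypotheses `S34.PcgCusp.Hyp` (total specialisation maps `sp1 sp2`, pole control `pc1 pc2` at
one place, chart-0 gluing `glue0`, the multiplier `mult` at one node) are consumed by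
`CoreZX0Build.x0DatumOf` and forgotten.  This file re-runs the construction and keeps them.

* `hasVal_of_mul` : division of values;
* `glue_at` : LOCAL gluing at one node from `PcgCusp.Hyp`, for a function of `O₁ ∩ O₂` without pole
  on the tube of the node (one-sided hypothesis `sp1 P ≠ Fr a`);
* `regular1_at`, `regular2_at` : `pc1`, `pc2` restated;
* `NodeHyp F` : the record `sp1 sp2 cuspL hyp` + `e1 b = Fr b`, `e2 b = b`, `Fr (Fr b) = b` on the
  nodes, inertia invariance of `sp1 sp2`, and `r_i P = some Q → sp_i P = Q`;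
* `exists_nodeHyp hA hpM : ∃ F : ChartFrame hA hpM, Nonempty (NodeHyp F)`.
-/
import Fermat.Agent.S33.X0.Frame

set_option autoImplicit false
set_option linter.unusedSectionVars false
set_option linter.unusedVariables false
set_option linter.style.haveILetI false
set_option synthInstance.maxHeartbeats 400000

noncomputable section

namespace Fermat.Agent.S44.Core.FrameHyp

open ModularCurve AlgebraicCurve IsLocalRing
open Fermat.Agent.S18.NonSpecial Fermat.Agent.S34.NodalDefs
open Fermat.Agent.S34.Z1X0 Fermat.Agent.S34.CoreZX0Datum Fermat.Agent.S34.CoreZX0Assembly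
open Fermat.Agent.S34.CoreZX0Build Fermat.Agent.S34.CoreZX0OfGeneric
open Fermat.Agent.S37.Deuring.Core Fermat.Agent.S37.Gauss.Datum
open Fermat.Agent.S34.Generic.FibAlphaX0 Fermat.Agent.S34.Generic.FibBetaX0
open Fermat.Agent.S34.Generic.BranchX0 Fermat.Agent.S34.WqGalois
open Fermat.Agent.S34.Generic.Dich Fermat.Agent.S34.PcgOfSandwich
open Fermat.Agent.S34.Generic.RestrAlong
open Fermat.Agent.S33.X0.Frame

local notation "Qbar" => AlgebraicClosure ℚ

/-! ### Abstract part -/

section Abstract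

variable {K E : Type*} [Field K] [Field E] [Algebra K E]

/-- division of values: if `y(P) = c ≠ 0` and `(y z)(P) = d` then `z(P) = d / c` -/
theorem hasVal_of_mul {P : Place K E} {y z : E} {c d : K} (hc : c ≠ 0) (hy : HasVal P y c)
    (hyz : HasVal P (y * z) d) : HasVal P z (d / c) := by
  have hyv : P.adicValuation y = 1 := by
    have h1 : y = (y - algebraMap K E c) + algebraMap K E c := by ring
    have h2 : P.adicValuation (algebraMap K E c) = 1 :=
      Fermat.Agent.S24.Ord.adicValuation_algebraMap P hc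
    rw [h1, Valuation.map_add_eq_of_lt_right, h2]
    rw [h2]
    exact hy
  have hid : y * (z - algebraMap K E (d / c)) =
      (y * z - algebraMap K E d) - algebraMap K E (d / c) * (y - algebraMap K E c) := by
    have hdc : algebraMap K E d = algebraMap K E (d / c) * algebraMap K E c := by
      rw [← map_mul, div_mul_cancel₀ d hc]
    rw [hdc]
    ring
  have hlt : P.adicValuation (y * (z - algebraMap K E (d / c))) < 1 := by
    rw [hid]
    refine (P.adicValuation.map_sub _ _).trans_lt (max_lt hyz ?_)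
    rw [map_mul]
    calc P.adicValuation (algebraMap K E (d / c)) * P.adicValuation (y - algebraMap K E c)
        ≤ 1 * P.adicValuation (y - algebraMap K E c) :=
          mul_le_mul' (adicValuation_const_le_one P (d / c)) le_rfl
      _ < 1 := by rw [one_mul]; exact hy
  rw [map_mul, hyv, one_mul] at hlt
  exact hlt

variable {L : Type*} [Field L] {k : Type*} [Field k]
variable {A' : ValuationSubring L} {π : A' →+* k} {FL : Type*} [Field FL] [Algebra L FL]
  {κ : Type*} [Field κ] [Algebra k κ]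
variable {R1 R2 : SmoothRed A' π FL κ} {Fr : Place k κ → Place k κ}
  {sp1 sp2 : Place L FL → Place k κ} {cuspL : Set (Place L FL)} {N : Finset (Place k κ)}

/-- **LOCAL gluing at one node.**  A function of `O₁ ∩ O₂` without pole on the tube of the node `a`
(no pole `P` with `sp1 P = Fr a`) has reductions which are regular at the two points of the node
and take the same value there. -/
theorem glue_at (H : Fermat.Agent.S34.PcgCusp.Hyp R1 R2 Fr sp1 sp2 cuspL N) (h1 : R1.O)
    (h2 : R2.O) (h12 : ((h1 : R1.O) : FL) = ((h2 : R2.O) : FL)) {a : Place k κ} (ha : a ∈ N)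
    (hnp : ∀ P : Place L FL, P.ord ((h1 : R1.O) : FL) < 0 → sp1 P ≠ Fr a) :
    ∃ γ : k, HasValue (Fr a) (R1.red h1) γ ∧ HasValue a (R2.red h2) γ := by
  obtain ⟨y1, y2, hy12, hypole, hyhpole, γy, hγy0, hγy⟩ := H.mult h1 h2 h12 a ha hnp
  obtain ⟨γ', hγ'1, hγ'2⟩ := H.glue0 y1 y2 hy12 hypole a ha
  have hyh12 : (((y1 * h1 : R1.O) : R1.O) : FL) = (((y2 * h2 : R2.O) : R2.O) : FL) := by
    push_cast
    rw [hy12, h12]
  obtain ⟨δ, hδ1, hδ2⟩ := H.glue0 (y1 * h1) (y2 * h2) hyh12 hyhpole a ha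
  rw [hasValue_iff] at hγy hγ'1 hγ'2 hδ1 hδ2
  have hγeq : γ' = γy := hγ'1.unique hγy
  subst hγeq
  rw [map_mul] at hδ1 hδ2
  exact ⟨δ / γ', (hasValue_iff _ _ _).mpr (hasVal_of_mul hγy0 hγ'1 hδ1),
    (hasValue_iff _ _ _).mpr (hasVal_of_mul hγy0 hγ'2 hδ2)⟩

/-- `pc1` restated: a function of `O₁ ∩ O₂` without pole over `Q` (first specialisation) has a
first reduction regular at `Q` -/
theorem regular1_at (H : Fermat.Agent.S34.PcgCusp.Hyp R1 R2 Fr sp1 sp2 cuspL N) (h1 : R1.O)
    (h2 : R2.O) (h12 : ((h1 : R1.O) : FL) = ((h2 : R2.O) : FL)) (Q : Place k κ)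
    (hnp : ∀ P : Place L FL, P.ord ((h1 : R1.O) : FL) < 0 → sp1 P ≠ Q) :
    0 ≤ Q.ord (R1.red h1) := H.pc1 Q h1 h2 h12 hnp

/-- `pc2` restated -/
theorem regular2_at (H : Fermat.Agent.S34.PcgCusp.Hyp R1 R2 Fr sp1 sp2 cuspL N) (h1 : R1.O)
    (h2 : R2.O) (h12 : ((h1 : R1.O) : FL) = ((h2 : R2.O) : FL)) (Q : Place k κ)
    (hnp : ∀ P : Place L FL, P.ord ((h1 : R1.O) : FL) < 0 → sp2 P ≠ Q) :
    0 ≤ Q.ord (R2.red h2) := H.pc2 Q h1 h2 h12 hnp

end Abstract

/-! ### The instance at `E = ℚ̄(X₀(M p))` -/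

attribute [local instance 2000] Fermat.Agent.S34.EulerX0.algResFk

/-- local instance: principal divisors on `E` -/
local instance instPDBar (N : ℕ) [NeZero N] :
    HasPrincipalDivisors Qbar ↥(modularFunctionFieldBar N) :=
  Fermat.Agent.S18.A.Instances.hasPrincipalDivisors_bar N

local instance instPDFk (A : ValuationSubring Qbar) (N : ℕ) [NeZero N] :
    HasPrincipalDivisors (ResidueField ↥A) ↥(modularFunctionFieldFullC (ResidueField ↥A) N) :=
  Fermat.Agent.S37.ReductionInputs.hasPrincipalDivisors_Fk A N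

local instance instACk (A : ValuationSubring Qbar) : IsAlgClosed (ResidueField ↥A) :=
  Fermat.Agent.S18.ResidueBasics.isAlgClosed_residueField A

local instance instInfk (A : ValuationSubring Qbar) : Infinite (ResidueField ↥A) :=
  Fermat.Agent.S37.ReductionInputs.infinite_residueField A

local instance instNeZeroMul (M q : ℕ) [NeZero M] [NeZero q] : NeZero (M * q) :=
  ⟨Nat.mul_ne_zero (NeZero.ne M) (NeZero.ne q)⟩

variable {p : ℕ} [hp : Fact p.Prime] {M : ℕ} [NeZero M] {A : ValuationSubring Qbar} [NeZero p]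
variable {hA : A.LiesOverPrime p} {hpM : ¬ p ∣ M}

set_option maxHeartbeats 1600000 in
/-- **The local node hypotheses of a chart frame.** -/
structure NodeHyp (F : ChartFrame hA hpM) where
  /-- the Frobenius on the places of the components -/
  Fr : Place (ResidueField ↥A) ↥(modularFunctionFieldFullC (ResidueField ↥A) M) ≃
    Place (ResidueField ↥A) ↥(modularFunctionFieldFullC (ResidueField ↥A) M)
  /-- the total specialisation map along `α` -/
  sp1 : Place Qbar ↥(modularFunctionFieldBar (M * p)) →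
    Place (ResidueField ↥A) ↥(modularFunctionFieldFullC (ResidueField ↥A) M)
  /-- the total specialisation map along `β` -/
  sp2 : Place Qbar ↥(modularFunctionFieldBar (M * p)) →
    Place (ResidueField ↥A) ↥(modularFunctionFieldFullC (ResidueField ↥A) M)
  /-- the true cusps of `X₀(M p)` -/
  cuspL : Set (Place Qbar ↥(modularFunctionFieldBar (M * p)))
  /-- the local hypotheses of Route G -/
  hyp : Fermat.Agent.S34.PcgCusp.Hyp F.X.N.R1 F.X.N.R2 Fr sp1 sp2 cuspL F.X.S
  e1_eq : ∀ b : {b // b ∈ F.X.S}, F.X.N.e1 b = Fr b.1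
  e2_eq : ∀ b : {b // b ∈ F.X.S}, F.X.N.e2 b = b.1
  fr_fr : ∀ b ∈ F.X.S, Fr (Fr b) = b
  sp1_smul : ∀ σ ∈ A.inertiaSubgroupIn ℚ, ∀ P : Place Qbar ↥(modularFunctionFieldBar (M * p)),
    sp1 (arithmeticGalois (modularFunctionFieldFull (M * p)) σ • P) = sp1 P
  sp2_smul : ∀ σ ∈ A.inertiaSubgroupIn ℚ, ∀ P : Place Qbar ↥(modularFunctionFieldBar (M * p)),
    sp2 (arithmeticGalois (modularFunctionFieldFull (M * p)) σ • P) = sp2 P
  /-- the good discs of the first kind in terms of the total specialisation maps -/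
  r1_iff : ∀ (P : Place Qbar ↥(modularFunctionFieldBar (M * p)))
    (Q : Place (ResidueField ↥A) ↥(modularFunctionFieldFullC (ResidueField ↥A) M)),
    F.X.N.R1.r P = some Q ↔ Q ∈ F.X.N.R1.good ∧ sp1 P = Q ∧ sp2 P = Fr Q
  /-- the good discs of the second kind in terms of the total specialisation maps -/
  r2_iff : ∀ (P : Place Qbar ↥(modularFunctionFieldBar (M * p)))
    (Q : Place (ResidueField ↥A) ↥(modularFunctionFieldFullC (ResidueField ↥A) M)),
    F.X.N.R2.r P = some Q ↔ Q ∈ F.X.N.R1.good ∧ sp2 P = Q ∧ sp1 P = Fr Q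
  fr_good : ∀ Q, Fr Q ∈ F.X.N.R1.good ↔ Q ∈ F.X.N.R1.good
  /-- a pole of `j` specialises to a cusp of the first component -/
  sp1_pole : ∀ P : Place Qbar ↥(modularFunctionFieldBar (M * p)),
    P.ord (Fermat.Agent.S24.DegreeAlg.jgen (M * p)) < 0 →
      (sp1 P).ord (Fermat.Agent.S18.B.FkBasics.jk (ResidueField ↥A) M) < 0
  /-- a pole of `j` specialises to a cusp of the second component -/
  sp2_pole : ∀ P : Place Qbar ↥(modularFunctionFieldBar (M * p)),
    P.ord (Fermat.Agent.S24.DegreeAlg.jgen (M * p)) < 0 →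
      (sp2 P).ord (Fermat.Agent.S18.B.FkBasics.jk (ResidueField ↥A) M) < 0
  /-- the nodes are not cusps (second component) -/
  node_reg2 : ∀ b ∈ F.X.S, 0 ≤ b.ord (Fermat.Agent.S18.B.FkBasics.jk (ResidueField ↥A) M)
  /-- the nodes are not cusps (first component) -/
  node_reg : ∀ b ∈ F.X.S, 0 ≤ (Fr b).ord (Fermat.Agent.S18.B.FkBasics.jk (ResidueField ↥A) M)
  /-- `Fr` is the Frobenius of `S34/FrobK` -/
  Fr_eq : ∀ [CharP (ResidueField ↥A) p], Fr = Fermat.Agent.S34.FrobK.Fr (ResidueField ↥A) M p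


namespace NodeHyp

variable {F : ChartFrame hA hpM} (Y : NodeHyp F)

/-- the tube of a node: the places of `E` specialising to the node -/
def tube (e : {b // b ∈ F.X.S}) : Set (Place Qbar ↥(modularFunctionFieldBar (M * p))) :=
  {P | Y.sp1 P = F.X.N.e1 e}

theorem mem_tube_iff (e : {b // b ∈ F.X.S}) (P : Place Qbar ↥(modularFunctionFieldBar (M * p))) :
    P ∈ Y.tube e ↔ Y.sp1 P = F.X.N.e1 e := Iff.rfl

/-- the tubes are stable under the inertia group -/
theorem smul_mem_tube_iff {σ : Qbar ≃ₐ[ℚ] Qbar} (hσ : σ ∈ A.inertiaSubgroupIn ℚ)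
    (e : {b // b ∈ F.X.S}) (P : Place Qbar ↥(modularFunctionFieldBar (M * p))) :
    arithmeticGalois (modularFunctionFieldFull (M * p)) σ • P ∈ Y.tube e ↔ P ∈ Y.tube e := by
  rw [mem_tube_iff, mem_tube_iff, Y.sp1_smul σ hσ P]

/-- a good disc of the first kind does not meet a tube -/
theorem not_mem_tube_of_r1 {P : Place Qbar ↥(modularFunctionFieldBar (M * p))}
    {Q : Place (ResidueField ↥A) ↥(modularFunctionFieldFullC (ResidueField ↥A) M)}
    (h : F.X.N.R1.r P = some Q) (e : {b // b ∈ F.X.S}) : P ∉ Y.tube e := by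
  intro hP
  obtain ⟨hg, h1, -⟩ := (Y.r1_iff P Q).mp h
  rw [mem_tube_iff, h1] at hP
  exact F.X.N.e1_not_good e (hP ▸ hg)

/-- a good disc of the second kind does not meet a tube -/
theorem not_mem_tube_of_r2 {P : Place Qbar ↥(modularFunctionFieldBar (M * p))}
    {Q : Place (ResidueField ↥A) ↥(modularFunctionFieldFullC (ResidueField ↥A) M)}
    (h : F.X.N.R2.r P = some Q) (e : {b // b ∈ F.X.S}) : P ∉ Y.tube e := by
  intro hP
  obtain ⟨hg, -, h1⟩ := (Y.r2_iff P Q).mp h
  rw [mem_tube_iff, h1] at hP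
  exact F.X.N.e1_not_good e (hP ▸ (Y.fr_good Q).mpr hg)

/-- **LOCAL gluing at a node of the frame**: a function of `O₁ ∩ O₂` without pole on the tube of
the node `e` has reductions regular at `e1 e`, `e2 e` with the same value. -/
theorem glue_node (h1 : F.X.N.R1.O) (h2 : F.X.N.R2.O)
    (h12 : ((h1 : F.X.N.R1.O) : ↥(modularFunctionFieldBar (M * p))) =
      ((h2 : F.X.N.R2.O) : ↥(modularFunctionFieldBar (M * p))))
    (e : {b // b ∈ F.X.S})
    (hnp : ∀ P : Place Qbar ↥(modularFunctionFieldBar (M * p)),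
      P.ord ((h1 : F.X.N.R1.O) : ↥(modularFunctionFieldBar (M * p))) < 0 → P ∉ Y.tube e) :
    ∃ γ : ResidueField ↥A, HasValue (F.X.N.e1 e) (F.X.N.R1.red h1) γ ∧
      HasValue (F.X.N.e2 e) (F.X.N.R2.red h2) γ := by
  rw [Y.e1_eq e, Y.e2_eq e]
  refine glue_at Y.hyp h1 h2 h12 e.2 fun P hP hsp => hnp P hP ?_
  rw [mem_tube_iff, Y.e1_eq e]
  exact hsp

/-- pole control at one place of the first component -/
theorem regular1 (h1 : F.X.N.R1.O) (h2 : F.X.N.R2.O)
    (h12 : ((h1 : F.X.N.R1.O) : ↥(modularFunctionFieldBar (M * p))) =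
      ((h2 : F.X.N.R2.O) : ↥(modularFunctionFieldBar (M * p))))
    (Q : Place (ResidueField ↥A) ↥(modularFunctionFieldFullC (ResidueField ↥A) M))
    (hnp : ∀ P : Place Qbar ↥(modularFunctionFieldBar (M * p)),
      P.ord ((h1 : F.X.N.R1.O) : ↥(modularFunctionFieldBar (M * p))) < 0 → Y.sp1 P ≠ Q) :
    0 ≤ Q.ord (F.X.N.R1.red h1) := Y.hyp.pc1 Q h1 h2 h12 hnp

/-- pole control at one place of the second component -/
theorem regular2 (h1 : F.X.N.R1.O) (h2 : F.X.N.R2.O)
    (h12 : ((h1 : F.X.N.R1.O) : ↥(modularFunctionFieldBar (M * p))) =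
      ((h2 : F.X.N.R2.O) : ↥(modularFunctionFieldBar (M * p))))
    (Q : Place (ResidueField ↥A) ↥(modularFunctionFieldFullC (ResidueField ↥A) M))
    (hnp : ∀ P : Place Qbar ↥(modularFunctionFieldBar (M * p)),
      P.ord ((h1 : F.X.N.R1.O) : ↥(modularFunctionFieldBar (M * p))) < 0 → Y.sp2 P ≠ Q) :
    0 ≤ Q.ord (F.X.N.R2.red h2) := Y.hyp.pc2 Q h1 h2 h12 hnp

end NodeHyp

section Existence

variable [CharP (ResidueField ↥A) p]

set_option maxHeartbeats 1600000 in
/-- the node record with the EXACT Euler identity, keeping the Frobenius-square fixedness -/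
theorem exists_nodesX0_eq' {gM : ℕ}
    (HM : RiemannHyp (ResidueField ↥A) ↥(modularFunctionFieldFullC (ResidueField ↥A) M) gM)
    (hgen : GenericX0 hA hpM (HX0 hA hpM HM)) :
    ∃ Y : NodesC (inputsX0 hgen), (Y.gE : ℤ) + 1 = gM + gM + Y.S.card ∧
      ∀ b ∈ Y.S, Fermat.Agent.S34.FrobK.Fr (ResidueField ↥A) M p
        (Fermat.Agent.S34.FrobK.Fr (ResidueField ↥A) M p b) = b ∧
        b ∉ Fermat.Agent.S34.Euler.FrobSide.P0 (ResidueField ↥A) M := by
  haveI : PerfectField (ResidueField ↥A) := inferInstance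
  obtain ⟨g, HL⟩ := Fermat.Agent.S18.A.RiemannFk.exists_riemannHyp_FL (M * p)
  obtain ⟨S, hS, hNC, hbS⟩ :=
    Fermat.Agent.S36.EulerExact.X0.exists_nodes_closed_eq hA hpM HM HL
  set H := HX0 hA hpM HM with hH
  set X := inputsX0 hgen with hX
  have hyp := Fermat.Agent.S34.PcgX0.hyp_X0 hpM hA H (isIntegral_alpha hpM) (isIntegral_beta M p)
    (wq M p hp.out hpM) (fun g => wq_alpha hp.out hpM g) (fun g => wq_beta hp.out hpM g)
    (fun x => wq_wq hp.out hpM x) (goodX0 A M p) (R1 X) (R1_r X) X.Fr_Fr_ne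
    (isExt₁ hA hpM) (isExt_comap hA hpM) X.α_mem X.red_α X.β_mem H.riemannL H.riemannK
    (Fermat.Agent.S34.EulerClosedX0.G1X0 hA hpM) (Fermat.Agent.S34.EulerClosedX0.G2X0 hA hpM)
    (fun f h => h) (fun f h => h) (fun f h h' => rfl) (fun f h h' => rfl) S hS hbS
  exact ⟨{ S := S, cuspL := _, hyp := hyp, gE := g, HL := HL, hNC := hNC.le }, hNC,
    fun b hb => hS b hb⟩

end Existence

/-! ### the standard reductions -/

/-- the first reduction of the frame is the standard one (coefficientwise reduction of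
`q`-expansions); same proposition as `S44.Eis.HeckeNode.RedStd` -/
def RedStd1 (F : ChartFrame hA hpM) : Prop :=
  ∀ (y : ↥(modularFunctionFieldBar (M * p))) (h1 : y ∈ F.X.N.R1.O)
    (h2 : y ∈ Fermat.Agent.S34.GaussPairX0.V₁ hA hpM),
    F.X.N.R1.red ⟨y, h1⟩ = Fermat.Agent.S34.GaussPairX0.red₁ hA hpM ⟨y, h2⟩

/-- the second reduction of the frame is the standard one (`red₂ = red₁ ∘ w_p`) -/
def RedStd2 (F : ChartFrame hA hpM) : Prop :=
  ∀ (y : ↥(modularFunctionFieldBar (M * p))) (h1 : y ∈ F.X.N.R2.O)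
    (h2 : y ∈ Fermat.Agent.S34.GaussPairX0.V₂ hA hpM),
    F.X.N.R2.red ⟨y, h1⟩ = Fermat.Agent.S34.GaussPairX0.red₂ hA hpM ⟨y, h2⟩

/-! ### the explicit frame -/

section Explicit

variable [CharP (ResidueField ↥A) p]

/-- **The explicit chart frame** built from the producers' outputs (the term inside
`S33.X0.Frame.nonempty_chartFrame`). -/
def frameOf {gM : ℕ}
    (HM : RiemannHyp (ResidueField ↥A) ↥(modularFunctionFieldFullC (ResidueField ↥A) M) gM)
    (hgen : GenericX0 hA hpM (HX0 hA hpM HM)) (Y : NodesC (inputsX0 hgen))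
    (hY : (Y.gE : ℤ) + 1 = gM + gM + Y.S.card) : ChartFrame hA hpM where
  X := x0DatumOf (inputsX0 hgen) Y
  genus_eq := hY
  x1_fixed := fun σ => smul_alpha_jgen σ
  x2_fixed := fun σ => smul_beta_jgen σ

variable {gM : ℕ}
  {HM : RiemannHyp (ResidueField ↥A) ↥(modularFunctionFieldFullC (ResidueField ↥A) M) gM}
  {hgen : GenericX0 hA hpM (HX0 hA hpM HM)} {Y : NodesC (inputsX0 hgen)}
  {hY : (Y.gE : ℤ) + 1 = gM + gM + Y.S.card}

@[simp] theorem frameOf_X : (frameOf HM hgen Y hY).X = x0DatumOf (inputsX0 hgen) Y := rfl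

theorem frameOf_R1 : (frameOf HM hgen Y hY).X.N.R1 = R1 (inputsX0 hgen) := rfl

theorem frameOf_R2 : (frameOf HM hgen Y hY).X.N.R2 = R2 (inputsX0 hgen) := rfl

theorem frameOf_S : (frameOf HM hgen Y hY).X.S = Y.S := rfl

set_option maxHeartbeats 1600000 in
/-- the local node hypotheses of the explicit frame -/
def nodeHypOf (HM : RiemannHyp (ResidueField ↥A) ↥(modularFunctionFieldFullC (ResidueField ↥A) M) gM)
    (hgen : GenericX0 hA hpM (HX0 hA hpM HM)) (Y : NodesC (inputsX0 hgen))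
    (hY : (Y.gE : ℤ) + 1 = gM + gM + Y.S.card)
    (hFF : ∀ b ∈ Y.S, Fermat.Agent.S34.FrobK.Fr (ResidueField ↥A) M p
      (Fermat.Agent.S34.FrobK.Fr (ResidueField ↥A) M p b) = b ∧
      b ∉ Fermat.Agent.S34.Euler.FrobSide.P0 (ResidueField ↥A) M) :
    NodeHyp (frameOf HM hgen Y hY) where
  Fr := Fermat.Agent.S34.FrobK.Fr (ResidueField ↥A) M p
  sp1 := sp1 (HX0 hA hpM HM)
  sp2 := sp2 (HX0 hA hpM HM)
  cuspL := Y.cuspL
  hyp := Y.hyp
  e1_eq := fun b => rfl
  e2_eq := fun b => rfl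
  fr_fr := fun b hb => (hFF b hb).1
  sp1_pole := fun P hP =>
    Fermat.Agent.S34.CuspRedX0.placeMap_mem_cusp hA hpM (HX0 hA hpM HM) _
      ((Fermat.Agent.S34.PcgX0.cuspL_iff (isIntegral_alpha hpM) P).mpr hP)
  sp2_pole := fun P hP =>
    Fermat.Agent.S34.CuspRedX0.placeMap_mem_cusp hA hpM (HX0 hA hpM HM) _
      (by
        rw [Fermat.Agent.S34.PcgX0.cuspL_beta_iff (isIntegral_beta M p),
          Fermat.Agent.S34.EulerX0.ord_jl_neg_iff hpM]
        exact hP)
  node_reg2 := fun b hb => not_lt.mp (hFF b hb).2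
  node_reg := fun b hb => not_lt.mp fun h =>
    (hFF b hb).2 ((Fermat.Agent.S34.Euler.FrobSide.Fr_mem_P0_iff
      (k := ResidueField ↥A) (N := M) (q := p) b).mp h)
  sp1_smul := fun σ hσ P =>
    Fermat.Agent.S34.Generic.InertiaSp.sp_resAlpha_smul hA hpM
      (Fermat.Agent.S34.Generic.InertiaSp.isPlaceReductionAlong_placeMap hA hpM
        (HX0 hA hpM HM))
      (Fermat.Agent.S34.Generic.InertiaSp.principalGeneratedByIntegral_X0 hA hpM)
      (isIntegral_alpha hpM) hσ P
  sp2_smul := fun σ hσ P =>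
    Fermat.Agent.S34.Generic.InertiaSp.sp_resBeta_smul hA hpM
      (Fermat.Agent.S34.Generic.InertiaSp.isPlaceReductionAlong_placeMap hA hpM
        (HX0 hA hpM HM))
      (Fermat.Agent.S34.Generic.InertiaSp.principalGeneratedByIntegral_X0 hA hpM)
      (isIntegral_beta M p) hσ P
  r1_iff := fun P Q =>
    Fermat.Agent.S34.Generic.SmoothRedOfGeneric.rOne_eq_some_iff
      (r := placeMap (HX0 hA hpM HM))
      (restrAlong (heckeAlphaBar Qbar M p) (isIntegral_alpha hpM))
      (restrAlong (heckeBetaBar Qbar M p) (isIntegral_beta M p))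
      (Fermat.Agent.S34.FrobK.Fr (ResidueField ↥A) M p) (inputsX0 hgen).good P Q
  r2_iff := fun P Q =>
    Fermat.Agent.S34.Generic.SwapX0.smoothRedComap_r_eq_some_iff
      (r := placeMap (HX0 hA hpM HM)) (heckeAlphaBar Qbar M p) (heckeBetaBar Qbar M p)
      (isIntegral_alpha hpM) (isIntegral_beta M p) (wq M p hp.out hpM)
      (fun g => wq_alpha hp.out hpM g) (fun g => wq_beta hp.out hpM g)
      (Fermat.Agent.S34.FrobK.Fr (ResidueField ↥A) M p) (inputsX0 hgen).good
      (R1 (inputsX0 hgen)) (R1_r (inputsX0 hgen)) P Q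
  fr_good := (inputsX0 hgen).Fr_mem_iff
  Fr_eq := rfl

@[simp] theorem nodeHypOf_sp1 (hFF) : (nodeHypOf HM hgen Y hY hFF).sp1 = sp1 (HX0 hA hpM HM) := rfl

@[simp] theorem nodeHypOf_sp2 (hFF) : (nodeHypOf HM hgen Y hY hFF).sp2 = sp2 (HX0 hA hpM HM) := rfl

@[simp] theorem nodeHypOf_Fr (hFF) : (nodeHypOf HM hgen Y hY hFF).Fr =
    Fermat.Agent.S34.FrobK.Fr (ResidueField ↥A) M p := rfl

/-- the first reduction of the explicit frame is the standard one -/
theorem redStd1_frameOf : RedStd1 (frameOf HM hgen Y hY) := fun y h1 h2 => rfl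

/-- the two Atkin-Lehner involutions on main agree -/
theorem gaussPair_wq_eq (y : ↥(modularFunctionFieldBar (M * p))) :
    Fermat.Agent.S34.GaussPairX0.wq hpM y = wq M p hp.out hpM y :=
  wq_unique hp.out hpM
    ((Fermat.Agent.S34.GaussPairX0.wq hpM :
      ↥(modularFunctionFieldBar (M * p)) ≃ₐ[Qbar] ↥(modularFunctionFieldBar (M * p))) :
      ↥(modularFunctionFieldBar (M * p)) →ₐ[Qbar] ↥(modularFunctionFieldBar (M * p)))
    (fun g => Fermat.Agent.S34.GaussPairX0.wq_alpha hpM g)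
    (fun g => Fermat.Agent.S34.GaussPairX0.wq_beta hpM g) y

/-- the second reduction of the explicit frame is the standard one -/
theorem redStd2_frameOf : RedStd2 (frameOf HM hgen Y hY) := by
  intro y h1 h2
  have hw : wq M p hp.out hpM y = Fermat.Agent.S34.GaussPairX0.wq hpM y :=
    (gaussPair_wq_eq y).symm
  have h1' : wq M p hp.out hpM y ∈ Fermat.Agent.S34.GaussPairX0.V₁ hA hpM := by
    rw [hw]
    exact h2
  have e1 : (frameOf HM hgen Y hY).X.N.R2.red ⟨y, h1⟩ =
      Fermat.Agent.S34.GaussPairX0.red₁ hA hpM ⟨wq M p hp.out hpM y, h1'⟩ := rfl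
  rw [e1, Fermat.Agent.S34.GaussPairX0.red₂_apply]
  exact congrArg (Fermat.Agent.S34.GaussPairX0.red₁ hA hpM) (Subtype.ext hw)

end Explicit

set_option maxHeartbeats 1600000 in
/-- **The producers' outputs exist**: the data of the explicit frame. -/
theorem exists_frameData (hA : A.LiesOverPrime p) (hpM : ¬ p ∣ M)
    [CharP (ResidueField ↥A) p] :
    ∃ (gM : ℕ)
      (HM : RiemannHyp (ResidueField ↥A) ↥(modularFunctionFieldFullC (ResidueField ↥A) M) gM)
      (hgen : GenericX0 hA hpM (HX0 hA hpM HM)) (Y : NodesC (inputsX0 hgen)),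
      (Y.gE : ℤ) + 1 = gM + gM + Y.S.card ∧
      ∀ b ∈ Y.S, Fermat.Agent.S34.FrobK.Fr (ResidueField ↥A) M p
        (Fermat.Agent.S34.FrobK.Fr (ResidueField ↥A) M p b) = b ∧
        b ∉ Fermat.Agent.S34.Euler.FrobSide.P0 (ResidueField ↥A) M := by
  obtain ⟨gM, HM⟩ := Fermat.Agent.S18.A.RiemannFk.exists_riemannHyp_Fk' (ResidueField ↥A) M
    (Fermat.Agent.S18.B.SeparableFk.isSeparable_jk (ResidueField ↥A) M)
  have hgen : GenericX0 hA hpM (HX0 hA hpM HM) :=
    Fermat.Agent.S34.CoreZX0.genericX0 hA hpM (HX0 hA hpM HM)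
  obtain ⟨Y, hY, hFF⟩ := exists_nodesX0_eq' HM hgen
  exact ⟨gM, HM, hgen, Y, hY, hFF⟩

set_option maxHeartbeats 1600000 in
/-- **The nodal chart frame of `X₀(M p)` exists together with its local node hypotheses and the
two standard reductions.** -/
theorem exists_nodeHyp_redStd (hA : A.LiesOverPrime p) (hpM : ¬ p ∣ M) :
    ∃ F : ChartFrame hA hpM, Nonempty (NodeHyp F) ∧ RedStd1 F ∧ RedStd2 F := by
  haveI : CharP (ResidueField ↥A) p := Fermat.Agent.S18.ResidueBasics.charP_residueField A hA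
  obtain ⟨gM, HM, hgen, Y, hY, hFF⟩ := exists_frameData hA hpM
  exact ⟨frameOf HM hgen Y hY, ⟨nodeHypOf HM hgen Y hY hFF⟩, redStd1_frameOf, redStd2_frameOf⟩

/-- **The nodal chart frame of `X₀(M p)` exists together with its local node hypotheses.** -/
theorem exists_nodeHyp (hA : A.LiesOverPrime p) (hpM : ¬ p ∣ M) :
    ∃ F : ChartFrame hA hpM, Nonempty (NodeHyp F) := by
  obtain ⟨F, hY, -, -⟩ := exists_nodeHyp_redStd hA hpM
  exact ⟨F, hY⟩

end Fermat.Agent.S44.Core.FrameHyp
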