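/-
PROJECT P (S44), SECTION 0 of the core page (helper6 #5253), node-order brick (helper19):
THE NODE ORDERS OF A `p`-TORSION CLASS OF `J₀(M p)` AT `A ∣ p`.

For `x = [D]` with `p D = div u`, `u` a unit of the first Gauss valuation ring, the node order of
`x` at a node `e` is the order of the reduction of `u` at the point `e1 e` of the first component,
read modulo `p`.

* `Node F`, `HasNodeOrd F x a`, `finPart F` : the vocabulary;
* `exists_hasNodeOrd`, `HasNodeOrd.unique`, `.zero`, `.add`, `.neg`, `.sub`, `.nsmul_eq_zero`,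
  `.smul` (invariance under the inertia group), `oneUnit_le_finPart`.
-/
import Fermat.Agent.S33.X0.Frame
import Fermat.Agent.S33.KP.OneUnit

set_option autoImplicit false
set_option linter.unusedSectionVars false
set_option linter.unusedVariables false
set_option linter.style.haveILetI false
set_option synthInstance.maxHeartbeats 400000

noncomputable section

namespace Fermat.Agent.S44.Core.NodeOrd

open ModularCurve AlgebraicCurve IsLocalRing
open Fermat.Agent.S34.NodalDefs Fermat.Agent.S34.Z1X0 Fermat.Agent.S34.Z1Abstract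
open Fermat.Agent.S34.CoreZX0Datum
open Fermat.Agent.S33.X0.Frame Fermat.Agent.S33.KP.OneUnit

local notation "Qbar" => AlgebraicClosure ℚ

/-! ### Abstract part: reductions of Gauss units with proportional divisors -/

section Abstract

variable {L : Type*} [Field L] {FL : Type*} [Field FL] [Algebra L FL]
variable {k : Type*} [Field k] {Fk : Type*} [Field Fk] [Algebra k Fk]
variable {A' : ValuationSubring L} {π : A' →+* k}

/-- the reduction of a Gauss unit whose divisor is `n` times a principal divisor has all its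
orders divisible by `n` -/
theorem dvd_ord_red_of_div_eq (R : Branch A' π FL Fk)
    (hconst : ∀ f : FL, f ≠ 0 → (∀ P : Place L FL, P.ord f = 0) →
      ∃ c : L, c ≠ 0 ∧ f = algebraMap L FL c)
    (n : ℕ) (g : R.Oˣ) (h : FL) (hh : h ≠ 0)
    (hg : ∀ P : Place L FL, P.ord (((g : R.O) : FL)) = (n : ℤ) * P.ord h)
    (Q : Place k Fk) : (n : ℤ) ∣ Q.ord (R.red (g : R.O)) := by
  classical
  obtain ⟨c, hc, h0, hh0⟩ := R.exists_const_mul_unit h hh
  have hcF : algebraMap L FL c ≠ 0 := (map_ne_zero _).mpr hc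
  have hg0 := Fermat.Agent.S34.NodalDisc.coe_unit_ne_zero R g
  have hh00 := Fermat.Agent.S34.NodalDisc.coe_unit_ne_zero R h0
  obtain ⟨w, hw⟩ : ∃ w : R.Oˣ, w = g * (h0 ^ n)⁻¹ := ⟨_, rfl⟩
  have hwcoe : (((w : R.O)) : FL) = ((g : R.O) : FL) * ((((h0 : R.O)) : FL) ^ n)⁻¹ := by
    rw [hw, Units.val_mul, MulMemClass.coe_mul, Fermat.Agent.S34.NodalDisc.coe_inv_unit,
      Units.val_pow_eq_pow_val, SubmonoidClass.coe_pow]
  have hw0 := Fermat.Agent.S34.NodalDisc.coe_unit_ne_zero R w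
  have hword : ∀ P : Place L FL, P.ord (((w : R.O)) : FL) = 0 := by
    intro P
    rw [hwcoe, P.ord_mul hg0 (inv_ne_zero (pow_ne_zero _ hh00)), P.ord_inv,
      Fermat.Agent.S34.KummerZ.ord_pow, hg P, hh0, P.ord_mul hcF hh00,
      Fermat.Agent.S34.KummerZ.ord_algebraMap P hc]
    ring
  obtain ⟨κ, hκ0, hκ⟩ := hconst _ hw0 hword
  have hκA : κ ∈ A' := R.mem_of_algebraMap_mem κ (by rw [← hκ]; exact (w : R.O).2)
  have hwred : R.red (w : R.O) = algebraMap k Fk (π ⟨κ, hκA⟩) := by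
    rw [← R.red_algebraMap ⟨κ, hκA⟩]
    congr 1
    exact Subtype.ext hκ
  have hgw : g = w * h0 ^ n := by rw [hw, inv_mul_cancel_right]
  have hredg : R.red (g : R.O) = R.red (w : R.O) * R.red (h0 : R.O) ^ n := by
    rw [hgw, Units.val_mul, Units.val_pow_eq_pow_val, map_mul, map_pow]
  have hw_ne := Fermat.Agent.S34.NodalDisc.red_unit_ne_zero R w
  have hh_ne := Fermat.Agent.S34.NodalDisc.red_unit_ne_zero R h0
  rw [hredg, Q.ord_mul hw_ne (pow_ne_zero _ hh_ne), Fermat.Agent.S34.KummerZ.ord_pow, hwred,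
    Fermat.Agent.S24.Ord.ord_algebraMap, zero_add]
  exact dvd_mul_right _ _

/-- two Gauss units whose divisors are `n D`, `n D'` with `D' - D` principal have reductions whose
orders differ by multiples of `n` -/
theorem dvd_ord_red_sub (R : Branch A' π FL Fk)
    (hconst : ∀ f : FL, f ≠ 0 → (∀ P : Place L FL, P.ord f = 0) →
      ∃ c : L, c ≠ 0 ∧ f = algebraMap L FL c)
    (n : ℕ) (D D' : Divisor L FL) (u u' : R.Oˣ)
    (hD : ∀ P : Place L FL, (n : ℤ) * D P = P.ord (((u : R.O) : FL)))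
    (hD' : ∀ P : Place L FL, (n : ℤ) * D' P = P.ord (((u' : R.O) : FL)))
    (h : FL) (hh : h ≠ 0) (hdiv : ∀ P : Place L FL, P.ord h = D' P - D P) (Q : Place k Fk) :
    (n : ℤ) ∣ Q.ord (R.red (u' : R.O)) - Q.ord (R.red (u : R.O)) := by
  have hu0 := Fermat.Agent.S34.NodalDisc.coe_unit_ne_zero R u
  have hu'0 := Fermat.Agent.S34.NodalDisc.coe_unit_ne_zero R u'
  obtain ⟨g, hg⟩ : ∃ g : R.Oˣ, g = u' * u⁻¹ := ⟨_, rfl⟩
  have hgcoe : (((g : R.O)) : FL) = ((u' : R.O) : FL) * (((u : R.O)) : FL)⁻¹ := by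
    rw [hg, Units.val_mul, MulMemClass.coe_mul, Fermat.Agent.S34.NodalDisc.coe_inv_unit]
  have hgord : ∀ P : Place L FL, P.ord (((g : R.O)) : FL) = (n : ℤ) * P.ord h := by
    intro P
    rw [hgcoe, P.ord_mul hu'0 (inv_ne_zero hu0), P.ord_inv, ← hD P, ← hD' P, hdiv P]
    ring
  have hu' : u' = g * u := by rw [hg, inv_mul_cancel_right]
  obtain ⟨m, hm⟩ := dvd_ord_red_of_div_eq R hconst n g h hh hgord Q
  have hg_ne := Fermat.Agent.S34.NodalDisc.red_unit_ne_zero R g
  have hu_ne := Fermat.Agent.S34.NodalDisc.red_unit_ne_zero R u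
  rw [hu', Units.val_mul, map_mul, Q.ord_mul hg_ne hu_ne, hm]
  exact ⟨m, by ring⟩

/-- a semilinear automorphism preserving the Gauss ring and acting trivially on the residue field
carries Gauss units to Gauss units with the same reduction -/
theorem exists_unit_smul (R : Branch A' π FL Fk) (g : SemilinearAut L FL)
    (hmem : ∀ x : FL, x ∈ R.O → g • x ∈ R.O)
    (hsub : ∀ x : FL, x ∈ R.O → g • x - x ∈ R.O.nonunits) (u : R.Oˣ) :
    ∃ v : R.Oˣ, (((v : R.O)) : FL) = g • (((u : R.O)) : FL) ∧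
      R.red (v : R.O) = R.red (u : R.O) := by
  obtain ⟨hm, hred⟩ := Fermat.Agent.S34.CoreZX0Datum.red_smul_eq R g hmem hsub (u : R.O)
  have hne : R.red ⟨g • (((u : R.O)) : FL), hm⟩ ≠ 0 := by
    rw [hred]
    exact Fermat.Agent.S34.NodalDisc.red_unit_ne_zero R u
  refine ⟨Fermat.Agent.S34.NodalDisc.unitOfRed R _ hne, ?_, ?_⟩
  · rw [Fermat.Agent.S34.NodalDisc.coe_unitOfRed]
  · rw [Fermat.Agent.S34.NodalDisc.coe_unitOfRed, hred]

/-- a one-unit is a Gauss unit with reduction `1` -/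
theorem exists_unit_of_isOneUnit (R : Branch A' π FL Fk) {u : FL}
    (hu : Fermat.Agent.S34.Z1Abstract.IsOneUnit R.O u) :
    ∃ v : R.Oˣ, (((v : R.O)) : FL) = u ∧ R.red (v : R.O) = 1 := by
  obtain ⟨hmem, hred⟩ := Fermat.Agent.S34.CoreZX0Datum.red_eq_one_of_isOneUnit R hu
  have hne : R.red ⟨u, hmem⟩ ≠ 0 := by rw [hred]; exact one_ne_zero
  refine ⟨Fermat.Agent.S34.NodalDisc.unitOfRed R _ hne, ?_, ?_⟩
  · rw [Fermat.Agent.S34.NodalDisc.coe_unitOfRed]
  · rw [Fermat.Agent.S34.NodalDisc.coe_unitOfRed, hred]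

/-- orders of a product of Gauss units, generic fibre -/
theorem ord_coe_mul (R : Branch A' π FL Fk) (u u' : R.Oˣ) (P : Place L FL) :
    P.ord ((((u * u' : R.Oˣ) : R.O)) : FL) = P.ord (((u : R.O)) : FL) + P.ord (((u' : R.O)) : FL) := by
  rw [Units.val_mul, MulMemClass.coe_mul,
    P.ord_mul (Fermat.Agent.S34.NodalDisc.coe_unit_ne_zero R u)
      (Fermat.Agent.S34.NodalDisc.coe_unit_ne_zero R u')]

/-- orders of the inverse of a Gauss unit, generic fibre -/
theorem ord_coe_inv (R : Branch A' π FL Fk) (u : R.Oˣ) (P : Place L FL) :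
    P.ord ((((u⁻¹ : R.Oˣ) : R.O)) : FL) = -P.ord (((u : R.O)) : FL) := by
  rw [Fermat.Agent.S34.NodalDisc.coe_inv_unit, P.ord_inv]

/-- orders of the reduction of a product of Gauss units -/
theorem ord_red_mul (R : Branch A' π FL Fk) (u u' : R.Oˣ) (Q : Place k Fk) :
    Q.ord (R.red ((u * u' : R.Oˣ) : R.O)) = Q.ord (R.red (u : R.O)) + Q.ord (R.red (u' : R.O)) := by
  rw [Units.val_mul, map_mul,
    Q.ord_mul (Fermat.Agent.S34.NodalDisc.red_unit_ne_zero R u)
      (Fermat.Agent.S34.NodalDisc.red_unit_ne_zero R u')]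

/-- orders of the reduction of the inverse of a Gauss unit -/
theorem ord_red_inv (R : Branch A' π FL Fk) (u : R.Oˣ) (Q : Place k Fk) :
    Q.ord (R.red ((u⁻¹ : R.Oˣ) : R.O)) = -Q.ord (R.red (u : R.O)) := by
  rw [Fermat.Agent.S34.NodalDisc.red_inv_unit, Place.ord_inv]

/-- orders of the reduction of the unit `1` -/
theorem ord_red_one (R : Branch A' π FL Fk) (Q : Place k Fk) :
    Q.ord (R.red ((1 : R.Oˣ) : R.O)) = 0 := by
  rw [Units.val_one, map_one, Place.ord_one]

/-- orders of the unit `1`, generic fibre -/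
theorem ord_coe_one (R : Branch A' π FL Fk) (P : Place L FL) :
    P.ord ((((1 : R.Oˣ) : R.O)) : FL) = 0 := by
  rw [Units.val_one, OneMemClass.coe_one, P.ord_one]

end Abstract

/-! ### The instance at `E = ℚ̄(X₀(M p))` -/

attribute [local instance 2000] Fermat.Agent.S34.EulerX0.algResFk

variable {p : ℕ} [hp : Fact p.Prime] {M : ℕ} [NeZero M] {A : ValuationSubring Qbar} [NeZero p]
variable {hA : A.LiesOverPrime p} {hpM : ¬ p ∣ M}

/-- local instance: principal divisors on `E` -/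
local instance instPDBar (N : ℕ) [NeZero N] :
    HasPrincipalDivisors Qbar ↥(modularFunctionFieldBar N) :=
  Fermat.Agent.S18.A.Instances.hasPrincipalDivisors_bar N

local instance instNeZeroMul : NeZero (M * p) :=
  ⟨Nat.mul_ne_zero (NeZero.ne M) (NeZero.ne p)⟩

/-- the nodes of the frame -/
abbrev Node (F : ChartFrame hA hpM) : Type := {b // b ∈ F.X.S}

/-- `a` is the vector of node orders of the class `x`: `x = [D]`, `p D = div u` with `u` a unit of
the first Gauss ring, and `a e` is the order at `e1 e` of the reduction of `u`, modulo `p`. -/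
def HasNodeOrd (F : ChartFrame hA hpM) (x : JZero (M * p)) (a : Node F → ZMod p) : Prop :=
  ∃ (D : Divisor.degZero (K := Qbar) (F := ↥(modularFunctionFieldBar (M * p))))
    (u : (F.X.N.R1.O)ˣ), Pic0.mk D = x ∧
    (∀ P : Place Qbar ↥(modularFunctionFieldBar (M * p)),
      (p : ℤ) * (D : Divisor Qbar ↥(modularFunctionFieldBar (M * p))) P =
        P.ord (((u : F.X.N.R1.O) : ↥(modularFunctionFieldBar (M * p))))) ∧
    ∀ e : Node F, a e = (((F.X.N.e1 e).ord (F.X.N.R1.red (u : F.X.N.R1.O)) : ℤ) : ZMod p)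

variable {F : ChartFrame hA hpM}

/-- a class with node orders is killed by `p` -/
theorem HasNodeOrd.nsmul_eq_zero {x : JZero (M * p)} {a : Node F → ZMod p}
    (h : HasNodeOrd F x a) : p • x = 0 := by
  obtain ⟨D, u, rfl, hD, -⟩ := h
  have h1 : p • Pic0.mk D = Pic0.mk (p • D) := rfl
  rw [h1]
  refine Fermat.Agent.S34.KummerZ.mk_eq_zero_of_isDivOf
    (f := ((u : F.X.N.R1.O) : ↥(modularFunctionFieldBar (M * p))))
    (Fermat.Agent.S34.NodalDisc.coe_unit_ne_zero F.X.N.R1.toBranch u) (fun w => ?_)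
  rw [AddSubgroup.coe_nsmul, Finsupp.smul_apply, nsmul_eq_mul, ← hD w]

/-- **existence**: every `p`-torsion class has node orders -/
theorem exists_hasNodeOrd (F : ChartFrame hA hpM) {x : JZero (M * p)} (hx : p • x = 0) :
    ∃ a : Node F → ZMod p, HasNodeOrd F x a := by
  have hx' : (p : ℤ) • x = 0 := by rw [natCast_zsmul]; exact hx
  obtain ⟨D, f, rfl, hf, hD⟩ := Fermat.Agent.S34.KummerZ.exists_mk_of_zsmul_eq_zero hx'
  obtain ⟨c, hc, u, hfu⟩ := F.X.N.R1.exists_const_mul_unit f hf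
  refine ⟨fun e => (((F.X.N.e1 e).ord (F.X.N.R1.red (u : F.X.N.R1.O)) : ℤ) : ZMod p),
    D, u, rfl, fun P => ?_, fun e => rfl⟩
  have hu0 := Fermat.Agent.S34.NodalDisc.coe_unit_ne_zero F.X.N.R1.toBranch u
  have hcF : algebraMap Qbar ↥(modularFunctionFieldBar (M * p)) c ≠ 0 := (map_ne_zero _).mpr hc
  have h1 := hD P
  rw [hfu, P.ord_mul hcF hu0, Fermat.Agent.S34.KummerZ.ord_algebraMap P hc, zero_add] at h1
  exact h1.symm

/-- **uniqueness**: the node orders depend only on the class -/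
theorem HasNodeOrd.unique {x : JZero (M * p)} {a a' : Node F → ZMod p}
    (h : HasNodeOrd F x a) (h' : HasNodeOrd F x a') : a = a' := by
  obtain ⟨D, u, hDx, hD, ha⟩ := h
  obtain ⟨D', u', hD'x, hD', ha'⟩ := h'
  have hmk : Pic0.mk D = Pic0.mk D' := by rw [hDx, hD'x]
  have hmem : -D + D' ∈ (Divisor.principal (K := Qbar)
      (F := ↥(modularFunctionFieldBar (M * p)))).addSubgroupOf
      (Divisor.degZero (K := Qbar) (F := ↥(modularFunctionFieldBar (M * p)))) :=
    QuotientAddGroup.eq.mp hmk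
  rw [AddSubgroup.mem_addSubgroupOf] at hmem
  obtain ⟨h, hh, hdiv⟩ := hmem
  have hdiv' : ∀ P : Place Qbar ↥(modularFunctionFieldBar (M * p)),
      P.ord h = (D' : Divisor Qbar ↥(modularFunctionFieldBar (M * p))) P -
        (D : Divisor Qbar ↥(modularFunctionFieldBar (M * p))) P := by
    intro P
    rw [← hdiv P, AddSubgroup.coe_add, AddSubgroup.coe_neg, Finsupp.add_apply, Finsupp.neg_apply]
    ring
  funext e
  obtain ⟨m, hm⟩ := dvd_ord_red_sub F.X.N.R1.toBranch
    (Fermat.Agent.S34.CoreZX0OfPrincipal.exists_const_of_ord_eq_zero (M * p)) p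
    (D : Divisor Qbar ↥(modularFunctionFieldBar (M * p)))
    (D' : Divisor Qbar ↥(modularFunctionFieldBar (M * p))) u u' hD hD' h hh hdiv' (F.X.N.e1 e)
  have hm' : (F.X.N.e1 e).ord (F.X.N.R1.red (u' : F.X.N.R1.O)) =
      (F.X.N.e1 e).ord (F.X.N.R1.red (u : F.X.N.R1.O)) + (p : ℤ) * m := by
    linarith
  rw [ha e, ha' e, hm']
  push_cast
  rw [ZMod.natCast_self, zero_mul, add_zero]

/-- the zero class has node orders `0` -/
theorem HasNodeOrd.zero (F : ChartFrame hA hpM) : HasNodeOrd F 0 0 := by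
  refine ⟨0, 1, rfl, fun P => ?_, fun e => ?_⟩
  · rw [ord_coe_one F.X.N.R1.toBranch P]
    simp
  · rw [ord_red_one F.X.N.R1.toBranch (F.X.N.e1 e)]
    simp

/-- additivity -/
theorem HasNodeOrd.add {x y : JZero (M * p)} {a b : Node F → ZMod p}
    (hx : HasNodeOrd F x a) (hy : HasNodeOrd F y b) : HasNodeOrd F (x + y) (a + b) := by
  obtain ⟨D, u, rfl, hD, ha⟩ := hx
  obtain ⟨D', u', rfl, hD', hb⟩ := hy
  refine ⟨D + D', u * u', (Pic0.mk_add D D'), fun P => ?_, fun e => ?_⟩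
  · rw [ord_coe_mul F.X.N.R1.toBranch u u' P, ← hD P, ← hD' P, AddSubgroup.coe_add,
      Finsupp.add_apply, mul_add]
  · rw [Pi.add_apply, ha e, hb e, ord_red_mul F.X.N.R1.toBranch u u' (F.X.N.e1 e)]
    push_cast
    rfl

/-- negation -/
theorem HasNodeOrd.neg {x : JZero (M * p)} {a : Node F → ZMod p}
    (hx : HasNodeOrd F x a) : HasNodeOrd F (-x) (-a) := by
  obtain ⟨D, u, rfl, hD, ha⟩ := hx
  refine ⟨-D, u⁻¹, rfl, fun P => ?_, fun e => ?_⟩
  · rw [ord_coe_inv F.X.N.R1.toBranch u P, ← hD P, AddSubgroup.coe_neg, Finsupp.neg_apply,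
      mul_neg]
  · rw [Pi.neg_apply, ha e, ord_red_inv F.X.N.R1.toBranch u (F.X.N.e1 e)]
    push_cast
    rfl

/-- subtraction -/
theorem HasNodeOrd.sub {x y : JZero (M * p)} {a b : Node F → ZMod p}
    (hx : HasNodeOrd F x a) (hy : HasNodeOrd F y b) : HasNodeOrd F (x - y) (a - b) := by
  rw [sub_eq_add_neg, sub_eq_add_neg]
  exact hx.add hy.neg

/-- **invariance under the inertia group** -/
theorem HasNodeOrd.smul {σ : Qbar ≃ₐ[ℚ] Qbar} (hσ : σ ∈ A.inertiaSubgroupIn ℚ)
    {x : JZero (M * p)} {a : Node F → ZMod p} (hx : HasNodeOrd F x a) :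
    HasNodeOrd F (σ • x) a := by
  obtain ⟨D, u, rfl, hD, ha⟩ := hx
  obtain ⟨g, hg⟩ : ∃ g : SemilinearAut Qbar ↥(modularFunctionFieldBar (M * p)),
      g = arithmeticGalois (modularFunctionFieldFull (M * p)) σ := ⟨_, rfl⟩
  have hm1 : ∀ y : ↥(modularFunctionFieldBar (M * p)), y ∈ F.X.N.R1.O → g • y ∈ F.X.N.R1.O := by
    intro y hy
    rw [F.X.O1_eq] at hy ⊢
    rw [hg]
    exact (smul_mem_V1X0_iff hA hpM hσ y).mpr hy
  have hs1 : ∀ y : ↥(modularFunctionFieldBar (M * p)), y ∈ F.X.N.R1.O →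
      g • y - y ∈ F.X.N.R1.O.nonunits := by
    intro y hy
    rw [F.X.O1_eq] at hy ⊢
    rw [hg]
    exact smul_sub_mem_nonunits₁ hA hpM hσ hy
  obtain ⟨v, hv, hvred⟩ := exists_unit_smul F.X.N.R1.toBranch g hm1 hs1 u
  refine ⟨SemilinearAut.degZeroSMulHom g D, v, ?_, fun P => ?_, fun e => ?_⟩
  · rw [galois_smul_pic0_def, ← hg, SemilinearAut.pic0_smul_mk]
  · have h1 := hD (g⁻¹ • P)
    rw [hv, Fermat.Agent.S34.KummerZ.ord_smul_eq g P, ← h1, SemilinearAut.coe_degZeroSMulHom,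
      SemilinearAut.divisor_smul_apply]
  · rw [hvred]
    exact ha e

/-- **the finite part**: the `p`-torsion classes all of whose node orders vanish -/
def finPart (F : ChartFrame hA hpM) : AddSubgroup (JZero (M * p)) where
  carrier := {x | HasNodeOrd F x 0}
  zero_mem' := HasNodeOrd.zero F
  add_mem' := fun {x y} hx hy => by
    have h := HasNodeOrd.add hx hy
    rwa [add_zero] at h
  neg_mem' := fun {x} hx => by
    have h := HasNodeOrd.neg hx
    rwa [neg_zero] at h

theorem mem_finPart {x : JZero (M * p)} : x ∈ finPart F ↔ HasNodeOrd F x 0 := Iff.rfl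

theorem mem_finPart_iff {x : JZero (M * p)} :
    x ∈ finPart F ↔ p • x = 0 ∧ HasNodeOrd F x 0 :=
  ⟨fun h => ⟨h.nsmul_eq_zero, h⟩, fun h => h.2⟩

/-- the finite part is stable under the inertia group -/
theorem smul_mem_finPart {σ : Qbar ≃ₐ[ℚ] Qbar} (hσ : σ ∈ A.inertiaSubgroupIn ℚ)
    {x : JZero (M * p)} (hx : x ∈ finPart F) : σ • x ∈ finPart F :=
  HasNodeOrd.smul hσ hx

/-- a `p`-torsion class with node orders `a` lies in the finite part iff `a = 0` -/
theorem mem_finPart_iff_eq_zero {x : JZero (M * p)} {a : Node F → ZMod p}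
    (h : HasNodeOrd F x a) : x ∈ finPart F ↔ a = 0 :=
  ⟨fun h0 => h.unique h0, fun h0 => by rw [h0] at h; exact h⟩

/-- the `1`-unit classes of level `p` lie in the finite part -/
theorem oneUnit_le_finPart (F : ChartFrame hA hpM) : oneUnit hA hpM p ≤ finPart F := by
  intro y hy
  obtain ⟨D, u, rfl, hu, h1, h2, hD⟩ := exists_strict_of_mem_oneUnit hA hpM hy
  have h1' : IsOneUnit F.X.N.R1.O u := by rw [F.X.O1_eq]; exact h1
  obtain ⟨v, hv, hvred⟩ := exists_unit_of_isOneUnit F.X.N.R1.toBranch h1'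
  refine ⟨D, v, rfl, fun P => ?_, fun e => ?_⟩
  · rw [hv]
    exact (hD P).symm
  · rw [hvred, Place.ord_one]
    simp

end Fermat.Agent.S44.Core.NodeOrd
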