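import Mathlib

/-!
# PROJECT P (S44), (d2): the slope lemma for units of the tube of a node

`E` a field, `O₂` a valuation subring (the second Gauss valuation), `S` a subring (the functions
integral at the FIRST Gauss valuation and regular on the tube of the node), `q` a set (the functions
whose first reduction vanishes at the node of the first component).  GLUING, weak form `hG`: a
function of `S` with `V₂ < 1` lies in `q`.

* `valuation_eq_one_of_unit_at_node` : if `u`, `u⁻¹ ∈ S` and neither lies in `q` (the first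
  reduction of `u` is a unit at the node), then `V₂ u = 1`: a unit of the tube which is a unit at
  the node of the first component is a unit at the second Gauss valuation.
* `slope_of_tubeUnit` : if `u / (c ξ ^ n)` is such a unit (`c` the `V₁`-constant of `u`, `n` the
  order of its normalised first reduction at the node, `ξ` the coordinate) and `V₂ ξ = V₂ thick`,
  then `V₂ u = V₂ c * V₂ thick ^ n` (the slope of `u` across the annulus is `n`).
* `mul_eq_of_slope` : for `c = 1`, `thick = ϖ ^ w` and `V₂ u = V₂ ϖ ^ m` : `w * n = m`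
  (the modular unit: `w_e a_e(u) = 12`).
-/

set_option autoImplicit false

namespace Fermat.Agent.S44.Core.Slope

variable {E : Type*} [Field E] (O₂ : ValuationSubring E) (S : Subring E) (q : Set E)

/-- a unit of the tube which is a unit at the node of the first component is a `V₂`-unit -/
theorem valuation_eq_one_of_unit_at_node (hG : ∀ f ∈ S, f ∈ O₂.nonunits → f ∈ q) {u : E}
    (hu : u ∈ S) (hu' : u⁻¹ ∈ S) (hq : u ∉ q) (hq' : u⁻¹ ∉ q) : O₂.valuation u = 1 := by
  rcases lt_trichotomy (O₂.valuation u) 1 with h | h | h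
  · exact absurd (hG u hu ((ValuationSubring.mem_nonunits_iff O₂).mpr h)) hq
  · exact h
  · have hu0 : u ≠ 0 := by
      rintro rfl
      rw [map_zero] at h
      exact absurd h (not_lt.mpr zero_le_one)
    have hv0 : 0 < O₂.valuation u := zero_lt_iff.mpr ((Valuation.ne_zero_iff _).mpr hu0)
    have h1 : O₂.valuation u⁻¹ < 1 := by
      rw [map_inv₀]
      exact (inv_lt_one₀ hv0).mpr h
    exact absurd (hG u⁻¹ hu' ((ValuationSubring.mem_nonunits_iff O₂).mpr h1)) hq'

/-- **the slope lemma** -/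
theorem slope_of_tubeUnit (hG : ∀ f ∈ S, f ∈ O₂.nonunits → f ∈ q) {u c ξ thick : E} {n : ℤ}
    (hc : c ≠ 0) (hξ : ξ ≠ 0) (hξ₂ : O₂.valuation ξ = O₂.valuation thick)
    (hu : u / (c * ξ ^ n) ∈ S) (hu' : (u / (c * ξ ^ n))⁻¹ ∈ S) (hq : u / (c * ξ ^ n) ∉ q)
    (hq' : (u / (c * ξ ^ n))⁻¹ ∉ q) :
    O₂.valuation u = O₂.valuation c * O₂.valuation thick ^ n := by
  have h1 := valuation_eq_one_of_unit_at_node O₂ S q hG hu hu' hq hq'
  have h0 : c * ξ ^ n ≠ 0 := mul_ne_zero hc (zpow_ne_zero n hξ)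
  have hv0 : O₂.valuation (c * ξ ^ n) ≠ 0 := (Valuation.ne_zero_iff _).mpr h0
  rw [map_div₀, div_eq_one_iff_eq hv0] at h1
  rw [h1, map_mul, map_zpow₀, hξ₂]

/-- **the modular unit**: `w * n = m` -/
theorem mul_eq_of_slope (hG : ∀ f ∈ S, f ∈ O₂.nonunits → f ∈ q) {u ξ ϖ : E} {n : ℤ} {w m : ℕ}
    (hϖ : ϖ ∈ O₂.nonunits) (hϖ0 : ϖ ≠ 0) (hξ : ξ ≠ 0)
    (hξ₂ : O₂.valuation ξ = O₂.valuation (ϖ ^ w)) (hu2 : O₂.valuation u = O₂.valuation ϖ ^ m)
    (hu : u / ξ ^ n ∈ S) (hu' : (u / ξ ^ n)⁻¹ ∈ S) (hq : u / ξ ^ n ∉ q)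
    (hq' : (u / ξ ^ n)⁻¹ ∉ q) : (w : ℤ) * n = m := by
  have h1 := slope_of_tubeUnit O₂ S q hG (c := 1) (n := n) one_ne_zero hξ hξ₂
    (by rw [one_mul]; exact hu) (by rw [one_mul]; exact hu') (by rw [one_mul]; exact hq)
    (by rw [one_mul]; exact hq')
  rw [map_one, one_mul, hu2, map_pow, ← zpow_natCast, ← zpow_natCast, ← zpow_mul] at h1
  have hv0 : 0 < O₂.valuation ϖ := zero_lt_iff.mpr ((Valuation.ne_zero_iff _).mpr hϖ0)
  have hv1 : O₂.valuation ϖ ≠ 1 := ne_of_lt ((ValuationSubring.mem_nonunits_iff O₂).mp hϖ)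
  exact ((zpow_right_inj₀ hv0 hv1).mp h1).symm

end Fermat.Agent.S44.Core.Slope
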