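import Mathlib
import Fermat.Agent.S34.NodalDisc

/-!
# PROJECT P (S44), Core: evaluation at the points of the tube of a node

Hypothesis-first, one node at a time.  `R1`, `R2` are the two Gauss branches of a function field
`FL` over a valued field `(L, A)`, `Q1`, `Q2` the two places of the components at the node and
`tube` the set of places of `FL` specialising to the node.

The only hypothesis is the zero count at the node in its weakest form `LC0`: a function which is
a unit of both Gauss rings, whose two reductions have order `0` at the node and which has no pole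
on the tube has no zero on the tube.  (Every form of the local zero count
`∑_{P ∈ tube} ord_P y = ord_{Q1} (red₁ y) + ord_{Q2} (red₂ y)` for two-sided units implies it.)

Consequences, for a function `f ∈ O₁ ∩ O₂` without pole on the tube:

* `value_mem` : the values of `f` at the points of the tube lie in `A`;
* `value_eq` : their residues are the common value of the two reductions at the node;
* `adicValuation_eq_one_of_hasValue` : if that common value is not zero, `f` has no zero on the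
  tube (so `f⁻¹` has no pole there);
* `tube_values` : for a pair `ξ ζ = thick` of such functions vanishing at the node, the values
  `c` of `ξ` on the tube satisfy `c ≠ 0`, `c ∈ 𝔪_A`, `thick / c ∈ 𝔪_A`.
-/

set_option autoImplicit false

namespace Fermat.Agent.S44.Core.TubeEval

open AlgebraicCurve Fermat.Agent.S24.Ord Fermat.Agent.S34.NodalDefs Fermat.Agent.S34.NodalDisc

variable {L : Type*} [Field L] {k : Type*} [Field k] {A : ValuationSubring L} {π : A →+* k}
variable {FL : Type*} [Field FL] [Algebra L FL]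
variable {F1 : Type*} [Field F1] [Algebra k F1] {F2 : Type*} [Field F2] [Algebra k F2]

/-- **The zero count at a node, weakest form.**  A two-sided Gauss unit whose reductions have
order `0` at the two places of the node and which has no pole on the tube has no zero on the
tube. -/
def LC0 (R1 : Branch A π FL F1) (R2 : Branch A π FL F2) (Q1 : Place k F1) (Q2 : Place k F2)
    (tube : Set (Place L FL)) : Prop :=
  ∀ (y1 : R1.O) (y2 : R2.O), ((y1 : R1.O) : FL) = ((y2 : R2.O) : FL) →
    R1.red y1 ≠ 0 → R2.red y2 ≠ 0 →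
    Q1.adicValuation (R1.red y1) = 1 → Q2.adicValuation (R2.red y2) = 1 →
    (∀ P ∈ tube, P.adicValuation ((y1 : R1.O) : FL) ≤ 1) →
    ∀ P ∈ tube, P.adicValuation ((y1 : R1.O) : FL) = 1

section Aux

variable {K F : Type*} [Field K] [Field F] [Algebra K F]

/-- a function with a non-zero value at a place has adic valuation one there -/
theorem adicValuation_eq_one_of_value (Q : Place K F) {φ : F} {γ : K} (hγ : γ ≠ 0)
    (h : φ = algebraMap K F γ ∨ Q.adicValuation (φ - algebraMap K F γ) < 1) :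
    Q.adicValuation φ = 1 := by
  rcases h with h | h
  · rw [h]
    exact adicValuation_algebraMap Q hγ
  · have h1 : Q.adicValuation (algebraMap K F γ) = 1 := adicValuation_algebraMap Q hγ
    have h2 : φ = (φ - algebraMap K F γ) + algebraMap K F γ := by ring
    rw [h2, Valuation.map_add_eq_of_lt_right _ (by rw [h1]; exact h), h1]

theorem ne_zero_of_adicValuation_eq_one (Q : Place K F) {φ : F} (h : Q.adicValuation φ = 1) :
    φ ≠ 0 := by
  rintro rfl
  rw [map_zero] at h
  exact zero_ne_one h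

/-- `HasValue` in terms of the adic valuation -/
theorem hasValue_adic (Q : Place K F) {φ : F} {γ : K} (h : HasValue Q φ γ) :
    φ = algebraMap K F γ ∨ Q.adicValuation (φ - algebraMap K F γ) < 1 := by
  rcases h with h | h
  · exact Or.inl h
  · refine Or.inr ?_
    have hne : φ - algebraMap K F γ ≠ 0 := by
      intro h0
      rw [h0, Place.ord_zero] at h
      exact lt_irrefl _ h
    exact (ord_pos_iff Q hne).mp h

theorem ord_eq_zero_of_adicValuation_eq_one (Q : Place K F) {φ : F}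
    (h : Q.adicValuation φ = 1) : Q.ord φ = 0 := by
  have hφ : φ ≠ 0 := ne_zero_of_adicValuation_eq_one Q h
  have h1 : 0 ≤ Q.ord φ := (ord_nonneg_iff Q hφ).mpr h.le
  have h2 : ¬ 0 < Q.ord φ := fun hpos => by
    have := (ord_pos_iff Q hφ).mp hpos
    rw [h] at this
    exact lt_irrefl _ this
  omega

end Aux

variable {R1 : Branch A π FL F1} {R2 : Branch A π FL F2} {Q1 : Place k F1} {Q2 : Place k F2}
  {tube : Set (Place L FL)}

/-- `LC0` from its `Place.ord` form -/
theorem lc0_of_ord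
    (h : ∀ (y1 : R1.O) (y2 : R2.O), ((y1 : R1.O) : FL) = ((y2 : R2.O) : FL) →
      R1.red y1 ≠ 0 → R2.red y2 ≠ 0 → Q1.ord (R1.red y1) = 0 → Q2.ord (R2.red y2) = 0 →
      (∀ P ∈ tube, 0 ≤ P.ord ((y1 : R1.O) : FL)) → ∀ P ∈ tube, P.ord ((y1 : R1.O) : FL) = 0) :
    LC0 R1 R2 Q1 Q2 tube := by
  intro y1 y2 h12 hr1 hr2 hv1 hv2 hreg P hP
  have hy0 : ((y1 : R1.O) : FL) ≠ 0 := coe_ne_zero_of_red_ne_zero R1 hr1
  have ho1 : Q1.ord (R1.red y1) = 0 := ord_eq_zero_of_adicValuation_eq_one Q1 hv1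
  have ho2 : Q2.ord (R2.red y2) = 0 := ord_eq_zero_of_adicValuation_eq_one Q2 hv2
  have h0 := h y1 y2 h12 hr1 hr2 ho1 ho2
    (fun P' hP' => (ord_nonneg_iff P' hy0).mpr (hreg P' hP')) P hP
  have h1 : P.adicValuation ((y1 : R1.O) : FL) ≤ 1 := hreg P hP
  rcases lt_or_eq_of_le h1 with hlt | heq
  · have := (ord_pos_iff P hy0).mpr hlt
    omega
  · exact heq

/-- the values at the tube of a function of `O₁ ∩ O₂` without pole on the tube lie in `A` -/
theorem value_mem (hLC : LC0 R1 R2 Q1 Q2 tube) (f1 : R1.O) (f2 : R2.O)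
    (h12 : ((f1 : R1.O) : FL) = ((f2 : R2.O) : FL))
    (hreg : ∀ P ∈ tube, P.adicValuation ((f1 : R1.O) : FL) ≤ 1)
    {P : Place L FL} (hP : P ∈ tube) (c : L)
    (hc : P.adicValuation (((f1 : R1.O) : FL) - algebraMap L FL c) < 1) : c ∈ A := by
  by_contra hcA
  have hc0 : c ≠ 0 := fun h => hcA (h ▸ A.zero_mem)
  obtain ⟨hinv, hnu⟩ := inv_mem_maximalIdeal_of_not_mem (A := A) hcA
  have hpi1 : π ⟨c⁻¹, hinv⟩ = 0 := (pi_eq_zero_iff R1 _).mpr hnu
  set u1 : R1.O := 1 - constHom R1 ⟨c⁻¹, hinv⟩ * f1 with hu1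
  set u2 : R2.O := 1 - constHom R2 ⟨c⁻¹, hinv⟩ * f2 with hu2
  have hred1 : R1.red u1 = 1 := by
    rw [hu1, map_sub, map_one, map_mul, red_constHom R1, hpi1, map_zero, zero_mul, sub_zero]
  have hred2 : R2.red u2 = 1 := by
    rw [hu2, map_sub, map_one, map_mul, red_constHom R2, hpi1, map_zero, zero_mul, sub_zero]
  have hc1 : (u1 : FL) = 1 - algebraMap L FL c⁻¹ * (f1 : FL) := by
    rw [hu1]; push_cast; simp
  have hc2 : (u2 : FL) = 1 - algebraMap L FL c⁻¹ * (f2 : FL) := by
    rw [hu2]; push_cast; simp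
  have h12u : (u1 : FL) = (u2 : FL) := by rw [hc1, hc2, h12]
  have hcoe : (u1 : FL) = -(algebraMap L FL c⁻¹) * ((f1 : FL) - algebraMap L FL c) := by
    have h1 : algebraMap L FL c⁻¹ * algebraMap L FL c = 1 := by
      rw [← map_mul, inv_mul_cancel₀ hc0, map_one]
    rw [hc1]
    linear_combination -h1
  have hval : ∀ P' : Place L FL, P'.adicValuation (u1 : FL) =
      P'.adicValuation ((f1 : FL) - algebraMap L FL c) := by
    intro P'
    rw [hcoe, map_mul, Valuation.map_neg, adicValuation_algebraMap P' (inv_ne_zero hc0), one_mul]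
  have hregu : ∀ P' ∈ tube, P'.adicValuation (u1 : FL) ≤ 1 := by
    intro P' hP'
    rw [hval]
    exact Valuation.map_sub_le _ (hreg P' hP') ((mem_iff P' _).mp (P'.algebraMap_mem' c))
  have h1 := hLC u1 u2 h12u (by rw [hred1]; exact one_ne_zero) (by rw [hred2]; exact one_ne_zero)
    (by rw [hred1, map_one]) (by rw [hred2, map_one]) hregu P hP
  rw [hval] at h1
  rw [h1] at hc
  exact lt_irrefl _ hc

/-- the residue of a value at the tube is the common value of the two reductions at the node -/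
theorem value_eq (hLC : LC0 R1 R2 Q1 Q2 tube) (f1 : R1.O) (f2 : R2.O)
    (h12 : ((f1 : R1.O) : FL) = ((f2 : R2.O) : FL))
    (hreg : ∀ P ∈ tube, P.adicValuation ((f1 : R1.O) : FL) ≤ 1)
    {γ : k} (hγ1 : HasValue Q1 (R1.red f1) γ) (hγ2 : HasValue Q2 (R2.red f2) γ)
    {P : Place L FL} (hP : P ∈ tube) (c : A)
    (hc : P.adicValuation (((f1 : R1.O) : FL) - algebraMap L FL (c : L)) < 1) : π c = γ := by
  by_contra hne
  have hne' : γ - π c ≠ 0 := fun h => hne (sub_eq_zero.mp h).symm
  set u1 : R1.O := f1 - constHom R1 c with hu1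
  set u2 : R2.O := f2 - constHom R2 c with hu2
  have hred1 : R1.red u1 = (R1.red f1 - algebraMap k F1 γ) + algebraMap k F1 (γ - π c) := by
    rw [hu1, map_sub, red_constHom R1, map_sub]; ring
  have hred2 : R2.red u2 = (R2.red f2 - algebraMap k F2 γ) + algebraMap k F2 (γ - π c) := by
    rw [hu2, map_sub, red_constHom R2, map_sub]; ring
  have hv1 : Q1.adicValuation (R1.red u1) = 1 := by
    rw [hred1]
    rcases hasValue_adic Q1 hγ1 with h | h
    · rw [h, sub_self, zero_add]
      exact adicValuation_algebraMap Q1 hne'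
    · have h1 : Q1.adicValuation (algebraMap k F1 (γ - π c)) = 1 :=
        adicValuation_algebraMap Q1 hne'
      rw [Valuation.map_add_eq_of_lt_right _ (by rw [h1]; exact h), h1]
  have hv2 : Q2.adicValuation (R2.red u2) = 1 := by
    rw [hred2]
    rcases hasValue_adic Q2 hγ2 with h | h
    · rw [h, sub_self, zero_add]
      exact adicValuation_algebraMap Q2 hne'
    · have h1 : Q2.adicValuation (algebraMap k F2 (γ - π c)) = 1 :=
        adicValuation_algebraMap Q2 hne'
      rw [Valuation.map_add_eq_of_lt_right _ (by rw [h1]; exact h), h1]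
  have hc1 : (u1 : FL) = (f1 : FL) - algebraMap L FL (c : L) := by
    rw [hu1]; push_cast; simp
  have hc2 : (u2 : FL) = (f2 : FL) - algebraMap L FL (c : L) := by
    rw [hu2]; push_cast; simp
  have h12u : (u1 : FL) = (u2 : FL) := by rw [hc1, hc2, h12]
  have hregu : ∀ P' ∈ tube, P'.adicValuation (u1 : FL) ≤ 1 := by
    intro P' hP'
    rw [hc1]
    exact Valuation.map_sub_le _ (hreg P' hP') ((mem_iff P' _).mp (P'.algebraMap_mem' _))
  have h1 := hLC u1 u2 h12u (ne_zero_of_adicValuation_eq_one Q1 hv1)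
    (ne_zero_of_adicValuation_eq_one Q2 hv2) hv1 hv2 hregu P hP
  rw [hc1] at h1
  rw [h1] at hc
  exact lt_irrefl _ hc

/-- a function of `O₁ ∩ O₂` without pole on the tube whose reductions have a common NON-ZERO value
at the node has no zero on the tube -/
theorem adicValuation_eq_one_of_hasValue (hLC : LC0 R1 R2 Q1 Q2 tube) (f1 : R1.O) (f2 : R2.O)
    (h12 : ((f1 : R1.O) : FL) = ((f2 : R2.O) : FL))
    (hreg : ∀ P ∈ tube, P.adicValuation ((f1 : R1.O) : FL) ≤ 1)
    {γ : k} (hγ : γ ≠ 0) (hγ1 : HasValue Q1 (R1.red f1) γ) (hγ2 : HasValue Q2 (R2.red f2) γ) :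
    ∀ P ∈ tube, P.adicValuation ((f1 : R1.O) : FL) = 1 := by
  have hv1 : Q1.adicValuation (R1.red f1) = 1 :=
    adicValuation_eq_one_of_value Q1 hγ (hasValue_adic Q1 hγ1)
  have hv2 : Q2.adicValuation (R2.red f2) = 1 :=
    adicValuation_eq_one_of_value Q2 hγ (hasValue_adic Q2 hγ2)
  exact hLC f1 f2 h12 (ne_zero_of_adicValuation_eq_one Q1 hv1)
    (ne_zero_of_adicValuation_eq_one Q2 hv2) hv1 hv2 hreg

/-- ... hence its inverse has no pole on the tube -/
theorem adicValuation_inv_le_one_of_hasValue (hLC : LC0 R1 R2 Q1 Q2 tube) (f1 : R1.O) (f2 : R2.O)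
    (h12 : ((f1 : R1.O) : FL) = ((f2 : R2.O) : FL))
    (hreg : ∀ P ∈ tube, P.adicValuation ((f1 : R1.O) : FL) ≤ 1)
    {γ : k} (hγ : γ ≠ 0) (hγ1 : HasValue Q1 (R1.red f1) γ) (hγ2 : HasValue Q2 (R2.red f2) γ) :
    ∀ P ∈ tube, P.adicValuation (((f1 : R1.O) : FL))⁻¹ ≤ 1 := by
  intro P hP
  rw [map_inv₀, adicValuation_eq_one_of_hasValue hLC f1 f2 h12 hreg hγ hγ1 hγ2 P hP, inv_one]

/-- **The values of a node coordinate on the tube.**  `ξ ζ = thick ≠ 0`, both in `O₁ ∩ O₂`
without pole on the tube and with common value `0` at the node: a value `c` of `ξ` at a point of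
the tube is non-zero, lies in `𝔪_A`, and `thick / c ∈ 𝔪_A`. -/
theorem tube_values (hLC : LC0 R1 R2 Q1 Q2 tube) (ξ1 : R1.O) (ξ2 : R2.O) (ζ1 : R1.O) (ζ2 : R2.O)
    (hξ12 : ((ξ1 : R1.O) : FL) = ((ξ2 : R2.O) : FL))
    (hζ12 : ((ζ1 : R1.O) : FL) = ((ζ2 : R2.O) : FL))
    {thick : L} (hthick : thick ≠ 0)
    (hprod : ((ξ1 : R1.O) : FL) * ((ζ1 : R1.O) : FL) = algebraMap L FL thick)
    (hregξ : ∀ P ∈ tube, P.adicValuation ((ξ1 : R1.O) : FL) ≤ 1)
    (hregζ : ∀ P ∈ tube, P.adicValuation ((ζ1 : R1.O) : FL) ≤ 1)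
    (hξ1 : HasValue Q1 (R1.red ξ1) 0) (hξ2 : HasValue Q2 (R2.red ξ2) 0)
    (hζ1 : HasValue Q1 (R1.red ζ1) 0) (hζ2 : HasValue Q2 (R2.red ζ2) 0)
    {P : Place L FL} (hP : P ∈ tube) (c : L)
    (hc : P.adicValuation (((ξ1 : R1.O) : FL) - algebraMap L FL c) < 1) :
    c ≠ 0 ∧ (∃ hcA : c ∈ A, (⟨c, hcA⟩ : A) ∈ IsLocalRing.maximalIdeal A) ∧
      ∃ hcA' : thick / c ∈ A, (⟨thick / c, hcA'⟩ : A) ∈ IsLocalRing.maximalIdeal A := by
  have hthickF : algebraMap L FL thick ≠ 0 :=
    (map_ne_zero_iff _ (algebraMap L FL).injective).mpr hthick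
  have hξ0 : ((ξ1 : R1.O) : FL) ≠ 0 := fun h => hthickF (by rw [← hprod, h, zero_mul])
  have hthickv : P.adicValuation (algebraMap L FL thick) = 1 := adicValuation_algebraMap P hthick
  -- `c ≠ 0`: otherwise `ξ` vanishes at `P` and `ζ = thick / ξ` has a pole there
  have hc0 : c ≠ 0 := by
    rintro rfl
    rw [map_zero, sub_zero] at hc
    have h1 := hregζ P hP
    have h2 : P.adicValuation ((ξ1 : R1.O) : FL) * P.adicValuation ((ζ1 : R1.O) : FL) = 1 := by
      rw [← map_mul, hprod, hthickv]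
    have h3 : P.adicValuation ((ξ1 : R1.O) : FL) * P.adicValuation ((ζ1 : R1.O) : FL) < 1 :=
      mul_lt_one_of_lt_of_le hc h1
    rw [h2] at h3
    exact lt_irrefl _ h3
  refine ⟨hc0, ?_, ?_⟩
  · have hcA : c ∈ A := value_mem hLC ξ1 ξ2 hξ12 hregξ hP c hc
    refine ⟨hcA, ?_⟩
    rw [← pi_eq_zero_iff R1]
    exact value_eq hLC ξ1 ξ2 hξ12 hregξ hξ1 hξ2 hP ⟨c, hcA⟩ hc
  · -- the value of `ζ` at `P` is `thick / c`
    have hcv : P.adicValuation (algebraMap L FL c) = 1 := adicValuation_algebraMap P hc0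
    have hξv : P.adicValuation ((ξ1 : R1.O) : FL) = 1 := by
      have h2 : ((ξ1 : R1.O) : FL) = (((ξ1 : R1.O) : FL) - algebraMap L FL c) + algebraMap L FL c := by
        ring
      rw [h2, Valuation.map_add_eq_of_lt_right _ (by rw [hcv]; exact hc), hcv]
    have hcF : algebraMap L FL c ≠ 0 := (map_ne_zero_iff _ (algebraMap L FL).injective).mpr hc0
    have hζ : ((ζ1 : R1.O) : FL) - algebraMap L FL (thick / c) =
        -(algebraMap L FL thick) * (((ξ1 : R1.O) : FL) - algebraMap L FL c) *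
          ((((ξ1 : R1.O) : FL))⁻¹ * (algebraMap L FL c)⁻¹) := by
      have h3 : ((ζ1 : R1.O) : FL) = algebraMap L FL thick * (((ξ1 : R1.O) : FL))⁻¹ := by
        rw [← hprod]; field_simp
      rw [h3, map_div₀]
      field_simp
      ring
    have hcζ : P.adicValuation (((ζ1 : R1.O) : FL) - algebraMap L FL (thick / c)) < 1 := by
      rw [hζ, map_mul, map_mul, map_mul, Valuation.map_neg, hthickv, map_inv₀, map_inv₀, hξv, hcv,
        one_mul, inv_one, mul_one, mul_one]
      exact hc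
    have hcA' : thick / c ∈ A := value_mem hLC ζ1 ζ2 hζ12 hregζ hP _ hcζ
    refine ⟨hcA', ?_⟩
    rw [← pi_eq_zero_iff R1]
    exact value_eq hLC ζ1 ζ2 hζ12 hregζ hζ1 hζ2 hP ⟨thick / c, hcA'⟩ hcζ

end Fermat.Agent.S44.Core.TubeEval
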