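/-
PROJECT P (S44), CORE, Core/TubeCoord (helper15): THE COORDINATE OF THE TUBE OF A NODE, ONE CALL.

Glue of `Core/TubeCount.exists_unique_zero` ((f4+), helper15), `Core/TubeEval.tube_values`
((d1), helper1) and the commensurability of the value group (instance: `Val/Commens`).

Frame: two Gauss branches `R1 R2`, the two places `Q1 Q2` of the node, `tube`, the local zero
count `LocalCount R1 R2 tube Q1 Q2`, a pair `ξ ζ = thick` with `thick` a non-zero non-unit of `A`,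
`ord_{Q1} (red₁ ξ) = 1`, `ord_{Q2} (red₂ ζ) = 1`, `ξ, ζ` without pole on the tube.

* `red_xi_two`, `red_zeta_one` : `red₂ ξ = 0`, `red₁ ζ = 0` (DERIVED, not asked);
* `tube_coord` : for every point `P` of degree one of the tube there is `c ∈ 𝔪_A`, `c ≠ 0`,
  `thick / c ∈ 𝔪_A`, such that `ξ - c` has a SIMPLE zero at `P` and NO other zero on the tube;
* `tube_coord_inj` : two points of the tube with the same coordinate are equal.
-/
import Mathlib
import Fermat.Agent.S44.Core.TubeCount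
import Fermat.Agent.S44.Core.TubeEval

set_option autoImplicit false

namespace Fermat.Agent.S44.Core.TubeCoord

open AlgebraicCurve Fermat.Agent.S24.Ord Fermat.Agent.S34.NodalDefs Fermat.Agent.S34.NodalDisc
open Fermat.Agent.S44.Core.TubeCount

variable {L : Type*} [Field L] {k : Type*} [Field k] {A : ValuationSubring L} {π : A →+* k}
variable {FL : Type*} [Field FL] [Algebra L FL]
variable {F1 : Type*} [Field F1] [Algebra k F1] {F2 : Type*} [Field F2] [Algebra k F2]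
variable {R1 : Branch A π FL F1} {R2 : Branch A π FL F2} {Q1 : Place k F1} {Q2 : Place k F2}
  {tube : Set (Place L FL)}

/-- the commensurability of the non-units of `A` (instance: `Val/Commens`) -/
def Commens (A : ValuationSubring L) : Prop :=
  ∀ c c' : A, c ∈ IsLocalRing.maximalIdeal A → c' ∈ IsLocalRing.maximalIdeal A →
    (c : L) ≠ 0 → (c' : L) ≠ 0 →
    ∃ a b : ℕ, 0 < a ∧ 0 < b ∧ ∃ u : Aˣ, (c : L) ^ a = ((u : A) : L) * (c' : L) ^ b

section Derived

variable {Fk : Type*} [Field Fk] [Algebra k Fk] (R : Branch A π FL Fk)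

/-- `ξ ζ = thick ∈ 𝔪_A` and `red ζ ≠ 0` force `red ξ = 0` -/
theorem red_zero_of_mul {ξ ζ : FL} {thick : A} (hthick : thick ∈ IsLocalRing.maximalIdeal A)
    (hmul : ξ * ζ = algebraMap L FL (thick : L)) {yb : Fk} (hζ : Red R ζ yb) (hyb : yb ≠ 0) :
    Red R ξ 0 := by
  have hζ0 : ζ ≠ 0 := hζ.ne_zero hyb
  have h1 : ξ = algebraMap L FL (thick : L) * ζ⁻¹ := by
    rw [← hmul, mul_assoc, mul_inv_cancel₀ hζ0, mul_one]
  have h2 : Red R (algebraMap L FL (thick : L) * ζ⁻¹) (0 * yb⁻¹) :=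
    (red_const_zero hthick).mul (hζ.inv hyb)
  rw [zero_mul, ← h1] at h2
  exact h2

end Derived

theorem ne_zero_of_ord_eq_one {K F : Type*} [Field K] [Field F] [Algebra K F] (Q : Place K F)
    {x : F} (h : Q.ord x = 1) : x ≠ 0 := by
  rintro rfl
  rw [Place.ord_zero] at h
  exact zero_ne_one h

theorem hasValue_zero_of_ord_eq_one {K F : Type*} [Field K] [Field F] [Algebra K F]
    (Q : Place K F) {x : F} (h : Q.ord x = 1) : HasValue Q x 0 := by
  right
  rw [map_zero, sub_zero, h]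
  exact one_pos

theorem hasValue_zero_zero {K F : Type*} [Field K] [Field F] [Algebra K F] (Q : Place K F) :
    HasValue Q (0 : F) 0 := by
  left
  rw [map_zero]

variable [HasPrincipalDivisors L FL]

/-- **The coordinate of the tube.** -/
theorem tube_coord (hLC : LocalCount R1 R2 tube Q1 Q2) (hcomm : Commens A)
    {ξ ζ : FL} {thick : A} (hthick : thick ∈ IsLocalRing.maximalIdeal A)
    (hthick0 : (thick : L) ≠ 0) (hmul : ξ * ζ = algebraMap L FL (thick : L))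
    {xb : F1} {yb : F2} (hξ1 : Red R1 ξ xb) (hζ2 : Red R2 ζ yb)
    (hx : Q1.ord xb = 1) (hy : Q2.ord yb = 1)
    (hregξ : ∀ P ∈ tube, P.adicValuation ξ ≤ 1) (hregζ : ∀ P ∈ tube, P.adicValuation ζ ≤ 1)
    {P : Place L FL} (hP : P ∈ tube) (hdeg : P.deg = 1) :
    ∃ c c' : A, c ∈ IsLocalRing.maximalIdeal A ∧ c' ∈ IsLocalRing.maximalIdeal A ∧
      (c : L) ≠ 0 ∧ (c' : L) ≠ 0 ∧ (c : L) * (c' : L) = (thick : L) ∧
      P.ord (ξ - algebraMap L FL (c : L)) = 1 ∧
      ∀ P' ∈ tube, P' ≠ P → P'.ord (ξ - algebraMap L FL (c : L)) = 0 := by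
  have hxb0 : xb ≠ 0 := ne_zero_of_ord_eq_one Q1 hx
  have hyb0 : yb ≠ 0 := ne_zero_of_ord_eq_one Q2 hy
  have hξ2 : Red R2 ξ 0 := red_zero_of_mul R2 hthick hmul hζ2 hyb0
  have hζ1 : Red R1 ζ 0 := red_zero_of_mul R1 hthick (by rw [mul_comm]; exact hmul) hξ1 hxb0
  have hξ0 : ξ ≠ 0 := hξ1.ne_zero hxb0
  -- the value of `ξ` at `P`
  have hnn : 0 ≤ P.ord ξ := (ord_nonneg_iff P hξ0).mpr (hregξ P hP)
  obtain ⟨c, hc⟩ := Fermat.Agent.S18.CoreOrd.exists_value P hdeg hnn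
  have hcv : P.adicValuation (ξ - algebraMap L FL c) < 1 := by
    rcases hc with hc | hc
    · rw [hc, sub_self, map_zero]
      exact zero_lt_one
    · exact adicValuation_lt_one_of_ord_pos P hc
  -- helper1's tube values
  have hLC0 : TubeEval.LC0 R1 R2 Q1 Q2 tube := TubeEval.lc0_of_ord hLC.ord_form
  obtain ⟨hξ1m, hξ1r⟩ := hξ1
  obtain ⟨hξ2m, hξ2r⟩ := hξ2
  obtain ⟨hζ1m, hζ1r⟩ := hζ1
  obtain ⟨hζ2m, hζ2r⟩ := hζ2
  obtain ⟨hc0, ⟨hcA, hcm⟩, hcA', hcm'⟩ := TubeEval.tube_values hLC0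
    (⟨ξ, hξ1m⟩ : R1.O) (⟨ξ, hξ2m⟩ : R2.O) (⟨ζ, hζ1m⟩ : R1.O) (⟨ζ, hζ2m⟩ : R2.O) rfl rfl
    hthick0 hmul hregξ hregζ
    (by rw [hξ1r]; exact hasValue_zero_of_ord_eq_one Q1 hx)
    (by rw [hξ2r]; exact hasValue_zero_zero Q2)
    (by rw [hζ1r]; exact hasValue_zero_zero Q1)
    (by rw [hζ2r]; exact hasValue_zero_of_ord_eq_one Q2 hy) hP c hcv
  have hc0' : (thick : L) / c ≠ 0 := div_ne_zero hthick0 hc0
  have hcc' : c * ((thick : L) / c) = (thick : L) := mul_div_cancel₀ _ hc0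
  obtain ⟨a, b, ha, hb, u, hab⟩ := hcomm ⟨c, hcA⟩ ⟨(thick : L) / c, hcA'⟩ hcm hcm' hc0 hc0'
  obtain ⟨P0, hP0, h1, hother⟩ := exists_unique_zero hLC hmul (⟨hξ1m, hξ1r⟩ : Red R1 ξ xb)
    (⟨hζ2m, hζ2r⟩ : Red R2 ζ yb) hx hy hregξ hregζ ⟨c, hcA⟩ ⟨(thick : L) / c, hcA'⟩ hcm hcm'
    hc0 hc0' hcc' a b ha hb u hab
  -- `P` is the zero
  have hPP0 : P = P0 := by
    by_contra hne
    have h0 := hother P hP hne
    have hne0 : ξ - algebraMap L FL c ≠ 0 := by
      intro h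
      rw [show ((⟨c, hcA⟩ : A) : L) = c from rfl, h, Place.ord_zero] at h1
      exact zero_ne_one h1
    have hpos := (ord_pos_iff P hne0).mpr hcv
    rw [show ((⟨c, hcA⟩ : A) : L) = c from rfl] at h0
    omega
  subst hPP0
  exact ⟨⟨c, hcA⟩, ⟨(thick : L) / c, hcA'⟩, hcm, hcm', hc0, hc0', hcc', h1, hother⟩

/-- **Injectivity of the coordinate**: two points of the tube at which `ξ - c` vanishes are
equal. -/
theorem tube_coord_inj (hLC : LocalCount R1 R2 tube Q1 Q2) (hcomm : Commens A)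
    {ξ ζ : FL} {thick : A} (hthick : thick ∈ IsLocalRing.maximalIdeal A)
    (hthick0 : (thick : L) ≠ 0) (hmul : ξ * ζ = algebraMap L FL (thick : L))
    {xb : F1} {yb : F2} (hξ1 : Red R1 ξ xb) (hζ2 : Red R2 ζ yb)
    (hx : Q1.ord xb = 1) (hy : Q2.ord yb = 1)
    (hregξ : ∀ P ∈ tube, P.adicValuation ξ ≤ 1) (hregζ : ∀ P ∈ tube, P.adicValuation ζ ≤ 1)
    {P P' : Place L FL} (hP : P ∈ tube) (hP' : P' ∈ tube) (hdeg : P.deg = 1) (c : L)
    (hc : 0 < P.ord (ξ - algebraMap L FL c)) (hc' : 0 < P'.ord (ξ - algebraMap L FL c)) :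
    P' = P := by
  obtain ⟨d, d', -, -, -, -, -, h1, hother⟩ :=
    tube_coord hLC hcomm hthick hthick0 hmul hξ1 hζ2 hx hy hregξ hregζ hP hdeg
  -- `c = d`: both are the value of `ξ` at `P`
  have hcd : c = (d : L) := by
    by_contra hne
    have hne' : (d : L) - c ≠ 0 := sub_ne_zero.mpr (Ne.symm hne)
    have h2 : algebraMap L FL ((d : L) - c) =
        (ξ - algebraMap L FL c) - (ξ - algebraMap L FL (d : L)) := by
      rw [map_sub]; ring
    have h3 : P.adicValuation (algebraMap L FL ((d : L) - c)) < 1 := by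
      rw [h2]
      refine Valuation.map_sub_lt _ (adicValuation_lt_one_of_ord_pos P hc)
        (adicValuation_lt_one_of_ord_pos P (by rw [h1]; exact one_pos))
    rw [adicValuation_algebraMap P hne'] at h3
    exact lt_irrefl _ h3
  by_contra hne
  have h0 := hother P' hP' hne
  rw [← hcd] at h0
  omega

end Fermat.Agent.S44.Core.TubeCoord
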