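/-
PROJECT P (S44), CORE (P1), Core/Break (helper9, literal of helper6): THE WILD GENERATOR ON CONSTANTS.

Pure arithmetic in a valued field `(L, A)`.  A `BreakDatum A σ` is a discretely valued subfield `K'`
with uniformiser `ϖ` on which the automorphism `σ` acts with break `s`:
`σ ϖ = ϖ (1 + α ϖ^s + ϖ^(s+1) a)` with `α` a unit, and `σ β ≡ β` modulo `ϖ^(s+1)` on `K' ∩ A`.

* `UnitA A b`           : `A.valuation b = 1` (NOT `b ∈ A ∧ b⁻¹ ∈ A`, which `b = 0` satisfies);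
* `BreakDatum.ordK`     : the `ϖ`-adic order on `K'` (`0` outside `K' \ {0}`);
* `BreakDatum.displace` : `σ c = c (1 + ordK c * α * ϖ^s + ϖ^(s+1) a)` for `c ∈ K'`, `c ≠ 0`
                          (the displacement of constants, (R2) of the core page);
* `WildDatum A σ p G H` : (`G`, `H` subgroups of a group acting on `L`) a `BreakDatum` with the absolute ramification
                          `p = ϖ^(p (p-1)) * unit`, the tame layer `K1 ≤ K'` (the fixed field of `G`)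
                          with uniformiser `π1 = ϖ^p * unit`, and `K'` the fixed field of `H`.

Mathlib only.
-/
import Mathlib

set_option autoImplicit false

namespace Fermat.Agent.S44.Core.Break

variable {L : Type*} [Field L]

/-- `b` is a unit of the valuation ring `A` -/
def UnitA (A : ValuationSubring L) (b : L) : Prop := A.valuation b = 1

section Unit

variable {A : ValuationSubring L}

theorem UnitA.ne_zero {b : L} (h : UnitA A b) : b ≠ 0 := by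
  rintro rfl
  rw [UnitA, map_zero] at h
  exact zero_ne_one h

theorem UnitA.mem {b : L} (h : UnitA A b) : b ∈ A :=
  (A.valuation_le_one_iff b).1 (le_of_eq h)

theorem UnitA.inv {b : L} (h : UnitA A b) : UnitA A b⁻¹ := by
  rw [UnitA, map_inv₀, show A.valuation b = 1 from h, inv_one]

theorem UnitA.inv_mem {b : L} (h : UnitA A b) : b⁻¹ ∈ A := h.inv.mem

theorem UnitA.mul {b c : L} (hb : UnitA A b) (hc : UnitA A c) : UnitA A (b * c) := by
  rw [UnitA, map_mul, show A.valuation b = 1 from hb, show A.valuation c = 1 from hc, one_mul]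

theorem UnitA.div {b c : L} (hb : UnitA A b) (hc : UnitA A c) : UnitA A (b / c) := by
  rw [div_eq_mul_inv]
  exact hb.mul hc.inv

theorem unitA_one : UnitA A (1 : L) := map_one _

theorem UnitA.zpow {b : L} (hb : UnitA A b) (j : ℤ) : UnitA A (b ^ j) := by
  rw [UnitA, map_zpow₀, show A.valuation b = 1 from hb, one_zpow]

theorem unitA_iff {b : L} : UnitA A b ↔ b ≠ 0 ∧ b ∈ A ∧ b⁻¹ ∈ A := by
  refine ⟨fun h => ⟨h.ne_zero, h.mem, h.inv_mem⟩, fun ⟨h0, h1, h2⟩ => ?_⟩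
  have h3 : A.valuation b ≤ 1 := (A.valuation_le_one_iff b).2 h1
  have h4 : A.valuation b⁻¹ ≤ 1 := (A.valuation_le_one_iff _).2 h2
  rw [map_inv₀] at h4
  have hb0 : A.valuation b ≠ 0 := (Valuation.ne_zero_iff _).2 h0
  have h5 : 1 ≤ A.valuation b := by
    have := mul_le_mul_of_nonneg_right h4 (zero_le (a := A.valuation b))
    rwa [inv_mul_cancel₀ hb0, one_mul] at this
  exact le_antisymm h3 h5

/-- `1 + (nonunit)` is a unit -/
theorem unitA_one_add {x : L} (hx : x ∈ A.nonunits) : UnitA A (1 + x) := by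
  rw [A.mem_nonunits_iff] at hx
  rw [UnitA, add_comm]
  have := Valuation.map_add_eq_of_lt_left A.valuation (x := (1 : L)) (y := x)
    (by rw [map_one]; exact hx)
  rw [add_comm, this, map_one]

/-- **Powers of a one-unit, first order.** `(1 + x t)^n = 1 + n x t + x² a`. -/
theorem exists_one_add_pow {x t : L} (hx : x ∈ A) (ht : t ∈ A) (n : ℕ) :
    ∃ a ∈ A, (1 + x * t) ^ n = 1 + (n : L) * (x * t) + x ^ 2 * a := by
  induction n with
  | zero => exact ⟨0, A.zero_mem, by simp⟩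
  | succ n ih =>
    obtain ⟨a, ha, h⟩ := ih
    refine ⟨a + (n : L) * t ^ 2 + a * (x * t), ?_, ?_⟩
    · exact add_mem (add_mem ha (mul_mem (natCast_mem A n) (pow_mem ht 2)))
        (mul_mem ha (mul_mem hx ht))
    · rw [pow_succ, h]
      push_cast
      ring

/-- **Inverse of a one-unit.** `(1 + x t)⁻¹ = 1 + x t'` with `t' = - t + x a`. -/
theorem exists_one_add_inv {x t : L} (hx : x ∈ A.nonunits) (ht : t ∈ A) :
    ∃ a ∈ A, (1 + x * t)⁻¹ = 1 + x * (-t + x * a) := by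
  have hxt : x * t ∈ A.nonunits := by
    rw [A.mem_nonunits_iff] at hx ⊢
    rw [map_mul]
    exact mul_lt_one_of_lt_of_le hx ((A.valuation_le_one_iff t).2 ht)
  have hu : UnitA A (1 + x * t) := unitA_one_add hxt
  refine ⟨t ^ 2 * (1 + x * t)⁻¹, mul_mem (pow_mem ht 2) hu.inv_mem, ?_⟩
  have h0 := hu.ne_zero
  field_simp
  ring

/-- **Integral powers of a one-unit, first order.** `(1 + x t)^j = 1 + j x t + x² a`, `j : ℤ`. -/
theorem exists_one_add_zpow {x t : L} (hx : x ∈ A.nonunits) (ht : t ∈ A) (j : ℤ) :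
    ∃ a ∈ A, (1 + x * t) ^ j = 1 + (j : L) * (x * t) + x ^ 2 * a := by
  have hxA : x ∈ A := by
    rw [A.mem_nonunits_iff] at hx
    exact (A.valuation_le_one_iff x).1 hx.le
  obtain ⟨n, rfl | rfl⟩ := j.eq_nat_or_neg
  · obtain ⟨a, ha, h⟩ := exists_one_add_pow hxA ht n
    exact ⟨a, ha, by rw [zpow_natCast, h]; push_cast; ring⟩
  · obtain ⟨b, hb, hinv⟩ := exists_one_add_inv hx ht
    have ht' : -t + x * b ∈ A := add_mem (neg_mem ht) (mul_mem hxA hb)
    obtain ⟨a, ha, h⟩ := exists_one_add_pow hxA ht' n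
    refine ⟨a + (n : L) * b, add_mem ha (mul_mem (natCast_mem A n) hb), ?_⟩
    rw [zpow_neg, zpow_natCast, ← inv_pow, hinv, h]
    push_cast
    ring

end Unit

/-- **The break datum** (literal (P1) of the core page). -/
structure BreakDatum (A : ValuationSubring L) (σ : L ≃+* L) where
  /-- the discretely valued subfield -/
  K' : Subfield L
  /-- its uniformiser -/
  ϖ : L
  ϖ_mem : ϖ ∈ K'
  ϖ_ne : ϖ ≠ 0
  ϖ_non : ϖ ∈ A.nonunits
  /-- the break -/
  s : ℕ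
  s_pos : 0 < s
  /-- the leading coefficient of `σ ϖ / ϖ - 1` -/
  α : L
  α_unit : UnitA A α
  σ_A : ∀ a, σ a ∈ A ↔ a ∈ A
  exists_pow : ∀ c ∈ K', c ≠ 0 → ∃ (j : ℤ) (β : L), β ∈ K' ∧ UnitA A β ∧ c = ϖ ^ j * β
  σ_ϖ : ∃ a ∈ A, σ ϖ = ϖ * (1 + α * ϖ ^ s + ϖ ^ (s + 1) * a)
  σ_int : ∀ β ∈ K', β ∈ A → ∃ a ∈ A, σ β = β + ϖ ^ (s + 1) * a

namespace BreakDatum

variable {A : ValuationSubring L} {σ : L ≃+* L} (B : BreakDatum A σ)

theorem ϖ_memA : B.ϖ ∈ A := by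
  have := B.ϖ_non
  rw [A.mem_nonunits_iff] at this
  exact (A.valuation_le_one_iff _).1 this.le

theorem val_ϖ_lt : A.valuation B.ϖ < 1 := (A.mem_nonunits_iff).1 B.ϖ_non

theorem val_ϖ_pos : 0 < A.valuation B.ϖ := zero_lt_iff.2 ((Valuation.ne_zero_iff _).2 B.ϖ_ne)

open Classical in
/-- the `ϖ`-adic order on `K'` (junk value `0` at `0` and outside `K'`) -/
noncomputable def ordK (c : L) : ℤ :=
  if h : c ∈ B.K' ∧ c ≠ 0 then (B.exists_pow c h.1 h.2).choose else 0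

theorem ordK_spec {c : L} (hc : c ∈ B.K') (h0 : c ≠ 0) :
    ∃ β : L, β ∈ B.K' ∧ UnitA A β ∧ c = B.ϖ ^ B.ordK c * β := by
  have h : c ∈ B.K' ∧ c ≠ 0 := ⟨hc, h0⟩
  rw [ordK, dif_pos h]
  exact (B.exists_pow c h.1 h.2).choose_spec

theorem val_eq {c : L} (hc : c ∈ B.K') (h0 : c ≠ 0) :
    A.valuation c = A.valuation B.ϖ ^ B.ordK c := by
  obtain ⟨β, _, hβ, h⟩ := B.ordK_spec hc h0
  conv_lhs => rw [h]
  rw [map_mul, map_zpow₀, show A.valuation β = 1 from hβ, mul_one]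

/-- the order is determined by the valuation -/
theorem ordK_eq_of_val {c : L} (hc : c ∈ B.K') (h0 : c ≠ 0) {j : ℤ}
    (h : A.valuation c = A.valuation B.ϖ ^ j) : B.ordK c = j := by
  rw [B.val_eq hc h0] at h
  exact le_antisymm ((zpow_le_zpow_iff_right_of_lt_one₀ B.val_ϖ_pos B.val_ϖ_lt).1 h.ge)
    ((zpow_le_zpow_iff_right_of_lt_one₀ B.val_ϖ_pos B.val_ϖ_lt).1 h.le)

theorem ordK_eq {c β : L} {j : ℤ} (hβ : UnitA A β) (h : c = B.ϖ ^ j * β) (hc : c ∈ B.K') :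
    B.ordK c = j := by
  have h0 : c ≠ 0 := by
    rw [h]
    exact mul_ne_zero (zpow_ne_zero j B.ϖ_ne) hβ.ne_zero
  refine B.ordK_eq_of_val hc h0 ?_
  rw [h, map_mul, map_zpow₀, show A.valuation β = 1 from hβ, mul_one]

theorem ordK_ϖ : B.ordK B.ϖ = 1 :=
  B.ordK_eq unitA_one (by rw [zpow_one, mul_one]) B.ϖ_mem

theorem ordK_mul {c d : L} (hc : c ∈ B.K') (hd : d ∈ B.K') (hc0 : c ≠ 0) (hd0 : d ≠ 0) :
    B.ordK (c * d) = B.ordK c + B.ordK d := by
  refine B.ordK_eq_of_val (B.K'.mul_mem hc hd) (mul_ne_zero hc0 hd0) ?_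
  rw [map_mul, B.val_eq hc hc0, B.val_eq hd hd0,
    zpow_add₀ ((Valuation.ne_zero_iff _).2 B.ϖ_ne)]

theorem ordK_inv {c : L} (hc : c ∈ B.K') (hc0 : c ≠ 0) : B.ordK c⁻¹ = - B.ordK c := by
  refine B.ordK_eq_of_val (B.K'.inv_mem hc) (inv_ne_zero hc0) ?_
  rw [map_inv₀, B.val_eq hc hc0, zpow_neg]

theorem ordK_unit {c : L} (hc : c ∈ B.K') (hu : UnitA A c) : B.ordK c = 0 :=
  B.ordK_eq hu (by rw [zpow_zero, one_mul]) hc

/-- on `K' \ {0}`: integral iff of non-negative order -/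
theorem mem_iff_ordK_nonneg {c : L} (hc : c ∈ B.K') (h0 : c ≠ 0) : c ∈ A ↔ 0 ≤ B.ordK c := by
  rw [← A.valuation_le_one_iff, B.val_eq hc h0, ← zpow_zero (A.valuation B.ϖ),
    zpow_le_zpow_iff_right_of_lt_one₀ B.val_ϖ_pos B.val_ϖ_lt]

/-- `σ` preserves units -/
theorem unitA_σ (B : BreakDatum A σ) {b : L} (hb : UnitA A b) : UnitA A (σ b) := by
  rw [unitA_iff] at hb ⊢
  refine ⟨(map_ne_zero σ).2 hb.1, (B.σ_A b).2 hb.2.1, ?_⟩
  rw [← map_inv₀]
  exact (B.σ_A _).2 hb.2.2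

/-- **Displacement of constants** ((R2) of the core page). -/
theorem displace {c : L} (hc : c ∈ B.K') (h0 : c ≠ 0) :
    ∃ a ∈ A, σ c = c * (1 + (B.ordK c : L) * B.α * B.ϖ ^ B.s + B.ϖ ^ (B.s + 1) * a) := by
  obtain ⟨β, hβK, hβ, hcβ⟩ := B.ordK_spec hc h0
  obtain ⟨a0, ha0, hσϖ⟩ := B.σ_ϖ
  obtain ⟨a1, ha1, hσβ⟩ := B.σ_int β hβK hβ.mem
  obtain ⟨s', hs'⟩ : ∃ s', B.s = s' + 1 := ⟨B.s - 1, by have := B.s_pos; omega⟩
  set j := B.ordK c with hj
  have hϖA := B.ϖ_memA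
  -- `σ ϖ = ϖ (1 + x t)`, `x = ϖ^s`, `t = α + ϖ a0`
  have hx : B.ϖ ^ B.s ∈ A.nonunits := by
    rw [A.mem_nonunits_iff, map_pow]
    exact pow_lt_one₀ zero_le B.val_ϖ_lt B.s_pos.ne'
  have ht : B.α + B.ϖ * a0 ∈ A := add_mem B.α_unit.mem (mul_mem hϖA ha0)
  obtain ⟨a2, ha2, hpow⟩ := exists_one_add_zpow hx ht j
  have hη : σ B.ϖ = B.ϖ * (1 + B.ϖ ^ B.s * (B.α + B.ϖ * a0)) := by
    rw [hσϖ]; ring
  refine ⟨(j : L) * a0 + B.ϖ ^ s' * a2 + a1 * β⁻¹ * (1 + (j : L) * B.α * B.ϖ ^ B.s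
      + B.ϖ ^ (B.s + 1) * ((j : L) * a0 + B.ϖ ^ s' * a2)), ?_, ?_⟩
  · have hjA : (j : L) ∈ A := intCast_mem A j
    have h1 : (j : L) * a0 + B.ϖ ^ s' * a2 ∈ A :=
      add_mem (mul_mem hjA ha0) (mul_mem (pow_mem hϖA s') ha2)
    refine add_mem h1 (mul_mem (mul_mem ha1 hβ.inv_mem) ?_)
    exact add_mem (add_mem A.one_mem (mul_mem (mul_mem hjA B.α_unit.mem)
      (pow_mem hϖA _))) (mul_mem (pow_mem hϖA _) h1)
  · have hβ0 := hβ.ne_zero
    conv_lhs => rw [hcβ, map_mul, map_zpow₀, hη, mul_zpow, hpow, hσβ]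
    conv_rhs => rw [hcβ]
    rw [hs']
    field_simp
    ring

end BreakDatum

/-- **The wild frame**: a break datum with its absolute ramification, its tame layer `K1` (the
fixed field of `G`) and the identification of `K'` as the fixed field of `H`. -/
structure WildDatum {Γ : Type*} [Group Γ] [MulSemiringAction Γ L] (A : ValuationSubring L)
    (σ : L ≃+* L) (p : ℕ) (G H : Subgroup Γ) extends BreakDatum A σ where
  e_abs : ∃ u, UnitA A u ∧ (p : L) = ϖ ^ (p * (p - 1)) * u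
  /-- the tame layer -/
  K1 : Subfield L
  K1_le : K1 ≤ K'
  /-- its uniformiser -/
  π1 : L
  π1_mem : π1 ∈ K1
  π1_eq : ∃ u, UnitA A u ∧ π1 = ϖ ^ p * u
  π1_div : ∀ a ∈ K1, a ∈ A.nonunits → a / π1 ∈ A
  fixed1_iff : ∀ c, c ∈ K1 ↔ ∀ τ ∈ G, τ • c = c
  fixed_iff : ∀ c, c ∈ K' ↔ ∀ τ ∈ H, τ • c = c

end Fermat.Agent.S44.Core.Break
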