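/-
PROJECT P (S44), CORE, Core/NormPoly (helper6): THE EXPLICIT FACTOR AT THE TWO END VALUATIONS.

`(L, A)` a valued field, `σ` an automorphism of `L` with a break datum `B : BreakDatum A σ`
(`Core/Break`), `E` a field over `L` with a valuation subring `O` above `A`, `τ` a ring endomorphism
of `E` which is `σ` on the constants and fixes an element `ξ`.

For a polynomial `F` with coefficients in `K'` and a DOMINANT index `k0` at `ξ` (every other term of
`F(ξ)` is smaller than the `k0`-th one by a non-unit factor of `O`):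

  `τ(F(ξ)) / F(ξ) = 1 + ϖ^s (ordK(a_{k0}) α + m)`,   `m` a non-unit of `O`.

* `dominant`   : the statement above;
* `lead_side`  : `F` monic with non-unit lower coefficients, `ξ` a unit of `O` (the valuation `V₁`,
                 `k0 = deg F`): `τ(F(ξ)) / F(ξ) = 1 + ϖ^s m`;
* `const_side` : the constant term dominates (the valuation `V₂`, `k0 = 0`):
                 `τ(F(ξ)) / F(ξ) = 1 + ϖ^s (ordK(a_0) α + m)`;
* `coeff_mem_nonunits_of_roots`, `dom_of_roots` : the two hypotheses for `F = ∏ (X - z)`, `z` running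
                 through a multiset of non-units `z` of `A` with `ξ / z` a non-unit of `O`.

Mathlib + `Core/Break` only.
-/
import Mathlib
import Fermat.Agent.S44.Core.Break

set_option autoImplicit false

namespace Fermat.Agent.S44.Core.NormPoly

open Polynomial Fermat.Agent.S44.Core.Break

/-! ### non-units of a valuation subring -/

section Nonunits

variable {E : Type*} [Field E] {O : ValuationSubring E}

theorem non_add {x y : E} (hx : x ∈ O.nonunits) (hy : y ∈ O.nonunits) : x + y ∈ O.nonunits := by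
  rw [O.mem_nonunits_iff] at *
  exact lt_of_le_of_lt (O.valuation.map_add x y) (max_lt hx hy)

theorem non_zero : (0 : E) ∈ O.nonunits := by
  rw [O.mem_nonunits_iff, map_zero]
  exact zero_lt_one

theorem non_neg {x : E} (hx : x ∈ O.nonunits) : -x ∈ O.nonunits := by
  rw [O.mem_nonunits_iff] at *
  rwa [Valuation.map_neg]

theorem non_sub {x y : E} (hx : x ∈ O.nonunits) (hy : y ∈ O.nonunits) : x - y ∈ O.nonunits := by
  rw [sub_eq_add_neg]
  exact non_add hx (non_neg hy)

theorem non_sum {ι : Type*} (s : Finset ι) (f : ι → E) (h : ∀ i ∈ s, f i ∈ O.nonunits) :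
    ∑ i ∈ s, f i ∈ O.nonunits := by
  classical
  induction s using Finset.induction_on with
  | empty => simp
  | insert a s ha ih =>
    rw [Finset.sum_insert ha]
    exact non_add (h a (Finset.mem_insert_self a s))
      (ih fun i hi => h i (Finset.mem_insert_of_mem hi))

theorem non_mul_mem {x y : E} (hx : x ∈ O.nonunits) (hy : y ∈ O) : x * y ∈ O.nonunits := by
  rw [O.mem_nonunits_iff] at *
  rw [map_mul]
  exact mul_lt_one_of_lt_of_le hx ((O.valuation_le_one_iff y).2 hy)

theorem mem_mul_non {x y : E} (hx : x ∈ O) (hy : y ∈ O.nonunits) : x * y ∈ O.nonunits := by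
  rw [mul_comm]
  exact non_mul_mem hy hx

theorem mem_of_non {x : E} (hx : x ∈ O.nonunits) : x ∈ O := by
  rw [O.mem_nonunits_iff] at hx
  exact (O.valuation_le_one_iff x).1 hx.le

end Nonunits

variable {L : Type*} [Field L] {A : ValuationSubring L} {σ : L ≃+* L} (B : BreakDatum A σ)

/-- `σ` on a constant of `K'`, first order, uniformly in `c` (also for `c = 0`). -/
theorem exists_sub_eq {c : L} (hc : c ∈ B.K') :
    ∃ a ∈ A, σ c - c = c * B.ϖ ^ B.s * ((B.ordK c : L) * B.α + B.ϖ * a) := by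
  rcases eq_or_ne c 0 with rfl | h0
  · exact ⟨0, A.zero_mem, by simp⟩
  · obtain ⟨a, ha, h⟩ := B.displace hc h0
    refine ⟨a, ha, ?_⟩
    rw [h]
    ring

variable {E : Type*} [Field E] [Algebra L E] (O : ValuationSubring E)

/-- **The explicit factor at a dominant index.** -/
theorem dominant (hmem : ∀ a ∈ A, algebraMap L E a ∈ O)
    (hnon : ∀ a ∈ A.nonunits, algebraMap L E a ∈ O.nonunits)
    {τ : E →+* E} (hτ : ∀ c : L, τ (algebraMap L E c) = algebraMap L E (σ c))
    {ξ : E} (hτξ : τ ξ = ξ) (hξ0 : ξ ≠ 0)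
    {F : L[X]} (hFK : ∀ k, F.coeff k ∈ B.K') (k0 : ℕ) (h0 : F.coeff k0 ≠ 0)
    (hdom : ∀ k, k ≠ k0 →
      algebraMap L E (F.coeff k / F.coeff k0) * (ξ ^ k / ξ ^ k0) ∈ O.nonunits) :
    aeval ξ F ≠ 0 ∧
    (∃ m0 ∈ O.nonunits, aeval ξ F = algebraMap L E (F.coeff k0) * ξ ^ k0 * (1 + m0)) ∧
    ∃ m ∈ O.nonunits, τ (aeval ξ F) / aeval ξ F =
      1 + algebraMap L E (B.ϖ ^ B.s) *
        (algebraMap L E ((B.ordK (F.coeff k0) : L) * B.α) + m) := by
  classical
  set d := F.natDegree with hd
  set I := Finset.range (d + 1) with hI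
  have hk0I : k0 ∈ I := by
    rw [hI, Finset.mem_range]
    exact Nat.lt_succ_of_le (le_natDegree_of_ne_zero h0)
  have ha0E0 : algebraMap L E (F.coeff k0) ≠ 0 := (map_ne_zero (algebraMap L E)).2 h0
  have hX00 : ξ ^ k0 ≠ 0 := pow_ne_zero _ hξ0
  -- the normalised terms
  set t : ℕ → E := fun k => algebraMap L E (F.coeff k / F.coeff k0) * (ξ ^ k / ξ ^ k0) with ht
  have ht0 : t k0 = 1 := by
    simp only [ht]
    rw [div_self h0, map_one, one_mul, div_self hX00]
  have hterm : ∀ k, algebraMap L E (F.coeff k) * ξ ^ k = algebraMap L E (F.coeff k0) * ξ ^ k0 * t k := by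
    intro k
    simp only [ht]
    rw [map_div₀]
    field_simp
  -- `F(ξ) = a0 ξ^k0 (1 + S)`
  set S : E := ∑ k ∈ I.erase k0, t k with hS
  have hSnon : S ∈ O.nonunits :=
    non_sum _ _ fun k hk => hdom k (Finset.ne_of_mem_erase hk)
  have hF : aeval ξ F = algebraMap L E (F.coeff k0) * ξ ^ k0 * (1 + S) := by
    rw [aeval_eq_sum_range]
    simp only [Algebra.smul_def]
    rw [Finset.sum_congr rfl fun k _ => hterm k, ← Finset.mul_sum,
      ← Finset.add_sum_erase I t hk0I, ht0]
  have hU : UnitA O (1 + S) := unitA_one_add hSnon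
  have hU0 : 1 + S ≠ 0 := hU.ne_zero
  have hFne : aeval ξ F ≠ 0 := by
    rw [hF]
    exact mul_ne_zero (mul_ne_zero ha0E0 hX00) hU0
  refine ⟨hFne, ⟨S, hSnon, hF⟩, ?_⟩
  -- the coefficients `c k = a k / a k0` and their displacement
  have hcK : ∀ k, F.coeff k / F.coeff k0 ∈ B.K' := fun k => B.K'.div_mem (hFK k) (hFK k0)
  choose b hbA hb using fun k => exists_sub_eq B (hcK k)
  -- `τ (F(ξ))`
  have hτterm : ∀ k, τ (algebraMap L E (F.coeff k) * ξ ^ k) =
      algebraMap L E (σ (F.coeff k)) * ξ ^ k := by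
    intro k
    rw [map_mul, map_pow, hτ, hτξ]
  set w : E := algebraMap L E (B.ϖ ^ B.s) with hw
  set m1 : E := ∑ k ∈ I.erase k0,
    t k * algebraMap L E ((B.ordK (F.coeff k / F.coeff k0) : L) * B.α + B.ϖ * b k) with hm1
  have hm1non : m1 ∈ O.nonunits := by
    refine non_sum _ _ fun k hk => non_mul_mem (hdom k (Finset.ne_of_mem_erase hk)) (hmem _ ?_)
    exact add_mem (mul_mem (intCast_mem A _) B.α_unit.mem) (mul_mem B.ϖ_memA (hbA k))
  obtain ⟨a, haA, hσa0⟩ := exists_sub_eq B (hFK k0)
  set j : ℤ := B.ordK (F.coeff k0) with hj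
  have hσa0' : algebraMap L E (σ (F.coeff k0)) =
      algebraMap L E (F.coeff k0) * (1 + w * (algebraMap L E ((j : L) * B.α) + algebraMap L E (B.ϖ * a))) := by
    have h1 : σ (F.coeff k0) =
        F.coeff k0 * (1 + B.ϖ ^ B.s * ((j : L) * B.α + B.ϖ * a)) := by
      have := hσa0
      rw [sub_eq_iff_eq_add] at this
      rw [this]
      ring
    rw [h1, map_mul, map_add, map_one, map_mul, map_add]
  have hσa00 : σ (F.coeff k0) ≠ 0 := (map_ne_zero σ).2 h0
  have hτF : τ (aeval ξ F) = algebraMap L E (σ (F.coeff k0)) * ξ ^ k0 * (1 + S + w * m1) := by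
    rw [aeval_eq_sum_range]
    simp only [Algebra.smul_def]
    rw [map_sum, Finset.sum_congr rfl fun k _ => hτterm k]
    have hterm' : ∀ k, algebraMap L E (σ (F.coeff k)) * ξ ^ k =
        algebraMap L E (σ (F.coeff k0)) * ξ ^ k0 *
          (t k + w * (t k * algebraMap L E
            ((B.ordK (F.coeff k / F.coeff k0) : L) * B.α + B.ϖ * b k))) := by
      intro k
      have h2 : σ (F.coeff k) = σ (F.coeff k0) * σ (F.coeff k / F.coeff k0) := by
        rw [← map_mul, mul_div_cancel₀ _ h0]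
      have h3 : σ (F.coeff k / F.coeff k0) = F.coeff k / F.coeff k0 *
          (1 + B.ϖ ^ B.s * ((B.ordK (F.coeff k / F.coeff k0) : L) * B.α + B.ϖ * b k)) := by
        have := hb k
        rw [sub_eq_iff_eq_add] at this
        rw [this]
        ring
      rw [h2, h3]
      simp only [ht, hw]
      simp only [map_mul, map_add, map_one]
      field_simp
    rw [Finset.sum_congr rfl fun k _ => hterm' k, ← Finset.mul_sum, Finset.sum_add_distrib,
      ← Finset.mul_sum, ← Finset.add_sum_erase I t hk0I, ht0]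
    have hβ0 : (B.ordK (F.coeff k0 / F.coeff k0) : L) * B.α + B.ϖ * b k0 = 0 := by
      have h4 := hb k0
      rw [div_self h0, map_one, sub_self, one_mul] at h4
      rcases mul_eq_zero.1 h4.symm with h5 | h5
      · exact absurd h5 (pow_ne_zero _ B.ϖ_ne)
      · rw [div_self h0]
        exact h5
    have hz : ∑ k ∈ I, t k * algebraMap L E
        ((B.ordK (F.coeff k / F.coeff k0) : L) * B.α + B.ϖ * b k) = m1 := by
      rw [hm1, ← Finset.add_sum_erase I _ hk0I, hβ0, map_zero, mul_zero, zero_add]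
    rw [hz]
  -- the quotient
  set m2 : E := m1 * (1 + S)⁻¹ with hm2
  have hm2non : m2 ∈ O.nonunits := non_mul_mem hm1non hU.inv_mem
  set Jα : E := algebraMap L E ((j : L) * B.α) with hJα
  set P : E := algebraMap L E (B.ϖ * a) with hP
  have hPnon : P ∈ O.nonunits := hnon _ (by
    have h6 := B.ϖ_non
    rw [A.mem_nonunits_iff] at h6 ⊢
    rw [map_mul]
    exact mul_lt_one_of_lt_of_le h6 ((A.valuation_le_one_iff a).2 haA))
  have hwO : w ∈ O := hmem _ (pow_mem B.ϖ_memA _)
  have hJO : Jα ∈ O := hmem _ (mul_mem (intCast_mem A _) B.α_unit.mem)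
  refine ⟨P + m2 + w * (Jα + P) * m2, ?_, ?_⟩
  · exact non_add (non_add hPnon hm2non)
      (mem_mul_non (mul_mem hwO (add_mem hJO (mem_of_non hPnon))) hm2non)
  · rw [hτF, hσa0', hF, hm2]
    field_simp
    ring

/-- **The constant term dominates** (the far end valuation `V₂`). -/
theorem const_side (hmem : ∀ a ∈ A, algebraMap L E a ∈ O)
    (hnon : ∀ a ∈ A.nonunits, algebraMap L E a ∈ O.nonunits)
    {τ : E →+* E} (hτ : ∀ c : L, τ (algebraMap L E c) = algebraMap L E (σ c))
    {ξ : E} (hτξ : τ ξ = ξ) (hξ0 : ξ ≠ 0)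
    {F : L[X]} (hFK : ∀ k, F.coeff k ∈ B.K') (h0 : F.coeff 0 ≠ 0)
    (hdom : ∀ k, 1 ≤ k → algebraMap L E (F.coeff k / F.coeff 0) * ξ ^ k ∈ O.nonunits) :
    aeval ξ F ≠ 0 ∧
    (∃ m0 ∈ O.nonunits, aeval ξ F = algebraMap L E (F.coeff 0) * (1 + m0)) ∧
    ∃ m ∈ O.nonunits, τ (aeval ξ F) / aeval ξ F =
      1 + algebraMap L E (B.ϖ ^ B.s) *
        (algebraMap L E ((B.ordK (F.coeff 0) : L) * B.α) + m) := by
  obtain ⟨h1, ⟨m0, hm0, h2⟩, h3⟩ := dominant B O hmem hnon hτ hτξ hξ0 hFK 0 h0 (fun k hk => by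
    rw [pow_zero, div_one]
    exact hdom k (Nat.one_le_iff_ne_zero.2 hk))
  refine ⟨h1, ⟨m0, hm0, ?_⟩, h3⟩
  rw [h2, pow_zero, mul_one]

/-- **The leading term dominates** (the near end valuation `V₁`): `F` monic with non-unit lower
coefficients, `ξ` a unit of `O`. -/
theorem lead_side (hmem : ∀ a ∈ A, algebraMap L E a ∈ O)
    (hnon : ∀ a ∈ A.nonunits, algebraMap L E a ∈ O.nonunits)
    {τ : E →+* E} (hτ : ∀ c : L, τ (algebraMap L E c) = algebraMap L E (σ c))
    {ξ : E} (hτξ : τ ξ = ξ) (hξ0 : ξ ≠ 0) (hξi : ξ⁻¹ ∈ O)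
    {F : L[X]} (hFK : ∀ k, F.coeff k ∈ B.K') (hF1 : F.Monic)
    (hlow : ∀ k, k < F.natDegree → F.coeff k ∈ A.nonunits) :
    aeval ξ F ≠ 0 ∧
    (∃ m0 ∈ O.nonunits, aeval ξ F = ξ ^ F.natDegree * (1 + m0)) ∧
    ∃ m ∈ O.nonunits, τ (aeval ξ F) / aeval ξ F = 1 + algebraMap L E (B.ϖ ^ B.s) * m := by
  have hc1 : F.coeff F.natDegree = 1 := hF1.coeff_natDegree
  have h0 : F.coeff F.natDegree ≠ 0 := by rw [hc1]; exact one_ne_zero
  obtain ⟨h1, ⟨m0, hm0, h2⟩, m, hm, h3⟩ :=
    dominant B O hmem hnon hτ hτξ hξ0 hFK F.natDegree h0 (fun k hk => by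
      rw [hc1, div_one]
      rcases lt_or_gt_of_ne hk with hlt | hgt
      · -- `k < d`: a non-unit constant times a power of `ξ⁻¹`
        have h4 : ξ ^ k / ξ ^ F.natDegree = ξ⁻¹ ^ (F.natDegree - k) := by
          have h6 : ξ ^ F.natDegree = ξ ^ k * ξ ^ (F.natDegree - k) := by
            rw [← pow_add, Nat.add_sub_cancel' hlt.le]
          rw [h6, inv_pow, div_mul_eq_div_div, div_self (pow_ne_zero _ hξ0), one_div]
        rw [h4]
        exact non_mul_mem (hnon _ (hlow k hlt)) (pow_mem hξi _)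
      · rw [coeff_eq_zero_of_natDegree_lt hgt, map_zero, zero_mul]
        exact non_zero)
  refine ⟨h1, ⟨m0, hm0, ?_⟩, m, hm, ?_⟩
  · rw [h2, hc1, map_one, one_mul]
  · have h5 : B.ordK (F.coeff F.natDegree) = 0 := by
      rw [hc1]
      exact B.ordK_unit B.K'.one_mem unitA_one
    rw [h3, h5]
    simp

/-! ### the two hypotheses for a product of linear factors -/

section Roots

/-- the monic polynomial with the given multiset of roots -/
noncomputable def ofRoots (s : Multiset L) : L[X] := (s.map fun z => X - C z).prod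

theorem ofRoots_zero : ofRoots (0 : Multiset L) = 1 := by
  simp [ofRoots]

theorem ofRoots_cons (z : L) (s : Multiset L) : ofRoots (z ::ₘ s) = ofRoots s * (X - C z) := by
  simp [ofRoots, mul_comm]

theorem monic_ofRoots (s : Multiset L) : (ofRoots s).Monic :=
  monic_multiset_prod_of_monic _ _ fun z _ => monic_X_sub_C z

theorem natDegree_ofRoots (s : Multiset L) : (ofRoots s).natDegree = Multiset.card s := by
  rw [ofRoots, natDegree_multiset_prod_of_monic _ (by
    intro f hf
    obtain ⟨z, _, rfl⟩ := Multiset.mem_map.1 hf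
    exact monic_X_sub_C z)]
  simp

theorem coeff_ofRoots_cons_zero (z : L) (s : Multiset L) :
    (ofRoots (z ::ₘ s)).coeff 0 = - (z * (ofRoots s).coeff 0) := by
  rw [ofRoots_cons, mul_coeff_zero]
  simp [mul_comm]

theorem coeff_ofRoots_cons_succ (z : L) (s : Multiset L) (k : ℕ) :
    (ofRoots (z ::ₘ s)).coeff (k + 1) = (ofRoots s).coeff k - (ofRoots s).coeff (k + 1) * z := by
  rw [ofRoots_cons, coeff_mul_X_sub_C]

/-- roots in the maximal ideal: the lower coefficients are non-units -/
theorem coeff_mem_nonunits_of_roots (s : Multiset L) (hs : ∀ z ∈ s, z ∈ A.nonunits) :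
    ∀ k, k < Multiset.card s → (ofRoots s).coeff k ∈ A.nonunits := by
  induction s using Multiset.induction_on with
  | empty => intro k hk; simp at hk
  | cons z s ih =>
    have hz : z ∈ A.nonunits := hs z (Multiset.mem_cons_self z s)
    have ih' := ih fun y hy => hs y (Multiset.mem_cons_of_mem hy)
    have hint : ∀ k, (ofRoots s).coeff k ∈ A := by
      intro k
      rcases lt_trichotomy k (Multiset.card s) with h | h | h
      · exact mem_of_non (ih' k h)
      · rw [h, ← natDegree_ofRoots s, (monic_ofRoots s).coeff_natDegree]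
        exact A.one_mem
      · rw [coeff_eq_zero_of_natDegree_lt (by rw [natDegree_ofRoots]; exact h)]
        exact A.zero_mem
    intro k hk
    rw [Multiset.card_cons] at hk
    rcases k with _ | k
    · rw [coeff_ofRoots_cons_zero]
      exact non_neg (non_mul_mem hz (hint 0))
    · rw [coeff_ofRoots_cons_succ]
      exact non_sub (ih' k (by omega)) (mem_mul_non (hint (k + 1)) hz)

/-- integrality of the coefficients for integral roots -/
theorem coeff_mem_of_roots (s : Multiset L) (hs : ∀ z ∈ s, z ∈ A.nonunits) (k : ℕ) :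
    (ofRoots s).coeff k ∈ A := by
  rcases lt_trichotomy k (Multiset.card s) with h | h | h
  · exact mem_of_non (coeff_mem_nonunits_of_roots s hs k h)
  · rw [h, ← natDegree_ofRoots s, (monic_ofRoots s).coeff_natDegree]
    exact A.one_mem
  · rw [coeff_eq_zero_of_natDegree_lt (by rw [natDegree_ofRoots]; exact h)]
    exact A.zero_mem

theorem coeff_zero_ofRoots_ne_zero (s : Multiset L) (hs : ∀ z ∈ s, z ≠ 0) :
    (ofRoots s).coeff 0 ≠ 0 := by
  induction s using Multiset.induction_on with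
  | empty => simp [ofRoots_zero]
  | cons z s ih =>
    rw [coeff_ofRoots_cons_zero]
    exact neg_ne_zero.2 (mul_ne_zero (hs z (Multiset.mem_cons_self z s))
      (ih fun y hy => hs y (Multiset.mem_cons_of_mem hy)))

/-- **the constant term dominates when `ξ / z` is a non-unit for every root `z`** -/
theorem dom_of_roots {ξ : E} (s : Multiset L) (hs0 : ∀ z ∈ s, z ≠ 0)
    (hs : ∀ z ∈ s, ξ * (algebraMap L E z)⁻¹ ∈ O.nonunits) :
    ∀ k, 1 ≤ k →
      algebraMap L E ((ofRoots s).coeff k / (ofRoots s).coeff 0) * ξ ^ k ∈ O.nonunits := by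
  induction s using Multiset.induction_on with
  | empty =>
    intro k hk
    rw [ofRoots_zero, coeff_one, if_neg (by omega), zero_div, map_zero, zero_mul]
    exact non_zero
  | cons z s ih =>
    have hz0 : z ≠ 0 := hs0 z (Multiset.mem_cons_self z s)
    have hz : ξ * (algebraMap L E z)⁻¹ ∈ O.nonunits := hs z (Multiset.mem_cons_self z s)
    have hs0' : ∀ y ∈ s, y ≠ 0 := fun y hy => hs0 y (Multiset.mem_cons_of_mem hy)
    have ih' := ih hs0' fun y hy => hs y (Multiset.mem_cons_of_mem hy)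
    have hc0 : (ofRoots s).coeff 0 ≠ 0 := coeff_zero_ofRoots_ne_zero s hs0'
    -- the normalised coefficients of `s` are integral
    have hint : ∀ k, algebraMap L E ((ofRoots s).coeff k / (ofRoots s).coeff 0) * ξ ^ k ∈ O := by
      intro k
      rcases k with _ | k
      · rw [div_self hc0, map_one, pow_zero, one_mul]
        exact O.one_mem
      · exact mem_of_non (ih' (k + 1) (by omega))
    intro k hk
    obtain ⟨k, rfl⟩ : ∃ k', k = k' + 1 := ⟨k - 1, by omega⟩
    rw [coeff_ofRoots_cons_succ, coeff_ofRoots_cons_zero]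
    have hzE : algebraMap L E z ≠ 0 := (_root_.map_ne_zero _).2 hz0
    have hcE : algebraMap L E ((ofRoots s).coeff 0) ≠ 0 := (_root_.map_ne_zero _).2 hc0
    have key : algebraMap L E (((ofRoots s).coeff k - (ofRoots s).coeff (k + 1) * z) /
        -(z * (ofRoots s).coeff 0)) * ξ ^ (k + 1) =
        algebraMap L E ((ofRoots s).coeff (k + 1) / (ofRoots s).coeff 0) * ξ ^ (k + 1) -
          ξ * (algebraMap L E z)⁻¹ *
            (algebraMap L E ((ofRoots s).coeff k / (ofRoots s).coeff 0) * ξ ^ k) := by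
      simp only [map_div₀, map_sub, map_mul, map_neg]
      field_simp
      ring
    rw [key]
    exact non_sub (ih' (k + 1) (by omega)) (non_mul_mem hz (hint k))

end Roots

end Fermat.Agent.S44.Core.NormPoly
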