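/-
PROJECT P (S44), CORE, Core/Induct (helper6): THE INDUCTION `h = c_r (1 + ϖ^r g_r)`, `r ≤ s`, AND THE
EQUALITY OF THE MOMENTS, FROM A REGULARITY ORACLE.

`(L, A)` a valued field with residue map `π : A →+* k`, `σ` an automorphism of `L` with a break
datum `B : BreakDatum A σ` (`Core/Break`), `FL` a field over `L` with two Gauss branches `R1`, `R2`
(`S34.NodalDefs.Branch`), `FK'` a subfield of `FL` containing the constants of `K'` on which both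
Gauss valuations take their values in `v(ϖ)^ℤ` (`hVG1`, `hVG2`), `h ∈ FK'` a non-zero function.

For `c ∈ K'` put `Y r c := (h / c - 1) / ϖ^r`.  The geometry enters through three ORACLES only
(produced from pole control + local gluing + the explicit factors in `Core/Oracle`):

* `or0` : if `h / c ∈ O₁ ∩ O₂` then its two reductions are one and the same constant;
* `orr` : for `1 ≤ r < s`, if `Y r c ∈ O₁ ∩ O₂` then its two reductions are one and the same constant;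
* `ors` : if `Y s c ∈ O₁ ∩ O₂` then its two reductions are constants `κ₁`, `κ₂` with
  `κ₁ = κ₂ - ᾱ μ_e` for EVERY node `e`.

Conclusion (`moment_eq`): `μ_e = μ_e'` in `k` for all nodes `e`, `e'`.

Mathlib + `S34/NodalDisc` (Branch API) + `Core/Break` + `Core/NormPoly` (non-unit lemmas).
-/
import Mathlib
import Fermat.Agent.S34.NodalDisc
import Fermat.Agent.S44.Core.NormPoly

set_option autoImplicit false

namespace Fermat.Agent.S44.Core.Induct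

open Fermat.Agent.S34.NodalDefs Fermat.Agent.S34.NodalDisc
open Fermat.Agent.S44.Core.Break Fermat.Agent.S44.Core.NormPoly

variable {L : Type*} [Field L] {k : Type*} [Field k] {A : ValuationSubring L} {π : A →+* k}
variable {FL : Type*} [Field FL] [Algebra L FL]

/-! ### one branch -/

section OneBranch

variable {Fk : Type*} [Field Fk] [Algebra k Fk] (R : Branch A π FL Fk)

/-- the reduction vanishes exactly on the non-units -/
theorem red_eq_zero_iff_non (y : R.O) : R.red y = 0 ↔ ((y : R.O) : FL) ∈ R.O.nonunits := by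
  rw [R.red_eq_zero_iff, R.O.mem_nonunits_iff, R.O.valuation_eq_one_iff]
  have h1 : R.O.valuation ((y : R.O) : FL) ≤ 1 := R.O.valuation_le_one y
  constructor
  · intro h
    exact lt_of_le_of_ne h1 h
  · intro h
    exact ne_of_lt h

/-- constants of the maximal ideal of `A` are non-units of `O` -/
theorem const_non {a : L} (ha : a ∈ A.nonunits) : algebraMap L FL a ∈ R.O.nonunits := by
  have haA : a ∈ A := mem_of_non ha
  have h1 : π ⟨a, haA⟩ = 0 := by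
    rw [pi_eq_zero_iff R, IsLocalRing.mem_maximalIdeal, mem_nonunits_iff]
    intro hu
    rw [A.mem_nonunits_iff] at ha
    have h3 : A.valuation a = 1 := (A.valuation_eq_one_iff ⟨a, haA⟩).1 hu
    exact (ne_of_lt ha) h3
  have h2 : R.red (constHom R ⟨a, haA⟩) = 0 := by rw [red_constHom, h1, map_zero]
  exact (red_eq_zero_iff_non R _).1 h2

/-- constants of `A` lie in `O` -/
theorem const_mem {a : L} (ha : a ∈ A) : algebraMap L FL a ∈ R.O := R.algebraMap_mem ⟨a, ha⟩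

/-- unit constants are units of `O` -/
theorem const_unit {a : L} (ha : UnitA A a) : UnitA R.O (algebraMap L FL a) := by
  rw [unitA_iff]
  refine ⟨(map_ne_zero _).2 ha.ne_zero, const_mem R ha.mem, ?_⟩
  rw [← map_inv₀]
  exact const_mem R ha.inv_mem

/-- the reduction of a constant -/
theorem red_const {a : L} (ha : a ∈ A) (hm : algebraMap L FL a ∈ R.O) :
    R.red ⟨algebraMap L FL a, hm⟩ = algebraMap k Fk (π ⟨a, ha⟩) :=
  R.red_algebraMap ⟨a, ha⟩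

variable {σ : L ≃+* L} (B : BreakDatum A σ)

/-- a non-unit of `O` whose valuation is a power of that of `ϖ` is divisible by `ϖ` -/
theorem div_mem_of_vg {z : FL} (hz : z ∈ R.O.nonunits)
    (hvg : z ≠ 0 → ∃ n : ℤ, UnitA R.O (z * algebraMap L FL (B.ϖ ^ (-n)))) :
    z / algebraMap L FL B.ϖ ∈ R.O := by
  rcases eq_or_ne z 0 with rfl | hz0
  · rw [zero_div]
    exact R.O.zero_mem
  obtain ⟨n, hn⟩ := hvg hz0
  have hwnon : algebraMap L FL B.ϖ ∈ R.O.nonunits := const_non R B.ϖ_non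
  have hw0 : algebraMap L FL B.ϖ ≠ 0 := (map_ne_zero _).2 B.ϖ_ne
  have hwlt : R.O.valuation (algebraMap L FL B.ϖ) < 1 := (R.O.mem_nonunits_iff).1 hwnon
  have hwpos : 0 < R.O.valuation (algebraMap L FL B.ϖ) :=
    zero_lt_iff.2 ((Valuation.ne_zero_iff _).2 hw0)
  -- `v z = v ϖ ^ n`
  have hvz : R.O.valuation z = R.O.valuation (algebraMap L FL B.ϖ) ^ n := by
    have h1 : R.O.valuation (z * algebraMap L FL (B.ϖ ^ (-n))) = 1 := hn
    rw [map_mul, map_zpow₀, map_zpow₀, zpow_neg] at h1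
    have h2 : R.O.valuation (algebraMap L FL B.ϖ) ^ n ≠ 0 := zpow_ne_zero _ hwpos.ne'
    rw [mul_inv_eq_one₀ h2] at h1
    exact h1
  -- `1 ≤ n`
  have hn1 : 1 ≤ n := by
    by_contra hcon
    have hn0 : n ≤ 0 := by omega
    have hzlt : R.O.valuation z < 1 := (R.O.mem_nonunits_iff).1 hz
    rw [hvz, ← zpow_zero (R.O.valuation (algebraMap L FL B.ϖ))] at hzlt
    have := (zpow_lt_zpow_iff_right_of_lt_one₀ hwpos hwlt).1 hzlt
    omega
  rw [← R.O.valuation_le_one_iff, map_div₀, hvz]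
  have h3 : R.O.valuation (algebraMap L FL B.ϖ) ^ n / R.O.valuation (algebraMap L FL B.ϖ) =
      R.O.valuation (algebraMap L FL B.ϖ) ^ (n - 1) := by
    rw [zpow_sub_one₀ hwpos.ne', div_eq_mul_inv]
  rw [h3, ← zpow_zero (R.O.valuation (algebraMap L FL B.ϖ))]
  exact (zpow_le_zpow_iff_right_of_lt_one₀ hwpos hwlt).2 (by omega)

end OneBranch

/-! ### the induction -/

section Induction

variable {F1 : Type*} [Field F1] [Algebra k F1] {F2 : Type*} [Field F2] [Algebra k F2]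
variable (R1 : Branch A π FL F1) (R2 : Branch A π FL F2)
variable {σ : L ≃+* L} (B : BreakDatum A σ)

/-- `Y r c = (h / c - 1) / ϖ^r` -/
noncomputable def Y (h : FL) (r : ℕ) (c : L) : FL :=
  (h / algebraMap L FL c - 1) / algebraMap L FL (B.ϖ ^ r)

/-- the two reductions of `y` are one and the same constant -/
def SameConst (y : FL) : Prop :=
  ∀ (h1 : y ∈ R1.O) (h2 : y ∈ R2.O), ∃ κ : k,
    R1.red ⟨y, h1⟩ = algebraMap k F1 κ ∧ R2.red ⟨y, h2⟩ = algebraMap k F2 κ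

variable {R1 R2 B}

/-- the algebraic identity behind one step -/
theorem Y_succ_eq {h : FL} {r : ℕ} {c κt : L} (hc0 : c ≠ 0) (hu0 : 1 + B.ϖ ^ r * κt ≠ 0) :
    Y B h (r + 1) (c * (1 + B.ϖ ^ r * κt)) =
      (Y B h r c - algebraMap L FL κt) / algebraMap L FL B.ϖ *
        (algebraMap L FL (1 + B.ϖ ^ r * κt))⁻¹ := by
  have hcE : algebraMap L FL c ≠ 0 := (map_ne_zero _).2 hc0
  have hwE : algebraMap L FL B.ϖ ≠ 0 := (map_ne_zero _).2 B.ϖ_ne
  have huE : algebraMap L FL (1 + B.ϖ ^ r * κt) ≠ 0 := (map_ne_zero _).2 hu0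
  rw [Y, Y]
  simp only [map_mul, map_pow, map_add, map_one] at huE ⊢
  field_simp
  ring

/-- one step, on one branch -/
theorem step_one {Fk : Type*} [Field Fk] [Algebra k Fk] (R : Branch A π FL Fk)
    (FK : Subfield FL) (hKFK : ∀ c ∈ B.K', algebraMap L FL c ∈ FK)
    (hVG : ∀ f ∈ FK, f ≠ 0 → ∃ n : ℤ, UnitA R.O (f * algebraMap L FL (B.ϖ ^ (-n))))
    {h : FL} (hh : h ∈ FK) {r : ℕ} (hr : 1 ≤ r) {c : L} (hc : c ∈ B.K') (hc0 : c ≠ 0)
    {κt : L} (hκtK : κt ∈ B.K') (hκtA : κt ∈ A)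
    (hy : Y B h r c ∈ R.O) (hred : R.red ⟨Y B h r c, hy⟩ = algebraMap k Fk (π ⟨κt, hκtA⟩)) :
    Y B h (r + 1) (c * (1 + B.ϖ ^ r * κt)) ∈ R.O := by
  have hxnon : B.ϖ ^ r * κt ∈ A.nonunits := by
    have h3 : B.ϖ ^ r ∈ A.nonunits := by
      rw [A.mem_nonunits_iff, map_pow]
      exact pow_lt_one₀ zero_le B.val_ϖ_lt (by omega)
    exact non_mul_mem h3 hκtA
  have hu : UnitA A (1 + B.ϖ ^ r * κt) := unitA_one_add hxnon
  set z : FL := Y B h r c - algebraMap L FL κt with hz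
  have hyFK : Y B h r c ∈ FK := by
    rw [Y]
    exact FK.div_mem (FK.sub_mem (FK.div_mem hh (hKFK c hc)) FK.one_mem)
      (hKFK _ (B.K'.pow_mem B.ϖ_mem r))
  have hzFK : z ∈ FK := FK.sub_mem hyFK (hKFK κt hκtK)
  have hκm : algebraMap L FL κt ∈ R.O := const_mem R hκtA
  have hzR : z ∈ R.O := sub_mem hy hκm
  have hzred : R.red ⟨z, hzR⟩ = 0 := by
    have h4 : (⟨z, hzR⟩ : R.O) = ⟨Y B h r c, hy⟩ - ⟨algebraMap L FL κt, hκm⟩ := Subtype.ext rfl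
    rw [h4, map_sub, hred, red_const R hκtA hκm, sub_self]
  have hznon : z ∈ R.O.nonunits := (red_eq_zero_iff_non R _).1 hzred
  rw [Y_succ_eq hc0 hu.ne_zero]
  exact mul_mem (div_mem_of_vg R B hznon fun h0 => hVG z hzFK h0) (const_unit R hu).inv_mem

/-- **One step of the induction**, `1 ≤ r`. -/
theorem step (FK : Subfield FL) (hKFK : ∀ c ∈ B.K', algebraMap L FL c ∈ FK)
    (hres : ∀ κ : k, ∃ c ∈ B.K', ∃ hc : c ∈ A, π ⟨c, hc⟩ = κ)
    (hVG1 : ∀ f ∈ FK, f ≠ 0 → ∃ n : ℤ, UnitA R1.O (f * algebraMap L FL (B.ϖ ^ (-n))))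
    (hVG2 : ∀ f ∈ FK, f ≠ 0 → ∃ n : ℤ, UnitA R2.O (f * algebraMap L FL (B.ϖ ^ (-n))))
    {h : FL} (hh : h ∈ FK) {r : ℕ} (hr : 1 ≤ r) {c : L} (hc : c ∈ B.K') (hc0 : c ≠ 0)
    (h1 : Y B h r c ∈ R1.O) (h2 : Y B h r c ∈ R2.O) (hsame : SameConst R1 R2 (Y B h r c)) :
    ∃ c' ∈ B.K', c' ≠ 0 ∧ Y B h (r + 1) c' ∈ R1.O ∧ Y B h (r + 1) c' ∈ R2.O := by
  obtain ⟨κ, hκ1, hκ2⟩ := hsame h1 h2
  obtain ⟨κt, hκtK, hκtA, hκt⟩ := hres κ
  have hxnon : B.ϖ ^ r * κt ∈ A.nonunits := by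
    have h3 : B.ϖ ^ r ∈ A.nonunits := by
      rw [A.mem_nonunits_iff, map_pow]
      exact pow_lt_one₀ zero_le B.val_ϖ_lt (by omega)
    exact non_mul_mem h3 hκtA
  have hu : UnitA A (1 + B.ϖ ^ r * κt) := unitA_one_add hxnon
  refine ⟨c * (1 + B.ϖ ^ r * κt), B.K'.mul_mem hc (B.K'.add_mem B.K'.one_mem
    (B.K'.mul_mem (B.K'.pow_mem B.ϖ_mem r) hκtK)), mul_ne_zero hc0 hu.ne_zero, ?_, ?_⟩
  · exact step_one R1 FK hKFK hVG1 hh hr hc hc0 hκtK hκtA h1 (by rw [hκ1, hκt])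
  · exact step_one R2 FK hKFK hVG2 hh hr hc hc0 hκtK hκtA h2 (by rw [hκ2, hκt])

/-- `π` of a unit of `A` is not zero -/
theorem pi_unit_ne_zero {Fk : Type*} [Field Fk] [Algebra k Fk] (R : Branch A π FL Fk) {a : L}
    (ha : UnitA A a) : π ⟨a, ha.mem⟩ ≠ 0 := by
  intro h0
  rw [pi_eq_zero_iff R, IsLocalRing.mem_maximalIdeal, mem_nonunits_iff] at h0
  exact h0 ((A.valuation_eq_one_iff ⟨a, ha.mem⟩).2 ha)

/-- a unit of `O` has non-zero reduction -/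
theorem red_ne_zero_of_unit {Fk : Type*} [Field Fk] [Algebra k Fk] (R : Branch A π FL Fk) {y : FL}
    (hy : UnitA R.O y) : R.red ⟨y, hy.mem⟩ ≠ 0 := by
  intro h0
  have h1 := (red_eq_zero_iff_non R _).1 h0
  rw [R.O.mem_nonunits_iff] at h1
  exact (ne_of_lt h1) hy

/-- an element of `O` with non-zero reduction is a unit -/
theorem unit_of_red_ne_zero {Fk : Type*} [Field Fk] [Algebra k Fk] (R : Branch A π FL Fk) {y : FL}
    (hy : y ∈ R.O) (h : R.red ⟨y, hy⟩ ≠ 0) : UnitA R.O y := by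
  have h1 : R.O.valuation y ≤ 1 := (R.O.valuation_le_one_iff y).2 hy
  rcases lt_or_eq_of_le h1 with h2 | h2
  · exact absurd ((red_eq_zero_iff_non R ⟨y, hy⟩).2 ((R.O.mem_nonunits_iff).2 h2)) h
  · exact h2

/-- **The zeroth step**: a constant `c` of `K'` such that `h / c` is a unit of both Gauss rings. -/
theorem exists_unit_both (FK : Subfield FL)
    (hVG1 : ∀ f ∈ FK, f ≠ 0 → ∃ n : ℤ, UnitA R1.O (f * algebraMap L FL (B.ϖ ^ (-n))))
    (hVG2 : ∀ f ∈ FK, f ≠ 0 → ∃ n : ℤ, UnitA R2.O (f * algebraMap L FL (B.ϖ ^ (-n))))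
    {h : FL} (hh : h ∈ FK) (hh0 : h ≠ 0)
    (or0 : ∀ c ∈ B.K', c ≠ 0 → SameConst R1 R2 (h / algebraMap L FL c)) :
    ∃ c ∈ B.K', c ≠ 0 ∧ UnitA R1.O (h / algebraMap L FL c) ∧
      UnitA R2.O (h / algebraMap L FL c) := by
  obtain ⟨n1, hn1⟩ := hVG1 h hh hh0
  obtain ⟨n2, hn2⟩ := hVG2 h hh hh0
  set n : ℤ := min n1 n2 with hn
  have hcK : B.ϖ ^ n ∈ B.K' := B.K'.zpow_mem B.ϖ_mem n
  have hc0 : B.ϖ ^ n ≠ 0 := zpow_ne_zero _ B.ϖ_ne
  have hwE : algebraMap L FL B.ϖ ≠ 0 := (map_ne_zero _).2 B.ϖ_ne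
  -- `h / ϖ^n = (h ϖ^(-m)) ϖ^(m - n)`
  have hsplit : ∀ m : ℤ, h / algebraMap L FL (B.ϖ ^ n) =
      h * algebraMap L FL (B.ϖ ^ (-m)) * algebraMap L FL (B.ϖ ^ (m - n)) := by
    intro m
    simp only [map_zpow₀]
    rw [zpow_sub₀ hwE, zpow_neg]
    field_simp
  have hpow : ∀ j : ℤ, 0 ≤ j → B.ϖ ^ j ∈ A := by
    intro j hj
    obtain ⟨i, rfl⟩ := Int.eq_ofNat_of_zero_le hj
    rw [zpow_natCast]
    exact pow_mem B.ϖ_memA i
  have hf1 : h / algebraMap L FL (B.ϖ ^ n) ∈ R1.O := by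
    rw [hsplit n1]
    exact mul_mem hn1.mem (const_mem R1 (hpow _ (by have := min_le_left n1 n2; omega)))
  have hf2 : h / algebraMap L FL (B.ϖ ^ n) ∈ R2.O := by
    rw [hsplit n2]
    exact mul_mem hn2.mem (const_mem R2 (hpow _ (by have := min_le_right n1 n2; omega)))
  obtain ⟨κ, hκ1, hκ2⟩ := or0 _ hcK hc0 hf1 hf2
  refine ⟨B.ϖ ^ n, hcK, hc0, ?_⟩
  rcases le_total n1 n2 with hle | hle
  · -- unit at the first ring
    have hu1 : UnitA R1.O (h / algebraMap L FL (B.ϖ ^ n)) := by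
      rw [hsplit n1, hn, min_eq_left hle, sub_self, zpow_zero, map_one, mul_one]
      exact hn1
    have hκ0 : κ ≠ 0 := by
      rintro rfl
      exact red_ne_zero_of_unit R1 hu1 (by rw [hκ1, map_zero])
    refine ⟨hu1, unit_of_red_ne_zero R2 hf2 ?_⟩
    rw [hκ2]
    exact (map_ne_zero _).2 hκ0
  · have hu2 : UnitA R2.O (h / algebraMap L FL (B.ϖ ^ n)) := by
      rw [hsplit n2, hn, min_eq_right hle, sub_self, zpow_zero, map_one, mul_one]
      exact hn2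
    have hκ0 : κ ≠ 0 := by
      rintro rfl
      exact red_ne_zero_of_unit R2 hu2 (by rw [hκ2, map_zero])
    refine ⟨unit_of_red_ne_zero R1 hf1 ?_, hu2⟩
    rw [hκ1]
    exact (map_ne_zero _).2 hκ0

/-- the algebraic identity behind the first step -/
theorem Y_one_eq {h : FL} {c κt : L} (hc0 : c ≠ 0) (hκ0 : κt ≠ 0) :
    Y B h 1 (c * κt) =
      (h / algebraMap L FL c - algebraMap L FL κt) / algebraMap L FL B.ϖ *
        (algebraMap L FL κt)⁻¹ := by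
  have hcE : algebraMap L FL c ≠ 0 := (map_ne_zero _).2 hc0
  have hwE : algebraMap L FL B.ϖ ≠ 0 := (map_ne_zero _).2 B.ϖ_ne
  have hκE : algebraMap L FL κt ≠ 0 := (map_ne_zero _).2 hκ0
  rw [Y]
  simp only [map_mul, pow_one]
  field_simp

/-- first step, on one branch -/
theorem base_one {Fk : Type*} [Field Fk] [Algebra k Fk] (R : Branch A π FL Fk)
    (FK : Subfield FL) (hKFK : ∀ c ∈ B.K', algebraMap L FL c ∈ FK)
    (hVG : ∀ f ∈ FK, f ≠ 0 → ∃ n : ℤ, UnitA R.O (f * algebraMap L FL (B.ϖ ^ (-n))))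
    {h : FL} (hh : h ∈ FK) {c : L} (hc : c ∈ B.K') (hc0 : c ≠ 0)
    {κt : L} (hκtK : κt ∈ B.K') (hκt : UnitA A κt)
    (hy : h / algebraMap L FL c ∈ R.O)
    (hred : R.red ⟨h / algebraMap L FL c, hy⟩ = algebraMap k Fk (π ⟨κt, hκt.mem⟩)) :
    Y B h 1 (c * κt) ∈ R.O := by
  set z : FL := h / algebraMap L FL c - algebraMap L FL κt with hz
  have hzFK : z ∈ FK := FK.sub_mem (FK.div_mem hh (hKFK c hc)) (hKFK κt hκtK)
  have hκm : algebraMap L FL κt ∈ R.O := const_mem R hκt.mem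
  have hzR : z ∈ R.O := sub_mem hy hκm
  have hzred : R.red ⟨z, hzR⟩ = 0 := by
    have h4 : (⟨z, hzR⟩ : R.O) = ⟨h / algebraMap L FL c, hy⟩ - ⟨algebraMap L FL κt, hκm⟩ :=
      Subtype.ext rfl
    rw [h4, map_sub, hred, red_const R hκt.mem hκm, sub_self]
  have hznon : z ∈ R.O.nonunits := (red_eq_zero_iff_non R _).1 hzred
  rw [Y_one_eq hc0 hκt.ne_zero]
  exact mul_mem (div_mem_of_vg R B hznon fun h0 => hVG z hzFK h0) (const_unit R hκt).inv_mem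

/-- **The first level**: `Y 1 c ∈ O₁ ∩ O₂` for a suitable `c`. -/
theorem base (FK : Subfield FL) (hKFK : ∀ c ∈ B.K', algebraMap L FL c ∈ FK)
    (hres : ∀ κ : k, ∃ c ∈ B.K', ∃ hc : c ∈ A, π ⟨c, hc⟩ = κ)
    (hVG1 : ∀ f ∈ FK, f ≠ 0 → ∃ n : ℤ, UnitA R1.O (f * algebraMap L FL (B.ϖ ^ (-n))))
    (hVG2 : ∀ f ∈ FK, f ≠ 0 → ∃ n : ℤ, UnitA R2.O (f * algebraMap L FL (B.ϖ ^ (-n))))
    {h : FL} (hh : h ∈ FK) (hh0 : h ≠ 0)
    (or0 : ∀ c ∈ B.K', c ≠ 0 → SameConst R1 R2 (h / algebraMap L FL c)) :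
    ∃ c ∈ B.K', c ≠ 0 ∧ Y B h 1 c ∈ R1.O ∧ Y B h 1 c ∈ R2.O := by
  obtain ⟨c, hc, hc0, hu1, hu2⟩ := exists_unit_both FK hVG1 hVG2 hh hh0 or0
  obtain ⟨κ, hκ1, hκ2⟩ := or0 c hc hc0 hu1.mem hu2.mem
  have hκ0 : κ ≠ 0 := by
    rintro rfl
    exact red_ne_zero_of_unit R1 hu1 (by rw [hκ1, map_zero])
  obtain ⟨κt, hκtK, hκtA, hκt⟩ := hres κ
  have hκtu : UnitA A κt := by
    have h1 : A.valuation κt ≤ 1 := (A.valuation_le_one_iff κt).2 hκtA
    rcases lt_or_eq_of_le h1 with h2 | h2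
    · exfalso
      apply hκ0
      rw [← hκt, pi_eq_zero_iff R1, IsLocalRing.mem_maximalIdeal, mem_nonunits_iff]
      intro hu
      exact (ne_of_lt h2) ((A.valuation_eq_one_iff ⟨κt, hκtA⟩).1 hu)
    · exact h2
  refine ⟨c * κt, B.K'.mul_mem hc hκtK, mul_ne_zero hc0 hκtu.ne_zero, ?_, ?_⟩
  · exact base_one R1 FK hKFK hVG1 hh hc hc0 hκtK hκtu hu1.mem (by rw [hκ1, ← hκt])
  · exact base_one R2 FK hKFK hVG2 hh hc hc0 hκtK hκtu hu2.mem (by rw [hκ2, ← hκt])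

/-- **All levels** `1 ≤ r ≤ s`. -/
theorem exists_level (FK : Subfield FL) (hKFK : ∀ c ∈ B.K', algebraMap L FL c ∈ FK)
    (hres : ∀ κ : k, ∃ c ∈ B.K', ∃ hc : c ∈ A, π ⟨c, hc⟩ = κ)
    (hVG1 : ∀ f ∈ FK, f ≠ 0 → ∃ n : ℤ, UnitA R1.O (f * algebraMap L FL (B.ϖ ^ (-n))))
    (hVG2 : ∀ f ∈ FK, f ≠ 0 → ∃ n : ℤ, UnitA R2.O (f * algebraMap L FL (B.ϖ ^ (-n))))
    {h : FL} (hh : h ∈ FK) (hh0 : h ≠ 0)
    (or0 : ∀ c ∈ B.K', c ≠ 0 → SameConst R1 R2 (h / algebraMap L FL c))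
    (orr : ∀ r, 1 ≤ r → r < B.s → ∀ c ∈ B.K', c ≠ 0 → SameConst R1 R2 (Y B h r c)) :
    ∀ r, 1 ≤ r → r ≤ B.s → ∃ c ∈ B.K', c ≠ 0 ∧ Y B h r c ∈ R1.O ∧ Y B h r c ∈ R2.O := by
  intro r hr
  induction r, hr using Nat.le_induction with
  | base => exact fun _ => base FK hKFK hres hVG1 hVG2 hh hh0 or0
  | succ r hr ih =>
    intro hrs
    obtain ⟨c, hc, hc0, h1, h2⟩ := ih (by omega)
    exact step FK hKFK hres hVG1 hVG2 hh hr hc hc0 h1 h2 (orr r hr (by omega) c hc hc0)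

/-- **The equality of the moments.**  If at the last level `r = s` the two reductions are constants
`κ₁`, `κ₂` with `κ₁ = κ₂ - ᾱ μ_e` for every node `e`, then all `μ_e` are equal in `k`. -/
theorem moment_eq {ι : Type*} (μ : ι → ℤ)
    (FK : Subfield FL) (hKFK : ∀ c ∈ B.K', algebraMap L FL c ∈ FK)
    (hres : ∀ κ : k, ∃ c ∈ B.K', ∃ hc : c ∈ A, π ⟨c, hc⟩ = κ)
    (hVG1 : ∀ f ∈ FK, f ≠ 0 → ∃ n : ℤ, UnitA R1.O (f * algebraMap L FL (B.ϖ ^ (-n))))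
    (hVG2 : ∀ f ∈ FK, f ≠ 0 → ∃ n : ℤ, UnitA R2.O (f * algebraMap L FL (B.ϖ ^ (-n))))
    {h : FL} (hh : h ∈ FK) (hh0 : h ≠ 0)
    (or0 : ∀ c ∈ B.K', c ≠ 0 → SameConst R1 R2 (h / algebraMap L FL c))
    (orr : ∀ r, 1 ≤ r → r < B.s → ∀ c ∈ B.K', c ≠ 0 → SameConst R1 R2 (Y B h r c))
    (ors : ∀ c ∈ B.K', c ≠ 0 → ∀ (h1 : Y B h B.s c ∈ R1.O) (h2 : Y B h B.s c ∈ R2.O),
      ∃ κ1 κ2 : k, R1.red ⟨_, h1⟩ = algebraMap k F1 κ1 ∧ R2.red ⟨_, h2⟩ = algebraMap k F2 κ2 ∧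
        ∀ e : ι, κ1 = κ2 - π ⟨B.α, B.α_unit.mem⟩ * (μ e : k)) :
    ∀ e e' : ι, ((μ e : ℤ) : k) = ((μ e' : ℤ) : k) := by
  intro e e'
  obtain ⟨c, hc, hc0, h1, h2⟩ :=
    exists_level FK hKFK hres hVG1 hVG2 hh hh0 or0 orr B.s B.s_pos le_rfl
  obtain ⟨κ1, κ2, -, -, hjump⟩ := ors c hc hc0 h1 h2
  have hα : π ⟨B.α, B.α_unit.mem⟩ ≠ 0 := pi_unit_ne_zero R1 B.α_unit
  have h3 : π ⟨B.α, B.α_unit.mem⟩ * (μ e : k) = π ⟨B.α, B.α_unit.mem⟩ * (μ e' : k) := by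
    have he := hjump e
    have he' := hjump e'
    have : κ2 - π ⟨B.α, B.α_unit.mem⟩ * (μ e : k) = κ2 - π ⟨B.α, B.α_unit.mem⟩ * (μ e' : k) := by
      rw [← he, ← he']
    exact sub_right_injective this
  exact mul_left_cancel₀ hα h3

end Induction

end Fermat.Agent.S44.Core.Induct
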