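/-
PROJECT P (S44), CORE, Core/Factor (helper6): LOCAL FACTORS AND THE WITNESSES THEY PRODUCE.

Frame of `Core/Induct`: `(L, A)`, `π : A →+* k`, two Gauss branches `R1 R2` of `FL`, a break datum
`B`.  For a set `T` of places of `FL` (a tube, or the places over one place of a component) a
LOCAL FACTOR of `h` on `T` is a function

  `ρ = 1 + ϖ^s θ`,   `θ ∈ O₁ ∩ O₂`,  `red₁ θ = j₁`, `red₂ θ = j₂` CONSTANTS,   `h / ρ` regular on `T`.

* `IsFactor R1 R2 B T h ρ θ j1 j2` : the definition;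
* `isFactor_one` : `ρ = 1`, `θ = 0` is a factor on `T` as soon as `h` is regular on `T`;
* `Y_div_eq` : `Y (h/ρ) r c = (Y h r c - ϖ^(s-r) θ) / ρ` for `r ≤ s`;
* `IsFactor.witness_lt` (`1 ≤ r < s`), `IsFactor.witness_eq` (`r = s`), `IsFactor.witness_zero`
  (`h / c`): the modified function `G` lies in `O₁ ∩ O₂`, is regular on `T`, and has the reductions
  of `Y h r c` (resp. of `Y h s c` minus the jumps `j_i`, resp. of `h / c`).

Mathlib + `S34/NodalDisc` + `Core/Induct`.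
-/
import Mathlib
import Fermat.Agent.S44.Core.Induct

set_option autoImplicit false

namespace Fermat.Agent.S44.Core.Factor

open AlgebraicCurve Fermat.Agent.S24.Ord Fermat.Agent.S34.NodalDefs Fermat.Agent.S34.NodalDisc
open Fermat.Agent.S44.Core.Break Fermat.Agent.S44.Core.NormPoly Fermat.Agent.S44.Core.Induct

variable {L : Type*} [Field L] {k : Type*} [Field k] {A : ValuationSubring L} {π : A →+* k}
variable {FL : Type*} [Field FL] [Algebra L FL]
variable {F1 : Type*} [Field F1] [Algebra k F1] {F2 : Type*} [Field F2] [Algebra k F2]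
variable {σ : L ≃+* L}

/-- **A local factor of `h` on the set `T` of places.** -/
structure IsFactor (R1 : Branch A π FL F1) (R2 : Branch A π FL F2) (B : BreakDatum A σ)
    (T : Set (Place L FL)) (h ρ θ : FL) (j1 j2 : k) : Prop where
  eq : ρ = 1 + algebraMap L FL (B.ϖ ^ B.s) * θ
  mem1 : θ ∈ R1.O
  mem2 : θ ∈ R2.O
  red1 : R1.red ⟨θ, mem1⟩ = algebraMap k F1 j1
  red2 : R2.red ⟨θ, mem2⟩ = algebraMap k F2 j2
  reg : ∀ P ∈ T, P.adicValuation (h / ρ) ≤ 1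

variable {R1 : Branch A π FL F1} {R2 : Branch A π FL F2} {B : BreakDatum A σ}

/-- the trivial factor -/
theorem isFactor_one {T : Set (Place L FL)} {h : FL} (hreg : ∀ P ∈ T, P.adicValuation h ≤ 1) :
    IsFactor R1 R2 B T h 1 0 0 0 where
  eq := by rw [mul_zero, add_zero]
  mem1 := R1.O.zero_mem
  mem2 := R2.O.zero_mem
  red1 := by
    have : (⟨0, R1.O.zero_mem⟩ : R1.O) = 0 := rfl
    rw [this, map_zero, map_zero]
  red2 := by
    have : (⟨0, R2.O.zero_mem⟩ : R2.O) = 0 := rfl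
    rw [this, map_zero, map_zero]
  reg := fun P hP => by rw [div_one]; exact hreg P hP

/-! ### one branch -/

section OneBranch

variable {Fk : Type*} [Field Fk] [Algebra k Fk] (R : Branch A π FL Fk)

/-- `ϖ^s` is a non-unit constant -/
theorem pow_s_non : algebraMap L FL (B.ϖ ^ B.s) ∈ R.O.nonunits := by
  refine const_non R ?_
  rw [A.mem_nonunits_iff, map_pow]
  exact pow_lt_one₀ zero_le B.val_ϖ_lt B.s_pos.ne'

/-- `ρ = 1 + ϖ^s θ` is a one-unit of `O` -/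
theorem rho_unit {ρ θ : FL} (hρ : ρ = 1 + algebraMap L FL (B.ϖ ^ B.s) * θ) (hθ : θ ∈ R.O) :
    UnitA R.O ρ := by
  rw [hρ]
  exact unitA_one_add (non_mul_mem (pow_s_non (B := B) R) hθ)

/-- the reduction of a one-unit -/
theorem red_one_add {x : FL} (hx : x ∈ R.O.nonunits) (hm : 1 + x ∈ R.O) :
    R.red ⟨1 + x, hm⟩ = 1 := by
  have hxm : x ∈ R.O := mem_of_non hx
  have h1 : (⟨1 + x, hm⟩ : R.O) = 1 + ⟨x, hxm⟩ := Subtype.ext rfl
  rw [h1, map_add, map_one, (red_eq_zero_iff_non R ⟨x, hxm⟩).2 hx, add_zero]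

/-- the reduction only depends on the element -/
theorem red_congr {y y' : FL} (h : y = y') (hy : y ∈ R.O) (hy' : y' ∈ R.O) :
    R.red ⟨y, hy⟩ = R.red ⟨y', hy'⟩ := by
  subst h
  rfl

/-- dividing by a one-unit does not change the reduction -/
theorem red_div_one_add {y x : FL} (hy : y ∈ R.O) (hx : x ∈ R.O.nonunits)
    (hm : y / (1 + x) ∈ R.O) : R.red ⟨y / (1 + x), hm⟩ = R.red ⟨y, hy⟩ := by
  have hu : UnitA R.O (1 + x) := unitA_one_add hx
  have h1 : (⟨y, hy⟩ : R.O) = ⟨y / (1 + x), hm⟩ * ⟨1 + x, hu.mem⟩ := by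
    refine Subtype.ext ?_
    show y = y / (1 + x) * (1 + x)
    rw [div_mul_cancel₀ _ hu.ne_zero]
  rw [h1, map_mul, red_one_add R hx hu.mem, mul_one]

end OneBranch

/-- the algebraic identity: `Y (h/ρ) r c = (Y h r c - ϖ^(s-r) θ) / ρ` for `r ≤ s` -/
theorem Y_div_eq {h ρ θ : FL} (hρ : ρ = 1 + algebraMap L FL (B.ϖ ^ B.s) * θ) (hρ0 : ρ ≠ 0)
    {r : ℕ} (hr : r ≤ B.s) (c : L) :
    Y B (h / ρ) r c = (Y B h r c - algebraMap L FL (B.ϖ ^ (B.s - r)) * θ) / ρ := by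
  have hwE : algebraMap L FL B.ϖ ≠ 0 := (map_ne_zero _).2 B.ϖ_ne
  have hsplit : algebraMap L FL (B.ϖ ^ B.s) =
      algebraMap L FL (B.ϖ ^ r) * algebraMap L FL (B.ϖ ^ (B.s - r)) := by
    rw [← map_mul, ← pow_add, Nat.add_sub_cancel' hr]
  have hθ : algebraMap L FL (B.ϖ ^ (B.s - r)) * θ =
      (ρ - 1) / algebraMap L FL (B.ϖ ^ r) := by
    rw [hρ, hsplit, map_pow, map_pow]
    field_simp
    ring
  rw [hθ, Y, Y]
  rcases eq_or_ne c 0 with rfl | hc0
  · simp only [map_zero, div_zero, map_pow]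
    field_simp
    ring
  · have hcE : algebraMap L FL c ≠ 0 := (map_ne_zero _).2 hc0
    simp only [map_pow]
    field_simp
    ring

namespace IsFactor

variable {T : Set (Place L FL)} {h ρ θ : FL} {j1 j2 : k}

theorem rho_ne_zero (hF : IsFactor R1 R2 B T h ρ θ j1 j2) : ρ ≠ 0 :=
  (rho_unit (B := B) R1 hF.eq hF.mem1).ne_zero

/-- regularity of the modified function on `T` -/
theorem reg_Y (hF : IsFactor R1 R2 B T h ρ θ j1 j2) (r : ℕ) {c : L} (hc0 : c ≠ 0) :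
    ∀ P ∈ T, P.adicValuation (Y B (h / ρ) r c) ≤ 1 := by
  intro P hP
  have hcE : algebraMap L FL c ≠ 0 := (map_ne_zero _).2 hc0
  have hw0 : B.ϖ ^ r ≠ 0 := pow_ne_zero _ B.ϖ_ne
  rw [Y, map_div₀, adicValuation_algebraMap P hw0, div_one]
  refine (Valuation.map_sub _ _ _).trans (max_le ?_ (by rw [map_one]))
  rw [map_div₀, adicValuation_algebraMap P hc0, div_one]
  exact hF.reg P hP

/-- regularity of `(h/ρ)/c` on `T` -/
theorem reg_div (hF : IsFactor R1 R2 B T h ρ θ j1 j2) {c : L} (hc0 : c ≠ 0) :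
    ∀ P ∈ T, P.adicValuation (h / ρ / algebraMap L FL c) ≤ 1 := by
  intro P hP
  rw [map_div₀, adicValuation_algebraMap P hc0, div_one]
  exact hF.reg P hP

end IsFactor

/-! ### witnesses, one branch at a time -/

section Witness

variable {Fk : Type*} [Field Fk] [Algebra k Fk] (R : Branch A π FL Fk)

/-- level `r < s`: same reduction -/
theorem witness_lt_one {h ρ θ : FL} (hρ : ρ = 1 + algebraMap L FL (B.ϖ ^ B.s) * θ)
    (hθ : θ ∈ R.O) {r : ℕ} (hr : r < B.s) (c : L) (hy : Y B h r c ∈ R.O) :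
    ∃ hG : Y B (h / ρ) r c ∈ R.O, R.red ⟨_, hG⟩ = R.red ⟨_, hy⟩ := by
  have hu : UnitA R.O ρ := rho_unit (B := B) R hρ hθ
  have hx : algebraMap L FL (B.ϖ ^ B.s) * θ ∈ R.O.nonunits :=
    non_mul_mem (pow_s_non (B := B) R) hθ
  have hpnon : algebraMap L FL (B.ϖ ^ (B.s - r)) ∈ R.O.nonunits := by
    refine const_non R ?_
    rw [A.mem_nonunits_iff, map_pow]
    exact pow_lt_one₀ zero_le B.val_ϖ_lt (by omega)
  have hznon : algebraMap L FL (B.ϖ ^ (B.s - r)) * θ ∈ R.O.nonunits := non_mul_mem hpnon hθ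
  have hnum : Y B h r c - algebraMap L FL (B.ϖ ^ (B.s - r)) * θ ∈ R.O :=
    sub_mem hy (mem_of_non hznon)
  have hred : R.red ⟨_, hnum⟩ = R.red ⟨_, hy⟩ := by
    have h1 : (⟨_, hnum⟩ : R.O) = ⟨_, hy⟩ - ⟨_, mem_of_non hznon⟩ := Subtype.ext rfl
    rw [h1, map_sub, (red_eq_zero_iff_non R ⟨_, mem_of_non hznon⟩).2 hznon, sub_zero]
  have hEq := Y_div_eq (B := B) (h := h) hρ hu.ne_zero hr.le c
  have hG : Y B (h / ρ) r c ∈ R.O := by
    rw [hEq, div_eq_mul_inv]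
    exact mul_mem hnum hu.inv_mem
  refine ⟨hG, ?_⟩
  have hEq' : Y B (h / ρ) r c = (Y B h r c - algebraMap L FL (B.ϖ ^ (B.s - r)) * θ) /
      (1 + algebraMap L FL (B.ϖ ^ B.s) * θ) := by rw [hEq, hρ]
  rw [red_congr R hEq' hG (hEq' ▸ hG), red_div_one_add R hnum hx, hred]

/-- level `r = s`: the reduction drops by the jump -/
theorem witness_eq_one {h ρ θ : FL} (hρ : ρ = 1 + algebraMap L FL (B.ϖ ^ B.s) * θ)
    (hθ : θ ∈ R.O) (c : L) (hy : Y B h B.s c ∈ R.O) :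
    ∃ hG : Y B (h / ρ) B.s c ∈ R.O, R.red ⟨_, hG⟩ = R.red ⟨_, hy⟩ - R.red ⟨θ, hθ⟩ := by
  have hu : UnitA R.O ρ := rho_unit (B := B) R hρ hθ
  have hx : algebraMap L FL (B.ϖ ^ B.s) * θ ∈ R.O.nonunits :=
    non_mul_mem (pow_s_non (B := B) R) hθ
  have hEq := Y_div_eq (B := B) (h := h) hρ hu.ne_zero le_rfl c
  rw [Nat.sub_self, pow_zero, map_one, one_mul] at hEq
  have hnum : Y B h B.s c - θ ∈ R.O := sub_mem hy hθ
  have hred : R.red ⟨_, hnum⟩ = R.red ⟨_, hy⟩ - R.red ⟨θ, hθ⟩ := by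
    have h1 : (⟨_, hnum⟩ : R.O) = ⟨_, hy⟩ - ⟨θ, hθ⟩ := Subtype.ext rfl
    rw [h1, map_sub]
  have hG : Y B (h / ρ) B.s c ∈ R.O := by
    rw [hEq, div_eq_mul_inv]
    exact mul_mem hnum hu.inv_mem
  refine ⟨hG, ?_⟩
  have hEq' : Y B (h / ρ) B.s c = (Y B h B.s c - θ) /
      (1 + algebraMap L FL (B.ϖ ^ B.s) * θ) := by rw [hEq, hρ]
  rw [red_congr R hEq' hG (hEq' ▸ hG), red_div_one_add R hnum hx, hred]

/-- level `0`: `h / c` and `(h/ρ)/c` have the same reduction -/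
theorem witness_zero_one {h ρ θ : FL} (hρ : ρ = 1 + algebraMap L FL (B.ϖ ^ B.s) * θ)
    (hθ : θ ∈ R.O) (c : L) (hy : h / algebraMap L FL c ∈ R.O) :
    ∃ hG : h / ρ / algebraMap L FL c ∈ R.O, R.red ⟨_, hG⟩ = R.red ⟨_, hy⟩ := by
  have hu : UnitA R.O ρ := rho_unit (B := B) R hρ hθ
  have hx : algebraMap L FL (B.ϖ ^ B.s) * θ ∈ R.O.nonunits :=
    non_mul_mem (pow_s_non (B := B) R) hθ
  have hEq : h / ρ / algebraMap L FL c = h / algebraMap L FL c / ρ := by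
    rw [div_div, div_div, mul_comm]
  have hG : h / ρ / algebraMap L FL c ∈ R.O := by
    rw [hEq, div_eq_mul_inv]
    exact mul_mem hy hu.inv_mem
  refine ⟨hG, ?_⟩
  have hEq' : h / ρ / algebraMap L FL c = h / algebraMap L FL c /
      (1 + algebraMap L FL (B.ϖ ^ B.s) * θ) := by rw [hEq, hρ]
  rw [red_congr R hEq' hG (hEq' ▸ hG), red_div_one_add R hy hx]

end Witness

end Fermat.Agent.S44.Core.Factor
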