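/-
PROJECT P (S44), CORE, Core/TubeFactor (helper6): THE LOCAL FACTOR ON THE TUBE OF A NODE.

Frame of `Core/Factor`: `(L, A)`, `π : A →+* k`, two Gauss branches `R1 R2` of `FL`, a break datum
`B : BreakDatum A σ`, `τ` a ring endomorphism of `FL` which is `σ` on the constants.

The tube `T` of a node carries a coordinate `ξ` with `ξ ζ = thick`, `τ ξ = ξ`, `ξ` a unit of `O₁`,
`ζ` a unit of `O₂`.  The points of a finite set `S ⊆ T` have `ξ`-values `z P` (`z ≠ 0`, `z` and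
`thick / z` non-units of `A`) and `ξ - z P0` has a simple zero at `P0` and no other zero on `T`
(the coordinate statement (f4+) of `Core/TubeCount`).  `τ` moves the places by `g`:
`ord_P (τ f) = ord_{g P} f`.  For `D : Place → ℤ` supported in `S` on `T` put

  `F⁺ = ∏ (X - z P) ^ (D P)⁺`,  `F⁻ = ∏ (X - z P) ^ (D P)⁻`   (`posPoly`, `negPoly`),
  `ρ = (τ F⁺(ξ) / F⁺(ξ)) / (τ F⁻(ξ) / F⁻(ξ))`                (`rho`),
  `μ = ordK (F⁺ 0) - ordK (F⁻ 0)`                             (`moment`).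

If the coefficients of `F⁺`, `F⁻` lie in `K'` and `ord_P h = D (g P) - D P` on `T`, then
`ρ = 1 + ϖ^s θ` is a LOCAL FACTOR of `h` on `T` with jumps `0` on the first branch and `ᾱ μ` on
the second one (`isFactor_tube`).

* `rootsOf`, `ofRoots_rootsOf`, `aeval_rootsOf`, `mem_rootsOf` : multisets of values;
* `coeff_ofRoots_mem` : roots in a subfield give coefficients in that subfield;
* `tube_lead` (first branch), `tube_const` (second branch) : the two expansions of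
  `τ F(ξ) / F(ξ)`, with the expansions of `F(ξ)` itself (used again in `Core/Export`);
* `unit_tube_lead`, `unit_tube_const` : `F(ξ)` is a unit of `O₁`, `F(ξ) / F(0)` a unit of `O₂`;
* `theta_red` : the reduction of `(x / y - 1) / w` for `x = 1 + w (a + m)`, `y = 1 + w (b + n)`;
* `ord_aeval_rootsOf` : the order of `F(ξ)` on the tube;
* `isFactor_tube` : the local factor;
* `ordK_coeff_zero_ofRoots`, `moment_eq_sum` : `μ = ∑ D P * ordK (z P)` when the values lie in `K'`;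
* `val_moment` : `v (F⁺ 0 / F⁻ 0) = v ϖ ^ μ`.

Mathlib + `Core/Factor` (and through it `S34/NodalDisc`, `Core/Induct`, `Core/NormPoly`).
-/
import Mathlib
import Fermat.Agent.S44.Core.Factor

set_option autoImplicit false
set_option linter.unusedSectionVars false

namespace Fermat.Agent.S44.Core.TubeFactor

open Polynomial AlgebraicCurve Fermat.Agent.S24.Ord Fermat.Agent.S34.NodalDefs
  Fermat.Agent.S34.NodalDisc
open Fermat.Agent.S44.Core.Break Fermat.Agent.S44.Core.NormPoly Fermat.Agent.S44.Core.Induct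
  Fermat.Agent.S44.Core.Factor

variable {L : Type*} [Field L]

/-! ### multisets of values with multiplicities -/

section Roots

variable {J : Type*}

/-- the multiset of the values `z P`, `P ∈ S`, with multiplicities `n P` -/
noncomputable def rootsOf (S : Finset J) (z : J → L) (n : J → ℕ) : Multiset L :=
  ∑ P ∈ S, n P • ({z P} : Multiset L)

theorem ofRoots_add (s t : Multiset L) : ofRoots (s + t) = ofRoots s * ofRoots t := by
  simp [ofRoots]

theorem ofRoots_nsmul_singleton (n : ℕ) (z : L) :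
    ofRoots (n • ({z} : Multiset L)) = (X - C z) ^ n := by
  simp [ofRoots, Multiset.map_nsmul, Multiset.prod_nsmul]

theorem ofRoots_rootsOf (S : Finset J) (z : J → L) (n : J → ℕ) :
    ofRoots (rootsOf S z n) = ∏ P ∈ S, (X - C (z P)) ^ n P := by
  classical
  induction S using Finset.induction_on with
  | empty => simp [rootsOf, ofRoots_zero]
  | insert P S hP ih =>
    rw [rootsOf, Finset.sum_insert hP, ofRoots_add, ofRoots_nsmul_singleton,
      Finset.prod_insert hP]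
    rw [rootsOf] at ih
    rw [ih]

theorem mem_rootsOf {S : Finset J} {z : J → L} {n : J → ℕ} {y : L} (hy : y ∈ rootsOf S z n) :
    ∃ P ∈ S, y = z P := by
  classical
  rw [rootsOf, Multiset.mem_sum] at hy
  obtain ⟨P, hP, hy⟩ := hy
  refine ⟨P, hP, ?_⟩
  have h1 := Multiset.mem_of_mem_nsmul hy
  exact Multiset.mem_singleton.1 h1

theorem map_sum_rootsOf (S : Finset J) (z : J → L) (n : J → ℕ) (f : L → ℤ) :
    ((rootsOf S z n).map f).sum = ∑ P ∈ S, (n P : ℤ) * f (z P) := by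
  classical
  induction S using Finset.induction_on with
  | empty => simp [rootsOf]
  | insert P S hP ih =>
    rw [rootsOf, Finset.sum_insert hP, Multiset.map_add, Multiset.sum_add, Finset.sum_insert hP]
    rw [rootsOf] at ih
    rw [ih, Multiset.map_nsmul, Multiset.sum_nsmul, Multiset.map_singleton,
      Multiset.sum_singleton, nsmul_eq_mul]

variable {E : Type*} [Field E] [Algebra L E]

theorem aeval_rootsOf (ξ : E) (S : Finset J) (z : J → L) (n : J → ℕ) :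
    aeval ξ (ofRoots (rootsOf S z n)) = ∏ P ∈ S, (ξ - algebraMap L E (z P)) ^ n P := by
  rw [ofRoots_rootsOf, map_prod]
  refine Finset.prod_congr rfl fun P _ => ?_
  rw [map_pow, map_sub, aeval_X, aeval_C]

/-- roots in a subfield give coefficients in that subfield -/
theorem coeff_ofRoots_mem (K : Subfield L) (s : Multiset L) (hs : ∀ y ∈ s, y ∈ K) (j : ℕ) :
    (ofRoots s).coeff j ∈ K := by
  induction s using Multiset.induction_on generalizing j with
  | empty =>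
    rw [ofRoots_zero, coeff_one]
    split_ifs
    · exact K.one_mem
    · exact K.zero_mem
  | cons y s ih =>
    have hy : y ∈ K := hs y (Multiset.mem_cons_self y s)
    have ih' := ih fun x hx => hs x (Multiset.mem_cons_of_mem hx)
    rcases j with _ | j
    · rw [coeff_ofRoots_cons_zero]
      exact K.neg_mem (K.mul_mem hy (ih' 0))
    · rw [coeff_ofRoots_cons_succ]
      exact K.sub_mem (ih' j) (K.mul_mem (ih' (j + 1)) hy)

end Roots

/-! ### the two expansions, one branch at a time -/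

section Expansions

variable {k : Type*} [Field k] {A : ValuationSubring L} {π : A →+* k}
variable {FL : Type*} [Field FL] [Algebra L FL]
variable {Fk : Type*} [Field Fk] [Algebra k Fk] (R : Branch A π FL Fk)
variable {σ : L ≃+* L} (B : BreakDatum A σ)

/-- **First branch**: `ξ` a unit, the values in the maximal ideal: the leading term dominates. -/
theorem tube_lead {τ : FL →+* FL} (hτ : ∀ c : L, τ (algebraMap L FL c) = algebraMap L FL (σ c))
    {ξ : FL} (hτξ : τ ξ = ξ) (hξ0 : ξ ≠ 0) (hξi : ξ⁻¹ ∈ R.O)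
    (s : Multiset L) (hsA : ∀ y ∈ s, y ∈ A.nonunits) (hFK : ∀ j, (ofRoots s).coeff j ∈ B.K') :
    aeval ξ (ofRoots s) ≠ 0 ∧
    (∃ m0 ∈ R.O.nonunits, aeval ξ (ofRoots s) = ξ ^ Multiset.card s * (1 + m0)) ∧
    ∃ m ∈ R.O.nonunits, τ (aeval ξ (ofRoots s)) / aeval ξ (ofRoots s) =
      1 + algebraMap L FL (B.ϖ ^ B.s) * m := by
  have h := lead_side B R.O (fun a ha => const_mem R ha) (fun a ha => const_non R ha) hτ hτξ hξ0
    hξi hFK (monic_ofRoots s) (fun j hj => by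
      rw [natDegree_ofRoots] at hj
      exact coeff_mem_nonunits_of_roots s hsA j hj)
  rw [natDegree_ofRoots] at h
  exact h

/-- **Second branch**: `ξ = thick / ζ` with `ζ` a unit and `thick / z` in the maximal ideal for
every value `z`: the constant term dominates. -/
theorem tube_const {τ : FL →+* FL} (hτ : ∀ c : L, τ (algebraMap L FL c) = algebraMap L FL (σ c))
    {ξ ζ : FL} {thick : L} (hτξ : τ ξ = ξ) (hξ0 : ξ ≠ 0)
    (hmul : ξ * ζ = algebraMap L FL thick) (hζ0 : ζ ≠ 0) (hζi : ζ⁻¹ ∈ R.O)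
    (s : Multiset L) (hs0 : ∀ y ∈ s, y ≠ 0) (hst : ∀ y ∈ s, thick / y ∈ A.nonunits)
    (hFK : ∀ j, (ofRoots s).coeff j ∈ B.K') :
    aeval ξ (ofRoots s) ≠ 0 ∧
    (∃ m0 ∈ R.O.nonunits, aeval ξ (ofRoots s) =
      algebraMap L FL ((ofRoots s).coeff 0) * (1 + m0)) ∧
    ∃ m ∈ R.O.nonunits, τ (aeval ξ (ofRoots s)) / aeval ξ (ofRoots s) =
      1 + algebraMap L FL (B.ϖ ^ B.s) *
        (algebraMap L FL ((B.ordK ((ofRoots s).coeff 0) : L) * B.α) + m) := by
  refine const_side B R.O (fun a ha => const_mem R ha) (fun a ha => const_non R ha) hτ hτξ hξ0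
    hFK (coeff_zero_ofRoots_ne_zero s hs0) (dom_of_roots R.O s hs0 fun y hy => ?_)
  have hy0 : algebraMap L FL y ≠ 0 := (_root_.map_ne_zero _).2 (hs0 y hy)
  have h1 : ξ * (algebraMap L FL y)⁻¹ = algebraMap L FL (thick / y) * ζ⁻¹ := by
    rw [map_div₀, ← hmul]
    field_simp
  rw [h1]
  exact non_mul_mem (const_non R (hst y hy)) hζi

/-- first branch: `F(ξ)` is a unit as soon as `ξ` is -/
theorem unit_tube_lead {τ : FL →+* FL}
    (hτ : ∀ c : L, τ (algebraMap L FL c) = algebraMap L FL (σ c))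
    {ξ : FL} (hτξ : τ ξ = ξ) (hξu : UnitA R.O ξ)
    (s : Multiset L) (hsA : ∀ y ∈ s, y ∈ A.nonunits) (hFK : ∀ j, (ofRoots s).coeff j ∈ B.K') :
    UnitA R.O (aeval ξ (ofRoots s)) := by
  obtain ⟨-, ⟨m0, hm0, h⟩, -⟩ := tube_lead R B hτ hτξ hξu.ne_zero hξu.inv_mem s hsA hFK
  rw [h]
  have h1 := hξu.zpow (Multiset.card s : ℤ)
  rw [zpow_natCast] at h1
  exact h1.mul (unitA_one_add hm0)

/-- second branch: `F(ξ) / F(0)` is a unit -/
theorem unit_tube_const {τ : FL →+* FL}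
    (hτ : ∀ c : L, τ (algebraMap L FL c) = algebraMap L FL (σ c))
    {ξ ζ : FL} {thick : L} (hτξ : τ ξ = ξ) (hξ0 : ξ ≠ 0)
    (hmul : ξ * ζ = algebraMap L FL thick) (hζ0 : ζ ≠ 0) (hζi : ζ⁻¹ ∈ R.O)
    (s : Multiset L) (hs0 : ∀ y ∈ s, y ≠ 0) (hst : ∀ y ∈ s, thick / y ∈ A.nonunits)
    (hFK : ∀ j, (ofRoots s).coeff j ∈ B.K') :
    UnitA R.O (aeval ξ (ofRoots s) / algebraMap L FL ((ofRoots s).coeff 0)) := by
  obtain ⟨-, ⟨m0, hm0, h⟩, -⟩ := tube_const R B hτ hτξ hξ0 hmul hζ0 hζi s hs0 hst hFK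
  have hc0 : algebraMap L FL ((ofRoots s).coeff 0) ≠ 0 :=
    (_root_.map_ne_zero _).2 (coeff_zero_ofRoots_ne_zero s hs0)
  rw [h, mul_div_cancel_left₀ _ hc0]
  exact unitA_one_add hm0

/-- the reduction of `(x / y - 1) / w` for `x = 1 + w (a + m)`, `y = 1 + w (b + n)` -/
theorem theta_red {w x y : FL} (hw : w ∈ R.O.nonunits) (hw0 : w ≠ 0) {a b : L} (ha : a ∈ A)
    (hb : b ∈ A) {m n : FL} (hm : m ∈ R.O.nonunits) (hn : n ∈ R.O.nonunits)
    (hx : x = 1 + w * (algebraMap L FL a + m)) (hy : y = 1 + w * (algebraMap L FL b + n)) :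
    ∃ hθ : (x / y - 1) / w ∈ R.O,
      R.red ⟨_, hθ⟩ = algebraMap k Fk (π ⟨a - b, sub_mem ha hb⟩) := by
  have hbn : algebraMap L FL b + n ∈ R.O := add_mem (const_mem R hb) (mem_of_non hn)
  have hx' : w * (algebraMap L FL b + n) ∈ R.O.nonunits := non_mul_mem hw hbn
  have hu : UnitA R.O (1 + w * (algebraMap L FL b + n)) := unitA_one_add hx'
  have hmn : m - n ∈ R.O.nonunits := non_sub hm hn
  have hab : algebraMap L FL (a - b) ∈ R.O := const_mem R (sub_mem ha hb)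
  have hN : algebraMap L FL (a - b) + (m - n) ∈ R.O := add_mem hab (mem_of_non hmn)
  have hEq : (x / y - 1) / w =
      (algebraMap L FL (a - b) + (m - n)) / (1 + w * (algebraMap L FL b + n)) := by
    have h0 := hu.ne_zero
    rw [hx, hy, map_sub]
    field_simp
    ring
  have hθ : (x / y - 1) / w ∈ R.O := by
    rw [hEq, div_eq_mul_inv]
    exact mul_mem hN hu.inv_mem
  refine ⟨hθ, ?_⟩
  have h1 : (⟨_, hN⟩ : R.O) = ⟨_, hab⟩ + ⟨m - n, mem_of_non hmn⟩ := Subtype.ext rfl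
  rw [red_congr R hEq hθ (hEq ▸ hθ), red_div_one_add R hN hx', h1, map_add,
    red_const R (sub_mem ha hb) hab, (red_eq_zero_iff_non R ⟨m - n, mem_of_non hmn⟩).2 hmn,
    add_zero]

end Expansions

/-! ### orders on the tube -/

section Orders

variable {FL : Type*} [Field FL] [Algebra L FL]

theorem ord_div' (v : Place L FL) {f g : FL} (hf : f ≠ 0) (hg : g ≠ 0) :
    v.ord (f / g) = v.ord f - v.ord g := by
  rw [div_eq_mul_inv, Place.ord_mul v hf (inv_ne_zero hg), Place.ord_inv]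
  ring

theorem ord_prod_pow' (v : Place L FL) {J : Type*} (s : Finset J) (f : J → FL) (n : J → ℕ)
    (hf : ∀ i ∈ s, f i ≠ 0) :
    v.ord (∏ i ∈ s, f i ^ n i) = ∑ i ∈ s, (n i : ℤ) * v.ord (f i) := by
  classical
  induction s using Finset.induction_on with
  | empty => simp
  | insert i s hi ih =>
    have hfi : f i ≠ 0 := hf i (Finset.mem_insert_self i s)
    have hrest : ∀ j ∈ s, f j ≠ 0 := fun j hj => hf j (Finset.mem_insert_of_mem hj)
    rw [Finset.prod_insert hi, Finset.sum_insert hi,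
      v.ord_mul (pow_ne_zero _ hfi) (Finset.prod_ne_zero_iff.mpr fun j hj =>
        pow_ne_zero _ (hrest j hj)), ih hrest, ← zpow_natCast, v.ord_zpow]

/-- **the order of `F(ξ)` on the tube** -/
theorem ord_aeval_rootsOf {T : Set (Place L FL)} {ξ : FL} (S : Finset (Place L FL))
    (z : Place L FL → L)
    (hf4 : ∀ P0 ∈ S, P0.ord (ξ - algebraMap L FL (z P0)) = 1 ∧
      ∀ P ∈ T, P ≠ P0 → P.ord (ξ - algebraMap L FL (z P0)) = 0)
    (n : Place L FL → ℕ) {P : Place L FL} (hP : P ∈ T) :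
    (P ∈ S → P.ord (aeval ξ (ofRoots (rootsOf S z n))) = (n P : ℤ)) ∧
    (P ∉ S → P.ord (aeval ξ (ofRoots (rootsOf S z n))) = 0) := by
  classical
  have hne : ∀ P0 ∈ S, ξ - algebraMap L FL (z P0) ≠ 0 := by
    intro P0 hP0 h0
    have := (hf4 P0 hP0).1
    rw [h0, Place.ord_zero] at this
    exact zero_ne_one this
  have h1 : ∀ P0 ∈ S, (n P0 : ℤ) * P.ord (ξ - algebraMap L FL (z P0)) =
      if P0 = P then (n P0 : ℤ) else 0 := by
    intro P0 hP0
    split_ifs with h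
    · subst h
      rw [(hf4 P0 hP0).1, mul_one]
    · rw [(hf4 P0 hP0).2 P hP (fun h' => h h'.symm), mul_zero]
  have h2 : P.ord (aeval ξ (ofRoots (rootsOf S z n))) = if P ∈ S then (n P : ℤ) else 0 := by
    rw [aeval_rootsOf, ord_prod_pow' P S _ n hne, Finset.sum_congr rfl h1, Finset.sum_ite_eq']
  constructor
  · intro h
    rw [h2, if_pos h]
  · intro h
    rw [h2, if_neg h]

end Orders

/-! ### the local factor -/

section Main

variable {J : Type*}

/-- the polynomial of the zeros -/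
noncomputable def posPoly (S : Finset J) (z : J → L) (D : J → ℤ) : L[X] :=
  ofRoots (rootsOf S z fun P => (D P).toNat)

/-- the polynomial of the poles -/
noncomputable def negPoly (S : Finset J) (z : J → L) (D : J → ℤ) : L[X] :=
  ofRoots (rootsOf S z fun P => (-D P).toNat)

variable {k : Type*} [Field k] {A : ValuationSubring L} {π : A →+* k}
variable {FL : Type*} [Field FL] [Algebra L FL]
variable {F1 : Type*} [Field F1] [Algebra k F1] {F2 : Type*} [Field F2] [Algebra k F2]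
variable {σ : L ≃+* L}

/-- the explicit factor `(τ F⁺(ξ) / F⁺(ξ)) / (τ F⁻(ξ) / F⁻(ξ))` -/
noncomputable def rho (τ : FL →+* FL) (ξ : FL) (S : Finset J) (z : J → L) (D : J → ℤ) : FL :=
  (τ (aeval ξ (posPoly S z D)) / aeval ξ (posPoly S z D)) /
    (τ (aeval ξ (negPoly S z D)) / aeval ξ (negPoly S z D))

/-- the moment of `D` on the tube -/
noncomputable def moment (B : BreakDatum A σ) (S : Finset J) (z : J → L) (D : J → ℤ) : ℤ :=
  B.ordK ((posPoly S z D).coeff 0) - B.ordK ((negPoly S z D).coeff 0)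

/-- **The local factor on the tube of a node.** -/
theorem isFactor_tube (R1 : Branch A π FL F1) (R2 : Branch A π FL F2) (B : BreakDatum A σ)
    {τ : FL →+* FL} (hτ : ∀ c : L, τ (algebraMap L FL c) = algebraMap L FL (σ c))
    {ξ ζ : FL} {thick : L} (hτξ : τ ξ = ξ) (hξ0 : ξ ≠ 0) (hζ0 : ζ ≠ 0)
    (hmul : ξ * ζ = algebraMap L FL thick) (hξ1 : ξ⁻¹ ∈ R1.O) (hζ2 : ζ⁻¹ ∈ R2.O)
    {T : Set (Place L FL)} {g : Place L FL → Place L FL} (hgT : ∀ P ∈ T, g P ∈ T)
    (hg : ∀ P ∈ T, ∀ f : FL, P.ord (τ f) = (g P).ord f)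
    (S : Finset (Place L FL)) (z : Place L FL → L)
    (hz0 : ∀ P ∈ S, z P ≠ 0) (hzA : ∀ P ∈ S, z P ∈ A.nonunits)
    (hzt : ∀ P ∈ S, thick / z P ∈ A.nonunits)
    (hf4 : ∀ P0 ∈ S, P0.ord (ξ - algebraMap L FL (z P0)) = 1 ∧
      ∀ P ∈ T, P ≠ P0 → P.ord (ξ - algebraMap L FL (z P0)) = 0)
    (D : Place L FL → ℤ) (hD : ∀ P ∈ T, P ∉ S → D P = 0)
    (hKp : ∀ j, (posPoly S z D).coeff j ∈ B.K') (hKm : ∀ j, (negPoly S z D).coeff j ∈ B.K')
    {h : FL} (hh0 : h ≠ 0) (hh : ∀ P ∈ T, P.ord h = D (g P) - D P) :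
    IsFactor R1 R2 B T h (rho τ ξ S z D)
      ((rho τ ξ S z D - 1) / algebraMap L FL (B.ϖ ^ B.s)) 0
      (π ⟨B.α, B.α_unit.mem⟩ * ((moment B S z D : ℤ) : k)) := by
  classical
  set np : Place L FL → ℕ := fun P => (D P).toNat with hnp
  set nm : Place L FL → ℕ := fun P => (-D P).toNat with hnm
  set sp : Multiset L := rootsOf S z np with hsp
  set sm : Multiset L := rootsOf S z nm with hsm
  have hFp : posPoly S z D = ofRoots sp := rfl
  have hFm : negPoly S z D = ofRoots sm := rfl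
  set w : FL := algebraMap L FL (B.ϖ ^ B.s) with hw
  have hw0 : w ≠ 0 := (_root_.map_ne_zero _).2 (pow_ne_zero _ B.ϖ_ne)
  -- the values
  have hmem : ∀ {n : Place L FL → ℕ} {y : L}, y ∈ rootsOf S z n → ∃ P ∈ S, y = z P :=
    fun hy => mem_rootsOf hy
  have hA : ∀ (n : Place L FL → ℕ), ∀ y ∈ rootsOf S z n, y ∈ A.nonunits := by
    intro n y hy
    obtain ⟨P, hP, rfl⟩ := hmem hy
    exact hzA P hP
  have h0 : ∀ (n : Place L FL → ℕ), ∀ y ∈ rootsOf S z n, y ≠ 0 := by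
    intro n y hy
    obtain ⟨P, hP, rfl⟩ := hmem hy
    exact hz0 P hP
  have ht : ∀ (n : Place L FL → ℕ), ∀ y ∈ rootsOf S z n, thick / y ∈ A.nonunits := by
    intro n y hy
    obtain ⟨P, hP, rfl⟩ := hmem hy
    exact hzt P hP
  -- the expansions
  obtain ⟨hGp0, -, mp1, hmp1, hp1⟩ := tube_lead R1 B hτ hτξ hξ0 hξ1 sp (hA np) (hFp ▸ hKp)
  obtain ⟨hGm0, -, mm1, hmm1, hm1⟩ := tube_lead R1 B hτ hτξ hξ0 hξ1 sm (hA nm) (hFm ▸ hKm)
  obtain ⟨-, -, mp2, hmp2, hp2⟩ :=
    tube_const R2 B hτ hτξ hξ0 hmul hζ0 hζ2 sp (h0 np) (ht np) (hFp ▸ hKp)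
  obtain ⟨-, -, mm2, hmm2, hm2⟩ :=
    tube_const R2 B hτ hτξ hξ0 hmul hζ0 hζ2 sm (h0 nm) (ht nm) (hFm ▸ hKm)
  have hρ : rho τ ξ S z D = (τ (aeval ξ (ofRoots sp)) / aeval ξ (ofRoots sp)) /
      (τ (aeval ξ (ofRoots sm)) / aeval ξ (ofRoots sm)) := rfl
  set jp : ℤ := B.ordK ((ofRoots sp).coeff 0) with hjp
  set jm : ℤ := B.ordK ((ofRoots sm).coeff 0) with hjm
  have hμ : moment B S z D = jp - jm := rfl
  have hjpA : (jp : L) * B.α ∈ A := mul_mem (intCast_mem A _) B.α_unit.mem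
  have hjmA : (jm : L) * B.α ∈ A := mul_mem (intCast_mem A _) B.α_unit.mem
  -- first branch
  obtain ⟨hθ1, hred1⟩ := theta_red R1 (pow_s_non (B := B) R1) hw0 A.zero_mem A.zero_mem hmp1 hmm1
    (x := τ (aeval ξ (ofRoots sp)) / aeval ξ (ofRoots sp))
    (y := τ (aeval ξ (ofRoots sm)) / aeval ξ (ofRoots sm))
    (by rw [hp1, map_zero, zero_add]) (by rw [hm1, map_zero, zero_add])
  -- second branch
  obtain ⟨hθ2, hred2⟩ := theta_red R2 (pow_s_non (B := B) R2) hw0 hjpA hjmA hmp2 hmm2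
    (x := τ (aeval ξ (ofRoots sp)) / aeval ξ (ofRoots sp))
    (y := τ (aeval ξ (ofRoots sm)) / aeval ξ (ofRoots sm)) hp2 hm2
  refine ⟨?_, hθ1, hθ2, ?_, ?_, ?_⟩
  · rw [mul_div_cancel₀ _ hw0]
    ring
  · refine hred1.trans ?_
    congr 1
    have : (⟨0 - 0, sub_mem A.zero_mem A.zero_mem⟩ : A) = 0 := Subtype.ext (sub_zero 0)
    rw [this, map_zero]
  · refine hred2.trans ?_
    congr 1
    have : (⟨(jp : L) * B.α - (jm : L) * B.α, sub_mem hjpA hjmA⟩ : A) =
        ⟨B.α, B.α_unit.mem⟩ * ((moment B S z D : ℤ) : A) := by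
      refine Subtype.ext ?_
      rw [hμ]
      push_cast
      ring
    rw [this, map_mul, map_intCast]
  · -- regularity on the tube
    intro P hP
    have hgP : g P ∈ T := hgT P hP
    have hτGp0 : τ (aeval ξ (ofRoots sp)) ≠ 0 := (_root_.map_ne_zero τ).2 hGp0
    have hτGm0 : τ (aeval ξ (ofRoots sm)) ≠ 0 := (_root_.map_ne_zero τ).2 hGm0
    have hρ0 : rho τ ξ S z D ≠ 0 := by
      rw [hρ]
      exact div_ne_zero (div_ne_zero hτGp0 hGp0) (div_ne_zero hτGm0 hGm0)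
    -- the orders
    have hdiff : ∀ Q ∈ T, Q.ord (aeval ξ (ofRoots sp)) - Q.ord (aeval ξ (ofRoots sm)) = D Q := by
      intro Q hQ
      obtain ⟨hp_in, hp_out⟩ := ord_aeval_rootsOf S z hf4 np hQ
      obtain ⟨hm_in, hm_out⟩ := ord_aeval_rootsOf S z hf4 nm hQ
      by_cases hQS : Q ∈ S
      · rw [hp_in hQS, hm_in hQS]
        exact Int.toNat_sub_toNat_neg (D Q)
      · rw [hp_out hQS, hm_out hQS, hD Q hQ hQS, sub_zero]
    have hordρ : P.ord (rho τ ξ S z D) = D (g P) - D P := by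
      rw [hρ, ord_div' P (div_ne_zero hτGp0 hGp0) (div_ne_zero hτGm0 hGm0),
        ord_div' P hτGp0 hGp0, ord_div' P hτGm0 hGm0, hg P hP, hg P hP, ← hdiff P hP,
        ← hdiff (g P) hgP]
      ring
    have hne : h / rho τ ξ S z D ≠ 0 := div_ne_zero hh0 hρ0
    rw [← ord_nonneg_iff P hne, ord_div' P hh0 hρ0, hh P hP, hordρ, sub_self]

/-- existential form -/
theorem exists_isFactor_tube (R1 : Branch A π FL F1) (R2 : Branch A π FL F2) (B : BreakDatum A σ)
    {τ : FL →+* FL} (hτ : ∀ c : L, τ (algebraMap L FL c) = algebraMap L FL (σ c))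
    {ξ ζ : FL} {thick : L} (hτξ : τ ξ = ξ) (hξ0 : ξ ≠ 0) (hζ0 : ζ ≠ 0)
    (hmul : ξ * ζ = algebraMap L FL thick) (hξ1 : ξ⁻¹ ∈ R1.O) (hζ2 : ζ⁻¹ ∈ R2.O)
    {T : Set (Place L FL)} {g : Place L FL → Place L FL} (hgT : ∀ P ∈ T, g P ∈ T)
    (hg : ∀ P ∈ T, ∀ f : FL, P.ord (τ f) = (g P).ord f)
    (S : Finset (Place L FL)) (z : Place L FL → L)
    (hz0 : ∀ P ∈ S, z P ≠ 0) (hzA : ∀ P ∈ S, z P ∈ A.nonunits)
    (hzt : ∀ P ∈ S, thick / z P ∈ A.nonunits)
    (hf4 : ∀ P0 ∈ S, P0.ord (ξ - algebraMap L FL (z P0)) = 1 ∧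
      ∀ P ∈ T, P ≠ P0 → P.ord (ξ - algebraMap L FL (z P0)) = 0)
    (D : Place L FL → ℤ) (hD : ∀ P ∈ T, P ∉ S → D P = 0)
    (hKp : ∀ j, (posPoly S z D).coeff j ∈ B.K') (hKm : ∀ j, (negPoly S z D).coeff j ∈ B.K')
    {h : FL} (hh0 : h ≠ 0) (hh : ∀ P ∈ T, P.ord h = D (g P) - D P) :
    ∃ ρ θ : FL, IsFactor R1 R2 B T h ρ θ 0
      (π ⟨B.α, B.α_unit.mem⟩ * ((moment B S z D : ℤ) : k)) :=
  ⟨_, _, isFactor_tube R1 R2 B hτ hτξ hξ0 hζ0 hmul hξ1 hζ2 hgT hg S z hz0 hzA hzt hf4 D hD hKp hKm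
    hh0 hh⟩

/-! ### the moment when the values lie in `K'` -/

theorem ordK_neg (B : BreakDatum A σ) {c : L} (hc : c ∈ B.K') (h0 : c ≠ 0) :
    B.ordK (-c) = B.ordK c :=
  B.ordK_eq_of_val (B.K'.neg_mem hc) (neg_ne_zero.2 h0)
    (by rw [Valuation.map_neg, B.val_eq hc h0])

theorem ordK_coeff_zero_ofRoots (B : BreakDatum A σ) (s : Multiset L) (hsK : ∀ y ∈ s, y ∈ B.K')
    (hs0 : ∀ y ∈ s, y ≠ 0) : B.ordK ((ofRoots s).coeff 0) = (s.map B.ordK).sum := by
  induction s using Multiset.induction_on with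
  | empty =>
    rw [ofRoots_zero, coeff_one_zero, Multiset.map_zero, Multiset.sum_zero]
    exact B.ordK_unit B.K'.one_mem unitA_one
  | cons y s ih =>
    have hy : y ∈ B.K' := hsK y (Multiset.mem_cons_self y s)
    have hy0 : y ≠ 0 := hs0 y (Multiset.mem_cons_self y s)
    have hsK' : ∀ x ∈ s, x ∈ B.K' := fun x hx => hsK x (Multiset.mem_cons_of_mem hx)
    have hs0' : ∀ x ∈ s, x ≠ 0 := fun x hx => hs0 x (Multiset.mem_cons_of_mem hx)
    have hc : (ofRoots s).coeff 0 ∈ B.K' := coeff_ofRoots_mem B.K' s hsK' 0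
    have hc0 : (ofRoots s).coeff 0 ≠ 0 := coeff_zero_ofRoots_ne_zero s hs0'
    rw [coeff_ofRoots_cons_zero, ordK_neg B (B.K'.mul_mem hy hc) (mul_ne_zero hy0 hc0),
      B.ordK_mul hy hc hy0 hc0, ih hsK' hs0', Multiset.map_cons, Multiset.sum_cons]

/-- values in `K'`: the coefficients lie in `K'` -/
theorem coeff_posPoly_mem (K : Subfield L) (S : Finset J) (z : J → L) (D : J → ℤ)
    (hzK : ∀ P ∈ S, z P ∈ K) (j : ℕ) : (posPoly S z D).coeff j ∈ K :=
  coeff_ofRoots_mem K _ (fun y hy => by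
    obtain ⟨P, hP, rfl⟩ := mem_rootsOf hy
    exact hzK P hP) j

theorem coeff_negPoly_mem (K : Subfield L) (S : Finset J) (z : J → L) (D : J → ℤ)
    (hzK : ∀ P ∈ S, z P ∈ K) (j : ℕ) : (negPoly S z D).coeff j ∈ K :=
  coeff_ofRoots_mem K _ (fun y hy => by
    obtain ⟨P, hP, rfl⟩ := mem_rootsOf hy
    exact hzK P hP) j

/-- **values in `K'`: the moment is `∑ D P * ordK (z P)`** -/
theorem moment_eq_sum (B : BreakDatum A σ) (S : Finset J) (z : J → L) (D : J → ℤ)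
    (hzK : ∀ P ∈ S, z P ∈ B.K') (hz0 : ∀ P ∈ S, z P ≠ 0) :
    moment B S z D = ∑ P ∈ S, D P * B.ordK (z P) := by
  have hK : ∀ (n : J → ℕ), ∀ y ∈ rootsOf S z n, y ∈ B.K' := by
    intro n y hy
    obtain ⟨P, hP, rfl⟩ := mem_rootsOf hy
    exact hzK P hP
  have h0 : ∀ (n : J → ℕ), ∀ y ∈ rootsOf S z n, y ≠ 0 := by
    intro n y hy
    obtain ⟨P, hP, rfl⟩ := mem_rootsOf hy
    exact hz0 P hP
  rw [moment, posPoly, negPoly, ordK_coeff_zero_ofRoots B _ (hK _) (h0 _),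
    ordK_coeff_zero_ofRoots B _ (hK _) (h0 _), map_sum_rootsOf, map_sum_rootsOf,
    ← Finset.sum_sub_distrib]
  refine Finset.sum_congr rfl fun P _ => ?_
  rw [← sub_mul, Int.toNat_sub_toNat_neg]

/-- the moment in terms of valuations -/
theorem val_moment (B : BreakDatum A σ) (S : Finset J) (z : J → L) (D : J → ℤ)
    (hKp : (posPoly S z D).coeff 0 ∈ B.K') (hKm : (negPoly S z D).coeff 0 ∈ B.K')
    (hp0 : (posPoly S z D).coeff 0 ≠ 0) (hm0 : (negPoly S z D).coeff 0 ≠ 0) :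
    A.valuation ((posPoly S z D).coeff 0 / (negPoly S z D).coeff 0) =
      A.valuation B.ϖ ^ moment B S z D := by
  rw [map_div₀, B.val_eq hKp hp0, B.val_eq hKm hm0, moment,
    zpow_sub₀ ((Valuation.ne_zero_iff _).2 B.ϖ_ne)]

end Main

end Fermat.Agent.S44.Core.TubeFactor
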