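/-
PROJECT P (S44), CORE, Core/NodeFrame (helper6): THE NODE CLAUSE OF THE ORACLE FROM NODE COORDINATES.

Frame of `Core/TubeCoord` and `Core/TubeFactor`: `(L, A)`, `π : A →+* k`, two Gauss branches `R1 R2`
of `FL`, the two places `Q1 Q2` of a node, its tube, the local count `LocalCount R1 R2 tube Q1 Q2`,
a break datum `B : BreakDatum A σ`.

* `IsNodeCoord R1 R2 Q1 Q2 tube ξ ζ thick` : NODE COORDINATES: `ξ ζ = thick`, `thick` a non-zero
  non-unit of `A`, `red₁ ξ` and `red₂ ζ` uniformisers at `Q1`, `Q2`, `ξ` and `ζ` regular on the tube;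
* `IsNodeCoord.ord_eq_zero`, `.unit_one`, `.unit_two`, `.val_two` : `ξ` has neither zero nor pole on
  the tube, `ξ` is a unit of `O₁`, `ζ` a unit of `O₂`, `V₂ ξ = V₂ thick` (the interface of the
  Eisenstein part);
* `val ξ P` : the value of `ξ` at `P`; `val_eq`, `val_smul`;
* `nodeMoment B ξ tube D` : the moment `ordK (F⁺ 0) - ordK (F⁻ 0)` of the divisor `D` on the tube;
* `map_ofRoots_rootsOf` : the orbit polynomial is invariant;
* `exists_tubeFunction` : `G = F⁺(ξ) / F⁻(ξ)`: divisor `D` on the tube, unit of `O₁`, `G / c` unit of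
  `O₂` with `v c = v ϖ ^ nodeMoment` (input of `Core/Export`);
* `exists_isFactor_node` : **the node clause** `hnode` of `Core/Oracle`: for a semilinear `γ` over `σ`
  fixing `ξ` and the tube, a group `Hs` of semilinear automorphisms fixing `ξ` and the tube whose
  fixed constants lie in `K'`, an `Hs`-stable divisor `D` and `h` with `ord h = γ • D - D` on the
  tube: a local factor of `h` on the tube with jumps `0` and `ᾱ * nodeMoment`.

Mathlib + Prelude `BaseChangeGalois` + `Core/TubeFactor` + `Core/TubeCoord` (helper15).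
-/
import Mathlib
import Fermat.Prelude.Def_AlgebraicCurve_BaseChangeGalois
import Fermat.Agent.S44.Core.TubeFactor
import Fermat.Agent.S44.Core.TubeCoord

set_option autoImplicit false
set_option linter.unusedSectionVars false

namespace Fermat.Agent.S44.Core.NodeFrame

open Polynomial AlgebraicCurve Fermat.Agent.S24.Ord Fermat.Agent.S34.NodalDefs
  Fermat.Agent.S34.NodalDisc
open Fermat.Agent.S44.Core.Break Fermat.Agent.S44.Core.NormPoly Fermat.Agent.S44.Core.Induct
  Fermat.Agent.S44.Core.Factor Fermat.Agent.S44.Core.TubeFactor Fermat.Agent.S44.Core.TubeCount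
  Fermat.Agent.S44.Core.TubeCoord

variable {L : Type*} [Field L] {k : Type*} [Field k] {A : ValuationSubring L} {π : A →+* k}
variable {FL : Type*} [Field FL] [Algebra L FL]
variable {F1 : Type*} [Field F1] [Algebra k F1] {F2 : Type*} [Field F2] [Algebra k F2]

/-! ### values -/

section Values

open Classical in
/-- the value of `ξ` at `P` (junk value `0` if there is none) -/
noncomputable def val (ξ : FL) (P : Place L FL) : L :=
  if h : ∃ c : L, 0 < P.ord (ξ - algebraMap L FL c) then h.choose else 0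

theorem lt_one_of_ord_pos (P : Place L FL) {f : FL} (h : 0 < P.ord f) :
    P.adicValuation f < 1 := by
  have hne : f ≠ 0 := by
    rintro rfl
    rw [Place.ord_zero] at h
    exact lt_irrefl _ h
  exact (ord_pos_iff P hne).mp h

/-- the value is unique -/
theorem val_unique (P : Place L FL) {ξ : FL} {c c' : L}
    (h : 0 < P.ord (ξ - algebraMap L FL c)) (h' : 0 < P.ord (ξ - algebraMap L FL c')) :
    c = c' := by
  by_contra hne
  have hne' : c' - c ≠ 0 := sub_ne_zero.mpr (Ne.symm hne)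
  have h2 : algebraMap L FL (c' - c) =
      (ξ - algebraMap L FL c) - (ξ - algebraMap L FL c') := by
    rw [map_sub]; ring
  have h3 : P.adicValuation (algebraMap L FL (c' - c)) < 1 := by
    rw [h2]
    exact Valuation.map_sub_lt _ (lt_one_of_ord_pos P h) (lt_one_of_ord_pos P h')
  rw [adicValuation_algebraMap P hne'] at h3
  exact lt_irrefl _ h3

theorem val_eq {ξ : FL} {P : Place L FL} {c : L} (h : 0 < P.ord (ξ - algebraMap L FL c)) :
    val ξ P = c := by
  have hex : ∃ c : L, 0 < P.ord (ξ - algebraMap L FL c) := ⟨c, h⟩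
  rw [val, dif_pos hex]
  exact val_unique P hex.choose_spec h

/-- a semilinear automorphism fixing `ξ` transports the values -/
theorem val_smul (γ : SemilinearAut L FL) {ξ : FL} (hγξ : γ • ξ = ξ) {P : Place L FL} {c : L}
    (h : 0 < P.ord (ξ - algebraMap L FL c)) : val ξ (γ • P) = SemilinearAut.baseAut γ c := by
  refine val_eq ?_
  have h1 : γ • (ξ - algebraMap L FL c) = ξ - algebraMap L FL (SemilinearAut.baseAut γ c) := by
    rw [smul_sub, hγξ, SemilinearAut.smul_algebraMap]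
  rw [← h1, SemilinearAut.ord_smul]
  exact h

end Values

/-! ### the orbit polynomial -/

section Orbit

variable {J : Type*}

/-- a ring endomorphism of the constants which permutes the values along a permutation of the
index set preserving `S` and the multiplicities fixes the polynomial of the values -/
theorem map_ofRoots_rootsOf (S : Finset J) (z : J → L) (n : J → ℕ) (φ : L →+* L) (e : J ≃ J)
    (heS : ∀ P, P ∈ S ↔ e P ∈ S) (hn : ∀ P ∈ S, n (e P) = n P)
    (hz : ∀ P ∈ S, φ (z P) = z (e P)) :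
    (ofRoots (rootsOf S z n)).map φ = ofRoots (rootsOf S z n) := by
  rw [ofRoots_rootsOf, Polynomial.map_prod]
  refine Finset.prod_equiv e heS fun P hP => ?_
  rw [Polynomial.map_pow, Polynomial.map_sub, Polynomial.map_X, Polynomial.map_C, hz P hP,
    hn P hP]

theorem coeff_fixed (S : Finset J) (z : J → L) (n : J → ℕ) (φ : L →+* L) (e : J ≃ J)
    (heS : ∀ P, P ∈ S ↔ e P ∈ S) (hn : ∀ P ∈ S, n (e P) = n P)
    (hz : ∀ P ∈ S, φ (z P) = z (e P)) (j : ℕ) :
    φ ((ofRoots (rootsOf S z n)).coeff j) = (ofRoots (rootsOf S z n)).coeff j := by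
  have h := congrArg (fun F => F.coeff j) (map_ofRoots_rootsOf S z n φ e heS hn hz)
  simp only [Polynomial.coeff_map] at h
  exact h

end Orbit

/-! ### node coordinates -/

section Coord

/-- **Node coordinates** on the tube of a node with branches `Q1`, `Q2`. -/
structure IsNodeCoord (R1 : Branch A π FL F1) (R2 : Branch A π FL F2) (Q1 : Place k F1)
    (Q2 : Place k F2) (tube : Set (Place L FL)) (ξ ζ : FL) (thick : A) : Prop where
  thick_mem : thick ∈ IsLocalRing.maximalIdeal A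
  thick_ne : (thick : L) ≠ 0
  mul : ξ * ζ = algebraMap L FL (thick : L)
  ord1 : ∃ h : ξ ∈ R1.O, Q1.ord (R1.red ⟨ξ, h⟩) = 1
  ord2 : ∃ h : ζ ∈ R2.O, Q2.ord (R2.red ⟨ζ, h⟩) = 1
  reg_ξ : ∀ P ∈ tube, P.adicValuation ξ ≤ 1
  reg_ζ : ∀ P ∈ tube, P.adicValuation ζ ≤ 1

variable {R1 : Branch A π FL F1} {R2 : Branch A π FL F2} {Q1 : Place k F1} {Q2 : Place k F2}
  {tube : Set (Place L FL)} {ξ ζ : FL} {thick : A}

namespace IsNodeCoord

theorem thickL_ne (hC : IsNodeCoord R1 R2 Q1 Q2 tube ξ ζ thick) :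
    algebraMap L FL (thick : L) ≠ 0 := (_root_.map_ne_zero _).2 hC.thick_ne

theorem ξ_ne (hC : IsNodeCoord R1 R2 Q1 Q2 tube ξ ζ thick) : ξ ≠ 0 := by
  rintro rfl
  have := hC.mul
  rw [zero_mul] at this
  exact hC.thickL_ne this.symm

theorem ζ_ne (hC : IsNodeCoord R1 R2 Q1 Q2 tube ξ ζ thick) : ζ ≠ 0 := by
  rintro rfl
  have := hC.mul
  rw [mul_zero] at this
  exact hC.thickL_ne this.symm

/-- `ξ` has neither zero nor pole on the tube -/
theorem ord_eq_zero (hC : IsNodeCoord R1 R2 Q1 Q2 tube ξ ζ thick) :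
    ∀ P ∈ tube, P.ord ξ = 0 := by
  intro P hP
  have h1 : 0 ≤ P.ord ξ := (ord_nonneg_iff P hC.ξ_ne).mpr (hC.reg_ξ P hP)
  have h2 : 0 ≤ P.ord ζ := (ord_nonneg_iff P hC.ζ_ne).mpr (hC.reg_ζ P hP)
  have h3 : P.ord ξ + P.ord ζ = 0 := by
    rw [← Place.ord_mul P hC.ξ_ne hC.ζ_ne, hC.mul, ord_algebraMap]
  omega

/-- `ξ` is a unit of the first Gauss ring -/
theorem unit_one (hC : IsNodeCoord R1 R2 Q1 Q2 tube ξ ζ thick) : UnitA R1.O ξ := by
  obtain ⟨h, ho⟩ := hC.ord1
  refine unit_of_red_ne_zero R1 h ?_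
  intro h0
  rw [h0, Place.ord_zero] at ho
  exact zero_ne_one ho

/-- `ζ` is a unit of the second Gauss ring -/
theorem unit_two (hC : IsNodeCoord R1 R2 Q1 Q2 tube ξ ζ thick) : UnitA R2.O ζ := by
  obtain ⟨h, ho⟩ := hC.ord2
  refine unit_of_red_ne_zero R2 h ?_
  intro h0
  rw [h0, Place.ord_zero] at ho
  exact zero_ne_one ho

/-- the second Gauss valuation of `ξ` is that of `thick` -/
theorem val_two (hC : IsNodeCoord R1 R2 Q1 Q2 tube ξ ζ thick) :
    R2.O.valuation ξ = R2.O.valuation (algebraMap L FL (thick : L)) := by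
  have h1 : R2.O.valuation ζ = 1 := hC.unit_two
  rw [← hC.mul, map_mul, h1, mul_one]

end IsNodeCoord

end Coord

/-! ### the node clause -/

section Node

variable {σ : L ≃+* L}

open Classical in
/-- the points of `D` on the tube -/
noncomputable def tubeSupport (tube : Set (Place L FL)) (D : Divisor L FL) :
    Finset (Place L FL) :=
  D.support.filter (· ∈ tube)

/-- the moment of `D` on the tube, in the coordinate `ξ` -/
noncomputable def nodeMoment (B : BreakDatum A σ) (ξ : FL) (tube : Set (Place L FL))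
    (D : Divisor L FL) : ℤ :=
  moment B (tubeSupport tube D) (val ξ) (fun P => D P)

theorem mem_tubeSupport {tube : Set (Place L FL)} {D : Divisor L FL} {P : Place L FL} :
    P ∈ tubeSupport tube D ↔ D P ≠ 0 ∧ P ∈ tube := by
  classical
  rw [tubeSupport, Finset.mem_filter, Finsupp.mem_support_iff]

variable [HasPrincipalDivisors L FL]
variable {R1 : Branch A π FL F1} {R2 : Branch A π FL F2} {Q1 : Place k F1} {Q2 : Place k F2}
  {tube : Set (Place L FL)} {ξ ζ : FL} {thick : A}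

/-- the coordinate statement at a point of the tube, in terms of `val` -/
theorem IsNodeCoord.coord (hC : IsNodeCoord R1 R2 Q1 Q2 tube ξ ζ thick)
    (hLC : LocalCount R1 R2 tube Q1 Q2) (hcomm : Commens A) (hdeg : ∀ P : Place L FL, P.deg = 1)
    {P : Place L FL} (hP : P ∈ tube) :
    val ξ P ≠ 0 ∧ val ξ P ∈ A.nonunits ∧ (thick : L) / val ξ P ∈ A.nonunits ∧
      P.ord (ξ - algebraMap L FL (val ξ P)) = 1 ∧
      ∀ P' ∈ tube, P' ≠ P → P'.ord (ξ - algebraMap L FL (val ξ P)) = 0 := by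
  obtain ⟨h1, ho1⟩ := hC.ord1
  obtain ⟨h2, ho2⟩ := hC.ord2
  obtain ⟨c, c', hc, hc', hc0, -, hcc', hord, hother⟩ :=
    tube_coord hLC hcomm hC.thick_mem hC.thick_ne hC.mul (⟨h1, rfl⟩ : Red R1 ξ _)
      (⟨h2, rfl⟩ : Red R2 ζ _) ho1 ho2 hC.reg_ξ hC.reg_ζ hP (hdeg P)
  have hv : val ξ P = (c : L) := val_eq (by rw [hord]; exact one_pos)
  have hnon : ∀ a : A, a ∈ IsLocalRing.maximalIdeal A → (a : L) ∈ A.nonunits := by
    intro a ha
    rw [A.mem_nonunits_iff]
    exact (A.valuation_lt_one_iff a).1 ha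
  have hdiv : (thick : L) / (c : L) = (c' : L) := by
    rw [← hcc', mul_div_cancel_left₀ _ hc0]
  rw [hv]
  exact ⟨hc0, hnon c hc, by rw [hdiv]; exact hnon c' hc', hord, hother⟩

/-- **The node clause of the oracle.** -/
theorem exists_isFactor_node (B : BreakDatum A σ)
    (hC : IsNodeCoord R1 R2 Q1 Q2 tube ξ ζ thick)
    (hLC : LocalCount R1 R2 tube Q1 Q2) (hcomm : Commens A) (hdeg : ∀ P : Place L FL, P.deg = 1)
    (γ : SemilinearAut L FL) (hγσ : ∀ c : L, SemilinearAut.baseAut γ c = σ c)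
    (hγξ : γ • ξ = ξ) (hγt : ∀ P, γ • P ∈ tube ↔ P ∈ tube)
    (Hs : Subgroup (SemilinearAut L FL))
    (hfix : ∀ c : L, (∀ g' ∈ Hs, SemilinearAut.baseAut g' c = c) → c ∈ B.K')
    (hHξ : ∀ g' ∈ Hs, g' • ξ = ξ) (hHt : ∀ g' ∈ Hs, ∀ P, g' • P ∈ tube ↔ P ∈ tube)
    (D : Divisor L FL) (hHD : ∀ g' ∈ Hs, g' • D = D)
    {h : FL} (hh0 : h ≠ 0) (hdiv : ∀ P ∈ tube, P.ord h = (γ • D - D) P) :
    ∃ ρ θ : FL, IsFactor R1 R2 B tube h ρ θ 0
      (π ⟨B.α, B.α_unit.mem⟩ * ((nodeMoment B ξ tube D : ℤ) : k)) := by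
  classical
  set S := tubeSupport tube D with hS
  have hST : ∀ P ∈ S, P ∈ tube := fun P hP => (mem_tubeSupport.1 hP).2
  have hco := fun P (hP : P ∈ S) => hC.coord hLC hcomm hdeg (hST P hP)
  -- the orbit polynomials have coefficients in `K'`
  have hK : ∀ (n : ℤ → ℕ) (j : ℕ),
      (ofRoots (rootsOf S (val ξ) fun P => n (D P))).coeff j ∈ B.K' := by
    intro n j
    refine hfix _ fun g' hg' => ?_
    have hDg : ∀ P, D (g' • P) = D P := by
      intro P
      have h1 := SemilinearAut.divisor_smul_apply_smul g' D P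
      rw [hHD g' hg'] at h1
      exact h1
    have heS : ∀ P, P ∈ S ↔ (MulAction.toPerm g' : Place L FL ≃ Place L FL) P ∈ S := by
      intro P
      rw [hS, mem_tubeSupport, mem_tubeSupport, MulAction.toPerm_apply, hDg P, hHt g' hg' P]
    exact coeff_fixed S (val ξ) (fun P => n (D P))
      ((SemilinearAut.baseAut g' : L ≃+* L) : L →+* L) (MulAction.toPerm g') heS
      (fun P _ => by rw [MulAction.toPerm_apply, hDg P])
      (fun P hP => by
        rw [MulAction.toPerm_apply,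
          val_smul g' (hHξ g' hg') (c := val ξ P) (by rw [(hco P hP).2.2.2.1]; exact one_pos)]
        rfl) j
  have hξ1 : ξ⁻¹ ∈ R1.O := hC.unit_one.inv_mem
  have hζ2 : ζ⁻¹ ∈ R2.O := hC.unit_two.inv_mem
  refine exists_isFactor_tube R1 R2 B (τ := ((SemilinearAut.toRingAut γ : FL ≃+* FL) : FL →+* FL))
    (fun c => ?_) (ζ := ζ) (thick := (thick : L)) hγξ hC.ξ_ne hC.ζ_ne hC.mul hξ1 hζ2
    (g := fun P => γ⁻¹ • P) (fun P hP => ?_) (fun P _ f => ?_) S (val ξ)
    (fun P hP => (hco P hP).1) (fun P hP => (hco P hP).2.1) (fun P hP => (hco P hP).2.2.1)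
    (fun P hP => (hco P hP).2.2.2) (fun P => D P) (fun P hP hPS => ?_)
    (hK fun m => m.toNat) (hK fun m => (-m).toNat) hh0 (fun P hP => ?_)
  · show SemilinearAut.toRingAut γ (algebraMap L FL c) = algebraMap L FL (σ c)
    rw [SemilinearAut.commutes, hγσ]
  · rw [← hγt, smul_inv_smul]
    exact hP
  · have h1 := SemilinearAut.ord_smul γ (γ⁻¹ • P) f
    rw [smul_inv_smul] at h1
    exact h1
  · by_contra h0
    exact hPS (mem_tubeSupport.2 ⟨h0, hP⟩)
  · rw [hdiv P hP, Finsupp.sub_apply, SemilinearAut.divisor_smul_apply]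

/-- **The tube function of `D`** (input of the export): `G = F⁺(ξ) / F⁻(ξ)` has divisor `D` on the
tube, is a unit of `O₁`, and `G / c` is a unit of `O₂` for a constant `c ∈ K'` with
`v c = v ϖ ^ nodeMoment`. -/
theorem exists_tubeFunction (B : BreakDatum A σ)
    (hC : IsNodeCoord R1 R2 Q1 Q2 tube ξ ζ thick)
    (hLC : LocalCount R1 R2 tube Q1 Q2) (hcomm : Commens A) (hdeg : ∀ P : Place L FL, P.deg = 1)
    (γ : SemilinearAut L FL) (hγσ : ∀ c : L, SemilinearAut.baseAut γ c = σ c)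
    (hγξ : γ • ξ = ξ)
    (Hs : Subgroup (SemilinearAut L FL))
    (hfix : ∀ c : L, (∀ g' ∈ Hs, SemilinearAut.baseAut g' c = c) → c ∈ B.K')
    (hHξ : ∀ g' ∈ Hs, g' • ξ = ξ) (hHt : ∀ g' ∈ Hs, ∀ P, g' • P ∈ tube ↔ P ∈ tube)
    (D : Divisor L FL) (hHD : ∀ g' ∈ Hs, g' • D = D) :
    ∃ G : FL, G ≠ 0 ∧ (∀ P ∈ tube, P.ord G = D P) ∧ UnitA R1.O G ∧
      ∃ c ∈ B.K', c ≠ 0 ∧ UnitA R2.O (G / algebraMap L FL c) ∧
        A.valuation c = A.valuation B.ϖ ^ nodeMoment B ξ tube D := by
  classical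
  set S := tubeSupport tube D with hS
  have hST : ∀ P ∈ S, P ∈ tube := fun P hP => (mem_tubeSupport.1 hP).2
  have hco := fun P (hP : P ∈ S) => hC.coord hLC hcomm hdeg (hST P hP)
  have hK : ∀ (n : ℤ → ℕ) (j : ℕ),
      (ofRoots (rootsOf S (val ξ) fun P => n (D P))).coeff j ∈ B.K' := by
    intro n j
    refine hfix _ fun g' hg' => ?_
    have hDg : ∀ P, D (g' • P) = D P := by
      intro P
      have h1 := SemilinearAut.divisor_smul_apply_smul g' D P
      rw [hHD g' hg'] at h1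
      exact h1
    have heS : ∀ P, P ∈ S ↔ (MulAction.toPerm g' : Place L FL ≃ Place L FL) P ∈ S := by
      intro P
      rw [hS, mem_tubeSupport, mem_tubeSupport, MulAction.toPerm_apply, hDg P, hHt g' hg' P]
    exact coeff_fixed S (val ξ) (fun P => n (D P))
      ((SemilinearAut.baseAut g' : L ≃+* L) : L →+* L) (MulAction.toPerm g') heS
      (fun P _ => by rw [MulAction.toPerm_apply, hDg P])
      (fun P hP => by
        rw [MulAction.toPerm_apply,
          val_smul g' (hHξ g' hg') (c := val ξ P) (by rw [(hco P hP).2.2.2.1]; exact one_pos)]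
        rfl) j
  have hτ : ∀ c : L, ((SemilinearAut.toRingAut γ : FL ≃+* FL) : FL →+* FL) (algebraMap L FL c) =
      algebraMap L FL (σ c) := by
    intro c
    show SemilinearAut.toRingAut γ (algebraMap L FL c) = algebraMap L FL (σ c)
    rw [SemilinearAut.commutes, hγσ]
  -- the two multisets
  have hmem : ∀ {n : Place L FL → ℕ} {y : L}, y ∈ rootsOf S (val ξ) n → ∃ P ∈ S, y = val ξ P :=
    fun hy => mem_rootsOf hy
  have hA : ∀ (n : Place L FL → ℕ), ∀ y ∈ rootsOf S (val ξ) n, y ∈ A.nonunits := by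
    intro n y hy
    obtain ⟨P, hP, rfl⟩ := hmem hy
    exact (hco P hP).2.1
  have h0 : ∀ (n : Place L FL → ℕ), ∀ y ∈ rootsOf S (val ξ) n, y ≠ 0 := by
    intro n y hy
    obtain ⟨P, hP, rfl⟩ := hmem hy
    exact (hco P hP).1
  have ht : ∀ (n : Place L FL → ℕ), ∀ y ∈ rootsOf S (val ξ) n,
      (thick : L) / y ∈ A.nonunits := by
    intro n y hy
    obtain ⟨P, hP, rfl⟩ := hmem hy
    exact (hco P hP).2.2.1
  set np : Place L FL → ℕ := fun P => (D P).toNat with hnp
  set nm : Place L FL → ℕ := fun P => (-D P).toNat with hnm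
  set Fp : L[X] := ofRoots (rootsOf S (val ξ) np) with hFp
  set Fm : L[X] := ofRoots (rootsOf S (val ξ) nm) with hFm
  have hKp : ∀ j, Fp.coeff j ∈ B.K' := hK fun m => m.toNat
  have hKm : ∀ j, Fm.coeff j ∈ B.K' := hK fun m => (-m).toNat
  have hup := unit_tube_lead R1 B hτ hγξ hC.unit_one _ (hA np) hKp
  have hum := unit_tube_lead R1 B hτ hγξ hC.unit_one _ (hA nm) hKm
  have hcp := unit_tube_const R2 B hτ hγξ hC.ξ_ne hC.mul hC.ζ_ne hC.unit_two.inv_mem _ (h0 np)
    (ht np) hKp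
  have hcm := unit_tube_const R2 B hτ hγξ hC.ξ_ne hC.mul hC.ζ_ne hC.unit_two.inv_mem _ (h0 nm)
    (ht nm) hKm
  have hp0 : Fp.coeff 0 ≠ 0 := coeff_zero_ofRoots_ne_zero _ (h0 np)
  have hm0 : Fm.coeff 0 ≠ 0 := coeff_zero_ofRoots_ne_zero _ (h0 nm)
  have hf4 : ∀ P0 ∈ S, P0.ord (ξ - algebraMap L FL (val ξ P0)) = 1 ∧
      ∀ P ∈ tube, P ≠ P0 → P.ord (ξ - algebraMap L FL (val ξ P0)) = 0 :=
    fun P hP => (hco P hP).2.2.2
  refine ⟨aeval ξ Fp / aeval ξ Fm, div_ne_zero hup.ne_zero hum.ne_zero, fun P hP => ?_,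
    hup.div hum, Fp.coeff 0 / Fm.coeff 0, B.K'.div_mem (hKp 0) (hKm 0), div_ne_zero hp0 hm0, ?_,
    ?_⟩
  · obtain ⟨hp_in, hp_out⟩ := ord_aeval_rootsOf S (val ξ) hf4 np hP
    obtain ⟨hm_in, hm_out⟩ := ord_aeval_rootsOf S (val ξ) hf4 nm hP
    rw [ord_div' P hup.ne_zero hum.ne_zero]
    by_cases hPS : P ∈ S
    · rw [hp_in hPS, hm_in hPS]
      exact Int.toNat_sub_toNat_neg (D P)
    · rw [hp_out hPS, hm_out hPS, sub_zero]
      by_contra hne
      exact hPS (mem_tubeSupport.2 ⟨fun h => hne h.symm, hP⟩)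
  · have h1 : aeval ξ Fp / aeval ξ Fm / algebraMap L FL (Fp.coeff 0 / Fm.coeff 0) =
        (aeval ξ Fp / algebraMap L FL (Fp.coeff 0)) /
          (aeval ξ Fm / algebraMap L FL (Fm.coeff 0)) := by
      have e1 : algebraMap L FL (Fp.coeff 0) ≠ 0 := (_root_.map_ne_zero _).2 hp0
      have e2 : algebraMap L FL (Fm.coeff 0) ≠ 0 := (_root_.map_ne_zero _).2 hm0
      have e3 := hum.ne_zero
      rw [map_div₀]
      field_simp
    rw [h1]
    exact hcp.div hcm
  · exact val_moment B S (val ξ) (fun P => D P) (hKp 0) (hKm 0) hp0 hm0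

end Node

end Fermat.Agent.S44.Core.NodeFrame
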