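import Fermat.Agent.S34.NodalDisc

/-!
# PROJECT P (S44), core brick (f4): the tube of a node from ONE counting statement

Frame: `(L, A)` a valued field, `FL / L` a function field, `R1 R2` two Gauss branches of `FL`
(`S34.NodalDefs.Branch`), `Q1`, `Q2` the two branches of a node of the reduction, `tube` a set of
places of `FL` (the places specialising to the node).

`LocalCount R1 R2 tube Q1 Q2` is the counting statement for TWO-SIDED UNITS: if `y` is a unit of
both Gauss rings, then the number of zeros minus poles of `y` on the tube is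
`ord_{Q1} (red₁ y) + ord_{Q2} (red₂ y)`.  (At `X₀(M p)` it follows from the norm to level `M`.)

From `LocalCount` alone:

* `LocalCount.ord_eq_zero`, `LocalCount.ord_form` : a two-sided unit whose reductions have order
  `0` at the node has neither zero nor pole on the tube; this is the hypothesis of
  `S44/Core/TubeEval.lc0_of_ord` (values on the tube: `value_mem`, `value_eq`, `tube_values`);
* `exists_unique_zero` : **the coordinate of the tube**: if `ξ ζ = thick`, `ξ ζ ∈ O₁ ∩ O₂` without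
  pole on the tube, `red₁ ξ` has a simple zero at `Q1`, `red₂ ξ = 0`, `red₂ ζ` has a simple zero
  at `Q2`, `red₁ ζ = 0`, then for every `c` with `c`, `thick / c` non-units of `A` and
  `c ^ a = u (thick / c) ^ b` (`u` a unit of `A`, `a b > 0`) the function `ξ - c` has EXACTLY ONE
  zero on the tube, and it is simple.
-/

set_option autoImplicit false
set_option linter.unusedSectionVars false
set_option linter.unusedVariables false

namespace Fermat.Agent.S44.Core.TubeCount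

open AlgebraicCurve Fermat.Agent.S24.Ord Fermat.Agent.S34.NodalDefs Fermat.Agent.S34.NodalDisc

variable {L : Type*} [Field L] {FL : Type*} [Field FL] [Algebra L FL]
variable {k : Type*} [Field k]
variable {A : ValuationSubring L} {π : A →+* k}

/-! ### "`y` is Gauss-integral with reduction `φ`" -/

section Red

variable {Fk : Type*} [Field Fk] [Algebra k Fk] (R : Branch A π FL Fk)

/-- `y ∈ O` and `red y = φ` -/
def Red (y : FL) (φ : Fk) : Prop := ∃ h : y ∈ R.O, R.red ⟨y, h⟩ = φ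

variable {R}

theorem Red.mem {y : FL} {φ : Fk} (h : Red R y φ) : y ∈ R.O := h.1

theorem red_of_mem {y : FL} (h : y ∈ R.O) : Red R y (R.red ⟨y, h⟩) := ⟨h, rfl⟩

theorem Red.add {y z : FL} {φ ψ : Fk} (hy : Red R y φ) (hz : Red R z ψ) : Red R (y + z) (φ + ψ) := by
  obtain ⟨h1, rfl⟩ := hy
  obtain ⟨h2, rfl⟩ := hz
  refine ⟨R.O.add_mem _ _ h1 h2, ?_⟩
  rw [← map_add]
  rfl

theorem Red.mul {y z : FL} {φ ψ : Fk} (hy : Red R y φ) (hz : Red R z ψ) : Red R (y * z) (φ * ψ) := by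
  obtain ⟨h1, rfl⟩ := hy
  obtain ⟨h2, rfl⟩ := hz
  refine ⟨R.O.mul_mem _ _ h1 h2, ?_⟩
  rw [← map_mul]
  rfl

theorem Red.neg {y : FL} {φ : Fk} (hy : Red R y φ) : Red R (-y) (-φ) := by
  obtain ⟨h1, rfl⟩ := hy
  refine ⟨R.O.neg_mem _ h1, ?_⟩
  rw [← map_neg]
  rfl

theorem Red.sub {y z : FL} {φ ψ : Fk} (hy : Red R y φ) (hz : Red R z ψ) : Red R (y - z) (φ - ψ) := by
  rw [sub_eq_add_neg, sub_eq_add_neg]
  exact hy.add hz.neg

theorem red_one : Red R (1 : FL) (1 : Fk) := ⟨R.O.one_mem, by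
  have : (⟨1, R.O.one_mem⟩ : R.O) = 1 := rfl
  rw [this, map_one]⟩

theorem Red.pow {y : FL} {φ : Fk} (hy : Red R y φ) (n : ℕ) : Red R (y ^ n) (φ ^ n) := by
  induction n with
  | zero => simpa using red_one
  | succ n ih => rw [pow_succ, pow_succ]; exact ih.mul hy

theorem red_const (a : A) : Red R (algebraMap L FL (a : L)) (algebraMap k Fk (π a)) :=
  ⟨R.algebraMap_mem a, R.red_algebraMap a⟩

/-- a constant of `𝔪_A` reduces to `0` -/
theorem red_const_zero {a : A} (ha : a ∈ IsLocalRing.maximalIdeal A) :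
    Red R (algebraMap L FL (a : L)) (0 : Fk) := by
  have h := red_const (R := R) a
  rwa [(pi_eq_zero_iff R a).mpr ha, map_zero] at h

theorem Red.inv {y : FL} {φ : Fk} (hy : Red R y φ) (hφ : φ ≠ 0) : Red R y⁻¹ φ⁻¹ := by
  obtain ⟨h1, rfl⟩ := hy
  set u : R.Oˣ := unitOfRed R ⟨y, h1⟩ hφ with hu
  have hc : (((u⁻¹ : R.Oˣ) : R.O) : FL) = y⁻¹ := by
    rw [coe_inv_unit, hu, coe_unitOfRed]
  have hr : R.red ((u⁻¹ : R.Oˣ) : R.O) = (R.red ⟨y, h1⟩)⁻¹ := by
    rw [red_inv_unit, hu, coe_unitOfRed]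
  refine ⟨hc ▸ ((u⁻¹ : R.Oˣ) : R.O).2, ?_⟩
  rw [← hr]
  congr 1
  exact Subtype.ext hc.symm

theorem Red.unique {y : FL} {φ ψ : Fk} (h1 : Red R y φ) (h2 : Red R y ψ) : φ = ψ := by
  obtain ⟨a, rfl⟩ := h1
  obtain ⟨b, rfl⟩ := h2
  rfl

theorem Red.ne_zero {y : FL} {φ : Fk} (h : Red R y φ) (hφ : φ ≠ 0) : y ≠ 0 := by
  rintro rfl
  obtain ⟨a, rfl⟩ := h
  apply hφ
  have : (⟨0, a⟩ : R.O) = 0 := rfl
  rw [this, map_zero]

end Red

/-! ### places: small lemmas -/

section Places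

variable {K : Type*} [Field K] {F : Type*} [Field F] [Algebra K F]

theorem adicValuation_const_le_one (v : Place K F) (c : K) :
    v.adicValuation (algebraMap K F c) ≤ 1 := by
  rcases eq_or_ne c 0 with rfl | hc
  · simp
  · exact (adicValuation_algebraMap v hc).le

theorem adicValuation_sub_const_le_one (v : Place K F) {f : F} (hf : v.adicValuation f ≤ 1)
    (c : K) : v.adicValuation (f - algebraMap K F c) ≤ 1 :=
  (Valuation.map_sub _ _ _).trans (max_le hf (adicValuation_const_le_one v c))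

theorem ord_eq_zero_of_adicValuation_eq_one (v : Place K F) {f : F}
    (h : v.adicValuation f = 1) : v.ord f = 0 := by
  rw [ord_eq, h, WithZero.log_one, neg_zero]

theorem ord_nonneg_of_le_one (v : Place K F) {f : F} (h : v.adicValuation f ≤ 1) :
    0 ≤ v.ord f := by
  rcases eq_or_ne f 0 with rfl | hf
  · simp [Place.ord_zero]
  · exact (ord_nonneg_iff v hf).mpr h

end Places

/-! ### the counting statement -/

variable {F1 : Type*} [Field F1] [Algebra k F1] {F2 : Type*} [Field F2] [Algebra k F2]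

/-- **The local count on a tube, for two-sided units.** -/
def LocalCount (R1 : Branch A π FL F1) (R2 : Branch A π FL F2) (tube : Set (Place L FL))
    (Q1 : Place k F1) (Q2 : Place k F2) : Prop :=
  ∀ (y : FL) (φ1 : F1) (φ2 : F2), Red R1 y φ1 → Red R2 y φ2 → φ1 ≠ 0 → φ2 ≠ 0 →
    ∀ T : Finset (Place L FL), (∀ P ∈ T, P ∈ tube) → (∀ P ∈ tube, P.ord y ≠ 0 → P ∈ T) →
      ∑ P ∈ T, P.ord y = Q1.ord φ1 + Q2.ord φ2

variable {R1 : Branch A π FL F1} {R2 : Branch A π FL F2} {tube : Set (Place L FL)}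
  {Q1 : Place k F1} {Q2 : Place k F2}

/-- a two-sided unit whose reductions have order `0` at the node has neither zero nor pole on the
tube -/
theorem LocalCount.ord_eq_zero [HasPrincipalDivisors L FL] (hLC : LocalCount R1 R2 tube Q1 Q2)
    {y : FL} {φ1 : F1} {φ2 : F2} (h1 : Red R1 y φ1) (h2 : Red R2 y φ2) (hφ1 : φ1 ≠ 0)
    (hφ2 : φ2 ≠ 0) (ho1 : Q1.ord φ1 = 0) (ho2 : Q2.ord φ2 = 0)
    (hreg : ∀ P ∈ tube, 0 ≤ P.ord y) : ∀ P ∈ tube, P.ord y = 0 := by
  classical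
  have hy0 : y ≠ 0 := h1.ne_zero hφ1
  obtain ⟨D, hD, -⟩ := HasPrincipalDivisors.exists_divisor (K := L) y hy0
  set T : Finset (Place L FL) := D.support.filter (· ∈ tube) with hT
  have hsum := hLC y φ1 φ2 h1 h2 hφ1 hφ2 T (fun P hP => (Finset.mem_filter.mp hP).2)
    (fun P hP hne => Finset.mem_filter.mpr
      ⟨Finsupp.mem_support_iff.mpr (by rw [hD]; exact hne), hP⟩)
  rw [ho1, ho2, add_zero] at hsum
  have hall : ∀ P ∈ T, P.ord y = 0 :=
    (Finset.sum_eq_zero_iff_of_nonneg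
      (fun P hP => hreg P (Finset.mem_filter.mp hP).2)).mp hsum
  intro P hP
  by_contra hne
  exact hne (hall P (Finset.mem_filter.mpr
    ⟨Finsupp.mem_support_iff.mpr (by rw [hD]; exact hne), hP⟩))

/-- **Wiring for `S44/Core/TubeEval`** (helper1): the `Place.ord` literal of the hypothesis of
`TubeEval.lc0_of_ord`, so that `TubeEval.lc0_of_ord hLC.ord_form : TubeEval.LC0 R1 R2 Q1 Q2 tube`
and every consumer gets `value_mem`, `value_eq`, `tube_values` from the count. -/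
theorem LocalCount.ord_form [HasPrincipalDivisors L FL] (hLC : LocalCount R1 R2 tube Q1 Q2) :
    ∀ (y1 : R1.O) (y2 : R2.O), ((y1 : R1.O) : FL) = ((y2 : R2.O) : FL) →
      R1.red y1 ≠ 0 → R2.red y2 ≠ 0 → Q1.ord (R1.red y1) = 0 → Q2.ord (R2.red y2) = 0 →
      (∀ P ∈ tube, 0 ≤ P.ord ((y1 : R1.O) : FL)) → ∀ P ∈ tube, P.ord ((y1 : R1.O) : FL) = 0 := by
  intro y1 y2 h12 hr1 hr2 ho1 ho2 hreg
  have h2 : Red R2 ((y1 : R1.O) : FL) (R2.red y2) := by
    refine ⟨h12 ▸ y2.2, ?_⟩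
    congr 1
    exact Subtype.ext h12
  exact hLC.ord_eq_zero ⟨y1.2, rfl⟩ h2 hr1 hr2 ho1 ho2 hreg

/-! ### the coordinate of the tube -/

section Coordinate

theorem eq_one_of_mul_eq_one {Γ : Type*} [LinearOrderedCommMonoidWithZero Γ] {x y : Γ}
    (hx : x ≤ 1) (hy : y ≤ 1) (h : x * y = 1) : x = 1 := by
  refine le_antisymm hx ?_
  calc (1 : Γ) = x * y := h.symm
    _ ≤ x * 1 := mul_le_mul_right hy x
    _ = x := mul_one x

/-- the order at `Q` of `const * x ^ a` -/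
theorem ord_const_mul_pow {K : Type*} [Field K] {F : Type*} [Field F] [Algebra K F]
    (Q : Place K F) {κ : K} (hκ : κ ≠ 0) {x : F} (hx : x ≠ 0) (a : ℕ) :
    algebraMap K F κ * x ^ a ≠ 0 ∧ Q.ord (algebraMap K F κ * x ^ a) = a * Q.ord x := by
  have h1 : algebraMap K F κ ≠ 0 := (map_ne_zero_iff _ (algebraMap K F).injective).mpr hκ
  have h2 : x ^ a ≠ 0 := pow_ne_zero a hx
  refine ⟨mul_ne_zero h1 h2, ?_⟩
  rw [Place.ord_mul Q h1 h2, ord_algebraMap, zero_add, ← zpow_natCast, Place.ord_zpow]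

variable [HasPrincipalDivisors L FL]

/-- **The coordinate of the tube**: `ξ - c` has exactly one zero on the tube, and it is simple. -/
theorem exists_unique_zero (hLC : LocalCount R1 R2 tube Q1 Q2)
    {ξ ζ : FL} {thick : L} (hmul : ξ * ζ = algebraMap L FL thick)
    {xb : F1} {yb : F2} (hξ1 : Red R1 ξ xb) (hζ2 : Red R2 ζ yb)
    (hx : Q1.ord xb = 1) (hy : Q2.ord yb = 1)
    (hregξ : ∀ P ∈ tube, P.adicValuation ξ ≤ 1) (hregζ : ∀ P ∈ tube, P.adicValuation ζ ≤ 1)
    (c c' : A) (hc : c ∈ IsLocalRing.maximalIdeal A) (hc' : c' ∈ IsLocalRing.maximalIdeal A)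
    (hc0 : (c : L) ≠ 0) (hc0' : (c' : L) ≠ 0)
    (hcc' : (c : L) * (c' : L) = thick) (a b : ℕ) (ha : 0 < a) (hb : 0 < b) (u : Aˣ)
    (hab : (c : L) ^ a = ((u : A) : L) * (c' : L) ^ b) :
    ∃ P0 ∈ tube, P0.ord (ξ - algebraMap L FL (c : L)) = 1 ∧
      ∀ P ∈ tube, P ≠ P0 → P.ord (ξ - algebraMap L FL (c : L)) = 0 := by
  classical
  have hxb0 : xb ≠ 0 := by
    rintro rfl
    rw [Place.ord_zero] at hx
    exact zero_ne_one hx
  have hyb0 : yb ≠ 0 := by
    rintro rfl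
    rw [Place.ord_zero] at hy
    exact zero_ne_one hy
  have hξ0 : ξ ≠ 0 := hξ1.ne_zero hxb0
  have hζ0 : ζ ≠ 0 := hζ2.ne_zero hyb0
  set cL : FL := algebraMap L FL (c : L) with hcL
  set cL' : FL := algebraMap L FL (c' : L) with hcL'
  have hcL0 : cL ≠ 0 := (map_ne_zero_iff _ (algebraMap L FL).injective).mpr hc0
  have hcL0' : cL' ≠ 0 := (map_ne_zero_iff _ (algebraMap L FL).injective).mpr hc0'
  have hmul' : ξ * ζ = cL * cL' := by rw [hmul, ← hcc', map_mul]
  have hζeq : ζ = cL * cL' * ξ⁻¹ := by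
    rw [← hmul']; field_simp
  have hξeq : ξ = cL * cL' * ζ⁻¹ := by
    rw [← hmul']; field_simp
  -- the unit constant
  have hu0 : ((u : A) : L) ≠ 0 := by
    intro h0
    have : (u : A) = 0 := Subtype.ext h0
    exact u.ne_zero this
  have huinv : (((u⁻¹ : Aˣ) : A) : L) = (((u : A) : L))⁻¹ := by
    have h : (((u⁻¹ : Aˣ) : A) : L) * ((u : A) : L) = 1 := by
      have h1 : ((u⁻¹ : Aˣ) : A) * (u : A) = 1 := Units.inv_mul u
      rw [← MulMemClass.coe_mul, h1]
      rfl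
    exact eq_inv_of_mul_eq_one_left h
  set uL : FL := algebraMap L FL (((u⁻¹ : Aˣ) : A) : L) with huL
  have habF : cL ^ a = algebraMap L FL ((u : A) : L) * cL' ^ b := by
    rw [hcL, hcL', ← map_pow, ← map_pow, ← map_mul, hab]
  have huLmul : uL * algebraMap L FL ((u : A) : L) = 1 := by
    rw [huL, ← map_mul, huinv, inv_mul_cancel₀ hu0, map_one]
  have huLeq : cL' ^ b * (cL ^ a)⁻¹ = uL := by
    rw [habF]
    have h1 : algebraMap L FL ((u : A) : L) ≠ 0 :=
      (map_ne_zero_iff _ (algebraMap L FL).injective).mpr hu0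
    have h2 : cL' ^ b ≠ 0 := pow_ne_zero b hcL0'
    field_simp
    linear_combination (-1 : FL) * huLmul
  -- the function `g`
  set g : FL := (ξ - cL) ^ a * (ζ - cL') ^ b * (cL ^ a)⁻¹ with hg
  have hg1 : g = (ξ - cL) ^ a * (cL * ξ⁻¹ - 1) ^ b * uL := by
    rw [hg, ← huLeq]
    have : ζ - cL' = cL' * (cL * ξ⁻¹ - 1) := by rw [hζeq]; ring
    rw [this, mul_pow]
    ring
  have hg2 : g = (cL' * ζ⁻¹ - 1) ^ a * (ζ - cL') ^ b := by
    rw [hg]
    have : ξ - cL = cL * (cL' * ζ⁻¹ - 1) := by rw [hξeq]; ring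
    rw [this, mul_pow]
    have h1 : cL ^ a ≠ 0 := pow_ne_zero a hcL0
    field_simp
  -- reductions at the first branch
  have hr1 : Red R1 g ((xb - 0) ^ a * (0 * xb⁻¹ - 1) ^ b *
      algebraMap k F1 (π ((u⁻¹ : Aˣ) : A))) := by
    rw [hg1]
    exact (((hξ1.sub (red_const_zero hc)).pow a).mul
      ((((red_const_zero hc).mul (hξ1.inv hxb0)).sub red_one).pow b)).mul (red_const _)
  have hπu : π ((u⁻¹ : Aˣ) : A) ≠ 0 := ((u⁻¹ : Aˣ).isUnit.map π).ne_zero
  have hφ1 : (xb - 0) ^ a * (0 * xb⁻¹ - 1) ^ b * algebraMap k F1 (π ((u⁻¹ : Aˣ) : A)) =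
      algebraMap k F1 ((-1) ^ b * π ((u⁻¹ : Aˣ) : A)) * xb ^ a := by
    simp only [sub_zero, zero_mul, zero_sub, map_mul, map_pow, map_neg, map_one]
    ring
  have hκ1 : (-1 : k) ^ b * π ((u⁻¹ : Aˣ) : A) ≠ 0 :=
    mul_ne_zero (pow_ne_zero b (neg_ne_zero.mpr one_ne_zero)) hπu
  rw [hφ1] at hr1
  obtain ⟨hn1, ho1⟩ := ord_const_mul_pow Q1 hκ1 hxb0 a
  -- reductions at the second branch
  have hr2 : Red R2 g ((0 * yb⁻¹ - 1) ^ a * (yb - 0) ^ b) := by
    rw [hg2]
    exact ((((red_const_zero hc').mul (hζ2.inv hyb0)).sub red_one).pow a).mul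
      ((hζ2.sub (red_const_zero hc')).pow b)
  have hφ2 : (0 * yb⁻¹ - 1) ^ a * (yb - 0) ^ b = algebraMap k F2 ((-1) ^ a) * yb ^ b := by
    simp only [sub_zero, zero_mul, zero_sub, map_pow, map_neg, map_one]
  have hκ2 : (-1 : k) ^ a ≠ 0 := pow_ne_zero a (neg_ne_zero.mpr one_ne_zero)
  rw [hφ2] at hr2
  obtain ⟨hn2, ho2⟩ := ord_const_mul_pow Q2 hκ2 hyb0 b
  -- `ξ - c ≠ 0`
  have hf1 : Red R1 (ξ - cL) (xb - 0) := hξ1.sub (red_const_zero hc)
  rw [sub_zero] at hf1
  have hf0 : ξ - cL ≠ 0 := hf1.ne_zero hxb0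
  -- on the tube
  have hval : ∀ P ∈ tube, P.adicValuation ξ = 1 := fun P hP => by
    refine eq_one_of_mul_eq_one (hregξ P hP) (hregζ P hP) ?_
    rw [← map_mul, hmul', ← map_mul]
    exact adicValuation_algebraMap P (mul_ne_zero hc0 hc0')
  have hgP : ∀ P ∈ tube, P.ord g = ((a : ℤ) + b) * P.ord (ξ - cL) := fun P hP => by
    set w : FL := (-cL' * ξ⁻¹) ^ b * (cL ^ a)⁻¹ with hw
    have hgw : g = (ξ - cL) ^ (a + b) * w := by
      rw [hg, hw]
      have : ζ - cL' = (ξ - cL) * (-cL' * ξ⁻¹) := by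
        rw [hζeq]; field_simp; ring
      rw [this, mul_pow, pow_add]
      ring
    have hwv : P.adicValuation w = 1 := by
      rw [hw, map_mul, map_pow, map_mul, Valuation.map_neg, map_inv₀, map_inv₀, map_pow,
        hval P hP, hcL, hcL', adicValuation_algebraMap P hc0, adicValuation_algebraMap P hc0']
      simp
    have hw0 : w ≠ 0 := by
      intro h0
      rw [h0, map_zero] at hwv
      exact zero_ne_one hwv
    have hp0 : (ξ - cL) ^ (a + b) ≠ 0 := pow_ne_zero _ hf0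
    rw [hgw, Place.ord_mul P hp0 hw0, ord_eq_zero_of_adicValuation_eq_one P hwv, add_zero,
      ← zpow_natCast, Place.ord_zpow]
    push_cast
    ring
  have hnn : ∀ P ∈ tube, 0 ≤ P.ord (ξ - cL) := fun P hP =>
    ord_nonneg_of_le_one P (adicValuation_sub_const_le_one P (hregξ P hP) _)
  -- the finite set of zeros on the tube
  obtain ⟨D, hD, -⟩ := HasPrincipalDivisors.exists_divisor (K := L) (ξ - cL) hf0
  set T : Finset (Place L FL) := D.support.filter (· ∈ tube) with hT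
  have hTmem : ∀ P, P ∈ T ↔ P.ord (ξ - cL) ≠ 0 ∧ P ∈ tube := fun P => by
    rw [hT, Finset.mem_filter, Finsupp.mem_support_iff, hD]
  have hab0 : ((a : ℤ) + b) ≠ 0 := by positivity
  have hsum := hLC g _ _ hr1 hr2 hn1 hn2 T (fun P hP => ((hTmem P).mp hP).2)
    (fun P hP hne => (hTmem P).mpr ⟨fun h0 => hne (by rw [hgP P hP, h0, mul_zero]), hP⟩)
  rw [ho1, ho2, hx, hy, mul_one, mul_one] at hsum
  have hsum' : ∑ P ∈ T, P.ord (ξ - cL) = 1 := by
    have h1 : ∑ P ∈ T, P.ord g = ((a : ℤ) + b) * ∑ P ∈ T, P.ord (ξ - cL) := by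
      rw [Finset.mul_sum]
      exact Finset.sum_congr rfl fun P hP => hgP P ((hTmem P).mp hP).2
    rw [h1] at hsum
    have h2 : ((a : ℤ) + b) * ∑ P ∈ T, P.ord (ξ - cL) = ((a : ℤ) + b) * 1 := by
      rw [hsum, mul_one]
    exact mul_left_cancel₀ hab0 h2
  have hge : ∀ P ∈ T, (1 : ℤ) ≤ P.ord (ξ - cL) := fun P hP => by
    obtain ⟨h1, h2⟩ := (hTmem P).mp hP
    have := hnn P h2
    omega
  have hcard : T.card ≤ 1 := by
    have h := Finset.card_nsmul_le_sum T (fun P => P.ord (ξ - cL)) 1 hge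
    rw [hsum', nsmul_eq_mul, mul_one] at h
    exact_mod_cast h
  have hne : T.Nonempty := by
    rw [Finset.nonempty_iff_ne_empty]
    intro h0
    rw [h0, Finset.sum_empty] at hsum'
    exact zero_ne_one hsum'
  obtain ⟨P0, hP0⟩ : ∃ P0, T = {P0} := Finset.card_eq_one.mp
    (le_antisymm hcard (Finset.card_pos.mpr hne))
  have hP0T : P0 ∈ T := by rw [hP0]; exact Finset.mem_singleton_self P0
  refine ⟨P0, ((hTmem P0).mp hP0T).2, ?_, fun P hP hPne => ?_⟩
  · rw [hP0, Finset.sum_singleton] at hsum'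
    exact hsum'
  · by_contra h0
    have : P ∈ T := (hTmem P).mpr ⟨h0, hP⟩
    rw [hP0, Finset.mem_singleton] at this
    exact hPne this

end Coordinate

end Fermat.Agent.S44.Core.TubeCount
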