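import Fermat.Agent.S44.Core.TubeCount
import Fermat.Agent.S34.ArchComap

/-!
# PROJECT P (S44), core brick (helper16): units without zero or pole on a fibre, from POLE CONTROL

Frame of `S44/Core/TubeCount`: two Gauss branches `R1`, `R2` of `FL / L`, a place `Q1` of the first
component, a set `tube` of places of `FL` (the places specialising to `Q1`).

POLE CONTROL at `Q1` (`hPC`): a function of `O₁ ∩ O₂` without pole on the tube has a first reduction
which is regular at `Q1`.  (At the chart frame: `NodeHyp.regular1`.)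

* `arch_branch` : the Gauss ring of a branch over an archimedean `A` is archimedean;
* `ord_red_eq_zero` : **the non-node clause.**  Let `y ∈ O₁ ∩ O₂` be without pole on the tube,
  with `V₂ y < 1` and with first reduction a unit at `Q1`.  Then every unit `f` of `O₁` without
  zero or pole on the tube has a first reduction which is a unit at `Q1`: for `n` large,
  `y ^ n f` and `y ^ n / f` lie in `O₁ ∩ O₂` and have no pole on the tube.

No local count and no good disc is used.
-/

set_option autoImplicit false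
set_option linter.unusedSectionVars false
set_option linter.unusedVariables false

namespace Fermat.Agent.S44.Core.PoleUnit

open AlgebraicCurve Fermat.Agent.S24.Ord Fermat.Agent.S34.NodalDefs Fermat.Agent.S34.NodalDisc
open Fermat.Agent.S44.Core.TubeCount Fermat.Agent.S34.WeakApprox

variable {L : Type*} [Field L] {FL : Type*} [Field FL] [Algebra L FL]
variable {k : Type*} [Field k]
variable {A : ValuationSubring L} {π : A →+* k}

section Arch

variable {Fk : Type*} [Field Fk] [Algebra k Fk] (R : Branch A π FL Fk)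

/-- the constants of the Gauss ring are `A` -/
theorem comap_O : R.O.comap (algebraMap L FL) = A := by
  ext c
  rw [ValuationSubring.mem_comap]
  exact ⟨R.mem_of_algebraMap_mem c, fun hc => R.algebraMap_mem ⟨c, hc⟩⟩

/-- the Gauss ring of a branch over an archimedean valuation ring is archimedean -/
theorem arch_branch (hA : Arch A) : Arch R.O := by
  refine Fermat.Agent.S34.ArchComap.arch_of_valuation_eq (F := L) R.O ?_ fun x hx => ?_
  · rw [comap_O R]
    exact hA
  · obtain ⟨c, -, u, hu⟩ := R.exists_const_mul_unit x hx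
    refine ⟨c, ?_⟩
    have h1 : R.O.valuation (((u : R.O)) : FL) = 1 :=
      (ValuationSubring.valuation_eq_one_iff _ (u : R.O)).mp u.isUnit
    rw [hu, map_mul, h1, mul_one]

end Arch

variable {F1 : Type*} [Field F1] [Algebra k F1] {F2 : Type*} [Field F2] [Algebra k F2]
variable {R1 : Branch A π FL F1} {R2 : Branch A π FL F2} {tube : Set (Place L FL)}
  {Q1 : Place k F1}

/-- one half: `0 ≤ ord_{Q1} φ` -/
theorem ord_red_nonneg
    (hPC : ∀ (h1 : R1.O) (h2 : R2.O), ((h1 : R1.O) : FL) = ((h2 : R2.O) : FL) →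
      (∀ P : Place L FL, P.ord ((h1 : R1.O) : FL) < 0 → P ∉ tube) → 0 ≤ Q1.ord (R1.red h1))
    (harch : Arch R2.O)
    {y : FL} {η : F1} (hy1 : Red R1 y η) (hηQ : Q1.ord η = 0) (hη0 : η ≠ 0)
    (hy2 : y ∈ R2.O.nonunits) (hyt : ∀ P ∈ tube, 0 ≤ P.ord y)
    {f : FL} {φ : F1} (hf : Red R1 f φ) (hφ : φ ≠ 0) (hft : ∀ P ∈ tube, P.ord f = 0) :
    0 ≤ Q1.ord φ := by
  have hy0 : y ≠ 0 := hy1.ne_zero hη0
  have hf0 : f ≠ 0 := hf.ne_zero hφ
  obtain ⟨n, hn⟩ := harch f y hy2 hy0
  have hr1 : Red R1 (f * y ^ n) (φ * η ^ n) := hf.mul (hy1.pow n)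
  obtain ⟨hm1, hred⟩ := hr1
  have hpole : ∀ P : Place L FL, P.ord (f * y ^ n) < 0 → P ∉ tube := by
    intro P hP hPt
    rw [Place.ord_mul P hf0 (pow_ne_zero n hy0), hft P hPt, zero_add, ← zpow_natCast,
      Place.ord_zpow] at hP
    exact absurd (mul_nonneg (Int.natCast_nonneg n) (hyt P hPt)) (not_le.mpr hP)
  have h := hPC ⟨_, hm1⟩ ⟨_, hn⟩ rfl hpole
  rw [hred, Place.ord_mul Q1 hφ (pow_ne_zero n hη0), ← zpow_natCast, Place.ord_zpow, hηQ,
    mul_zero, add_zero] at h
  exact h

/-- **The non-node clause from pole control.** -/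
theorem ord_red_eq_zero
    (hPC : ∀ (h1 : R1.O) (h2 : R2.O), ((h1 : R1.O) : FL) = ((h2 : R2.O) : FL) →
      (∀ P : Place L FL, P.ord ((h1 : R1.O) : FL) < 0 → P ∉ tube) → 0 ≤ Q1.ord (R1.red h1))
    (harch : Arch R2.O)
    {y : FL} {η : F1} (hy1 : Red R1 y η) (hηQ : Q1.ord η = 0) (hη0 : η ≠ 0)
    (hy2 : y ∈ R2.O.nonunits) (hyt : ∀ P ∈ tube, 0 ≤ P.ord y)
    {f : FL} {φ : F1} (hf : Red R1 f φ) (hφ : φ ≠ 0) (hft : ∀ P ∈ tube, P.ord f = 0) :
    Q1.ord φ = 0 := by
  have h1 := ord_red_nonneg hPC harch hy1 hηQ hη0 hy2 hyt hf hφ hft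
  have h2 := ord_red_nonneg hPC harch hy1 hηQ hη0 hy2 hyt (hf.inv hφ) (inv_ne_zero hφ)
    (fun P hP => by rw [Place.ord_inv, hft P hP, neg_zero])
  rw [Place.ord_inv] at h2
  omega

end Fermat.Agent.S44.Core.PoleUnit
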