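import Mathlib
import Fermat.Agent.S33.Nodal.SemiCont
import Fermat.Agent.S34.WeakApproxMul
import Fermat.Agent.S34.CoreZX0Datum

/-!
# PROJECT P (S44), brick [FIN] (helper23): the non-node clause by a dimension count

Abstract nodal frame `N : GNodalDatum A π FL F1 F2 ι` (two branches, nodes, pole control and
gluing), residue characteristic `p`.

Let `u ∈ O₁ ∩ O₂` be a two-sided unit with `div u = p • D`, `deg D = 0`.  If the orders of the two
reductions of `u` at the two points over every node add up to a multiple of `p`, then the orders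
of `red₁ u` and of `red₂ u` at every place which is NOT over a node are multiples of `p`.

Proof: for `y ∈ L(D + G) ∩ O₁ ∩ O₂` (`G` effective, supported in good discs) the function
`u * y ^ p` lies in `L(p • G)`, so by semicontinuity (`SemiCont.red12_mem_glued`) the pair
`(ū₁ a ^ p, ū₂ b ^ p)`, `(a, b) = red12 y`, is a glued section of `O(p • push G)`.  These pairs
`(a, b)` form a `k`-subspace `frobPre` (Frobenius is additive) of dimension at least
`ℓ(D + G) = deg G + 1 - g` (orthonormal bases) and at most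
`ℓ(G₁ + ⌊div ū₁ / p⌋) + ℓ(G₂ + ⌊(div ū₂ - nodes) / p⌋)`.  Riemann's theorem on the three curves and
the genus identity `g + 1 = g₁ + g₂ + #nodes` leave no room for a non-zero residue mod `p` at a
place which is not over a node.
-/

set_option autoImplicit false
set_option linter.unusedSectionVars false
set_option linter.unusedVariables false

noncomputable section

namespace Fermat.Agent.S44.Core.DimCount

open AlgebraicCurve Fermat.Agent.S24.Ord Fermat.Agent.S34.NodalDefs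
  Fermat.Agent.S33.Nodal.Glued Fermat.Agent.S33.Nodal.SemiCont Fermat.Agent.S18.NonSpecial

/-! ### floor and remainder of a divisor -/

section Divisors

variable {K : Type*} {F : Type*} [Field K] [Field F] [Algebra K F]

/-- `⌊Δ / p⌋`, pointwise -/
def fl (p : ℕ) (Δ : Divisor K F) : Divisor K F :=
  Finsupp.mapRange (fun a : ℤ => a / (p : ℤ)) (Int.zero_ediv _) Δ

/-- `Δ mod p`, pointwise -/
def md (p : ℕ) (Δ : Divisor K F) : Divisor K F :=
  Finsupp.mapRange (fun a : ℤ => a % (p : ℤ)) (Int.zero_emod _) Δ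

theorem fl_apply (p : ℕ) (Δ : Divisor K F) (v : Place K F) : fl p Δ v = Δ v / (p : ℤ) := by
  unfold fl
  rw [Finsupp.mapRange_apply]

theorem md_apply (p : ℕ) (Δ : Divisor K F) (v : Place K F) : md p Δ v = Δ v % (p : ℤ) := by
  unfold md
  rw [Finsupp.mapRange_apply]

theorem eq_smul_fl_add_md (p : ℕ) (Δ : Divisor K F) : Δ = (p : ℤ) • fl p Δ + md p Δ := by
  ext v
  rw [Finsupp.add_apply, Finsupp.smul_apply, fl_apply, md_apply, smul_eq_mul]
  exact (Int.mul_ediv_add_emod (Δ v) (p : ℤ)).symm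

theorem degree_eq_fl_md (p : ℕ) (Δ : Divisor K F) :
    Divisor.degree Δ = (p : ℤ) * Divisor.degree (fl p Δ) + Divisor.degree (md p Δ) := by
  conv_lhs => rw [eq_smul_fl_add_md p Δ]
  rw [map_add, map_zsmul, smul_eq_mul]

theorem md_nonneg {p : ℕ} (hp : 0 < p) (Δ : Divisor K F) (v : Place K F) : 0 ≤ md p Δ v := by
  rw [md_apply]
  exact Int.emod_nonneg _ (by exact_mod_cast hp.ne')

/-- for places of degree one, the degree of an effective divisor bounds every partial sum -/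
theorem sum_le_degree (hdeg : ∀ v : Place K F, v.deg = 1) (m : Divisor K F)
    (hm : ∀ v, 0 ≤ m v) (T : Finset (Place K F)) : ∑ Q ∈ T, m Q ≤ Divisor.degree m := by
  classical
  have h1 : Divisor.degree m = ∑ v ∈ m.support, m v := by
    unfold Divisor.degree
    rw [Finsupp.liftAddHom_apply, Finsupp.sum]
    refine Finset.sum_congr rfl fun v _ => ?_
    rw [AddMonoidHom.mulRight_apply, hdeg v, Nat.cast_one, mul_one]
  have h2 : ∑ v ∈ m.support, m v = ∑ v ∈ m.support ∪ T, m v := by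
    refine Finset.sum_subset Finset.subset_union_left fun v _ hv => ?_
    exact Finsupp.notMem_support_iff.mp hv
  rw [h1, h2]
  exact Finset.sum_le_sum_of_subset_of_nonneg Finset.subset_union_right fun v _ _ => hm v

/-- `φ a ^ p ∈ L(p G)` forces `a ∈ L(G + ⌊div φ / p⌋)` -/
theorem mem_rr_fl {p : ℕ} (hp : 0 < p) {φ a : F} (hφ : φ ≠ 0) (Δ G E : Divisor K F)
    (hΔ : ∀ Q : Place K F, Δ Q = Q.ord φ) (hE : ∀ Q : Place K F, E Q = (p : ℤ) * G Q)
    (h : φ * a ^ p ∈ riemannRochSpace E) : a ∈ riemannRochSpace (G + fl p Δ) := by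
  rw [mem_riemannRochSpace_iff] at h ⊢
  intro Q
  rcases eq_or_ne a 0 with ha | ha
  · exact Or.inl ha
  right
  have h1 := (h Q).resolve_left (mul_ne_zero hφ (pow_ne_zero p ha))
  rw [Place.ord_mul Q hφ (pow_ne_zero p ha), Fermat.Agent.S18.CoreOrd.ord_pow, hE Q] at h1
  rw [Finsupp.add_apply, fl_apply, hΔ Q]
  have hp' : (0 : ℤ) < (p : ℤ) := by exact_mod_cast hp
  have h2 : -G Q - Q.ord a ≤ Q.ord φ / (p : ℤ) := by
    rw [Int.le_ediv_iff_mul_le hp']
    linarith
  linarith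

/-- `φ b ^ p ∈ L(p G)` with value `0` at the places of `T` forces
`b ∈ L(G + ⌊(div φ - T) / p⌋)` -/
theorem mem_rr_fl_sub {p : ℕ} (hp : 0 < p) {φ b : F} (hφ : φ ≠ 0) (Δ G E : Divisor K F)
    (hΔ : ∀ Q : Place K F, Δ Q = Q.ord φ) (hE : ∀ Q : Place K F, E Q = (p : ℤ) * G Q)
    (hG : ∀ Q : Place K F, 0 ≤ G Q) (T : Finset (Place K F))
    (h : φ * b ^ p ∈ riemannRochSpace E) (hT : ∀ Q ∈ T, HasValue Q (φ * b ^ p) (0 : K)) :
    b ∈ riemannRochSpace (G + fl p (Δ - sumPlaces T)) := by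
  classical
  rw [mem_riemannRochSpace_iff] at h ⊢
  intro Q
  rcases eq_or_ne b 0 with hb | hb
  · exact Or.inl hb
  right
  have hne : φ * b ^ p ≠ 0 := mul_ne_zero hφ (pow_ne_zero p hb)
  have h1 := (h Q).resolve_left hne
  rw [Place.ord_mul Q hφ (pow_ne_zero p hb), Fermat.Agent.S18.CoreOrd.ord_pow, hE Q] at h1
  rw [Finsupp.add_apply, fl_apply, Finsupp.sub_apply, hΔ Q]
  have hp' : (0 : ℤ) < (p : ℤ) := by exact_mod_cast hp
  by_cases hQ : Q ∈ T
  · rw [sumPlaces_apply_of_mem hQ]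
    have h3 : 0 < Q.ord (φ * b ^ p) := by
      rcases hT Q hQ with h0 | h0
      · rw [map_zero] at h0
        exact absurd h0 hne
      · rwa [map_zero, sub_zero] at h0
    rw [Place.ord_mul Q hφ (pow_ne_zero p hb), Fermat.Agent.S18.CoreOrd.ord_pow] at h3
    have h2 : -G Q - Q.ord b ≤ (Q.ord φ - 1) / (p : ℤ) := by
      rw [Int.le_ediv_iff_mul_le hp']
      have := mul_nonneg (hG Q) hp'.le
      linarith
    linarith
  · rw [sumPlaces_apply_of_not_mem hQ, sub_zero]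
    have h2 : -G Q - Q.ord b ≤ Q.ord φ / (p : ℤ) := by
      rw [Int.le_ediv_iff_mul_le hp']
      linarith
    linarith

end Divisors

variable {L : Type*} [Field L] {FL : Type*} [Field FL] [Algebra L FL]
variable {k : Type*} [Field k] {F1 : Type*} [Field F1] [Algebra k F1]
  {F2 : Type*} [Field F2] [Algebra k F2]
variable {A : ValuationSubring L} {π : A →+* k} {ι : Type*}
variable (N : GNodalDatum A π FL F1 F2 ι)

/-! ### the lower bound: orthonormal bases -/

/-- a finite-dimensional space of functions has dimension at most that of any `k`-space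
containing the reductions of its elements integral at both Gauss valuations -/
theorem finrank_le_of_red12_mem (hO : OrthoPair N) (W : Submodule L FL) [FiniteDimensional L W]
    (V : Submodule k (F1 × F2)) [Module.Finite k V]
    (hV : ∀ y : O12 N, ((y : O12 N) : FL) ∈ W → red12 N y ∈ V) :
    Module.finrank L W ≤ Module.finrank k V := by
  obtain ⟨f, hfW, hli⟩ := hO W
  let f' : Fin (Module.finrank L W) → V := fun j => ⟨red12 N (f j), hV (f j) (hfW j)⟩
  have hf' : LinearIndependent k f' := by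
    apply LinearIndependent.of_comp V.subtype
    exact hli
  have := hf'.fintype_card_le_finrank
  rwa [Fintype.card_fin] at this

/-! ### the Frobenius-twisted preimage of a glued space -/

section FrobPre

variable (p : ℕ) [hp : Fact p.Prime] [CharP k p]

/-- the pairs `(a, b)` such that `(φ1 a ^ p, φ2 b ^ p)` is a glued section of `O(E1)`, `O(E2)`:
a `k`-subspace, since the residue characteristic is `p` -/
def frobPre (φ1 : F1) (φ2 : F2) (E1 : Divisor k F1) (E2 : Divisor k F2) :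
    Submodule k (F1 × F2) where
  carrier := {y | ((φ1 * y.1 ^ p, φ2 * y.2 ^ p) : F1 × F2) ∈ Glued N E1 E2}
  add_mem' := by
    intro y z hy hz
    have : CharP F1 p := charP_of_injective_algebraMap (algebraMap k F1).injective p
    have : CharP F2 p := charP_of_injective_algebraMap (algebraMap k F2).injective p
    have h : ((φ1 * (y + z).1 ^ p, φ2 * (y + z).2 ^ p) : F1 × F2) =
        (φ1 * y.1 ^ p, φ2 * y.2 ^ p) + (φ1 * z.1 ^ p, φ2 * z.2 ^ p) := by
      rw [Prod.fst_add, Prod.snd_add, add_pow_char, add_pow_char, mul_add, mul_add]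
      rfl
    show ((φ1 * (y + z).1 ^ p, φ2 * (y + z).2 ^ p) : F1 × F2) ∈ Glued N E1 E2
    rw [h]
    exact Submodule.add_mem _ hy hz
  zero_mem' := by
    show ((φ1 * (0 : F1 × F2).1 ^ p, φ2 * (0 : F1 × F2).2 ^ p) : F1 × F2) ∈ Glued N E1 E2
    rw [Prod.fst_zero, Prod.snd_zero, zero_pow hp.out.ne_zero, zero_pow hp.out.ne_zero, mul_zero,
      mul_zero]
    exact Submodule.zero_mem _
  smul_mem' := by
    intro c y hy
    have h : ((φ1 * (c • y).1 ^ p, φ2 * (c • y).2 ^ p) : F1 × F2) =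
        (c ^ p) • ((φ1 * y.1 ^ p, φ2 * y.2 ^ p) : F1 × F2) := by
      rw [Prod.smul_fst, Prod.smul_snd, smul_pow, smul_pow, mul_smul_comm, mul_smul_comm]
      rfl
    show ((φ1 * (c • y).1 ^ p, φ2 * (c • y).2 ^ p) : F1 × F2) ∈ Glued N E1 E2
    rw [h]
    exact Submodule.smul_mem _ _ hy

theorem mem_frobPre_iff {φ1 : F1} {φ2 : F2} {E1 : Divisor k F1} {E2 : Divisor k F2}
    {y : F1 × F2} : y ∈ frobPre N p φ1 φ2 E1 E2 ↔
      ((φ1 * y.1 ^ p, φ2 * y.2 ^ p) : F1 × F2) ∈ Glued N E1 E2 := Iff.rfl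

variable {p}

/-- the only possible value of the zero function is `0` -/
theorem eq_zero_of_hasValue_zero {Fk : Type*} [Field Fk] [Algebra k Fk] (Q : Place k Fk) {γ : k}
    (h : HasValue Q (0 : Fk) γ) : γ = 0 := by
  by_contra hγ
  rcases h with h | h
  · exact hγ ((map_eq_zero_iff _ (algebraMap k Fk).injective).mp h.symm)
  · rw [zero_sub, Fermat.Agent.S18.CoreOrd.ord_neg', ord_algebraMap] at h
    exact lt_irrefl _ h

/-- **the upper bound**: the Frobenius-twisted preimage of `Glued (p G₁) (p G₂)` has dimension at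
most `ℓ(G₁ + ⌊div φ1 / p⌋) + ℓ(G₂ + ⌊(div φ2 - nodes) / p⌋)` -/
theorem finrank_frobPre_le (hfin1 : ∀ D : Divisor k F1, Module.Finite k (riemannRochSpace D))
    (hfin2 : ∀ D : Divisor k F2, Module.Finite k (riemannRochSpace D))
    {φ1 : F1} {φ2 : F2} (hφ1 : φ1 ≠ 0) (hφ2 : φ2 ≠ 0)
    (Δ1 G1 E1 : Divisor k F1) (Δ2 G2 E2 : Divisor k F2)
    (hΔ1 : ∀ Q : Place k F1, Δ1 Q = Q.ord φ1) (hΔ2 : ∀ Q : Place k F2, Δ2 Q = Q.ord φ2)
    (hE1 : ∀ Q : Place k F1, E1 Q = (p : ℤ) * G1 Q)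
    (hE2 : ∀ Q : Place k F2, E2 Q = (p : ℤ) * G2 Q) (hG2 : ∀ Q : Place k F2, 0 ≤ G2 Q)
    (T2 : Finset (Place k F2)) (hT2 : ∀ Q ∈ T2, ∃ e, N.e2 e = Q) :
    Module.Finite k (frobPre N p φ1 φ2 E1 E2) ∧
      Module.finrank k (frobPre N p φ1 φ2 E1 E2) ≤
        ell (G1 + fl p Δ1) + ell (G2 + fl p (Δ2 - sumPlaces T2)) := by
  have hp0 : 0 < p := hp.out.pos
  have hm1 : ∀ y ∈ frobPre N p φ1 φ2 E1 E2, y.1 ∈ riemannRochSpace (G1 + fl p Δ1) :=
    fun y hy => mem_rr_fl hp0 hφ1 Δ1 G1 E1 hΔ1 hE1 hy.1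
  have hm2 : ∀ y ∈ frobPre N p φ1 φ2 E1 E2, y.2 ∈ riemannRochSpace (G2 + fl p Δ2) :=
    fun y hy => mem_rr_fl hp0 hφ2 Δ2 G2 E2 hΔ2 hE2 hy.2.1
  have hle : frobPre N p φ1 φ2 E1 E2 ≤
      (riemannRochSpace (G1 + fl p Δ1)).prod (riemannRochSpace (G2 + fl p Δ2)) :=
    fun y hy => ⟨hm1 y hy, hm2 y hy⟩
  have hfinV : Module.Finite k (frobPre N p φ1 φ2 E1 E2) := by
    have := hfin1 (G1 + fl p Δ1)
    have := hfin2 (G2 + fl p Δ2)
    have h1 : (riemannRochSpace (G1 + fl p Δ1)).FG := (Submodule.fg_top _).mp Module.Finite.fg_top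
    have h2 : (riemannRochSpace (G2 + fl p Δ2)).FG := (Submodule.fg_top _).mp Module.Finite.fg_top
    have : Module.Finite k ((riemannRochSpace (G1 + fl p Δ1)).prod
        (riemannRochSpace (G2 + fl p Δ2))) := Module.Finite.iff_fg.mpr (h1.prod h2)
    exact Submodule.finiteDimensional_of_le hle
  refine ⟨hfinV, ?_⟩
  have := hfin1 (G1 + fl p Δ1)
  have := hfin2 (G2 + fl p (Δ2 - sumPlaces T2))
  let ψ : frobPre N p φ1 φ2 E1 E2 →ₗ[k] riemannRochSpace (G1 + fl p Δ1) :=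
    { toFun := fun y => ⟨(y : F1 × F2).1, hm1 y.1 y.2⟩
      map_add' := fun y z => rfl
      map_smul' := fun c y => rfl }
  have hrk := LinearMap.finrank_range_add_finrank_ker ψ
  have hrange : Module.finrank k (LinearMap.range ψ) ≤ ell (G1 + fl p Δ1) :=
    Submodule.finrank_le (LinearMap.range ψ)
  have hkmem : ∀ y : LinearMap.ker ψ,
      ((y : frobPre N p φ1 φ2 E1 E2) : F1 × F2).2 ∈
        riemannRochSpace (G2 + fl p (Δ2 - sumPlaces T2)) := by
    intro y
    have hy0 : ((y : frobPre N p φ1 φ2 E1 E2) : F1 × F2).1 = 0 :=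
      congrArg Subtype.val (LinearMap.mem_ker.mp y.2)
    have hy : ((φ1 * ((y : frobPre N p φ1 φ2 E1 E2) : F1 × F2).1 ^ p,
        φ2 * ((y : frobPre N p φ1 φ2 E1 E2) : F1 × F2).2 ^ p) : F1 × F2) ∈ Glued N E1 E2 := y.1.2
    refine mem_rr_fl_sub hp0 hφ2 Δ2 G2 E2 hΔ2 hE2 hG2 T2 hy.2.1 fun Q hQ => ?_
    obtain ⟨e, rfl⟩ := hT2 Q hQ
    obtain ⟨γ, hγ1, hγ2⟩ := hy.2.2 e
    rw [hy0, zero_pow hp.out.ne_zero, mul_zero] at hγ1
    rw [eq_zero_of_hasValue_zero _ hγ1] at hγ2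
    exact hγ2
  have hker : Module.finrank k (LinearMap.ker ψ) ≤ ell (G2 + fl p (Δ2 - sumPlaces T2)) := by
    let j : LinearMap.ker ψ →ₗ[k] riemannRochSpace (G2 + fl p (Δ2 - sumPlaces T2)) :=
      { toFun := fun y => ⟨((y : frobPre N p φ1 φ2 E1 E2) : F1 × F2).2, hkmem y⟩
        map_add' := fun y z => rfl
        map_smul' := fun c y => rfl }
    have hinj : Function.Injective j := by
      intro y z hyz
      have h2 : ((y : frobPre N p φ1 φ2 E1 E2) : F1 × F2).2 =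
          ((z : frobPre N p φ1 φ2 E1 E2) : F1 × F2).2 := congrArg Subtype.val hyz
      have h1 : ((y : frobPre N p φ1 φ2 E1 E2) : F1 × F2).1 =
          ((z : frobPre N p φ1 φ2 E1 E2) : F1 × F2).1 := by
        rw [show ((y : frobPre N p φ1 φ2 E1 E2) : F1 × F2).1 = 0 from
            congrArg Subtype.val (LinearMap.mem_ker.mp y.2),
          show ((z : frobPre N p φ1 φ2 E1 E2) : F1 × F2).1 = 0 from
            congrArg Subtype.val (LinearMap.mem_ker.mp z.2)]
      exact Subtype.ext (Subtype.ext (Prod.ext h1 h2))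
    exact LinearMap.finrank_le_finrank_of_injective hinj
  omega

/-- the residues mod `p` of two integers whose sum is a multiple of `p` -/
theorem emod_add_emod_sub_one {p : ℕ} (hp : 0 < p) {a b : ℤ} (h : (p : ℤ) ∣ a + b) :
    a % (p : ℤ) + (b - 1) % (p : ℤ) = (p : ℤ) - 1 := by
  have hp' : (0 : ℤ) < (p : ℤ) := by exact_mod_cast hp
  obtain ⟨c, hc⟩ := h
  have h1 := Int.emod_nonneg a hp'.ne'
  have h2 := Int.emod_lt_of_pos a hp'
  have h3 := Int.mul_ediv_add_emod a (p : ℤ)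
  have h4 : b - 1 = ((p : ℤ) - 1 - a % (p : ℤ)) + (p : ℤ) * (c - a / (p : ℤ) - 1) := by
    have : b = (p : ℤ) * c - a := by linarith
    rw [this]
    linear_combination h3
  have h5 : ((p : ℤ) - 1 - a % (p : ℤ)) % (p : ℤ) = (p : ℤ) - 1 - a % (p : ℤ) :=
    Int.emod_eq_of_lt (by linarith) (by linarith)
  rw [h4, Int.add_mul_emod_self_left, h5]
  ring

set_option maxHeartbeats 1600000 in
/-- **the non-node clause by a dimension count.** -/
theorem dvd_ord_red_of_not_node [Fintype ι] [HasPrincipalDivisors L FL]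
    [HasPrincipalDivisors k F1] [HasPrincipalDivisors k F2] (hO : OrthoPair N) {g g1 g2 : ℕ}
    (hL : RiemannHyp L FL g) (h1 : RiemannHyp k F1 g1) (h2 : RiemannHyp k F2 g2)
    (hg : (g : ℤ) + 1 = g1 + g2 + Fintype.card ι)
    (he1 : Function.Injective N.e1) (he2 : Function.Injective N.e2)
    {P1 P2 : Place L FL} {Q1 : Place k F1} {Q2 : Place k F2}
    (hQ1 : Q1 ∈ N.R1.good) (hP1 : N.R1.r P1 = some Q1)
    (hQ2 : Q2 ∈ N.R2.good) (hP2 : N.R2.r P2 = some Q2)
    (u : O12 N) (hu1 : N.R1.red (incl1 N u) ≠ 0) (hu2 : N.R2.red (incl2 N u) ≠ 0)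
    (D : Divisor L FL) (hD0 : Divisor.degree D = 0)
    (hD : ∀ P : Place L FL, (p : ℤ) * D P = P.ord ((u : O12 N) : FL))
    (hnode : ∀ e, (p : ℤ) ∣ (N.e1 e).ord (N.R1.red (incl1 N u)) +
      (N.e2 e).ord (N.R2.red (incl2 N u))) :
    (∀ Q : Place k F1, (∀ e, Q ≠ N.e1 e) → (p : ℤ) ∣ Q.ord (N.R1.red (incl1 N u))) ∧
      ∀ Q : Place k F2, (∀ e, Q ≠ N.e2 e) → (p : ℤ) ∣ Q.ord (N.R2.red (incl2 N u)) := by
  classical
  have hp0 : 0 < p := hp.out.pos
  have hp' : (0 : ℤ) < (p : ℤ) := by exact_mod_cast hp0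
  set φ1 : F1 := N.R1.red (incl1 N u) with hφ1
  set φ2 : F2 := N.R2.red (incl2 N u) with hφ2
  have hu0 : ((u : O12 N) : FL) ≠ 0 :=
    Fermat.Agent.S34.NodalDisc.coe_ne_zero_of_red_ne_zero N.R1.toBranch (u := incl1 N u) hu1
  obtain ⟨Δ1, hΔ1, hΔ1deg⟩ := HasPrincipalDivisors.exists_divisor (K := k) φ1 hu1
  obtain ⟨Δ2, hΔ2, hΔ2deg⟩ := HasPrincipalDivisors.exists_divisor (K := k) φ2 hu2
  set T1 : Finset (Place k F1) := Finset.univ.image N.e1 with hT1
  set T2 : Finset (Place k F2) := Finset.univ.image N.e2 with hT2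
  have hT1card : (T1.card : ℤ) = Fintype.card ι := by
    rw [hT1, Finset.card_image_of_injective _ he1, Finset.card_univ]
  have hT2card : (T2.card : ℤ) = Fintype.card ι := by
    rw [hT2, Finset.card_image_of_injective _ he2, Finset.card_univ]
  -- the two floor divisors and their degrees
  set d1 : ℤ := Divisor.degree (fl p Δ1) with hd1
  set d2 : ℤ := Divisor.degree (fl p (Δ2 - sumPlaces T2)) with hd2
  set m1 : ℤ := Divisor.degree (md p Δ1) with hm1
  set m2 : ℤ := Divisor.degree (md p (Δ2 - sumPlaces T2)) with hm2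
  have hdeg1 : (0 : ℤ) = (p : ℤ) * d1 + m1 := by
    rw [hd1, hm1, ← degree_eq_fl_md, hΔ1deg]
  have hdeg2 : -(Fintype.card ι : ℤ) = (p : ℤ) * d2 + m2 := by
    rw [hd2, hm2, ← degree_eq_fl_md, map_sub, hΔ2deg, degree_sumPlaces h2.deg_one, hT2card,
      zero_sub]
  -- the size of `G`
  obtain ⟨cL, hcL⟩ := hL.riemann_eq
  obtain ⟨c1, hc1⟩ := h1.riemann_eq
  obtain ⟨c2, hc2⟩ := h2.riemann_eq
  obtain ⟨n, hn0, hn1, hn2⟩ : ∃ n : ℕ, cL ≤ (n : ℤ) ∧ c1 - d1 ≤ (n : ℤ) ∧ c2 - d2 ≤ (n : ℤ) := by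
    refine ⟨(max cL (max (c1 - d1) (c2 - d2))).toNat, ?_, ?_, ?_⟩
    · exact le_trans (le_max_left _ _) (Int.self_le_toNat _)
    · exact le_trans (le_trans (le_max_left _ _) (le_max_right _ _)) (Int.self_le_toNat _)
    · exact le_trans (le_trans (le_max_right _ _) (le_max_right _ _)) (Int.self_le_toNat _)
  set G : Divisor L FL := Finsupp.single P1 (n : ℤ) + Finsupp.single P2 (n : ℤ) with hG
  set G' : Divisor L FL := Finsupp.single P1 ((p : ℤ) * n) + Finsupp.single P2 ((p : ℤ) * n)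
    with hG'
  set G1 : Divisor k F1 := Finsupp.single Q1 (n : ℤ) with hG1
  set G2 : Divisor k F2 := Finsupp.single Q2 (n : ℤ) with hG2
  have hG'G : ∀ P : Place L FL, G' P = (p : ℤ) * G P := by
    intro P
    rw [hG', hG, Finsupp.add_apply, Finsupp.add_apply, Finsupp.single_apply, Finsupp.single_apply,
      Finsupp.single_apply, Finsupp.single_apply]
    split_ifs <;> ring
  have hgood : GoodSupp N G' :=
    (goodSupp_single1 N hQ1 hP1 _).add N (goodSupp_single2 N hQ2 hP2 _)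
  have hpush1 : push1 N G' = Finsupp.single Q1 ((p : ℤ) * n) := by
    rw [hG', push1_add, push1_single_of_some N hP1, push1_single_of_some2 N hP2, add_zero]
  have hpush2 : push2 N G' = Finsupp.single Q2 ((p : ℤ) * n) := by
    rw [hG', push2_add, push2_single_of_some1 N hP1, push2_single_of_some N hP2, zero_add]
  have hE1 : ∀ Q : Place k F1, (push1 N G') Q = (p : ℤ) * G1 Q := by
    intro Q
    rw [hpush1, hG1, Finsupp.single_apply, Finsupp.single_apply]
    split_ifs <;> ring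
  have hE2 : ∀ Q : Place k F2, (push2 N G') Q = (p : ℤ) * G2 Q := by
    intro Q
    rw [hpush2, hG2, Finsupp.single_apply, Finsupp.single_apply]
    split_ifs <;> ring
  have hG2nn : ∀ Q : Place k F2, 0 ≤ G2 Q := by
    intro Q
    rw [hG2, Finsupp.single_apply]
    split_ifs
    · exact Int.natCast_nonneg n
    · exact le_rfl
  -- the upper bound
  obtain ⟨hfinV, hupper⟩ := finrank_frobPre_le N h1.finite h2.finite hu1 hu2 Δ1 G1 (push1 N G')
    Δ2 G2 (push2 N G') hΔ1 hΔ2 hE1 hE2 hG2nn T2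
    (fun Q hQ => by
      obtain ⟨e, -, he⟩ := Finset.mem_image.mp hQ
      exact ⟨e, he⟩)
  -- the lower bound
  have : Module.Finite L (riemannRochSpace (D + G)) := hL.finite _
  have hV : ∀ y : O12 N, ((y : O12 N) : FL) ∈ riemannRochSpace (D + G) →
      red12 N y ∈ frobPre N p φ1 φ2 (push1 N G') (push2 N G') := by
    intro y hy
    have hmem : (((u * y ^ p : O12 N)) : FL) ∈ riemannRochSpace G' := by
      rw [mem_riemannRochSpace_iff] at hy ⊢
      intro P
      have hcoe : (((u * y ^ p : O12 N)) : FL) = ((u : O12 N) : FL) * ((y : O12 N) : FL) ^ p := rfl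
      rcases eq_or_ne ((y : O12 N) : FL) 0 with hy0 | hy0
      · left
        rw [hcoe, hy0, zero_pow hp.out.ne_zero, mul_zero]
      right
      have h3 := (hy P).resolve_left hy0
      rw [Finsupp.add_apply] at h3
      rw [hcoe, Place.ord_mul P hu0 (pow_ne_zero p hy0), Fermat.Agent.S18.CoreOrd.ord_pow,
        ← hD P, hG'G P]
      have := mul_le_mul_of_nonneg_left h3 hp'.le
      linarith
    have hgl := red12_mem_glued N (u * y ^ p) G' hgood hmem
    rw [mem_frobPre_iff]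
    have hpair : ((φ1 * (red12 N y).1 ^ p, φ2 * (red12 N y).2 ^ p) : F1 × F2) =
        red12 N (u * y ^ p) := by
      rw [map_mul, map_pow]
      rfl
    rw [hpair]
    exact hgl
  have hlower := finrank_le_of_red12_mem N hO (riemannRochSpace (D + G))
    (frobPre N p φ1 φ2 (push1 N G') (push2 N G')) hV
  -- Riemann on the three curves
  have hdegG : Divisor.degree (D + G) = 2 * (n : ℤ) := by
    rw [map_add, hD0, hG, map_add, Divisor.degree_single, Divisor.degree_single, hL.deg_one,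
      hL.deg_one]
    push_cast
    ring
  have hRL : (ell (D + G) : ℤ) = 2 * (n : ℤ) + 1 - g := by
    rw [hcL (D + G) (by rw [hdegG]; linarith [Int.natCast_nonneg n]), hdegG]
  have hdegG1 : Divisor.degree (G1 + fl p Δ1) = (n : ℤ) + d1 := by
    rw [map_add, hG1, Divisor.degree_single, h1.deg_one]
    push_cast
    ring
  have hdegG2 : Divisor.degree (G2 + fl p (Δ2 - sumPlaces T2)) = (n : ℤ) + d2 := by
    rw [map_add, hG2, Divisor.degree_single, h2.deg_one]
    push_cast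
    ring
  have hR1 : (ell (G1 + fl p Δ1) : ℤ) = (n : ℤ) + d1 + 1 - g1 := by
    rw [hc1 _ (by rw [hdegG1]; linarith), hdegG1]
  have hR2 : (ell (G2 + fl p (Δ2 - sumPlaces T2)) : ℤ) = (n : ℤ) + d2 + 1 - g2 := by
    rw [hc2 _ (by rw [hdegG2]; linarith), hdegG2]
  have hmain : m1 + m2 ≤ ((p : ℤ) - 1) * Fintype.card ι := by
    have hlow' : (ell (D + G) : ℤ) ≤
        (ell (G1 + fl p Δ1) : ℤ) + (ell (G2 + fl p (Δ2 - sumPlaces T2)) : ℤ) := by
      have : ell (D + G) ≤ ell (G1 + fl p Δ1) + ell (G2 + fl p (Δ2 - sumPlaces T2)) :=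
        le_trans hlower hupper
      exact_mod_cast this
    rw [hRL, hR1, hR2] at hlow'
    have h5 : -(Fintype.card ι : ℤ) ≤ d1 + d2 := by linarith
    have h6 := mul_le_mul_of_nonneg_left h5 hp'.le
    linarith
  -- the nodes use up the whole bound
  have hnode' : ∀ e, md p Δ1 (N.e1 e) + md p (Δ2 - sumPlaces T2) (N.e2 e) = (p : ℤ) - 1 := by
    intro e
    have hmem : N.e2 e ∈ T2 := Finset.mem_image.mpr ⟨e, Finset.mem_univ e, rfl⟩
    rw [md_apply, md_apply, Finsupp.sub_apply, sumPlaces_apply_of_mem hmem, hΔ1, hΔ2]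
    exact emod_add_emod_sub_one hp0 (hnode e)
  have hsum1 : ∑ Q ∈ T1, md p Δ1 Q = ∑ e, md p Δ1 (N.e1 e) := by
    rw [hT1, Finset.sum_image fun a _ b _ h => he1 h]
  have hsum2 : ∑ Q ∈ T2, md p (Δ2 - sumPlaces T2) Q = ∑ e, md p (Δ2 - sumPlaces T2) (N.e2 e) := by
    rw [hT2, Finset.sum_image fun a _ b _ h => he2 h]
  have hsum12 : (∑ Q ∈ T1, md p Δ1 Q) + ∑ Q ∈ T2, md p (Δ2 - sumPlaces T2) Q =
      ((p : ℤ) - 1) * Fintype.card ι := by
    rw [hsum1, hsum2, ← Finset.sum_add_distrib, Finset.sum_congr rfl fun e _ => hnode' e,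
      Finset.sum_const, Finset.card_univ, nsmul_eq_mul]
    ring
  refine ⟨fun Q hQ => ?_, fun Q hQ => ?_⟩
  · have hQT : Q ∉ T1 := by
      intro h
      obtain ⟨e, -, he⟩ := Finset.mem_image.mp h
      exact hQ e he.symm
    have hs1 := sum_le_degree h1.deg_one (md p Δ1) (md_nonneg hp0 Δ1) (insert Q T1)
    have hs2 := sum_le_degree h2.deg_one (md p (Δ2 - sumPlaces T2)) (md_nonneg hp0 _) T2
    rw [Finset.sum_insert hQT] at hs1
    have h0 : md p Δ1 Q ≤ 0 := by linarith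
    have h0' : md p Δ1 Q = 0 := le_antisymm h0 (md_nonneg hp0 Δ1 Q)
    rw [md_apply, hΔ1] at h0'
    exact Int.dvd_of_emod_eq_zero h0'
  · have hQT : Q ∉ T2 := by
      intro h
      obtain ⟨e, -, he⟩ := Finset.mem_image.mp h
      exact hQ e he.symm
    have hs1 := sum_le_degree h1.deg_one (md p Δ1) (md_nonneg hp0 Δ1) T1
    have hs2 := sum_le_degree h2.deg_one (md p (Δ2 - sumPlaces T2)) (md_nonneg hp0 _)
      (insert Q T2)
    rw [Finset.sum_insert hQT] at hs2
    have h0 : md p (Δ2 - sumPlaces T2) Q ≤ 0 := by linarith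
    have h0' : md p (Δ2 - sumPlaces T2) Q = 0 := le_antisymm h0 (md_nonneg hp0 _ Q)
    rw [md_apply, Finsupp.sub_apply, sumPlaces_apply_of_not_mem hQT, sub_zero, hΔ2] at h0'
    exact Int.dvd_of_emod_eq_zero h0'

/-- a `1`-unit of a Gauss ring, as a unit with reduction `1` -/
theorem exists_unit_eq_of_isOneUnit {Fk : Type*} [Field Fk] [Algebra k Fk] (R : Branch A π FL Fk)
    {y : FL} (hy : Fermat.Agent.S34.Z1Abstract.IsOneUnit R.O y) :
    ∃ v : R.Oˣ, (((v : R.O)) : FL) = y ∧ R.red (v : R.O) = 1 := by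
  obtain ⟨hmem, hred⟩ := Fermat.Agent.S34.CoreZX0Datum.red_eq_one_of_isOneUnit R hy
  have hne : R.red ⟨y, hmem⟩ ≠ 0 := by rw [hred]; exact one_ne_zero
  refine ⟨Fermat.Agent.S34.NodalDisc.unitOfRed R _ hne, ?_, ?_⟩
  · rw [Fermat.Agent.S34.NodalDisc.coe_unitOfRed]
  · rw [Fermat.Agent.S34.NodalDisc.coe_unitOfRed, hred]

set_option maxHeartbeats 1600000 in
/-- **the non-node clause for a unit of the first Gauss ring.**  `div u = p • D`, `deg D = 0`,
`u` a unit of `O₁`; `hLC` is the local count at the nodes for two-sided units whose divisor is a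
multiple of `p`.  Then the orders of `red₁ u` off the nodes are multiples of `p`, and `u = c * u2`
with `u2` a unit of `O₂` whose reduction has the same property; at the nodes, divisibility passes
from the first branch to the second. -/
theorem dvd_ord_red_unit [Fintype ι] [HasPrincipalDivisors L FL]
    [HasPrincipalDivisors k F1] [HasPrincipalDivisors k F2] (hO : OrthoPair N) {g g1 g2 : ℕ}
    (hL : RiemannHyp L FL g) (h1 : RiemannHyp k F1 g1) (h2 : RiemannHyp k F2 g2)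
    (hg : (g : ℤ) + 1 = g1 + g2 + Fintype.card ι)
    (he1 : Function.Injective N.e1) (he2 : Function.Injective N.e2)
    {P1 P2 : Place L FL} {Q1 : Place k F1} {Q2 : Place k F2}
    (hQ1 : Q1 ∈ N.R1.good) (hP1 : N.R1.r P1 = some Q1)
    (hQ2 : Q2 ∈ N.R2.good) (hP2 : N.R2.r P2 = some Q2)
    (hne : N.R1.O ≠ N.R2.O) (ha1 : Fermat.Agent.S34.WeakApprox.Arch N.R1.O)
    (ha2 : Fermat.Agent.S34.WeakApprox.Arch N.R2.O) (ht1 : N.R1.O ≠ ⊤) (ht2 : N.R2.O ≠ ⊤)
    (hroot : ∀ c : L, ∃ d : L, d ^ p = c)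
    (hLC : ∀ (v : O12 N) (D' : Divisor L FL), N.R1.red (incl1 N v) ≠ 0 →
      N.R2.red (incl2 N v) ≠ 0 → (∀ P : Place L FL, (p : ℤ) * D' P = P.ord ((v : O12 N) : FL)) →
      ∀ e, (p : ℤ) ∣ (N.e1 e).ord (N.R1.red (incl1 N v)) + (N.e2 e).ord (N.R2.red (incl2 N v)))
    (D : Divisor L FL) (hD0 : Divisor.degree D = 0) (u : N.R1.Oˣ)
    (hD : ∀ P : Place L FL, (p : ℤ) * D P = P.ord (((u : N.R1.O)) : FL)) :
    (∀ Q : Place k F1, (∀ e, Q ≠ N.e1 e) → (p : ℤ) ∣ Q.ord (N.R1.red (u : N.R1.O))) ∧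
      ∃ (u2 : N.R2.Oˣ) (c : L), c ≠ 0 ∧
        (((u : N.R1.O)) : FL) = algebraMap L FL c * (((u2 : N.R2.O)) : FL) ∧
        (∀ Q : Place k F2, (∀ e, Q ≠ N.e2 e) → (p : ℤ) ∣ Q.ord (N.R2.red (u2 : N.R2.O))) ∧
        ∀ e, (p : ℤ) ∣ (N.e1 e).ord (N.R1.red (u : N.R1.O)) →
          (p : ℤ) ∣ (N.e2 e).ord (N.R2.red (u2 : N.R2.O)) := by
  have hpne : p ≠ 0 := hp.out.ne_zero
  have hu0 : (((u : N.R1.O)) : FL) ≠ 0 :=
    Fermat.Agent.S34.NodalDisc.coe_unit_ne_zero N.R1.toBranch u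
  obtain ⟨c0, hc0, u2, hu⟩ := N.R2.exists_const_mul_unit _ hu0
  obtain ⟨d, hd⟩ := hroot c0⁻¹
  have hd0 : d ≠ 0 := by
    intro h0
    rw [h0, zero_pow hpne] at hd
    exact inv_ne_zero hc0 hd.symm
  have hdF : algebraMap L FL d ≠ 0 := (map_ne_zero _).mpr hd0
  obtain ⟨y, hy0, ⟨hy1, -⟩, ⟨hy2, -⟩⟩ :=
    Fermat.Agent.S34.WeakApproxMul.exists_approx_two ha1 ha2 hne ht1 ht2 (one_ne_zero (α := FL)) hdF
  rw [div_one] at hy1
  obtain ⟨w1, hw1, hw1red⟩ := exists_unit_eq_of_isOneUnit N.R1.toBranch hy1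
  obtain ⟨w2, hw2, hw2red⟩ := exists_unit_eq_of_isOneUnit N.R2.toBranch hy2
  -- the two-sided unit
  have hv2 : (((u : N.R1.O)) : FL) * y ^ p = (((u2 * w2 ^ p : N.R2.Oˣ) : N.R2.O) : FL) := by
    rw [Units.val_mul, Units.val_pow_eq_pow_val, MulMemClass.coe_mul, SubmonoidClass.coe_pow, hw2,
      hu, div_pow, ← map_pow, hd, map_inv₀]
    field_simp
  have hv1 : (((u : N.R1.O)) : FL) * y ^ p = (((u * w1 ^ p : N.R1.Oˣ) : N.R1.O) : FL) := by
    rw [Units.val_mul, Units.val_pow_eq_pow_val, MulMemClass.coe_mul, SubmonoidClass.coe_pow, hw1]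
  have hmem : (((u : N.R1.O)) : FL) * y ^ p ∈ O12 N :=
    (mem_O12 N).mpr ⟨hv1 ▸ ((u * w1 ^ p : N.R1.Oˣ) : N.R1.O).2,
      hv2 ▸ ((u2 * w2 ^ p : N.R2.Oˣ) : N.R2.O).2⟩
  set v : O12 N := ⟨(((u : N.R1.O)) : FL) * y ^ p, hmem⟩ with hv
  have hi1 : incl1 N v = ((u * w1 ^ p : N.R1.Oˣ) : N.R1.O) := Subtype.ext hv1
  have hi2 : incl2 N v = ((u2 * w2 ^ p : N.R2.Oˣ) : N.R2.O) := Subtype.ext hv2
  have hr1 : N.R1.red (incl1 N v) = N.R1.red (u : N.R1.O) := by
    rw [hi1, Units.val_mul, Units.val_pow_eq_pow_val, map_mul, map_pow, hw1red, one_pow, mul_one]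
  have hr2 : N.R2.red (incl2 N v) = N.R2.red (u2 : N.R2.O) := by
    rw [hi2, Units.val_mul, Units.val_pow_eq_pow_val, map_mul, map_pow, hw2red, one_pow, mul_one]
  have hr1ne : N.R1.red (incl1 N v) ≠ 0 := by
    rw [hr1]; exact Fermat.Agent.S34.NodalDisc.red_unit_ne_zero N.R1.toBranch u
  have hr2ne : N.R2.red (incl2 N v) ≠ 0 := by
    rw [hr2]; exact Fermat.Agent.S34.NodalDisc.red_unit_ne_zero N.R2.toBranch u2
  obtain ⟨Dy, hDy, hDydeg⟩ := HasPrincipalDivisors.exists_divisor (K := L) y hy0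
  have hD' : ∀ P : Place L FL, (p : ℤ) * (D + Dy) P = P.ord ((v : O12 N) : FL) := by
    intro P
    show (p : ℤ) * (D + Dy) P = P.ord ((((u : N.R1.O)) : FL) * y ^ p)
    rw [Place.ord_mul P hu0 (pow_ne_zero p hy0), Fermat.Agent.S18.CoreOrd.ord_pow,
      Finsupp.add_apply, mul_add, hD P, hDy P]
  have hD'0 : Divisor.degree (D + Dy) = 0 := by rw [map_add, hD0, hDydeg, add_zero]
  have hnode := hLC v (D + Dy) hr1ne hr2ne hD'
  obtain ⟨hs1, hs2⟩ := dvd_ord_red_of_not_node N hO hL h1 h2 hg he1 he2 hQ1 hP1 hQ2 hP2 v hr1ne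
    hr2ne (D + Dy) hD'0 hD' hnode
  rw [hr1] at hs1
  rw [hr2] at hs2
  refine ⟨hs1, u2, c0, hc0, hu, hs2, fun e he => ?_⟩
  have := hnode e
  rw [hr1, hr2] at this
  exact (Int.dvd_add_right he).mp this

end FrobPre

end Fermat.Agent.S44.Core.DimCount
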