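import Mathlib
import Fermat.Agent.S34.NodeNormalForm

/-!
# PROJECT P (S44), brick [S2']: exact node coordinates INSIDE the chart ring, no completion

`W → R` a ring homomorphism, `W` a discrete valuation ring with uniformiser `π`, `ϖ` the image of
`π`.  `ξ₀ η₀ ∈ R` with `R = W + (ξ₀, η₀, ϖ)` (`hgen`) and `ξ₀ η₀ ∈ ϖ R` (`hnode`); `ϖ` lies in the
Jacobson radical of `R` (`hloc`).  These are the hypotheses of
`S34/NodeNormalForm.exists_node_coordinates` WITHOUT the two completeness assumptions.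

* `exists_approx` : for every `n` there are `ξ ≡ ξ₀`, `η ≡ η₀ mod ϖ` and `c ∈ π W` with
  `ξ η - c ∈ ϖ ^ (n + 1) R` (the Newton sequence of `NodeNormalForm`, which needs no completeness);
* `exists_exact_coordinates` : if `B` is an A-PRIORI BOUND for the thickness (no pair `ξ ≡ ξ₀`,
  `η ≡ η₀ mod ϖ` has `ξ η ∈ ϖ ^ (B + 1) R`), then there are `ξ ≡ ξ₀ mod ϖ`, a unit `U` of `R`,
  `ζ ≡ U η₀ mod ϖ` and `1 ≤ w ≤ B` with `ξ ζ = ϖ ^ w` EXACTLY.

In the application `R = O_e` (functions of `E_{K0}` integral at both Gauss valuations and regular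
on the tube of the node `e`), the bound comes from the modular unit and the gluing at the node:

* `mul_le_of_slope_unit` : `O₂` a valuation subring of a field `E` (the second Gauss valuation),
  `S` a subring (integral at the first Gauss valuation and regular on the tube), `q` a set (the
  functions whose first reduction vanishes at the node).  GLUING, weak form `hG`: a function of
  `S` with `V₂ < 1` lies in `q`.  If `u⁻¹ ∈ S`, `V₂ u = V₂ ϖ ^ m`, `x ∈ S`, `V₂ x ≤ V₂ ϖ ^ n` and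
  `x ^ a / u ∉ q`, then `a * n ≤ m`.
* `not_mem_span_pow_of_slope_unit` : the hypothesis `hB` of `exists_exact_coordinates` with
  `B = m`, for a subring `R` of `E` with `R = S ∩ O₂`.
-/

set_option autoImplicit false

namespace Fermat.Agent.S44.Core.NewtonNode

open Fermat.Agent.S34.NodeNormalForm

section Exact

variable {W R : Type*} [CommRing W] [CommRing R] [Algebra W R] {π : W} {ξ₀ η₀ : R}

/-- the Newton sequence, to any finite order, without completeness -/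
theorem exists_approx
    (hgen : ∀ r : R, ∃ w : W, r - algebraMap W R w ∈ Ideal.span {ξ₀, η₀, algebraMap W R π})
    (hnode : ξ₀ * η₀ ∈ Ideal.span {algebraMap W R π}) (n : ℕ) :
    ∃ (ξ η : R) (c : W), ξ - ξ₀ ∈ Ideal.span {algebraMap W R π} ∧
      η - η₀ ∈ Ideal.span {algebraMap W R π} ∧ c ∈ Ideal.span {π} ∧
      ξ * η - algebraMap W R c ∈ Ideal.span {algebraMap W R π} ^ (n + 1) := by
  have h₁ : Approx π ξ₀ η₀ 1 (ξ₀, η₀, (0 : W)) := by
    refine ⟨?_, ?_, Ideal.zero_mem _, ?_⟩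
    · show ξ₀ - ξ₀ ∈ _
      rw [sub_self]; exact Ideal.zero_mem _
    · show η₀ - η₀ ∈ _
      rw [sub_self]; exact Ideal.zero_mem _
    · show ξ₀ * η₀ - algebraMap W R 0 ∈ _
      rw [map_zero, sub_zero, pow_one]
      exact hnode
  have h := approx_seq hgen h₁ n
  exact ⟨_, _, _, h.hξ, h.hη, h.hc, h.herr⟩

variable [IsDomain W] [IsDiscreteValuationRing W]

/-- **exact node coordinates inside `R`** from an a-priori bound on the thickness -/
theorem exists_exact_coordinates (hπ : Irreducible π)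
    (hgen : ∀ r : R, ∃ w : W, r - algebraMap W R w ∈ Ideal.span {ξ₀, η₀, algebraMap W R π})
    (hnode : ξ₀ * η₀ ∈ Ideal.span {algebraMap W R π})
    (hloc : ∀ r : R, IsUnit (1 + algebraMap W R π * r)) (B : ℕ)
    (hB : ∀ ξ η : R, ξ - ξ₀ ∈ Ideal.span {algebraMap W R π} →
      η - η₀ ∈ Ideal.span {algebraMap W R π} →
      ξ * η ∉ Ideal.span {algebraMap W R π} ^ (B + 1)) :
    ∃ (ξ ζ : R) (U : Rˣ) (w : ℕ), 1 ≤ w ∧ w ≤ B ∧ ξ - ξ₀ ∈ Ideal.span {algebraMap W R π} ∧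
      ζ - (U : R) * η₀ ∈ Ideal.span {algebraMap W R π} ∧ ξ * ζ = algebraMap W R π ^ w := by
  set ϖ := algebraMap W R π with hϖ
  obtain ⟨ξ, η, c, hξ, hη, hc, herr⟩ := exists_approx hgen hnode B
  have hc0 : c ≠ 0 := by
    rintro rfl
    rw [map_zero, sub_zero] at herr
    exact hB ξ η hξ hη herr
  obtain ⟨w, γ, hcw⟩ := IsDiscreteValuationRing.eq_unit_mul_pow_irreducible hc0 hπ
  -- `1 ≤ w`
  have hw1 : 1 ≤ w := by
    by_contra hlt
    have hw0 : w = 0 := by omega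
    rw [hw0, pow_zero, mul_one] at hcw
    rw [hcw, Ideal.mem_span_singleton] at hc
    exact hπ.not_isUnit (isUnit_of_dvd_unit hc γ.isUnit)
  -- `w ≤ B`
  have hwB : w ≤ B := by
    by_contra hlt
    push Not at hlt
    apply hB ξ η hξ hη
    have h1 : algebraMap W R c ∈ Ideal.span {ϖ} ^ (B + 1) := by
      rw [Ideal.span_singleton_pow, Ideal.mem_span_singleton]
      obtain ⟨k, rfl⟩ : ∃ k, w = B + 1 + k := ⟨w - (B + 1), by omega⟩
      refine ⟨algebraMap W R ((γ : W) * π ^ k), ?_⟩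
      rw [hcw, hϖ, ← map_pow, ← map_mul]
      congr 1
      ring
    have h2 : ξ * η = (ξ * η - algebraMap W R c) + algebraMap W R c := by ring
    rw [h2]
    exact Ideal.add_mem _ herr h1
  -- `ξ η = ϖ ^ w * U`
  rw [Ideal.span_singleton_pow, Ideal.mem_span_singleton'] at herr
  obtain ⟨r, hr⟩ := herr
  obtain ⟨k, hk⟩ : ∃ k, B + 1 = w + 1 + k := ⟨B - w, by omega⟩
  have hγ : IsUnit (algebraMap W R (γ : W)) := γ.isUnit.map _
  obtain ⟨γ', hγ'⟩ := hγ
  have hU : IsUnit ((γ' : R) + ϖ ^ (1 + k) * r) := by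
    have h1 : (γ' : R) + ϖ ^ (1 + k) * r =
        (γ' : R) * (1 + ϖ * (ϖ ^ k * r * ((γ'⁻¹ : Rˣ) : R))) := by
      have h2 : (γ' : R) * ((γ'⁻¹ : Rˣ) : R) = 1 := by
        rw [← Units.val_mul, mul_inv_cancel, Units.val_one]
      calc (γ' : R) + ϖ ^ (1 + k) * r
          = (γ' : R) + ϖ * ϖ ^ k * r * ((γ' : R) * ((γ'⁻¹ : Rˣ) : R)) := by
            rw [h2, mul_one, pow_add, pow_one]
        _ = (γ' : R) * (1 + ϖ * (ϖ ^ k * r * ((γ'⁻¹ : Rˣ) : R))) := by ring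
    rw [h1]
    exact γ'.isUnit.mul (hloc _)
  obtain ⟨U, hUdef⟩ := hU
  have hprod : ξ * η = ϖ ^ w * (U : R) := by
    have h1 : ξ * η = algebraMap W R c + r * ϖ ^ (B + 1) := by rw [hr]; ring
    rw [h1, hUdef, hcw, map_mul, map_pow, ← hϖ, ← hγ', hk]
    ring
  refine ⟨ξ, η * ((U⁻¹ : Rˣ) : R), U⁻¹, w, hw1, hwB, hξ, ?_, ?_⟩
  · have h1 : η * ((U⁻¹ : Rˣ) : R) - ((U⁻¹ : Rˣ) : R) * η₀ = ((U⁻¹ : Rˣ) : R) * (η - η₀) := by
      ring
    rw [h1]
    exact Ideal.mul_mem_left _ _ hη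
  · have h2 : (U : R) * ((U⁻¹ : Rˣ) : R) = 1 := by
      rw [← Units.val_mul, mul_inv_cancel, Units.val_one]
    calc ξ * (η * ((U⁻¹ : Rˣ) : R)) = ξ * η * ((U⁻¹ : Rˣ) : R) := by ring
      _ = ϖ ^ w * ((U : R) * ((U⁻¹ : Rˣ) : R)) := by rw [hprod]; ring
      _ = ϖ ^ w := by rw [h2, mul_one]

end Exact

section Bound

variable {E : Type*} [Field E] (O₂ : ValuationSubring E) (S : Subring E) (q : Set E)

/-- **the a-priori bound**, valuation form: the slope of a unit of the tube bounds the thickness -/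
theorem mul_le_of_slope_unit (hG : ∀ f ∈ S, f ∈ O₂.nonunits → f ∈ q) {ϖ u x : E}
    (hϖ : ϖ ∈ O₂.nonunits) (hϖ0 : ϖ ≠ 0) (hu' : u⁻¹ ∈ S) (hx : x ∈ S) {m a n : ℕ}
    (hu2 : O₂.valuation u = O₂.valuation ϖ ^ m) (hx2 : O₂.valuation x ≤ O₂.valuation ϖ ^ n)
    (hq : x ^ a / u ∉ q) : a * n ≤ m := by
  by_contra hlt
  push Not at hlt
  apply hq
  have hfS : x ^ a / u ∈ S := by
    rw [div_eq_mul_inv]
    exact S.mul_mem (S.pow_mem hx a) hu'
  refine hG _ hfS ?_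
  rw [ValuationSubring.mem_nonunits_iff] at hϖ ⊢
  have hv0 : O₂.valuation ϖ ≠ 0 := (Valuation.ne_zero_iff _).mpr hϖ0
  obtain ⟨k, hk⟩ : ∃ k, a * n = m + (k + 1) := ⟨a * n - m - 1, by omega⟩
  have h1 : O₂.valuation (x ^ a / u) ≤ O₂.valuation ϖ ^ (k + 1) := by
    rw [map_div₀, map_pow, hu2]
    have h2 : O₂.valuation x ^ a ≤ O₂.valuation ϖ ^ m * O₂.valuation ϖ ^ (k + 1) := by
      calc O₂.valuation x ^ a ≤ (O₂.valuation ϖ ^ n) ^ a := pow_le_pow_left' hx2 a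
        _ = O₂.valuation ϖ ^ m * O₂.valuation ϖ ^ (k + 1) := by
          rw [← pow_mul, mul_comm n a, hk, pow_add]
    rw [div_le_iff₀ (pow_pos (zero_lt_iff.mpr hv0) m), mul_comm]
    exact h2
  have h3 : O₂.valuation ϖ ^ (k + 1) < 1 := pow_lt_one' hϖ (Nat.succ_ne_zero k)
  exact lt_of_le_of_lt h1 h3

/-- **the hypothesis `hB` of `exists_exact_coordinates`** for a subring `R = S ∩ O₂` of `E`, from
a unit `u` of the tube of slope `m` -/
theorem not_mem_span_pow_of_slope_unit (R : Subring E) (hRS : R ≤ S) (hR2 : ∀ f ∈ R, f ∈ O₂)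
    (hG : ∀ f ∈ S, f ∈ O₂.nonunits → f ∈ q) {ϖ ξ₀ η₀ : R} (hϖ : (ϖ : E) ∈ O₂.nonunits)
    (hϖ0 : (ϖ : E) ≠ 0) (hη₀ : O₂.valuation (η₀ : E) = 1) {u : E} (hu' : u⁻¹ ∈ S) {m a : ℕ}
    (ha : 1 ≤ a) (hu2 : O₂.valuation u = O₂.valuation (ϖ : E) ^ m)
    (hq : ∀ ξ : R, ξ - ξ₀ ∈ Ideal.span {ϖ} → (ξ : E) ^ a / u ∉ q) (ξ η : R)
    (hξ : ξ - ξ₀ ∈ Ideal.span {ϖ}) (hη : η - η₀ ∈ Ideal.span {ϖ}) :
    ξ * η ∉ Ideal.span {ϖ} ^ (m + 1) := by
  intro hmem
  rw [Ideal.span_singleton_pow, Ideal.mem_span_singleton'] at hmem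
  obtain ⟨r, hr⟩ := hmem
  obtain ⟨s, hs⟩ := Ideal.mem_span_singleton'.mp hη
  have hϖ1 : O₂.valuation (ϖ : E) < 1 := (ValuationSubring.mem_nonunits_iff O₂).mp hϖ
  -- `V₂ η = 1`
  have hη1 : O₂.valuation (η : E) = 1 := by
    have h1 : (η : E) = (η₀ : E) + (s : E) * (ϖ : E) := by
      have h2 : η = η₀ + s * ϖ := by rw [hs]; ring
      rw [h2]; push_cast; ring
    have h3 : O₂.valuation ((s : E) * (ϖ : E)) < 1 := by
      rw [map_mul]
      have h4 : O₂.valuation (s : E) ≤ 1 := (O₂.valuation_le_one_iff _).mpr (hR2 _ s.2)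
      calc O₂.valuation (s : E) * O₂.valuation (ϖ : E) ≤ 1 * O₂.valuation (ϖ : E) :=
            mul_le_mul_left h4 _
        _ = O₂.valuation (ϖ : E) := one_mul _
        _ < 1 := hϖ1
    rw [h1, Valuation.map_add_eq_of_lt_left _ (by rw [hη₀]; exact h3), hη₀]
  -- `V₂ ξ ≤ V₂ ϖ ^ (m + 1)`
  have hξ2 : O₂.valuation (ξ : E) ≤ O₂.valuation (ϖ : E) ^ (m + 1) := by
    have h1 : (ξ : E) * (η : E) = (r : E) * (ϖ : E) ^ (m + 1) := by
      have := congrArg (Subtype.val) hr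
      push_cast at this
      rw [← this]
    have h2 : O₂.valuation (ξ : E) = O₂.valuation (r : E) * O₂.valuation (ϖ : E) ^ (m + 1) := by
      have h3 := congrArg O₂.valuation h1
      rw [map_mul, hη1, mul_one, map_mul, map_pow] at h3
      exact h3
    rw [h2]
    have h4 : O₂.valuation (r : E) ≤ 1 := (O₂.valuation_le_one_iff _).mpr (hR2 _ r.2)
    calc O₂.valuation (r : E) * O₂.valuation (ϖ : E) ^ (m + 1)
        ≤ 1 * O₂.valuation (ϖ : E) ^ (m + 1) := mul_le_mul_left h4 _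
      _ = O₂.valuation (ϖ : E) ^ (m + 1) := one_mul _
  have h5 := mul_le_of_slope_unit O₂ S q hG hϖ hϖ0 hu' (hRS ξ.2) hu2 hξ2 (hq ξ hξ)
  have h6 : a * (m + 1) ≥ 1 * (m + 1) := Nat.mul_le_mul_right _ ha
  omega

end Bound

end Fermat.Agent.S44.Core.NewtonNode
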