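import Mathlib
import Fermat.Agent.S44.Core.NewtonNode

/-!
# PROJECT P (S44), brick [S1]/(r2), abstract half: generation of the chart ring of a node

`W → R` a ring homomorphism (`W = A ∩ K0`, `R = O_e` the functions of `E_{K0}` integral at both
Gauss valuations and regular on the tube of the node `e`), `π ∈ W` (`= p`), two ring homomorphisms
`ρ₁ : R → κ₁`, `ρ₂ : R → κ₂` (the two reductions) and two predicates `Van₁`, `Van₂` on `κ₁`, `κ₂`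
("regular at the node of the component, with value `0` there").  `ξ₀ η₀ ∈ R` with `ρ₂ ξ₀ = 0` and
`ρ₁ η₀ = 0`.  Hypotheses, each one a statement about the two END valuations only:

* `hglue` : every `f ∈ R` has a constant `w ∈ W` with `ρ₁ (f - w)`, `ρ₂ (f - w)` vanishing at the
  node (local gluing + the residue field of `W` is the residue field of the node);
* `hlift₁` : if `ρ₁ g` vanishes at the node then `ρ₁ g = ρ₁ ξ₀ * ρ₁ F` for some `F ∈ R` (division by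
  the uniformiser `ρ₁ ξ₀` + lifting with pole control, `F = α (lift)`); `hlift₂` : the same on the
  second component (`F = β (lift)`);
* `hdiv` : an element of `R` with both reductions `0` is divisible by `π` in `R` (the value groups of
  the Gauss valuations on `E_{K0}` are generated by `v π`).

Then

* `hgen_of_lifts` : `R = W + (ξ₀, η₀, π) R`, literally the hypothesis `hgen` of
  `NewtonNode.exists_exact_coordinates`;
* `hnode_of_reductions` : `ξ₀ η₀ ∈ π R`, its hypothesis `hnode`;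
* `hloc_of_unit` : its hypothesis `hloc`, from "an element with both reductions `1` is a unit";
* `exists_node_pair` : ONE CALL: the exact pair `ξ ζ = π ^ w`, `1 ≤ w ≤ B`, together with the
  reductions of `ξ` and `ζ` (`ρ₁ ξ = ρ₁ ξ₀`, `ρ₂ ξ = 0`, `ρ₁ ζ = 0`, `ρ₂ ζ = ρ₂ U * ρ₂ η₀`, `U` a unit
  of `R`).
-/

set_option autoImplicit false

namespace Fermat.Agent.S44.Core.NodeGen

open Fermat.Agent.S44.Core.NewtonNode

variable {W R κ₁ κ₂ : Type*} [CommRing W] [CommRing R] [CommRing κ₁] [CommRing κ₂] [Algebra W R]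
  (ρ₁ : R →+* κ₁) (ρ₂ : R →+* κ₂) {π : W} {ξ₀ η₀ : R}

/-- **(r2)**: generation of `R` by `W`, `ξ₀`, `η₀`, `π` from the two lifting properties -/
theorem hgen_of_lifts (Van₁ : κ₁ → Prop) (Van₂ : κ₂ → Prop) (hξ₂ : ρ₂ ξ₀ = 0) (hη₁ : ρ₁ η₀ = 0)
    (hglue : ∀ f : R, ∃ w : W, Van₁ (ρ₁ (f - algebraMap W R w)) ∧
      Van₂ (ρ₂ (f - algebraMap W R w)))
    (hlift₁ : ∀ g : R, Van₁ (ρ₁ g) → ∃ F : R, ρ₁ (g - ξ₀ * F) = 0)
    (hlift₂ : ∀ g : R, Van₂ (ρ₂ g) → ∃ F : R, ρ₂ (g - η₀ * F) = 0)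
    (hdiv : ∀ g : R, ρ₁ g = 0 → ρ₂ g = 0 → ∃ F : R, g = algebraMap W R π * F) (r : R) :
    ∃ w : W, r - algebraMap W R w ∈ Ideal.span {ξ₀, η₀, algebraMap W R π} := by
  obtain ⟨w, hw₁, hw₂⟩ := hglue r
  refine ⟨w, ?_⟩
  set g := r - algebraMap W R w with hg
  obtain ⟨F₁, hF₁⟩ := hlift₁ g hw₁
  have h2 : ρ₂ (g - ξ₀ * F₁) = ρ₂ g := by
    rw [map_sub, map_mul, hξ₂, zero_mul, sub_zero]
  obtain ⟨F₂, hF₂⟩ := hlift₂ (g - ξ₀ * F₁) (by rw [h2]; exact hw₂)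
  have h1 : ρ₁ (g - ξ₀ * F₁ - η₀ * F₂) = 0 := by
    rw [map_sub, hF₁, map_mul, hη₁, zero_mul, sub_zero]
  obtain ⟨F₃, hF₃⟩ := hdiv (g - ξ₀ * F₁ - η₀ * F₂) h1 hF₂
  have hsum : g = ξ₀ * F₁ + η₀ * F₂ + algebraMap W R π * F₃ := by
    rw [← hF₃]; ring
  rw [hsum]
  refine Ideal.add_mem _ (Ideal.add_mem _ ?_ ?_) ?_
  · exact Ideal.mul_mem_right _ _ (Ideal.subset_span (by simp))
  · exact Ideal.mul_mem_right _ _ (Ideal.subset_span (by simp))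
  · exact Ideal.mul_mem_right _ _ (Ideal.subset_span (by simp))

/-- **(r3)**: `ξ₀ η₀ ∈ π R` -/
theorem hnode_of_reductions (hξ₂ : ρ₂ ξ₀ = 0) (hη₁ : ρ₁ η₀ = 0)
    (hdiv : ∀ g : R, ρ₁ g = 0 → ρ₂ g = 0 → ∃ F : R, g = algebraMap W R π * F) :
    ξ₀ * η₀ ∈ Ideal.span {algebraMap W R π} := by
  obtain ⟨F, hF⟩ := hdiv (ξ₀ * η₀) (by rw [map_mul, hη₁, mul_zero])
    (by rw [map_mul, hξ₂, zero_mul])
  rw [hF]
  exact Ideal.mul_mem_right _ _ (Ideal.subset_span rfl)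

/-- `π` lies in the Jacobson radical of `R` -/
theorem hloc_of_unit (hπ₁ : ρ₁ (algebraMap W R π) = 0) (hπ₂ : ρ₂ (algebraMap W R π) = 0)
    (hunit : ∀ g : R, ρ₁ g = 1 → ρ₂ g = 1 → IsUnit g) (r : R) :
    IsUnit (1 + algebraMap W R π * r) :=
  hunit _ (by rw [map_add, map_one, map_mul, hπ₁, zero_mul, add_zero])
    (by rw [map_add, map_one, map_mul, hπ₂, zero_mul, add_zero])

theorem map_eq_of_sub_mem {κ : Type*} [CommRing κ] (ρ : R →+* κ)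
    (hπ : ρ (algebraMap W R π) = 0) {x y : R} (h : x - y ∈ Ideal.span {algebraMap W R π}) :
    ρ x = ρ y := by
  obtain ⟨s, hs⟩ := Ideal.mem_span_singleton'.mp h
  have h1 : x = y + s * algebraMap W R π := by rw [hs]; ring
  rw [h1, map_add, map_mul, hπ, mul_zero, add_zero]

/-- **the exact pair of a node, one call**: from the generation hypotheses, the Jacobson property
and an a-priori bound `hB` (`NewtonNode.not_mem_span_pow_of_slope_unit`) -/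
theorem exists_node_pair [IsDomain W] [IsDiscreteValuationRing W] (hπ : Irreducible π)
    (Van₁ : κ₁ → Prop) (Van₂ : κ₂ → Prop) (hξ₂ : ρ₂ ξ₀ = 0) (hη₁ : ρ₁ η₀ = 0)
    (hπ₁ : ρ₁ (algebraMap W R π) = 0) (hπ₂ : ρ₂ (algebraMap W R π) = 0)
    (hglue : ∀ f : R, ∃ w : W, Van₁ (ρ₁ (f - algebraMap W R w)) ∧
      Van₂ (ρ₂ (f - algebraMap W R w)))
    (hlift₁ : ∀ g : R, Van₁ (ρ₁ g) → ∃ F : R, ρ₁ (g - ξ₀ * F) = 0)
    (hlift₂ : ∀ g : R, Van₂ (ρ₂ g) → ∃ F : R, ρ₂ (g - η₀ * F) = 0)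
    (hdiv : ∀ g : R, ρ₁ g = 0 → ρ₂ g = 0 → ∃ F : R, g = algebraMap W R π * F)
    (hunit : ∀ g : R, ρ₁ g = 1 → ρ₂ g = 1 → IsUnit g) (B : ℕ)
    (hB : ∀ ξ η : R, ξ - ξ₀ ∈ Ideal.span {algebraMap W R π} →
      η - η₀ ∈ Ideal.span {algebraMap W R π} →
      ξ * η ∉ Ideal.span {algebraMap W R π} ^ (B + 1)) :
    ∃ (ξ ζ : R) (U : Rˣ) (w : ℕ), 1 ≤ w ∧ w ≤ B ∧ ξ * ζ = algebraMap W R π ^ w ∧
      ρ₁ ξ = ρ₁ ξ₀ ∧ ρ₂ ξ = 0 ∧ ρ₁ ζ = 0 ∧ ρ₂ ζ = ρ₂ (U : R) * ρ₂ η₀ := by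
  obtain ⟨ξ, ζ, U, w, hw1, hwB, hξ, hζ, hprod⟩ :=
    exists_exact_coordinates hπ
      (hgen_of_lifts ρ₁ ρ₂ Van₁ Van₂ hξ₂ hη₁ hglue hlift₁ hlift₂ hdiv)
      (hnode_of_reductions ρ₁ ρ₂ hξ₂ hη₁ hdiv) (hloc_of_unit ρ₁ ρ₂ hπ₁ hπ₂ hunit) B hB
  refine ⟨ξ, ζ, U, w, hw1, hwB, hprod, map_eq_of_sub_mem ρ₁ hπ₁ hξ, ?_, ?_, ?_⟩
  · rw [map_eq_of_sub_mem ρ₂ hπ₂ hξ, hξ₂]
  · rw [map_eq_of_sub_mem ρ₁ hπ₁ hζ, map_mul, hη₁, mul_zero]
  · rw [map_eq_of_sub_mem ρ₂ hπ₂ hζ, map_mul]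

end Fermat.Agent.S44.Core.NodeGen
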