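/-
PROJECT P (S44), CORE, Core/NodeChart (helper6): FROM THE CHART RING OF A NODE TO NODE COORDINATES.

Frame of `Core/NodeFrame`: `(L, A)`, `π : A →+* k`, two Gauss branches `R1 R2` of `FL`, the two places
`Q1 Q2` of a node, its tube.  NEW: a subfield `ι : E0 →+* FL` (the functions defined over the inertia
field), a subring `R` of `E0` (the CHART RING of the node) with two ring homomorphisms `ρ₁ ρ₂`.

* `IsChart ι R1 R2 tube R ρ₁ ρ₂` : `R` is the ring of the functions of `E0` which are integral at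
  both Gauss valuations and regular on the tube, and `ρ₁ ρ₂` are the two reductions;
* `Glued R1 R2 Q1 Q2 tube` : LOCAL GLUING (the shape of `FrameHyp.NodeHyp.glue_node`);
* `IsChart.isUnit` : the hypothesis `hunit` of `NodeGen.exists_node_pair`, from the local count;
* `IsChart.exists_const` : its hypothesis `hglue`, from the gluing and the lifting of residues;
* `IsChart.not_mem_span_pow` : its hypothesis `hB` (A-PRIORI BOUND for the thickness) from a unit `u`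
  of the tube with `V₁ u = 1`, `V₂ u = V₂ ϖ ^ m` (`NewtonNode.not_mem_span_pow_of_slope_unit`);
* `IsChart.isNodeCoord` : the conclusion of `NodeGen.exists_node_pair` gives `IsNodeCoord`;
* `exists_nodeCoord` : ONE CALL: node coordinates `ξ ζ ∈ R` with `ξ ζ = t ^ w`, `1 ≤ w ≤ m`, from the
  lifting hypotheses `hlift₁ hlift₂ hdiv` of `NodeGen` and the seed pair `ξ₀ η₀`.

Mathlib + `Core/NodeFrame` + `Core/NodeGen` (helper29) + landed `S34/PcgOfSandwich`.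
-/
import Mathlib
import Fermat.Agent.S34.PcgOfSandwich
import Fermat.Agent.S44.Core.NodeFrame
import Fermat.Agent.S44.Core.NodeGen

set_option autoImplicit false
set_option linter.unusedSectionVars false

namespace Fermat.Agent.S44.Core.NodeChart

open AlgebraicCurve Fermat.Agent.S24.Ord Fermat.Agent.S34.NodalDefs
open Fermat.Agent.S44.Core.TubeCount Fermat.Agent.S44.Core.NodeFrame

/-! ### valuation subrings: comparison along a field embedding -/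

section Comap

variable {E0 : Type*} [Field E0] {FL : Type*} [Field FL] (V : ValuationSubring FL) (ι : E0 →+* FL)

theorem valuation_le_one_comap_iff (a : E0) :
    (V.comap ι).valuation a ≤ 1 ↔ V.valuation (ι a) ≤ 1 := by
  rw [ValuationSubring.valuation_le_one_iff, ValuationSubring.valuation_le_one_iff,
    ValuationSubring.mem_comap]

theorem valuation_comap_le_iff (a b : E0) :
    (V.comap ι).valuation a ≤ (V.comap ι).valuation b ↔ V.valuation (ι a) ≤ V.valuation (ι b) := by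
  rcases eq_or_ne b 0 with rfl | hb
  · rw [map_zero, map_zero, map_zero, le_zero_iff, le_zero_iff, Valuation.zero_iff,
      Valuation.zero_iff, map_eq_zero]
  · have hb' : ι b ≠ 0 := (map_ne_zero ι).mpr hb
    have h1 : (V.comap ι).valuation b ≠ 0 := (Valuation.ne_zero_iff _).mpr hb
    have h2 : V.valuation (ι b) ≠ 0 := (Valuation.ne_zero_iff _).mpr hb'
    have e1 : (V.comap ι).valuation a ≤ (V.comap ι).valuation b ↔
        (V.comap ι).valuation (a / b) ≤ 1 := by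
      rw [map_div₀, div_le_one₀ (zero_lt_iff.mpr h1)]
    have e2 : V.valuation (ι a) ≤ V.valuation (ι b) ↔ V.valuation (ι (a / b)) ≤ 1 := by
      rw [map_div₀, map_div₀, div_le_one₀ (zero_lt_iff.mpr h2)]
    rw [e1, e2, valuation_le_one_comap_iff]

theorem valuation_comap_eq_iff (a b : E0) :
    (V.comap ι).valuation a = (V.comap ι).valuation b ↔ V.valuation (ι a) = V.valuation (ι b) := by
  rw [le_antisymm_iff, le_antisymm_iff, valuation_comap_le_iff, valuation_comap_le_iff]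

theorem valuation_comap_lt_one_iff (a : E0) :
    (V.comap ι).valuation a < 1 ↔ V.valuation (ι a) < 1 := by
  rw [← not_le, ← not_le, ← (V.comap ι).valuation.map_one, ← V.valuation.map_one,
    valuation_comap_le_iff, map_one]

end Comap

variable {L : Type*} [Field L] {k : Type*} [Field k] {A : ValuationSubring L} {π : A →+* k}
variable {FL : Type*} [Field FL] [Algebra L FL]
variable {F1 : Type*} [Field F1] [Algebra k F1] {F2 : Type*} [Field F2] [Algebra k F2]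
variable {E0 : Type*} [Field E0]

/-! ### branches: small lemmas -/

section Branch

variable {Fk : Type*} [Field Fk] [Algebra k Fk] (B : Branch A π FL Fk)

theorem valuation_lt_one_of_red_zero {y : FL} (h : Red B y 0) : B.O.valuation y < 1 := by
  obtain ⟨hy, hred⟩ := h
  have h1 : ¬ IsUnit (⟨y, hy⟩ : B.O) := (B.red_eq_zero_iff _).mp hred
  have h2 : (⟨y, hy⟩ : B.O) ∈ IsLocalRing.maximalIdeal B.O :=
    (IsLocalRing.mem_maximalIdeal _).mpr h1
  exact (ValuationSubring.valuation_lt_one_iff B.O _).mp h2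

theorem red_zero_of_valuation_lt_one {y : FL} (h : B.O.valuation y < 1) : Red B y 0 := by
  have hy : y ∈ B.O := (ValuationSubring.valuation_le_one_iff B.O y).mp h.le
  refine ⟨hy, (B.red_eq_zero_iff _).mpr ?_⟩
  have h2 : (⟨y, hy⟩ : B.O) ∈ IsLocalRing.maximalIdeal B.O :=
    (ValuationSubring.valuation_lt_one_iff B.O _).mpr h
  exact (IsLocalRing.mem_maximalIdeal _).mp h2

theorem valuation_eq_one_of_red_ne_zero {y : FL} {φ : Fk} (h : Red B y φ) (hφ : φ ≠ 0) :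
    B.O.valuation y = 1 := by
  obtain ⟨hy, hred⟩ := h
  have h1 : IsUnit (⟨y, hy⟩ : B.O) := by
    by_contra hnu
    exact hφ (hred.symm.trans ((B.red_eq_zero_iff _).mpr hnu))
  exact (ValuationSubring.valuation_eq_one_iff B.O _).mp h1

end Branch

/-! ### values -/

section Value

variable {Fk : Type*} [Field Fk] [Algebra k Fk] (Q : Place k Fk)

theorem hasValue_zero_iff {φ : Fk} : HasValue Q φ 0 ↔ φ = 0 ∨ 0 < Q.ord φ := by
  unfold HasValue
  rw [map_zero, sub_zero]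

theorem hasValue_sub_const {φ : Fk} {γ : k} (h : HasValue Q φ γ) :
    HasValue Q (φ - algebraMap k Fk γ) 0 := by
  rw [hasValue_zero_iff]
  rcases h with h | h
  · exact Or.inl (sub_eq_zero.mpr h)
  · exact Or.inr h

theorem HasValue.ord_nonneg {φ : Fk} {γ : k} (h : HasValue Q φ γ) : 0 ≤ Q.ord φ := by
  have h1 := (Fermat.Agent.S34.PcgOfSandwich.hasValue_iff Q φ γ).mp h
  exact ord_nonneg_of_le_one Q h1.le_one

theorem ord_pow (x : Fk) (a : ℕ) : Q.ord (x ^ a) = a * Q.ord x := by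
  rw [← zpow_natCast, Place.ord_zpow]

theorem ord_eq_zero_of_mul_eq_one {x y : Fk} (hxy : x * y = 1) (hx : 0 ≤ Q.ord x)
    (hy : 0 ≤ Q.ord y) : Q.ord x = 0 := by
  have hx0 : x ≠ 0 := left_ne_zero_of_mul_eq_one hxy
  have hy0 : y ≠ 0 := right_ne_zero_of_mul_eq_one hxy
  have h := Place.ord_mul Q hx0 hy0
  rw [hxy, Place.ord_one] at h
  omega

end Value

/-! ### the chart ring -/

/-- **The chart ring of a node**: `R` is the ring of the functions of `E0` which are integral at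
both Gauss valuations and regular on the tube; `ρ₁ ρ₂` are its two reductions. -/
structure IsChart (ι : E0 →+* FL) (R1 : Branch A π FL F1) (R2 : Branch A π FL F2)
    (tube : Set (Place L FL)) (R : Subring E0) (ρ₁ : R →+* F1) (ρ₂ : R →+* F2) : Prop where
  mem_iff : ∀ g : E0, g ∈ R ↔
    ι g ∈ R1.O ∧ ι g ∈ R2.O ∧ ∀ P ∈ tube, P.adicValuation (ι g) ≤ 1
  red₁ : ∀ g : R, Red R1 (ι (g : E0)) (ρ₁ g)
  red₂ : ∀ g : R, Red R2 (ι (g : E0)) (ρ₂ g)

/-- **Local gluing on the tube** (the shape of `FrameHyp.NodeHyp.glue_node`): a function of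
`O₁ ∩ O₂` which is regular on the tube has reductions regular at `Q1`, `Q2` with the same value. -/
def Glued (R1 : Branch A π FL F1) (R2 : Branch A π FL F2) (Q1 : Place k F1) (Q2 : Place k F2)
    (tube : Set (Place L FL)) : Prop :=
  ∀ (y : FL) (h1 : y ∈ R1.O) (h2 : y ∈ R2.O), (∀ P ∈ tube, P.adicValuation y ≤ 1) →
    ∃ γ : k, HasValue Q1 (R1.red ⟨y, h1⟩) γ ∧ HasValue Q2 (R2.red ⟨y, h2⟩) γ

variable {ι : E0 →+* FL} {R1 : Branch A π FL F1} {R2 : Branch A π FL F2}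
  {Q1 : Place k F1} {Q2 : Place k F2} {tube : Set (Place L FL)}
  {R : Subring E0} {ρ₁ : R →+* F1} {ρ₂ : R →+* F2}

namespace IsChart

theorem mem₁ (hC : IsChart ι R1 R2 tube R ρ₁ ρ₂) (g : R) : ι (g : E0) ∈ R1.O :=
  ((hC.mem_iff g).mp g.2).1

theorem mem₂ (hC : IsChart ι R1 R2 tube R ρ₁ ρ₂) (g : R) : ι (g : E0) ∈ R2.O :=
  ((hC.mem_iff g).mp g.2).2.1

theorem reg (hC : IsChart ι R1 R2 tube R ρ₁ ρ₂) (g : R) :
    ∀ P ∈ tube, P.adicValuation (ι (g : E0)) ≤ 1 :=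
  ((hC.mem_iff g).mp g.2).2.2

theorem ρ₁_eq (hC : IsChart ι R1 R2 tube R ρ₁ ρ₂) (g : R) :
    ρ₁ g = R1.red ⟨ι (g : E0), hC.mem₁ g⟩ := by
  obtain ⟨h, hh⟩ := hC.red₁ g
  exact hh.symm

theorem ρ₂_eq (hC : IsChart ι R1 R2 tube R ρ₁ ρ₂) (g : R) :
    ρ₂ g = R2.red ⟨ι (g : E0), hC.mem₂ g⟩ := by
  obtain ⟨h, hh⟩ := hC.red₂ g
  exact hh.symm

/-- the two reductions of a function of the chart ring are regular at the node, with the same
value -/
theorem glued (hC : IsChart ι R1 R2 tube R ρ₁ ρ₂) (hG : Glued R1 R2 Q1 Q2 tube) (g : R) :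
    ∃ γ : k, HasValue Q1 (ρ₁ g) γ ∧ HasValue Q2 (ρ₂ g) γ := by
  obtain ⟨γ, h1, h2⟩ := hG (ι (g : E0)) (hC.mem₁ g) (hC.mem₂ g) (hC.reg g)
  exact ⟨γ, by rw [hC.ρ₁_eq g]; exact h1, by rw [hC.ρ₂_eq g]; exact h2⟩

/-- **`hunit`**: a function of the chart ring whose two reductions are units at the node is a unit
of the chart ring (local count). -/
theorem isUnit [HasPrincipalDivisors L FL] (hC : IsChart ι R1 R2 tube R ρ₁ ρ₂)
    (hLC : LocalCount R1 R2 tube Q1 Q2) (g : R) (h1 : ρ₁ g ≠ 0) (h2 : ρ₂ g ≠ 0)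
    (ho1 : Q1.ord (ρ₁ g) = 0) (ho2 : Q2.ord (ρ₂ g) = 0) : IsUnit g := by
  have hy0 : ι (g : E0) ≠ 0 := (hC.red₁ g).ne_zero h1
  have hg0 : (g : E0) ≠ 0 := fun h => hy0 (by rw [h, map_zero])
  have hord : ∀ P ∈ tube, P.ord (ι (g : E0)) = 0 :=
    hLC.ord_eq_zero (hC.red₁ g) (hC.red₂ g) h1 h2 ho1 ho2
      (fun P hP => ord_nonneg_of_le_one P (hC.reg g P hP))
  have hinv : ((g : E0))⁻¹ ∈ R := by
    rw [hC.mem_iff, map_inv₀]
    refine ⟨((hC.red₁ g).inv h1).mem, ((hC.red₂ g).inv h2).mem, fun P hP => ?_⟩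
    refine (ord_nonneg_iff P (inv_ne_zero hy0)).mp ?_
    rw [Place.ord_inv, hord P hP, neg_zero]
  refine ⟨⟨g, ⟨_, hinv⟩, ?_, ?_⟩, rfl⟩
  · exact Subtype.ext (mul_inv_cancel₀ hg0)
  · exact Subtype.ext (inv_mul_cancel₀ hg0)

/-- **`hunit`** in the literal of `NodeGen.exists_node_pair` -/
theorem isUnit_of_one [HasPrincipalDivisors L FL] (hC : IsChart ι R1 R2 tube R ρ₁ ρ₂)
    (hLC : LocalCount R1 R2 tube Q1 Q2) (g : R) (h1 : ρ₁ g = 1) (h2 : ρ₂ g = 1) : IsUnit g :=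
  hC.isUnit hLC g (by rw [h1]; exact one_ne_zero) (by rw [h2]; exact one_ne_zero)
    (by rw [h1, Place.ord_one]) (by rw [h2, Place.ord_one])

/-- the reductions of a unit of the chart ring have order `0` at the node -/
theorem ord_unit (hC : IsChart ι R1 R2 tube R ρ₁ ρ₂) (hG : Glued R1 R2 Q1 Q2 tube) (U : Rˣ) :
    Q1.ord (ρ₁ (U : R)) = 0 ∧ Q2.ord (ρ₂ (U : R)) = 0 := by
  obtain ⟨γ, h1, h2⟩ := hC.glued hG (U : R)
  obtain ⟨γ', h1', h2'⟩ := hC.glued hG ((U⁻¹ : Rˣ) : R)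
  have hm1 : ρ₁ (U : R) * ρ₁ ((U⁻¹ : Rˣ) : R) = 1 := by
    rw [← map_mul, ← Units.val_mul, mul_inv_cancel, Units.val_one, map_one]
  have hm2 : ρ₂ (U : R) * ρ₂ ((U⁻¹ : Rˣ) : R) = 1 := by
    rw [← map_mul, ← Units.val_mul, mul_inv_cancel, Units.val_one, map_one]
  exact ⟨ord_eq_zero_of_mul_eq_one Q1 hm1 (HasValue.ord_nonneg Q1 h1) (HasValue.ord_nonneg Q1 h1'),
    ord_eq_zero_of_mul_eq_one Q2 hm2 (HasValue.ord_nonneg Q2 h2) (HasValue.ord_nonneg Q2 h2')⟩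

/-- **`hglue`**: every function of the chart ring has a constant `w` such that both reductions of
`f - w` vanish at the node. -/
theorem exists_const {W : Type*} [CommRing W] [Algebra W R]
    (hC : IsChart ι R1 R2 tube R ρ₁ ρ₂) (hG : Glued R1 R2 Q1 Q2 tube)
    (hW : ∀ γ : k, ∃ (w : W) (a : A), π a = γ ∧
      ι ((algebraMap W R w : R) : E0) = algebraMap L FL (a : L)) (f : R) :
    ∃ w : W, HasValue Q1 (ρ₁ (f - algebraMap W R w)) 0 ∧
      HasValue Q2 (ρ₂ (f - algebraMap W R w)) 0 := by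
  obtain ⟨γ, h1, h2⟩ := hC.glued hG f
  obtain ⟨w, a, ha, hw⟩ := hW γ
  have e1 : ρ₁ (algebraMap W R w) = algebraMap k F1 γ := by
    have h := hC.red₁ (algebraMap W R w)
    rw [hw] at h
    rw [← ha]
    exact h.unique (red_const (R := R1) a)
  have e2 : ρ₂ (algebraMap W R w) = algebraMap k F2 γ := by
    have h := hC.red₂ (algebraMap W R w)
    rw [hw] at h
    rw [← ha]
    exact h.unique (red_const (R := R2) a)
  refine ⟨w, ?_, ?_⟩
  · rw [map_sub, e1]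
    exact hasValue_sub_const Q1 h1
  · rw [map_sub, e2]
    exact hasValue_sub_const Q2 h2

/-- congruent elements of the chart ring have the same reduction -/
theorem ρ_eq_of_sub_mem {κ : Type*} [CommRing κ] (ρ : R →+* κ) {ϖ : R} (hϖ : ρ ϖ = 0) {x y : R}
    (h : x - y ∈ Ideal.span {ϖ}) : ρ x = ρ y := by
  obtain ⟨s, hs⟩ := Ideal.mem_span_singleton'.mp h
  have h1 : x = y + s * ϖ := by rw [hs]; ring
  rw [h1, map_add, map_mul, hϖ, mul_zero, add_zero]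

/-- **`hB`, the a-priori bound for the thickness**: `u` a function of `E0` without zero or pole on
the tube, with `V₁ u = 1` and `V₂ u = V₂ ϖ ^ m`.  Then no pair `ξ ≡ ξ₀`, `η ≡ η₀ mod ϖ` has
`ξ η ∈ ϖ ^ (m + 1) R`. -/
theorem not_mem_span_pow (hC : IsChart ι R1 R2 tube R ρ₁ ρ₂) (hG : Glued R1 R2 Q1 Q2 tube)
    {ϖ ξ₀ η₀ : R} (hϖ0 : ϖ ≠ 0) (hϖ1 : ρ₁ ϖ = 0) (hϖ2 : ρ₂ ϖ = 0)
    (hξ₀ : Q1.ord (ρ₁ ξ₀) = 1) (hη₀ : ρ₂ η₀ ≠ 0)
    {u : E0} {υ : F1} (hu1 : Red R1 (ι u) υ) (hυ : υ ≠ 0)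
    (hureg : ∀ P ∈ tube, P.ord (ι u) = 0) {m : ℕ} (hm : 1 ≤ m)
    (hu2 : R2.O.valuation (ι u) = R2.O.valuation (ι (ϖ : E0)) ^ m)
    (ξ η : R) (hξ : ξ - ξ₀ ∈ Ideal.span {ϖ}) (hη : η - η₀ ∈ Ideal.span {ϖ}) :
    ξ * η ∉ Ideal.span {ϖ} ^ (m + 1) := by
  classical
  set O₂ : ValuationSubring E0 := R2.O.comap ι with hO₂
  set S : Subring E0 := (R1.O.comap ι).toSubring ⊓
    ⨅ P : tube, ((P : Place L FL).toValuationSubring.comap ι).toSubring with hS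
  set q : Set E0 := {g | ∃ h : ι g ∈ R1.O, HasValue Q1 (R1.red ⟨ι g, h⟩) 0} with hq
  have memS : ∀ g : E0, g ∈ S ↔ ι g ∈ R1.O ∧ ∀ P ∈ tube, P.adicValuation (ι g) ≤ 1 := by
    intro g
    rw [hS, Subring.mem_inf, Subring.mem_iInf]
    refine and_congr Iff.rfl ⟨fun h P hP => ?_, fun h P => ?_⟩
    · exact (Fermat.Agent.S24.Ord.mem_iff P _).mp (h ⟨P, hP⟩)
    · exact (Fermat.Agent.S24.Ord.mem_iff P.1 _).mpr (h P.1 P.2)
  have hu0 : ι u ≠ 0 := hu1.ne_zero hυ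
  have hξ₀0 : ρ₁ ξ₀ ≠ 0 := by
    intro h
    rw [h, Place.ord_zero] at hξ₀
    exact zero_ne_one hξ₀
  -- the weak gluing
  have hG' : ∀ f ∈ S, f ∈ O₂.nonunits → f ∈ q := by
    intro f hfS hf2
    obtain ⟨hf1, hfT⟩ := (memS f).mp hfS
    have hlt : R2.O.valuation (ι f) < 1 :=
      (valuation_comap_lt_one_iff R2.O ι f).mp ((ValuationSubring.mem_nonunits_iff O₂).mp hf2)
    obtain ⟨hf2', hred⟩ := red_zero_of_valuation_lt_one R2 hlt
    obtain ⟨γ, h1, h2⟩ := hG (ι f) hf1 hf2' hfT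
    rw [hred] at h2
    have hγ : γ = 0 := by
      have e1 := (Fermat.Agent.S34.PcgOfSandwich.hasValue_iff Q2 (0 : F2) γ).mp h2
      exact (e1.unique (Fermat.Agent.S34.Generic.Dich.hasVal_zero Q2))
    rw [hγ] at h1
    exact ⟨hf1, h1⟩
  have hϖn : (ϖ : E0) ∈ O₂.nonunits := by
    rw [ValuationSubring.mem_nonunits_iff, valuation_comap_lt_one_iff]
    have h := hC.red₂ ϖ
    rw [hϖ2] at h
    exact valuation_lt_one_of_red_zero R2 h
  have hϖ0' : (ϖ : E0) ≠ 0 := fun h => hϖ0 (Subtype.ext h)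
  have hη1 : O₂.valuation (η₀ : E0) = 1 := by
    have h := valuation_eq_one_of_red_ne_zero R2 (hC.red₂ η₀) hη₀
    rw [← O₂.valuation.map_one, valuation_comap_eq_iff, map_one, map_one]
    exact h
  have hu2' : O₂.valuation u = O₂.valuation (ϖ : E0) ^ m := by
    rw [← map_pow, valuation_comap_eq_iff, map_pow, map_pow]
    exact hu2
  have huS : u ∈ S := by
    rw [memS]
    refine ⟨hu1.mem, fun P hP => (ord_nonneg_iff P hu0).mp ?_⟩
    rw [hureg P hP]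
  have huS' : u⁻¹ ∈ S := by
    rw [memS, map_inv₀]
    refine ⟨(hu1.inv hυ).mem, fun P hP => (ord_nonneg_iff P (inv_ne_zero hu0)).mp ?_⟩
    rw [Place.ord_inv, hureg P hP, neg_zero]
  -- the order of the reduction of `u` at the node
  have hupos : 0 < Q1.ord υ := by
    have hun : u ∈ O₂.nonunits := by
      rw [ValuationSubring.mem_nonunits_iff, hu2']
      exact pow_lt_one' ((ValuationSubring.mem_nonunits_iff O₂).mp hϖn) (by omega)
    obtain ⟨h, hv⟩ := hG' u huS hun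
    have e : R1.red ⟨ι u, h⟩ = υ := (red_of_mem (R := R1) h).unique hu1
    rw [e, hasValue_zero_iff] at hv
    rcases hv with hv | hv
    · exact absurd hv hυ
    · exact hv
  obtain ⟨a, ha⟩ : ∃ a : ℕ, Q1.ord υ = a := ⟨(Q1.ord υ).toNat, (Int.toNat_of_nonneg hupos.le).symm⟩
  have ha1 : 1 ≤ a := by omega
  have hRS : R ≤ S := fun g hg => (memS g).mpr
    ⟨((hC.mem_iff g).mp hg).1, ((hC.mem_iff g).mp hg).2.2⟩
  have hR2 : ∀ f ∈ R, f ∈ O₂ := fun g hg => ((hC.mem_iff g).mp hg).2.1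
  refine NewtonNode.not_mem_span_pow_of_slope_unit O₂ S q R hRS hR2 hG' hϖn hϖ0' hη1 huS' ha1 hu2'
    (fun x hx hxq => ?_) ξ η hξ hη
  obtain ⟨h, hv⟩ := hxq
  have hred : Red R1 (ι ((x : E0) ^ a / u)) (ρ₁ ξ₀ ^ a * υ⁻¹) := by
    rw [map_div₀, map_pow, div_eq_mul_inv, ← ρ_eq_of_sub_mem ρ₁ hϖ1 hx]
    exact ((hC.red₁ x).pow a).mul (hu1.inv hυ)
  have e : R1.red ⟨ι ((x : E0) ^ a / u), h⟩ = ρ₁ ξ₀ ^ a * υ⁻¹ := (red_of_mem (R := R1) h).unique hred
  rw [e, hasValue_zero_iff] at hv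
  have hne : ρ₁ ξ₀ ^ a * υ⁻¹ ≠ 0 := mul_ne_zero (pow_ne_zero a hξ₀0) (inv_ne_zero hυ)
  have hord : Q1.ord (ρ₁ ξ₀ ^ a * υ⁻¹) = 0 := by
    rw [Place.ord_mul Q1 (pow_ne_zero a hξ₀0) (inv_ne_zero hυ), ord_pow, Place.ord_inv, hξ₀, ha]
    ring
  rcases hv with hv | hv
  · exact hne hv
  · rw [hord] at hv
    exact lt_irrefl _ hv

/-- **the conclusion of `NodeGen.exists_node_pair` gives node coordinates** -/
theorem isNodeCoord (hC : IsChart ι R1 R2 tube R ρ₁ ρ₂) (hG : Glued R1 R2 Q1 Q2 tube)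
    {ϖ ξ ζ ξ₀ η₀ : R} {U : Rˣ} {w : ℕ} {t : A} (ht : t ∈ IsLocalRing.maximalIdeal A)
    (ht0 : (t : L) ≠ 0) (hϖ : ι (ϖ : E0) = algebraMap L FL (t : L)) (hw : 1 ≤ w)
    (hmul : ξ * ζ = ϖ ^ w) (h1 : ρ₁ ξ = ρ₁ ξ₀) (h2 : ρ₂ ζ = ρ₂ (U : R) * ρ₂ η₀)
    (hξ₀ : Q1.ord (ρ₁ ξ₀) = 1) (hη₀ : Q2.ord (ρ₂ η₀) = 1) :
    IsNodeCoord R1 R2 Q1 Q2 tube (ι (ξ : E0)) (ι (ζ : E0)) (t ^ w) where
  thick_mem := Ideal.pow_mem_of_mem _ ht w (by omega)
  thick_ne := by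
    push_cast
    exact pow_ne_zero w ht0
  mul := by
    have h : ι ((ξ * ζ : R) : E0) = ι ((ϖ ^ w : R) : E0) := by rw [hmul]
    rw [Subring.coe_mul, Subring.coe_pow, map_mul, map_pow, hϖ] at h
    rw [h, SubmonoidClass.coe_pow, map_pow]
  ord1 := by
    obtain ⟨h, hh⟩ := hC.red₁ ξ
    exact ⟨h, by rw [hh, h1, hξ₀]⟩
  ord2 := by
    obtain ⟨h, hh⟩ := hC.red₂ ζ
    refine ⟨h, ?_⟩
    have hη0 : ρ₂ η₀ ≠ 0 := by
      intro h0
      rw [h0, Place.ord_zero] at hη₀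
      exact zero_ne_one hη₀
    have hU0 : ρ₂ (U : R) ≠ 0 := by
      intro h0
      have hm : ρ₂ (U : R) * ρ₂ ((U⁻¹ : Rˣ) : R) = 1 := by
        rw [← map_mul, ← Units.val_mul, mul_inv_cancel, Units.val_one, map_one]
      rw [h0, zero_mul] at hm
      exact zero_ne_one hm
    rw [hh, h2, Place.ord_mul Q2 hU0 hη0, (hC.ord_unit hG U).2, hη₀, zero_add]
  reg_ξ := hC.reg ξ
  reg_ζ := hC.reg ζ

end IsChart

/-! ### one call -/

/-- **Node coordinates in the chart ring, one call.**  `W` a discrete valuation ring with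
uniformiser `ϖW` (`= p`), mapping to the constants of the chart ring `R`; `t ∈ A` the image of
`ϖW`; the residue field of `W` is `k` (`hW`).  Seed pair `ξ₀ η₀` (`ρ₂ ξ₀ = 0 = ρ₁ η₀`, `ρ₁ ξ₀`, `ρ₂ η₀`
uniformisers at the node), lifting hypotheses `hlift₁ hlift₂ hdiv` of `NodeGen.exists_node_pair`, a
unit `u` of the tube with `V₁ u = 1`, `V₂ u = V₂ t ^ m`.  Then there are `ξ ζ ∈ R` and `1 ≤ w ≤ m` with
`IsNodeCoord … (ι ξ) (ι ζ) (t ^ w)`. -/
theorem exists_nodeCoord [HasPrincipalDivisors L FL] {W : Type*} [CommRing W] [IsDomain W]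
    [IsDiscreteValuationRing W] [Algebra W R]
    (hC : IsChart ι R1 R2 tube R ρ₁ ρ₂) (hG : Glued R1 R2 Q1 Q2 tube)
    (hLC : LocalCount R1 R2 tube Q1 Q2) {ϖW : W} (hπ : Irreducible ϖW) {t : A}
    (ht : t ∈ IsLocalRing.maximalIdeal A) (ht0 : (t : L) ≠ 0)
    (hϖ : ι ((algebraMap W R ϖW : R) : E0) = algebraMap L FL (t : L))
    (hW : ∀ γ : k, ∃ (w : W) (a : A), π a = γ ∧
      ι ((algebraMap W R w : R) : E0) = algebraMap L FL (a : L))
    (Van₁ : F1 → Prop) (Van₂ : F2 → Prop) (hVan₁ : ∀ φ : F1, HasValue Q1 φ 0 → Van₁ φ)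
    (hVan₂ : ∀ φ : F2, HasValue Q2 φ 0 → Van₂ φ)
    {ξ₀ η₀ : R} (hξ₂ : ρ₂ ξ₀ = 0) (hη₁ : ρ₁ η₀ = 0) (hξ₀ : Q1.ord (ρ₁ ξ₀) = 1)
    (hη₀ : Q2.ord (ρ₂ η₀) = 1)
    (hlift₁ : ∀ g : R, Van₁ (ρ₁ g) → ∃ F : R, ρ₁ (g - ξ₀ * F) = 0)
    (hlift₂ : ∀ g : R, Van₂ (ρ₂ g) → ∃ F : R, ρ₂ (g - η₀ * F) = 0)
    (hdiv : ∀ g : R, ρ₁ g = 0 → ρ₂ g = 0 → ∃ F : R, g = algebraMap W R ϖW * F)
    {u : E0} {υ : F1} (hu1 : Red R1 (ι u) υ) (hυ : υ ≠ 0)
    (hureg : ∀ P ∈ tube, P.ord (ι u) = 0) {m : ℕ} (hm : 1 ≤ m)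
    (hu2 : R2.O.valuation (ι u) = R2.O.valuation (algebraMap L FL (t : L)) ^ m) :
    ∃ (ξ ζ : R) (w : ℕ), 1 ≤ w ∧ w ≤ m ∧
      IsNodeCoord R1 R2 Q1 Q2 tube (ι (ξ : E0)) (ι (ζ : E0)) (t ^ w) := by
  set ϖ : R := algebraMap W R ϖW with hϖdef
  have hϖ1 : ρ₁ ϖ = 0 := by
    have h := hC.red₁ ϖ
    rw [hϖ] at h
    exact h.unique (red_const_zero (R := R1) ht)
  have hϖ2 : ρ₂ ϖ = 0 := by
    have h := hC.red₂ ϖ
    rw [hϖ] at h
    exact h.unique (red_const_zero (R := R2) ht)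
  have hϖ0 : ϖ ≠ 0 := by
    intro h0
    have h := hϖ
    rw [h0] at h
    push_cast at h
    rw [map_zero] at h
    exact ht0 ((map_eq_zero (algebraMap L FL)).mp h.symm)
  have hη₀0 : ρ₂ η₀ ≠ 0 := by
    intro h0
    rw [h0, Place.ord_zero] at hη₀
    exact zero_ne_one hη₀
  obtain ⟨ξ, ζ, U, w, hw1, hwm, hmul, h1, -, -, h2⟩ :=
    NodeGen.exists_node_pair ρ₁ ρ₂ hπ Van₁ Van₂ hξ₂ hη₁ hϖ1 hϖ2
      (fun f => by
        obtain ⟨c, hc1, hc2⟩ := hC.exists_const (W := W) hG hW f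
        exact ⟨c, hVan₁ _ hc1, hVan₂ _ hc2⟩)
      hlift₁ hlift₂ hdiv (fun g hg1 hg2 => hC.isUnit_of_one hLC g hg1 hg2) m
      (fun ξ η hξ hη => hC.not_mem_span_pow hG hϖ0 hϖ1 hϖ2 hξ₀ hη₀0 hu1 hυ hureg hm
        (by rw [hϖ]; exact hu2) ξ η hξ hη)
  exact ⟨ξ, ζ, w, hw1, hwm, hC.isNodeCoord hG ht ht0 hϖ hw1 hmul h1 h2 hξ₀ hη₀⟩

end Fermat.Agent.S44.Core.NodeChart
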