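/-
PROJECT P (S44), CORE, Core/DiscFactor (helper1): THE LOCAL FACTOR ON A GOOD RESIDUE DISC.

One branch `R : SmoothRed A π FL Fk` only.  `Q` a good place of the component carrying a good
parameter `T` (`S34.NodalDisc.IsGoodParam`) which is fixed by the wild generator `g` (a semilinear
automorphism of `FL` over `σ`) and by a group `Hs` of semilinear automorphisms whose fixed constants
lie in `K'`.  For an `Hs`-stable divisor `D`, a divisor `Dz` whose restriction to the disc is the
divisor of a deep one-unit, and a function `h` with `ord_P h = (g • D - D - Dz) P` on the disc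
`{P | R.r P = some Q}`:

  `∃ ρ θ, IsFactor R R B {P | R.r P = some Q} h ρ θ 0 0`      (`exists_factor`)

with `ρ ∈ 1 + ϖ^(s+1) O`.  The factor is `g N⁺(T) / N⁺(T)` over `g N⁻(T) / N⁻(T)` over the `Dz`-unit,
`N± = ∏ (X - T(P))^(±D P)` the ORBIT polynomials of the points of `D` in the disc: their
coefficients are fixed by `Hs`, hence lie in `K' ∩ A`, hence `σ N - N ∈ ϖ^(s+1) A[X]`
(`BreakDatum.σ_int`), and `N(T)` is a unit of `O`.  Regularity of the reductions at `Q` then
follows from the landed one-branch lemma `S34.NodalDisc.red_regular` (no pole in the DISC is all it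
needs; the whole fibre of the specialisation map is NOT needed and would be wrong here).

* `Deep O w ρ` : `ρ ∈ 1 + w O`, with `Deep.mul`, `Deep.inv`, `Deep.div`, `deep_prod`;
* `deep_pair`  : `(T - a) / (T - b) ∈ 1 + ϖ^(s+1) O` when `a - b ∈ ϖ^(s+1) A`;
* `deep_norm`  : `τ N(T) / N(T) ∈ 1 + ϖ^(s+1) O` for `N` with coefficients in `K' ∩ A`;
* `exists_pairs_unit` : the `Dz`-unit from finitely many pairs of points of the disc;
* `orbit_factor` : `g N(T) / N(T)` for an `Hs`-stable weighted finite set of points of the disc;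
* `exists_factor` : the theorem;
* `regular_Y`, `regular_div` : a factor on the disc with zero jump makes the reduction of every
  level `Y h r c` (`r ≤ s`) and of `h / c` regular at `Q` (via `Core/Factor` + `red_regular`).

Mathlib + Prelude (`SemilinearAut`) + landed `S34/NodalDisc` + `Core/{Break, NormPoly, Induct, Factor}`.
-/
import Mathlib
import Fermat.Prelude.Def_AlgebraicCurve_BaseChangeGalois
import Fermat.Agent.S44.Core.Factor

set_option autoImplicit false

namespace Fermat.Agent.S44.Core.DiscFactor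

open Polynomial AlgebraicCurve
open Fermat.Agent.S24.Ord Fermat.Agent.S34.NodalDefs Fermat.Agent.S34.NodalDisc
open Fermat.Agent.S44.Core.Break Fermat.Agent.S44.Core.NormPoly Fermat.Agent.S44.Core.Induct
open Fermat.Agent.S44.Core.Factor

/-! ### deep one-units of a valuation ring -/

section Deep

variable {E : Type*} [Field E] (O : ValuationSubring E) (w : E)

/-- `ρ ∈ 1 + w O` -/
def Deep (ρ : E) : Prop := ∃ x ∈ O, ρ = 1 + w * x

variable {O w}

theorem deep_one : Deep O w 1 := ⟨0, O.zero_mem, by rw [mul_zero, add_zero]⟩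

theorem Deep.mul {ρ ρ' : E} (hw : w ∈ O) (h : Deep O w ρ) (h' : Deep O w ρ') :
    Deep O w (ρ * ρ') := by
  obtain ⟨x, hx, rfl⟩ := h
  obtain ⟨x', hx', rfl⟩ := h'
  exact ⟨x + x' + w * x * x', add_mem (add_mem hx hx') (mul_mem (mul_mem hw hx) hx'), by ring⟩

theorem Deep.unit {ρ : E} (hw : w ∈ O.nonunits) (h : Deep O w ρ) : UnitA O ρ := by
  obtain ⟨x, hx, rfl⟩ := h
  exact unitA_one_add (non_mul_mem hw hx)

theorem Deep.inv {ρ : E} (hw : w ∈ O.nonunits) (h : Deep O w ρ) : Deep O w ρ⁻¹ := by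
  have hu := h.unit hw
  obtain ⟨x, hx, rfl⟩ := h
  refine ⟨-x * (1 + w * x)⁻¹, mul_mem (neg_mem hx) hu.inv_mem, ?_⟩
  have h0 := hu.ne_zero
  field_simp
  ring

theorem Deep.div {ρ ρ' : E} (hw : w ∈ O.nonunits) (h : Deep O w ρ) (h' : Deep O w ρ') :
    Deep O w (ρ / ρ') := by
  rw [div_eq_mul_inv]
  exact h.mul (mem_of_non hw) (h'.inv hw)

theorem deep_prod {ι : Type*} (s : Finset ι) (f : ι → E) (hw : w ∈ O)
    (h : ∀ i ∈ s, Deep O w (f i)) : Deep O w (∏ i ∈ s, f i) := by
  classical
  induction s using Finset.induction_on with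
  | empty => rw [Finset.prod_empty]; exact deep_one
  | insert a s ha ih =>
    rw [Finset.prod_insert ha]
    exact (h a (Finset.mem_insert_self a s)).mul hw
      (ih fun i hi => h i (Finset.mem_insert_of_mem hi))

end Deep

/-! ### units of a valuation ring: powers and products -/

section Units

variable {E : Type*} [Field E] {O : ValuationSubring E}

theorem unitA_pow {b : E} (hb : UnitA O b) (n : ℕ) : UnitA O (b ^ n) := by
  have := hb.zpow (n : ℤ)
  rwa [zpow_natCast] at this

theorem unitA_prod {ι : Type*} (s : Finset ι) (f : ι → E) (h : ∀ i ∈ s, UnitA O (f i)) :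
    UnitA O (∏ i ∈ s, f i) := by
  classical
  induction s using Finset.induction_on with
  | empty => rw [Finset.prod_empty]; exact unitA_one
  | insert a s ha ih =>
    rw [Finset.prod_insert ha]
    exact (h a (Finset.mem_insert_self a s)).mul
      (ih fun i hi => h i (Finset.mem_insert_of_mem hi))

end Units

/-! ### the two algebraic sources of deep one-units -/

section Algebra

variable {L : Type*} [Field L] {A : ValuationSubring L} {σ : L ≃+* L} (B : BreakDatum A σ)
variable {E : Type*} [Field E] [Algebra L E] (O : ValuationSubring E)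

/-- **a pair of close values**: `(T - a) / (T - b) ∈ 1 + ϖ^(s+1) O` when `a - b ∈ ϖ^(s+1) A` and
`T - b` is a unit of `O` -/
theorem deep_pair (hmem : ∀ a ∈ A, algebraMap L E a ∈ O) {T : E} {a b t : L} (ht : t ∈ A)
    (hab : a - b = B.ϖ ^ (B.s + 1) * t) (hu : UnitA O (T - algebraMap L E b)) :
    Deep O (algebraMap L E (B.ϖ ^ (B.s + 1))) ((T - algebraMap L E a) / (T - algebraMap L E b)) := by
  refine ⟨-(algebraMap L E t) * (T - algebraMap L E b)⁻¹,
    mul_mem (neg_mem (hmem t ht)) hu.inv_mem, ?_⟩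
  have h0 := hu.ne_zero
  have h1 : algebraMap L E a = algebraMap L E b +
      algebraMap L E (B.ϖ ^ (B.s + 1)) * algebraMap L E t := by
    rw [← map_mul, ← map_add, ← hab]
    congr 1
    ring
  rw [h1]
  field_simp
  ring

/-- **the norm factor**: `τ N(T) / N(T) ∈ 1 + ϖ^(s+1) O` for a polynomial `N` with coefficients in
`K' ∩ A` such that `N(T)` is a unit of `O`, `τ` over `σ` fixing `T ∈ O` -/
theorem deep_norm (hmem : ∀ a ∈ A, algebraMap L E a ∈ O)
    {τ : E →+* E} (hτ : ∀ c : L, τ (algebraMap L E c) = algebraMap L E (σ c))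
    {T : E} (hτT : τ T = T) (hT : T ∈ O) {N : L[X]} (hK : ∀ k, N.coeff k ∈ B.K')
    (hA : ∀ k, N.coeff k ∈ A) (hu : UnitA O (aeval T N)) :
    Deep O (algebraMap L E (B.ϖ ^ (B.s + 1))) (τ (aeval T N) / aeval T N) := by
  choose a haA ha using fun k => B.σ_int (N.coeff k) (hK k) (hA k)
  refine ⟨(∑ k ∈ Finset.range (N.natDegree + 1), algebraMap L E (a k) * T ^ k) * (aeval T N)⁻¹,
    mul_mem (sum_mem fun k _ => mul_mem (hmem _ (haA k)) (pow_mem hT k)) hu.inv_mem, ?_⟩
  have h0 := hu.ne_zero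
  have h1 : τ (aeval T N) = aeval T N + algebraMap L E (B.ϖ ^ (B.s + 1)) *
      ∑ k ∈ Finset.range (N.natDegree + 1), algebraMap L E (a k) * T ^ k := by
    rw [aeval_eq_sum_range]
    simp only [Algebra.smul_def]
    rw [map_sum, Finset.mul_sum, ← Finset.sum_add_distrib]
    refine Finset.sum_congr rfl fun k _ => ?_
    rw [map_mul, map_pow, hτ, hτT, ha k, map_add, map_mul]
    ring
  rw [h1]
  field_simp

end Algebra

/-! ### values and orders: generalities -/

section Values

variable {L : Type*} [Field L] {FL : Type*} [Field FL] [Algebra L FL]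

/-- a function has at most one value at a place -/
theorem val_unique {P : Place L FL} {y : FL} {a b : L}
    (ha : P.adicValuation (y - algebraMap L FL a) < 1)
    (hb : P.adicValuation (y - algebraMap L FL b) < 1) : a = b := by
  by_contra hne
  have h1 : algebraMap L FL (a - b) = (y - algebraMap L FL b) - (y - algebraMap L FL a) := by
    rw [map_sub]
    ring
  have h2 : P.adicValuation (algebraMap L FL (a - b)) < 1 := by
    rw [h1]
    exact lt_of_le_of_lt (Valuation.map_sub _ _ _) (max_lt hb ha)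
  rw [adicValuation_algebraMap P (sub_ne_zero.mpr hne)] at h2
  exact lt_irrefl _ h2

/-- transport of a value by a semilinear automorphism fixing the function -/
theorem val_smul (g' : SemilinearAut L FL) {P : Place L FL} {y : FL} {a : L} (hy : g' • y = y)
    (hne : y - algebraMap L FL a ≠ 0) (ha : P.adicValuation (y - algebraMap L FL a) < 1) :
    (g' • P).adicValuation (y - algebraMap L FL (SemilinearAut.baseAut g' a)) < 1 := by
  have h1 : g' • (y - algebraMap L FL a) =
      y - algebraMap L FL (SemilinearAut.baseAut g' a) := by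
    rw [smul_sub, hy, SemilinearAut.smul_algebraMap]
  have h2 : g' • (y - algebraMap L FL a) ≠ 0 := (smul_ne_zero_iff_ne g').mpr hne
  rw [← h1, ← ord_pos_iff _ h2, SemilinearAut.ord_smul]
  exact (ord_pos_iff P hne).mpr ha

/-- the order of a product of powers -/
theorem ord_prod_pow {ι : Type*} (P : Place L FL) (s : Finset ι) (f : ι → FL) (w : ι → ℕ)
    (hf : ∀ i ∈ s, f i ≠ 0) :
    P.ord (∏ i ∈ s, f i ^ w i) = ∑ i ∈ s, (w i : ℤ) * P.ord (f i) := by
  classical
  induction s using Finset.induction_on with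
  | empty => rw [Finset.prod_empty, Finset.sum_empty, Place.ord_one]
  | insert a s ha ih =>
    have h1 : f a ^ w a ≠ 0 := pow_ne_zero _ (hf a (Finset.mem_insert_self a s))
    have h2 : ∏ i ∈ s, f i ^ w i ≠ 0 :=
      Finset.prod_ne_zero_iff.mpr fun i hi => pow_ne_zero _ (hf i (Finset.mem_insert_of_mem hi))
    rw [Finset.prod_insert ha, Finset.sum_insert ha, Place.ord_mul P h1 h2,
      Fermat.Agent.S18.CoreOrd.ord_pow, ih fun i hi => hf i (Finset.mem_insert_of_mem hi)]

/-- the order of a product -/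
theorem ord_prod {ι : Type*} (P : Place L FL) (s : Finset ι) (f : ι → FL)
    (hf : ∀ i ∈ s, f i ≠ 0) : P.ord (∏ i ∈ s, f i) = ∑ i ∈ s, P.ord (f i) := by
  have h := ord_prod_pow P s f (fun _ => 1) hf
  simp only [pow_one, Nat.cast_one, one_mul] at h
  exact h

end Values

/-! ### orbit polynomials -/

section NormPoly

variable {L : Type*} [Field L] {FL : Type*} [Field FL] [Algebra L FL]

/-- the norm element `∏ (T - val P)^(w P)` -/
noncomputable def normElt (T : FL) (val : Place L FL → L) (S : Finset (Place L FL))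
    (w : Place L FL → ℕ) : FL :=
  ∏ P ∈ S, (T - algebraMap L FL (val P)) ^ w P

/-- the orbit polynomial `∏ (X - val P)^(w P)` -/
noncomputable def normPoly (val : Place L FL → L) (S : Finset (Place L FL))
    (w : Place L FL → ℕ) : L[X] :=
  ∏ P ∈ S, (X - C (val P)) ^ w P

theorem aeval_normPoly (T : FL) (val : Place L FL → L) (S : Finset (Place L FL))
    (w : Place L FL → ℕ) : aeval T (normPoly val S w) = normElt T val S w := by
  rw [normPoly, normElt, map_prod]
  refine Finset.prod_congr rfl fun P _ => ?_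
  rw [map_pow, map_sub, aeval_X, aeval_C]

/-- integral values give integral coefficients -/
theorem normPoly_coeff_mem {A : ValuationSubring L} (val : Place L FL → L)
    (S : Finset (Place L FL)) (w : Place L FL → ℕ) (hval : ∀ P ∈ S, val P ∈ A) (k : ℕ) :
    (normPoly val S w).coeff k ∈ A := by
  have h : normPoly val S w ∈ lifts A.subtype := by
    refine prod_mem fun P hP => pow_mem ?_ _
    rw [lifts_iff_liftsRing]
    exact sub_mem ((lifts_iff_liftsRing _ _).mp (X_mem_lifts _))
      ((lifts_iff_liftsRing _ _).mp (C'_mem_lifts ⟨⟨val P, hval P hP⟩, rfl⟩))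
  obtain ⟨a, ha⟩ := (lifts_iff_coeff_lifts _).mp h k
  rw [← ha]
  exact a.2

/-- a permutation of the points compatible with an automorphism of the constants fixes the orbit
polynomial -/
theorem normPoly_map_eq (σ' : L ≃+* L) (val : Place L FL → L) (S : Finset (Place L FL))
    (w : Place L FL → ℕ) (f f' : Place L FL → Place L FL) (hf : ∀ P ∈ S, f P ∈ S)
    (hf' : ∀ P ∈ S, f' P ∈ S) (hff' : ∀ P ∈ S, f' (f P) = P) (hf'f : ∀ P ∈ S, f (f' P) = P)
    (hw : ∀ P ∈ S, w (f P) = w P) (hval : ∀ P ∈ S, val (f P) = σ' (val P)) :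
    (normPoly val S w).map (σ' : L →+* L) = normPoly val S w := by
  rw [normPoly, Polynomial.map_prod]
  refine Finset.prod_bij' (fun P _ => f P) (fun P _ => f' P) hf hf' hff' hf'f fun P hP => ?_
  rw [Polynomial.map_pow, Polynomial.map_sub, map_X, map_C, hw P hP, hval P hP]
  rfl

/-- the coefficients of the orbit polynomial are fixed -/
theorem normPoly_coeff_fixed (σ' : L ≃+* L) (val : Place L FL → L) (S : Finset (Place L FL))
    (w : Place L FL → ℕ) (f f' : Place L FL → Place L FL) (hf : ∀ P ∈ S, f P ∈ S)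
    (hf' : ∀ P ∈ S, f' P ∈ S) (hff' : ∀ P ∈ S, f' (f P) = P) (hf'f : ∀ P ∈ S, f (f' P) = P)
    (hw : ∀ P ∈ S, w (f P) = w P) (hval : ∀ P ∈ S, val (f P) = σ' (val P)) (k : ℕ) :
    σ' ((normPoly val S w).coeff k) = (normPoly val S w).coeff k := by
  have h := congrArg (fun q : L[X] => q.coeff k)
    (normPoly_map_eq σ' val S w f f' hf hf' hff' hf'f hw hval)
  simp only [coeff_map] at h
  exact h

end NormPoly

/-! ### the geometry of a good disc -/

section Disc

variable {L : Type*} [Field L] {k : Type*} [Field k] {A : ValuationSubring L} {π : A →+* k}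
variable {FL : Type*} [Field FL] [Algebra L FL] {Fk : Type*} [Field Fk] [Algebra k Fk]
variable [HasPrincipalDivisors L FL] (R : SmoothRed A π FL Fk) {T : R.O} {Q : Place k Fk}

/-- `T - δ` is again a good parameter for a non-unit constant `δ` -/
theorem good_sub (hT : IsGoodParam R T Q) {δ : L} (hδ : δ ∈ A.nonunits) :
    ∃ T' : R.O, ((T' : R.O) : FL) = (T : FL) - algebraMap L FL δ ∧ IsGoodParam R T' Q := by
  obtain ⟨hδA, hδm⟩ := ValuationSubring.mem_nonunits_iff_exists_mem_maximalIdeal.mp hδ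
  exact ⟨T - constHom R.toBranch ⟨δ, hδA⟩, rfl, hT.sub_const hδm⟩

/-- `T - δ` is a unit of `O` -/
theorem unit_sub (hT : IsGoodParam R T Q) {δ : L} (hδ : δ ∈ A.nonunits) :
    UnitA R.O ((T : FL) - algebraMap L FL δ) := by
  obtain ⟨T', hT', hg⟩ := good_sub R hT hδ
  rw [← hT']
  exact unit_of_red_ne_zero R.toBranch T'.2 hg.red_ne_zero

/-- the orders of `T - δ` on the disc -/
theorem ord_sub_eq (hT : IsGoodParam R T Q) {δ : L} (hδ : δ ∈ A.nonunits) {P0 : Place L FL}
    (hP0 : R.r P0 = some Q) (hz : P0.adicValuation ((T : FL) - algebraMap L FL δ) < 1)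
    (P' : Place L FL) (hP' : R.r P' = some Q) [Decidable (P' = P0)] :
    P'.ord ((T : FL) - algebraMap L FL δ) = if P' = P0 then 1 else 0 := by
  obtain ⟨T', hT', hg⟩ := good_sub R hT hδ
  rw [← hT'] at hz ⊢
  exact hg.ord_eq_ite hP0 hz P' hP'

/-- the value of a good parameter at a point of the disc is a non-unit -/
theorem val_non (hT : IsGoodParam R T Q) {P : Place L FL} (hP : R.r P = some Q) {c : L}
    (hc : P.adicValuation ((T : FL) - algebraMap L FL c) < 1) : c ∈ A.nonunits := by
  obtain ⟨hcA, hm⟩ := hT.value_mem P hP c hc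
  exact ValuationSubring.mem_nonunits_iff_exists_mem_maximalIdeal.mpr ⟨hcA, hm⟩

variable {σ : L ≃+* L} (B : BreakDatum A σ)

/-- **The unit of finitely many pairs of close points of the disc.** -/
theorem exists_pairs_unit (hT : IsGoodParam R T Q) {ιz : Type*} (I : Finset ιz)
    (Pz Qz : ιz → Place L FL) (az bz : ιz → L)
    (hPz : ∀ i ∈ I, R.r (Pz i) = some Q) (hQz : ∀ i ∈ I, R.r (Qz i) = some Q)
    (haz : ∀ i ∈ I, (Pz i).adicValuation ((T : FL) - algebraMap L FL (az i)) < 1)
    (hbz : ∀ i ∈ I, (Qz i).adicValuation ((T : FL) - algebraMap L FL (bz i)) < 1)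
    (hab : ∀ i ∈ I, ∃ t ∈ A, az i - bz i = B.ϖ ^ (B.s + 1) * t) :
    ∃ x ∈ R.O, ∀ P : Place L FL, R.r P = some Q → ∀ [DecidableEq (Place L FL)],
      P.ord (1 + algebraMap L FL (B.ϖ ^ (B.s + 1)) * x) =
        ∑ i ∈ I, (((if P = Pz i then 1 else 0) : ℤ) - (if P = Qz i then 1 else 0)) := by
  have hmem : ∀ a ∈ A, algebraMap L FL a ∈ R.O := fun a ha => R.algebraMap_mem ⟨a, ha⟩
  have hwO : algebraMap L FL (B.ϖ ^ (B.s + 1)) ∈ R.O := hmem _ (pow_mem B.ϖ_memA _)
  have hna : ∀ i ∈ I, az i ∈ A.nonunits := fun i hi => val_non R hT (hPz i hi) (haz i hi)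
  have hnb : ∀ i ∈ I, bz i ∈ A.nonunits := fun i hi => val_non R hT (hQz i hi) (hbz i hi)
  have hdeep : Deep R.O (algebraMap L FL (B.ϖ ^ (B.s + 1)))
      (∏ i ∈ I, ((T : FL) - algebraMap L FL (az i)) / ((T : FL) - algebraMap L FL (bz i))) := by
    refine deep_prod I _ hwO fun i hi => ?_
    obtain ⟨t, ht, htab⟩ := hab i hi
    exact deep_pair B R.O hmem ht htab (unit_sub R hT (hnb i hi))
  obtain ⟨x, hx, hxeq⟩ := hdeep
  refine ⟨x, hx, fun P hP _ => ?_⟩
  rw [← hxeq]
  have hne : ∀ i ∈ I, ((T : FL) - algebraMap L FL (az i)) /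
      ((T : FL) - algebraMap L FL (bz i)) ≠ 0 := fun i hi =>
    div_ne_zero (unit_sub R hT (hna i hi)).ne_zero (unit_sub R hT (hnb i hi)).ne_zero
  rw [ord_prod P I _ hne]
  refine Finset.sum_congr rfl fun i hi => ?_
  rw [Fermat.Agent.S18.CoreOrd.ord_div P (unit_sub R hT (hna i hi)).ne_zero
    (unit_sub R hT (hnb i hi)).ne_zero,
    ord_sub_eq R hT (hna i hi) (hPz i hi) (haz i hi) P hP,
    ord_sub_eq R hT (hnb i hi) (hQz i hi) (hbz i hi) P hP]

variable (g : SemilinearAut L FL) (hgσ : ∀ c : L, SemilinearAut.baseAut g c = σ c)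
  (Hs : Subgroup (SemilinearAut L FL))
  (hfix : ∀ c : L, (∀ g' ∈ Hs, SemilinearAut.baseAut g' c = c) → c ∈ B.K')

include hgσ hfix in
/-- **The orbit factor.**  `S` a finite `Hs`-stable set of points of the disc with an `Hs`-invariant
weight `w`, `val` a choice of `T`-values: `g N(T) / N(T)` is a deep one-unit whose divisor on the disc
is `g • w - w`. -/
theorem orbit_factor (hT : IsGoodParam R T Q) (hgT : g • (T : FL) = (T : FL))
    (hHT : ∀ g' ∈ Hs, g' • (T : FL) = (T : FL)) (hgr : ∀ P, R.r (g • P) = R.r P)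
    (hHr : ∀ g' ∈ Hs, ∀ P, R.r (g' • P) = R.r P) (val : Place L FL → L)
    (hval : ∀ P, R.r P = some Q → P.adicValuation ((T : FL) - algebraMap L FL (val P)) < 1)
    (S : Finset (Place L FL)) (hS : ∀ P ∈ S, R.r P = some Q) (w : Place L FL → ℕ)
    (hw0 : ∀ P, R.r P = some Q → P ∉ S → w P = 0)
    (hHS : ∀ g' ∈ Hs, ∀ P ∈ S, g' • P ∈ S) (hHw : ∀ g' ∈ Hs, ∀ P ∈ S, w (g' • P) = w P) :
    Deep R.O (algebraMap L FL (B.ϖ ^ (B.s + 1)))
        (g • normElt (T : FL) val S w / normElt (T : FL) val S w) ∧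
      ∀ P' : Place L FL, R.r P' = some Q →
        P'.ord (g • normElt (T : FL) val S w / normElt (T : FL) val S w) =
          (w (g⁻¹ • P') : ℤ) - w P' := by
  classical
  have hmem : ∀ a ∈ A, algebraMap L FL a ∈ R.O := fun a ha => R.algebraMap_mem ⟨a, ha⟩
  have hnon : ∀ P, R.r P = some Q → val P ∈ A.nonunits := fun P hP => val_non R hT hP (hval P hP)
  have hfac : ∀ P ∈ S, UnitA R.O ((T : FL) - algebraMap L FL (val P)) := fun P hP =>
    unit_sub R hT (hnon P (hS P hP))
  have hunit : UnitA R.O (normElt (T : FL) val S w) :=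
    unitA_prod _ _ fun P hP => unitA_pow (hfac P hP) _
  have hne : normElt (T : FL) val S w ≠ 0 := hunit.ne_zero
  have hgne : g • normElt (T : FL) val S w ≠ 0 := (smul_ne_zero_iff_ne g).mpr hne
  -- the coefficients of the orbit polynomial
  have hA : ∀ j, (normPoly val S w).coeff j ∈ A := fun j =>
    normPoly_coeff_mem val S w (fun P hP => mem_of_non (hnon P (hS P hP))) j
  have hK : ∀ j, (normPoly val S w).coeff j ∈ B.K' := by
    intro j
    refine hfix _ fun g' hg' => ?_
    have hg'inv : g'⁻¹ ∈ Hs := Hs.inv_mem hg'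
    refine normPoly_coeff_fixed (SemilinearAut.baseAut g') val S w (fun P => g' • P)
      (fun P => g'⁻¹ • P) (hHS g' hg') (hHS g'⁻¹ hg'inv) (fun P _ => inv_smul_smul g' P)
      (fun P _ => smul_inv_smul g' P) (hHw g' hg') (fun P hP => ?_) j
    have hPd : R.r (g' • P) = some Q := by rw [hHr g' hg' P]; exact hS P hP
    exact val_unique (hval (g' • P) hPd)
      (val_smul g' (hHT g' hg') (hfac P hP).ne_zero (hval P (hS P hP)))
  -- the deep one-unit
  have hτ : ∀ c : L, MulSemiringAction.toRingHom (SemilinearAut L FL) FL g (algebraMap L FL c) =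
      algebraMap L FL (σ c) := by
    intro c
    rw [MulSemiringAction.toRingHom_apply, SemilinearAut.smul_algebraMap, hgσ]
  have hdeep := deep_norm B R.O hmem hτ
    (by rw [MulSemiringAction.toRingHom_apply]; exact hgT) T.2 hK hA
    (by rw [aeval_normPoly]; exact hunit)
  rw [aeval_normPoly, MulSemiringAction.toRingHom_apply] at hdeep
  refine ⟨hdeep, fun P' hP' => ?_⟩
  -- the orders
  have hord : ∀ P'' : Place L FL, R.r P'' = some Q →
      P''.ord (normElt (T : FL) val S w) = (w P'' : ℤ) := by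
    intro P'' hP''
    rw [normElt, ord_prod_pow P'' S _ w fun P hP => (hfac P hP).ne_zero]
    have h1 : ∀ P ∈ S, (w P : ℤ) * P''.ord ((T : FL) - algebraMap L FL (val P)) =
        if P'' = P then (w P : ℤ) else 0 := by
      intro P hP
      rw [ord_sub_eq R hT (hnon P (hS P hP)) (hS P hP) (hval P (hS P hP)) P'' hP'']
      split_ifs <;> simp
    rw [Finset.sum_congr rfl h1, Finset.sum_ite_eq]
    split_ifs with hmemS
    · rfl
    · rw [hw0 P'' hP'' hmemS, Nat.cast_zero]
  have hginv : R.r (g⁻¹ • P') = some Q := by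
    have := hgr (g⁻¹ • P')
    rw [smul_inv_smul] at this
    rw [← this]
    exact hP'
  have h2 : P'.ord (g • normElt (T : FL) val S w) = (w (g⁻¹ • P') : ℤ) := by
    have := SemilinearAut.ord_smul g (g⁻¹ • P') (normElt (T : FL) val S w)
    rw [smul_inv_smul] at this
    rw [this, hord _ hginv]
  rw [Fermat.Agent.S18.CoreOrd.ord_div P' hgne hne, h2, hord P' hP']

include hgσ hfix in
/-- **The local factor on a good disc.** -/
theorem exists_factor (hdeg : ∀ P : Place L FL, P.deg = 1) (hT : IsGoodParam R T Q)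
    (hgT : g • (T : FL) = (T : FL)) (hHT : ∀ g' ∈ Hs, g' • (T : FL) = (T : FL))
    (hgr : ∀ P, R.r (g • P) = R.r P) (hHr : ∀ g' ∈ Hs, ∀ P, R.r (g' • P) = R.r P)
    (D Dz : Divisor L FL) (hHD : ∀ g' ∈ Hs, g' • D = D)
    (hz : ∃ x ∈ R.O, ∀ P : Place L FL, R.r P = some Q →
      P.ord (1 + algebraMap L FL (B.ϖ ^ (B.s + 1)) * x) = Dz P)
    {h : FL} (hh0 : h ≠ 0)
    (hdiv : ∀ P : Place L FL, R.r P = some Q → P.ord h = (g • D - D - Dz) P) :
    ∃ ρ θ : FL, IsFactor R.toBranch R.toBranch B {P | R.r P = some Q} h ρ θ 0 0 := by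
  classical
  have hmem : ∀ a ∈ A, algebraMap L FL a ∈ R.O := fun a ha => R.algebraMap_mem ⟨a, ha⟩
  have hwnon : algebraMap L FL (B.ϖ ^ (B.s + 1)) ∈ R.O.nonunits := by
    refine const_non R.toBranch ?_
    rw [A.mem_nonunits_iff, map_pow]
    exact pow_lt_one₀ zero_le B.val_ϖ_lt (Nat.succ_ne_zero _)
  -- a choice of values on the disc
  have hex : ∀ P : Place L FL, ∃ c : L, R.r P = some Q →
      P.adicValuation ((T : FL) - algebraMap L FL c) < 1 := by
    intro P
    by_cases hP : R.r P = some Q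
    · obtain ⟨δ, -, hδ⟩ := IsGoodParam.exists_value R hT P (hdeg P) hP
      exact ⟨(δ : L), fun _ => hδ⟩
    · exact ⟨0, fun h' => absurd h' hP⟩
  choose val hval using hex
  -- the two halves of `D` on the disc
  set Sp : Finset (Place L FL) := D.support.filter fun P => R.r P = some Q ∧ 0 < D P with hSp
  set Sm : Finset (Place L FL) := D.support.filter fun P => R.r P = some Q ∧ D P < 0 with hSm
  set wp : Place L FL → ℕ := fun P => (D P).toNat with hwp
  set wm : Place L FL → ℕ := fun P => (-D P).toNat with hwm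
  have hDg : ∀ g' ∈ Hs, ∀ P, D (g' • P) = D P := by
    intro g' hg' P
    have h1 := SemilinearAut.divisor_smul_apply_smul g' D P
    rw [hHD g' hg'] at h1
    exact h1
  obtain ⟨hdp, hop⟩ := orbit_factor R B g hgσ Hs hfix hT hgT hHT hgr hHr val hval Sp
    (fun P hP => (Finset.mem_filter.mp hP).2.1) wp
    (fun P hP hPS => by
      have h1 : ¬ 0 < D P := by
        intro hpos
        exact hPS (Finset.mem_filter.mpr ⟨Finsupp.mem_support_iff.mpr (ne_of_gt hpos), hP, hpos⟩)
      exact Int.toNat_eq_zero.mpr (not_lt.mp h1))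
    (fun g' hg' P hP => by
      obtain ⟨h1, h2, h3⟩ := Finset.mem_filter.mp hP
      refine Finset.mem_filter.mpr ⟨?_, ?_, ?_⟩
      · rw [Finsupp.mem_support_iff, hDg g' hg' P]
        exact Finsupp.mem_support_iff.mp h1
      · rw [hHr g' hg' P]
        exact h2
      · rw [hDg g' hg' P]
        exact h3)
    (fun g' hg' P _ => by rw [hwp]; exact congrArg Int.toNat (hDg g' hg' P))
  obtain ⟨hdm, hom⟩ := orbit_factor R B g hgσ Hs hfix hT hgT hHT hgr hHr val hval Sm
    (fun P hP => (Finset.mem_filter.mp hP).2.1) wm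
    (fun P hP hPS => by
      have h1 : ¬ D P < 0 := by
        intro hneg
        exact hPS (Finset.mem_filter.mpr ⟨Finsupp.mem_support_iff.mpr (ne_of_lt hneg), hP, hneg⟩)
      exact Int.toNat_eq_zero.mpr (by have := not_lt.mp h1; omega))
    (fun g' hg' P hP => by
      obtain ⟨h1, h2, h3⟩ := Finset.mem_filter.mp hP
      refine Finset.mem_filter.mpr ⟨?_, ?_, ?_⟩
      · rw [Finsupp.mem_support_iff, hDg g' hg' P]
        exact Finsupp.mem_support_iff.mp h1
      · rw [hHr g' hg' P]
        exact h2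
      · rw [hDg g' hg' P]
        exact h3)
    (fun g' hg' P _ => by rw [hwm]; exact congrArg (fun n : ℤ => (-n).toNat) (hDg g' hg' P))
  obtain ⟨xz, hxz, hoz⟩ := hz
  have hdz : Deep R.O (algebraMap L FL (B.ϖ ^ (B.s + 1)))
      (1 + algebraMap L FL (B.ϖ ^ (B.s + 1)) * xz) := ⟨xz, hxz, rfl⟩
  set ρp : FL := g • normElt (T : FL) val Sp wp / normElt (T : FL) val Sp wp with hρp
  set ρm : FL := g • normElt (T : FL) val Sm wm / normElt (T : FL) val Sm wm with hρm
  set ρz : FL := 1 + algebraMap L FL (B.ϖ ^ (B.s + 1)) * xz with hρz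
  have hdeep : Deep R.O (algebraMap L FL (B.ϖ ^ (B.s + 1))) (ρp / ρm / ρz) :=
    (hdp.div hwnon hdm).div hwnon hdz
  have hρp0 : ρp ≠ 0 := (hdp.unit hwnon).ne_zero
  have hρm0 : ρm ≠ 0 := (hdm.unit hwnon).ne_zero
  have hρz0 : ρz ≠ 0 := (hdz.unit hwnon).ne_zero
  obtain ⟨x, hx, hxeq⟩ := hdeep
  have hρ0 : ρp / ρm / ρz ≠ 0 := div_ne_zero (div_ne_zero hρp0 hρm0) hρz0
  refine ⟨ρp / ρm / ρz, algebraMap L FL B.ϖ * x, ?_⟩
  have hθnon : algebraMap L FL B.ϖ * x ∈ R.O.nonunits :=
    non_mul_mem (const_non R.toBranch B.ϖ_non) hx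
  have hθmem : algebraMap L FL B.ϖ * x ∈ R.O := mem_of_non hθnon
  have hred : R.toBranch.red ⟨algebraMap L FL B.ϖ * x, hθmem⟩ = algebraMap k Fk 0 := by
    rw [map_zero]
    exact (red_eq_zero_iff_non R.toBranch ⟨_, hθmem⟩).2 hθnon
  refine ⟨?_, hθmem, hθmem, hred, hred, fun P hP => ?_⟩
  · rw [hxeq, pow_succ, map_mul]
    ring
  · have hPd : R.r P = some Q := hP
    have hginv : R.r (g⁻¹ • P) = some Q := by
      have := hgr (g⁻¹ • P)
      rw [smul_inv_smul] at this
      rw [← this]
      exact hPd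
    have hordρ : P.ord (ρp / ρm / ρz) = (g • D - D - Dz) P := by
      rw [Fermat.Agent.S18.CoreOrd.ord_div P (div_ne_zero hρp0 hρm0) hρz0,
        Fermat.Agent.S18.CoreOrd.ord_div P hρp0 hρm0, hop P hPd, hom P hPd, hoz P hPd,
        Finsupp.sub_apply, Finsupp.sub_apply, SemilinearAut.divisor_smul_apply]
      simp only [hwp, hwm]
      have e1 := Int.toNat_sub_toNat_neg (D (g⁻¹ • P))
      have e2 := Int.toNat_sub_toNat_neg (D P)
      omega
    have hne : h / (ρp / ρm / ρz) ≠ 0 := div_ne_zero hh0 hρ0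
    refine (ord_nonneg_iff P hne).mp ?_
    rw [Fermat.Agent.S18.CoreOrd.ord_div P hh0 hρ0, hdiv P hPd, hordρ, sub_self]

/-! ### consequences: regularity of the reductions at the good place -/

/-- a factor on the disc with zero jump makes the reduction of every level `Y h r c`, `r ≤ s`,
regular at `Q` -/
theorem regular_Y {h ρ θ : FL}
    (hF : IsFactor R.toBranch R.toBranch B {P | R.r P = some Q} h ρ θ 0 0) (hQ : Q ∈ R.good)
    {r : ℕ} (hr : r ≤ B.s) {c : L} (hc0 : c ≠ 0) (hy : Y B h r c ∈ R.O) :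
    Q.adicValuation (R.red ⟨Y B h r c, hy⟩) ≤ 1 := by
  rcases lt_or_eq_of_le hr with hlt | rfl
  · obtain ⟨hG, hred⟩ := witness_lt_one R.toBranch hF.eq hF.mem1 hlt c hy
    have h1 := red_regular R ⟨_, hG⟩ Q hQ fun P hP => hF.reg_Y r hc0 P hP
    rw [← hred]
    exact h1
  · obtain ⟨hG, hred⟩ := witness_eq_one R.toBranch hF.eq hF.mem1 c hy
    have h1 := red_regular R ⟨_, hG⟩ Q hQ fun P hP => hF.reg_Y B.s hc0 P hP
    have h2 : R.red ⟨Y B h B.s c, hy⟩ = R.red ⟨Y B (h / ρ) B.s c, hG⟩ := by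
      have h3 : R.toBranch.red ⟨θ, hF.mem1⟩ = 0 := by rw [hF.red1, map_zero]
      rw [hred, h3, sub_zero]
    rw [h2]
    exact h1

/-- the same at level zero -/
theorem regular_div {h ρ θ : FL}
    (hF : IsFactor R.toBranch R.toBranch B {P | R.r P = some Q} h ρ θ 0 0) (hQ : Q ∈ R.good)
    {c : L} (hc0 : c ≠ 0) (hy : h / algebraMap L FL c ∈ R.O) :
    Q.adicValuation (R.red ⟨h / algebraMap L FL c, hy⟩) ≤ 1 := by
  obtain ⟨hG, hred⟩ := witness_zero_one R.toBranch hF.eq hF.mem1 c hy
  have h1 := red_regular R ⟨_, hG⟩ Q hQ fun P hP => hF.reg_div hc0 P hP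
  rw [← hred]
  exact h1

end Disc

end Fermat.Agent.S44.Core.DiscFactor
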