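/-
PROJECT P (S44), CORE leaf (VG): **the value group of an end valuation on `FK' = FK0[ϖ]`.**

Mathlib only.  `F` a field, `O` a valuation subring of `F` (one of the two Gauss rings `V₁`, `V₂`),
`p₀ ϖ ∈ F` with `v(ϖ) < 1`, `v(ϖ ^ e') = v(p₀)`, and `F0 ⊆ F` a set of functions on which the
value group is `v(p₀)^ℤ` (the `K₀`-rational functions, `S36/GaussK0.exists_zpow_mul_unit`).
Then every non-zero `x = ∑_{i < e'} f_i ϖ^i` with `f_i ∈ F0` has `v(x) = v(ϖ)^m` for some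
`m : ℤ`, i.e. `x = ϖ^m * unit`: the `e'` classes `i mod e'` of the exponents `e' n_i + i` are
distinct, so one term dominates strictly.
-/
import Mathlib.RingTheory.Valuation.ValuationSubring
import Mathlib.Algebra.Order.Group.Units
import Mathlib.FieldTheory.IntermediateField.Adjoin.Algebra
import Mathlib.Algebra.Polynomial.Div
import Mathlib.Tactic

set_option autoImplicit false

namespace Fermat.Agent.S44.Core.ValGroup

open Finset

section Val

variable {F : Type*} [Field F] {Γ : Type*} [LinearOrderedCommGroupWithZero Γ] (v : Valuation F Γ)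

/-- A finite sum whose non-zero terms have pairwise distinct valuations: either all terms vanish
or the sum has the valuation of one of its non-zero terms. -/
theorem map_sum_eq_of_pairwise_ne {ι : Type*} [DecidableEq ι] (s : Finset ι) (g : ι → F)
    (hne : ∀ i ∈ s, ∀ j ∈ s, i ≠ j → g i ≠ 0 → g j ≠ 0 → v (g i) ≠ v (g j)) :
    (∀ i ∈ s, g i = 0) ∨ ∃ i ∈ s, g i ≠ 0 ∧ v (∑ j ∈ s, g j) = v (g i) := by
  induction s using Finset.induction_on with
  | empty => left; simp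
  | insert a s ha ih =>
    have hne' : ∀ i ∈ s, ∀ j ∈ s, i ≠ j → g i ≠ 0 → g j ≠ 0 → v (g i) ≠ v (g j) :=
      fun i hi j hj => hne i (mem_insert_of_mem hi) j (mem_insert_of_mem hj)
    rw [sum_insert ha]
    rcases ih hne' with h0 | ⟨i0, hi0, hgi0, hv⟩
    · have hs : ∑ j ∈ s, g j = 0 := sum_eq_zero h0
      by_cases hga : g a = 0
      · left
        intro i hi
        rcases mem_insert.mp hi with rfl | hi
        · exact hga
        · exact h0 i hi
      · right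
        exact ⟨a, mem_insert_self a s, hga, by rw [hs, add_zero]⟩
    · by_cases hga : g a = 0
      · right
        exact ⟨i0, mem_insert_of_mem hi0, hgi0, by rw [hga, zero_add, hv]⟩
      · have hai : a ≠ i0 := fun h => ha (h ▸ hi0)
        have hvne : v (g a) ≠ v (g i0) :=
          hne a (mem_insert_self a s) i0 (mem_insert_of_mem hi0) hai hga hgi0
        right
        rcases lt_or_gt_of_ne hvne with hlt | hgt
        · refine ⟨i0, mem_insert_of_mem hi0, hgi0, ?_⟩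
          rw [← hv] at hlt ⊢
          rw [add_comm]
          exact v.map_add_eq_of_lt_left hlt
        · refine ⟨a, mem_insert_self a s, hga, ?_⟩
          rw [← hv] at hgt
          rw [add_comm]
          exact v.map_add_eq_of_lt_right hgt

/-- powers of an element `t` with `0 < t < 1` are pairwise distinct -/
theorem zpow_injective_of_lt_one {t : Γ} (ht0 : t ≠ 0) (ht1 : t < 1) :
    Function.Injective (fun n : ℤ => t ^ n) := by
  intro a b hab
  simp only at hab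
  by_contra hne
  wlog hlt : a < b generalizing a b
  · exact this hab.symm (Ne.symm hne) (lt_of_le_of_ne (not_lt.mp hlt) (Ne.symm hne))
  have hpos : 0 < b - a := by omega
  have h1 : t ^ (b - a) = 1 := by
    rw [zpow_sub₀ ht0, ← hab, div_self (zpow_ne_zero a ht0)]
  obtain ⟨n, hn⟩ : ∃ n : ℕ, b - a = (n : ℤ) + 1 := ⟨(b - a - 1).toNat, by omega⟩
  rw [hn, zpow_add_one₀ ht0, zpow_natCast] at h1
  have h2 : t ^ n * t < 1 := by
    calc t ^ n * t ≤ 1 * t := by
          gcongr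
          exact pow_le_one₀ zero_le ht1.le
      _ = t := one_mul t
      _ < 1 := ht1
  exact absurd h1 h2.ne

/-- **(VG), valuation form.** -/
theorem exists_zpow_eq_of_sum (ϖ p₀ : F) {e' : ℕ} (hϖ0 : ϖ ≠ 0)
    (hϖ1 : v ϖ < 1) (hp : v ϖ ^ e' = v p₀) (F0 : Set F)
    (hF0 : ∀ f ∈ F0, f ≠ 0 → ∃ n : ℤ, v f = v p₀ ^ n)
    (f : ℕ → F) (hf : ∀ i < e', f i ∈ F0) {x : F} (hx : x = ∑ i ∈ range e', f i * ϖ ^ i)
    (hx0 : x ≠ 0) : ∃ m : ℤ, v x = v ϖ ^ m := by
  classical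
  have ht0 : v ϖ ≠ 0 := (v.ne_zero_iff).mpr hϖ0
  -- the exponent of a non-zero term
  have hexp : ∀ i < e', f i ≠ 0 → ∃ n : ℤ, v (f i * ϖ ^ i) = v ϖ ^ ((e' : ℤ) * n + i) := by
    intro i hi hfi
    obtain ⟨n, hn⟩ := hF0 (f i) (hf i hi) hfi
    refine ⟨n, ?_⟩
    rw [map_mul, map_pow, hn, ← hp, ← zpow_natCast (v ϖ) e', ← zpow_mul, zpow_add₀ ht0,
      zpow_natCast]
  have hne : ∀ i ∈ range e', ∀ j ∈ range e', i ≠ j → f i * ϖ ^ i ≠ 0 → f j * ϖ ^ j ≠ 0 →
      v (f i * ϖ ^ i) ≠ v (f j * ϖ ^ j) := by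
    intro i hi j hj hij hgi hgj heq
    have hfi : f i ≠ 0 := left_ne_zero_of_mul hgi
    have hfj : f j ≠ 0 := left_ne_zero_of_mul hgj
    obtain ⟨n, hn⟩ := hexp i (mem_range.mp hi) hfi
    obtain ⟨n', hn'⟩ := hexp j (mem_range.mp hj) hfj
    rw [hn, hn'] at heq
    have := zpow_injective_of_lt_one ht0 hϖ1 heq
    have hi' := mem_range.mp hi
    have hj' := mem_range.mp hj
    -- `e' n + i = e' n' + j` with `0 ≤ i, j < e'` forces `i = j`
    have h1 : ((e' : ℤ) * n + i) % e' = ((e' : ℤ) * n' + j) % e' := by rw [this]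
    rw [Int.mul_add_emod_self_left, Int.mul_add_emod_self_left,
      Int.emod_eq_of_lt (by positivity) (by exact_mod_cast hi'),
      Int.emod_eq_of_lt (by positivity) (by exact_mod_cast hj')] at h1
    exact hij (by exact_mod_cast h1)
  rcases map_sum_eq_of_pairwise_ne v (range e') (fun i => f i * ϖ ^ i) hne with h0 | ⟨i, hi, hgi, hv⟩
  · exact absurd (hx.trans (sum_eq_zero h0)) hx0
  · obtain ⟨n, hn⟩ := hexp i (mem_range.mp hi) (left_ne_zero_of_mul hgi)
    exact ⟨(e' : ℤ) * n + i, by rw [hx, hv, hn]⟩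

end Val

section Subring

variable {F : Type*} [Field F] (O : ValuationSubring F)

/-- an element of valuation one is a unit of the valuation ring -/
theorem exists_unit_of_valuation_eq_one {y : F} (hy : O.valuation y = 1) :
    ∃ u : Oˣ, ((u : O) : F) = y := by
  have hmem : y ∈ O := (O.valuation_le_one_iff y).mp hy.le
  have hu : IsUnit (⟨y, hmem⟩ : O) := (O.valuation_eq_one_iff ⟨y, hmem⟩).mpr hy
  exact ⟨hu.unit, rfl⟩

/-- **(VG), unit form** (the shape of `S36/GaussK0.exists_zpow_mul_unit`): if every non-zero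
element of `F0` is `p₀ ^ n * unit` and `ϖ ^ e' = p₀ * unit`, `ϖ` a non-unit of `O`, then every
non-zero `∑_{i < e'} f_i ϖ ^ i` with `f_i ∈ F0` is `ϖ ^ m * unit`. -/
theorem exists_zpow_mul_unit_of_sum (ϖ p₀ : F) {e' : ℕ} (hϖ0 : ϖ ≠ 0)
    (hϖ : ϖ ∈ O.nonunits) (hp : ∃ u : Oˣ, ϖ ^ e' = p₀ * ((u : O) : F)) (F0 : Set F)
    (hF0 : ∀ f ∈ F0, f ≠ 0 → ∃ (n : ℤ) (u : Oˣ), f = p₀ ^ n * ((u : O) : F))
    (f : ℕ → F) (hf : ∀ i < e', f i ∈ F0) {x : F} (hx : x = ∑ i ∈ range e', f i * ϖ ^ i)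
    (hx0 : x ≠ 0) : ∃ (m : ℤ) (u : Oˣ), x = ϖ ^ m * ((u : O) : F) := by
  have hunit : ∀ u : Oˣ, O.valuation ((u : O) : F) = 1 := fun u =>
    (O.valuation_eq_one_iff (u : O)).mp u.isUnit
  have hϖ1 : O.valuation ϖ < 1 := (O.mem_nonunits_iff).mp hϖ
  have hp' : O.valuation ϖ ^ e' = O.valuation p₀ := by
    obtain ⟨u, hu⟩ := hp
    rw [← map_pow, hu, map_mul, hunit, mul_one]
  have hF0' : ∀ f ∈ F0, f ≠ 0 → ∃ n : ℤ, O.valuation f = O.valuation p₀ ^ n := by
    intro f hf hf0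
    obtain ⟨n, u, rfl⟩ := hF0 f hf hf0
    exact ⟨n, by rw [map_mul, map_zpow₀, hunit, mul_one]⟩
  obtain ⟨m, hm⟩ := exists_zpow_eq_of_sum O.valuation ϖ p₀ hϖ0 hϖ1 hp' F0 hF0' f hf hx hx0
  have hy : O.valuation (x * (ϖ ^ m)⁻¹) = 1 := by
    rw [map_mul, map_inv₀, map_zpow₀, hm, mul_inv_cancel₀]
    exact zpow_ne_zero m ((O.valuation.ne_zero_iff).mpr hϖ0)
  obtain ⟨u, hu⟩ := exists_unit_of_valuation_eq_one O hy
  refine ⟨m, u, ?_⟩
  rw [hu, mul_comm, inv_mul_cancel_right₀ (zpow_ne_zero m hϖ0)]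

end Subring

section Basis

open Polynomial

variable {F : Type*} [Field F]

/-- **the power basis of `F0(ϖ)`**: if `ϖ` is a root of a monic polynomial `q` over the subfield
`F0`, every element of `F0(ϖ)` is `∑_{i < deg q} f_i ϖ^i` with `f_i ∈ F0`. -/
theorem exists_sum_of_mem_adjoin (F0 : Subfield F) (ϖ : F) (q : Polynomial F0) (hq : q.Monic)
    (hroot : aeval ϖ q = 0) {x : F} (hx : x ∈ IntermediateField.adjoin F0 {ϖ}) :
    ∃ f : ℕ → F, (∀ i, f i ∈ F0) ∧ x = ∑ i ∈ range q.natDegree, f i * ϖ ^ i := by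
  have halg : IsAlgebraic F0 ϖ := ⟨q, hq.ne_zero, hroot⟩
  have hx' : x ∈ (IntermediateField.adjoin F0 {ϖ}).toSubalgebra := hx
  rw [IntermediateField.adjoin_simple_toSubalgebra_of_isAlgebraic halg,
    Algebra.adjoin_singleton_eq_range_aeval] at hx'
  obtain ⟨P, rfl⟩ := hx'
  have hq1 : q ≠ 1 := by
    rintro rfl
    rw [map_one] at hroot
    exact one_ne_zero hroot
  have hmod : aeval ϖ P = aeval ϖ (P %ₘ q) := by
    conv_lhs => rw [← Polynomial.modByMonic_add_div P q]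
    rw [map_add, map_mul, hroot, zero_mul, add_zero]
  have hlt : (P %ₘ q).natDegree < q.natDegree :=
    Polynomial.natDegree_modByMonic_lt P hq hq1
  refine ⟨fun i => (((P %ₘ q).coeff i : F0) : F), fun i => ((P %ₘ q).coeff i).2, ?_⟩
  show (aeval ϖ) P = _
  rw [hmod, aeval_eq_sum_range' hlt]
  apply Finset.sum_congr rfl
  intro i _
  rw [Algebra.smul_def]
  rfl

/-- **(VG) for `FK' = F0(ϖ)`**, assembled: `ϖ` a root of a monic `q ∈ F0[X]` of degree `e'`,
`ϖ` a non-unit of `O`, `ϖ ^ e' = p₀ * unit`, and every non-zero element of `F0` of the form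
`p₀ ^ n * unit`.  Then every non-zero element of `F0(ϖ)` is `ϖ ^ m * unit`. -/
theorem exists_zpow_mul_unit_of_mem_adjoin (O : ValuationSubring F) (F0 : Subfield F)
    (ϖ p₀ : F) (q : Polynomial F0) (hq : q.Monic) (hroot : aeval ϖ q = 0) (hϖ0 : ϖ ≠ 0)
    (hϖ : ϖ ∈ O.nonunits) (hp : ∃ u : Oˣ, ϖ ^ q.natDegree = p₀ * ((u : O) : F))
    (hF0 : ∀ f ∈ F0, f ≠ 0 → ∃ (n : ℤ) (u : Oˣ), f = p₀ ^ n * ((u : O) : F))
    {x : F} (hx : x ∈ IntermediateField.adjoin F0 {ϖ}) (hx0 : x ≠ 0) :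
    ∃ (m : ℤ) (u : Oˣ), x = ϖ ^ m * ((u : O) : F) := by
  obtain ⟨f, hf, hsum⟩ := exists_sum_of_mem_adjoin F0 ϖ q hq hroot hx
  exact exists_zpow_mul_unit_of_sum O ϖ p₀ hϖ0 hϖ hp (F0 : Set F) hF0 f (fun i _ => hf i)
    hsum hx0

end Basis

end Fermat.Agent.S44.Core.ValGroup
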