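/-
PROJECT P (S44), CORE leaf (VG-norm): **the value group on the functions fixed by a subgroup of
finite index, by the norm trick** (helper18).

Mathlib + `Core/ValGroup`.  `F` a field, `V` a valuation subring, `G` a group acting on `F` by
ring automorphisms preserving `V`, `Hs ≤ G` a subgroup covered by at most `e'` cosets
(`T : Finset G`, `G = T · Hs`).  `ϖ, p₀ ∈ F` with `v ϖ < 1`, `v ϖ ^ e' = v p₀`, `ϖ` fixed by `Hs`,
and every non-zero `G`-fixed element has its value in `v(p₀)^ℤ`.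

Then every non-zero `Hs`-fixed `f` has `v f = v ϖ ^ m` (`exists_zpow_eq_of_fixed`).

Proof.  `S :=` the `G`-orbit of the pair `(ϖ, f)`, `card S ≤ e'`.  The orbit polynomial
`q = ∏_{S} (X - ϖ')` is monic of degree `card S`, has `G`-fixed coefficients and kills `ϖ`; the
terms `q_i ϖ^i`, `i < e'`, have pairwise distinct values, so `card S ≥ e'`.  The norm
`N = ∏_S f'` is `G`-fixed, `v (g • f) = v f` (finite orbit + `g` preserves `V`), hence
`(v f) ^ e' = v N = v p₀ ^ m = (v ϖ ^ m) ^ e'`.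
-/
import Mathlib.RingTheory.Valuation.ValuationSubring
import Mathlib.Algebra.Polynomial.GroupRingAction
import Mathlib.Tactic
import Fermat.Agent.S44.Core.ValGroup

set_option autoImplicit false

namespace Fermat.Agent.S44.Core.ValNorm

open Finset Polynomial Fermat.Agent.S44.Core.ValGroup

/-! ### a sum of terms with distinct residues of the exponents does not vanish -/

section Val

variable {F : Type*} [Field F] {Γ : Type*} [LinearOrderedCommGroupWithZero Γ] (v : Valuation F Γ)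

/-- the non-vanishing half of `ValGroup.exists_zpow_eq_of_sum` -/
theorem sum_ne_zero (ϖ p₀ : F) {e' : ℕ} (hϖ0 : ϖ ≠ 0)
    (hϖ1 : v ϖ < 1) (hp : v ϖ ^ e' = v p₀) (F0 : Set F)
    (hF0 : ∀ f ∈ F0, f ≠ 0 → ∃ n : ℤ, v f = v p₀ ^ n)
    (f : ℕ → F) (hf : ∀ i < e', f i ∈ F0) (hex : ∃ i < e', f i ≠ 0) :
    ∑ i ∈ range e', f i * ϖ ^ i ≠ 0 := by
  classical
  have ht0 : v ϖ ≠ 0 := (v.ne_zero_iff).mpr hϖ0
  have hexp : ∀ i < e', f i ≠ 0 → ∃ n : ℤ, v (f i * ϖ ^ i) = v ϖ ^ ((e' : ℤ) * n + i) := by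
    intro i hi hfi
    obtain ⟨n, hn⟩ := hF0 (f i) (hf i hi) hfi
    refine ⟨n, ?_⟩
    rw [map_mul, map_pow, hn, ← hp, ← zpow_natCast (v ϖ) e', ← zpow_mul, zpow_add₀ ht0,
      zpow_natCast]
  have hne : ∀ i ∈ range e', ∀ j ∈ range e', i ≠ j → f i * ϖ ^ i ≠ 0 → f j * ϖ ^ j ≠ 0 →
      v (f i * ϖ ^ i) ≠ v (f j * ϖ ^ j) := by
    intro i hi j hj hij hgi hgj heq
    have hfi : f i ≠ 0 := left_ne_zero_of_mul hgi
    have hfj : f j ≠ 0 := left_ne_zero_of_mul hgj
    obtain ⟨n, hn⟩ := hexp i (mem_range.mp hi) hfi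
    obtain ⟨n', hn'⟩ := hexp j (mem_range.mp hj) hfj
    rw [hn, hn'] at heq
    have := zpow_injective_of_lt_one ht0 hϖ1 heq
    have hi' := mem_range.mp hi
    have hj' := mem_range.mp hj
    have h1 : ((e' : ℤ) * n + i) % e' = ((e' : ℤ) * n' + j) % e' := by rw [this]
    rw [Int.mul_add_emod_self_left, Int.mul_add_emod_self_left,
      Int.emod_eq_of_lt (by positivity) (by exact_mod_cast hi'),
      Int.emod_eq_of_lt (by positivity) (by exact_mod_cast hj')] at h1
    exact hij (by exact_mod_cast h1)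
  rcases map_sum_eq_of_pairwise_ne v (range e') (fun i => f i * ϖ ^ i) hne with h0 | ⟨i, _, hgi, hv⟩
  · obtain ⟨i, hi, hfi⟩ := hex
    exact absurd (h0 i (mem_range.mpr hi)) (mul_ne_zero hfi (pow_ne_zero i hϖ0))
  · intro hsum
    rw [hsum, map_zero] at hv
    exact hgi ((v.zero_iff).mp hv.symm)

end Val

/-! ### automorphisms preserving a valuation ring -/

section Aut

variable {F : Type*} [Field F] (V : ValuationSubring F) {G : Type*} [Group G]
  [MulSemiringAction G F]

theorem lt_one_iff_inv_notMem {x : F} (hx : x ≠ 0) : V.valuation x < 1 ↔ x⁻¹ ∉ V := by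
  have hpos : 0 < V.valuation x := zero_lt_iff.mpr ((V.valuation.ne_zero_iff).mpr hx)
  rw [← V.valuation_le_one_iff, map_inv₀, not_le, one_lt_inv₀ hpos]

variable {V}

/-- an automorphism preserving `V` preserves its maximal ideal -/
theorem valuation_smul_lt_one_iff (hV : ∀ (g : G) (x : F), g • x ∈ V ↔ x ∈ V) (g : G) (x : F) :
    V.valuation (g • x) < 1 ↔ V.valuation x < 1 := by
  rcases eq_or_ne x 0 with rfl | hx
  · rw [smul_zero]
  · have hgx : g • x ≠ 0 := fun h => hx ((smul_eq_zero_iff_eq g).mp h)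
    rw [lt_one_iff_inv_notMem V hx, lt_one_iff_inv_notMem V hgx, ← smul_inv'', hV]

/-- telescoping: `g^n • w / w = ∏_{i<n} g^i • (g • w / w)` -/
theorem pow_smul_div_eq_prod (g : G) {w : F} (hw : w ≠ 0) (n : ℕ) :
    g ^ n • w / w = ∏ i ∈ range n, g ^ i • (g • w / w) := by
  induction n with
  | zero => simp [hw]
  | succ n ih =>
    rw [prod_range_succ, ← ih, pow_succ, mul_smul, smul_div₀']
    have h1 : g ^ n • w ≠ 0 := fun h => hw ((smul_eq_zero_iff_eq (g ^ n)).mp h)
    field_simp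

/-- a product of at least one element of the maximal ideal lies in the maximal ideal -/
theorem valuation_prod_lt_one (hV : ∀ (g : G) (x : F), g • x ∈ V ↔ x ∈ V) (g : G) {b : F}
    (hb : V.valuation b < 1) {n : ℕ} (hn : 0 < n) :
    V.valuation (∏ i ∈ range n, g ^ i • b) < 1 := by
  rw [map_prod]
  have hall : ∀ i ∈ range n, V.valuation (g ^ i • b) < 1 := fun i _ =>
    (valuation_smul_lt_one_iff hV (g ^ i) b).mpr hb
  obtain ⟨m, rfl⟩ : ∃ m, n = m + 1 := ⟨n - 1, by omega⟩
  rw [prod_range_succ]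
  have h1 : ∏ i ∈ range m, V.valuation (g ^ i • b) ≤ 1 :=
    prod_le_one' fun i hi => (hall i (mem_range.mpr (by have := mem_range.mp hi; omega))).le
  calc (∏ i ∈ range m, V.valuation (g ^ i • b)) * V.valuation (g ^ m • b)
      ≤ 1 * V.valuation (g ^ m • b) := by gcongr
    _ = V.valuation (g ^ m • b) := one_mul _
    _ < 1 := hall m (mem_range.mpr (by omega))

/-- **the valuation is invariant** under an automorphism `g` preserving `V`, on the elements with a
finite `g`-orbit -/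
theorem valuation_smul_eq (hV : ∀ (g : G) (x : F), g • x ∈ V ↔ x ∈ V) (g : G) {w : F}
    (hw : w ≠ 0) {n : ℕ} (hn : 0 < n) (hgn : g ^ n • w = w) :
    V.valuation (g • w) = V.valuation w := by
  have hgw : g • w ≠ 0 := fun h => hw ((smul_eq_zero_iff_eq g).mp h)
  have hone : ∏ i ∈ range n, g ^ i • (g • w / w) = 1 := by
    rw [← pow_smul_div_eq_prod g hw n, hgn, div_self hw]
  have hone' : ∏ i ∈ range n, g ^ i • (g • w / w)⁻¹ = 1 := by
    have : ∀ i ∈ range n, g ^ i • (g • w / w)⁻¹ = (g ^ i • (g • w / w))⁻¹ := fun i _ =>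
      smul_inv'' _ _
    rw [prod_congr rfl this, prod_inv_distrib, hone, inv_one]
  have ha : V.valuation (g • w / w) = 1 := by
    rcases lt_trichotomy (V.valuation (g • w / w)) 1 with h | h | h
    · have := valuation_prod_lt_one hV g h hn
      rw [hone, map_one] at this
      exact absurd this (lt_irrefl _)
    · exact h
    · have h' : V.valuation (g • w / w)⁻¹ < 1 := by
        rw [map_inv₀]
        exact inv_lt_one_of_one_lt₀ h
      have := valuation_prod_lt_one hV g h' hn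
      rw [hone', map_one] at this
      exact absurd this (lt_irrefl _)
  rw [map_div₀, div_eq_one_iff_eq ((V.valuation.ne_zero_iff).mpr hw)] at ha
  exact ha

end Aut

/-! ### the orbit of a pair and the norm trick -/

section Orbit

variable {F : Type*} [Field F] {V : ValuationSubring F} {G : Type*} [Group G]
  [MulSemiringAction G F]

/-- **the orbit of the pair `(ϖ, f)`** under `G`, when `ϖ` and `f` are fixed by a subgroup `Hs`
covered by the finite set `T` of cosets: a finite `G`-stable set of at most `card T` pairs. -/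
theorem exists_orbit (Hs : Subgroup G) (T : Finset G) (hcov : ∀ g : G, ∃ t ∈ T, t⁻¹ * g ∈ Hs)
    (ϖ f : F) (hϖH : ∀ h ∈ Hs, h • ϖ = ϖ) (hf : ∀ h ∈ Hs, h • f = f) :
    ∃ S : Finset (F × F), S.card ≤ T.card ∧ (ϖ, f) ∈ S ∧
      (∀ s ∈ S, ∃ g : G, s = (g • ϖ, g • f)) ∧
      ∀ g : G, ∀ s ∈ S, (g • s.1, g • s.2) ∈ S := by
  classical
  have key : ∀ g : G, (g • ϖ, g • f) ∈ T.image (fun t => (t • ϖ, t • f)) := by
    intro g
    obtain ⟨t, ht, hth⟩ := hcov g
    refine mem_image.mpr ⟨t, ht, ?_⟩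
    have hg : g = t * (t⁻¹ * g) := by group
    have h1 : g • ϖ = t • ϖ := by
      conv_lhs => rw [hg, mul_smul, hϖH _ hth]
    have h2 : g • f = t • f := by
      conv_lhs => rw [hg, mul_smul, hf _ hth]
    rw [h1, h2]
  refine ⟨T.image (fun t => (t • ϖ, t • f)), card_image_le, ?_, ?_, ?_⟩
  · have := key 1
    rwa [one_smul, one_smul] at this
  · intro s hs
    obtain ⟨t, _, rfl⟩ := mem_image.mp hs
    exact ⟨t, rfl⟩
  · intro g s hs
    obtain ⟨t, _, rfl⟩ := mem_image.mp hs
    have := key (g * t)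
    rwa [mul_smul, mul_smul] at this

/-- a product over a `g`-stable finite set of pairs is unchanged by `g` -/
theorem prod_pair_smul_eq {M : Type*} [CommMonoid M] {S : Finset (F × F)} (g : G)
    (hstab : ∀ s ∈ S, (g • s.1, g • s.2) ∈ S) (Φ : F × F → M) :
    ∏ s ∈ S, Φ (g • s.1, g • s.2) = ∏ s ∈ S, Φ s := by
  classical
  have hinj : Function.Injective (fun s : F × F => (g • s.1, g • s.2)) := by
    intro a b hab
    have h1 : g • a.1 = g • b.1 := congrArg Prod.fst hab
    have h2 : g • a.2 = g • b.2 := congrArg Prod.snd hab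
    exact Prod.ext (smul_left_cancel g h1) (smul_left_cancel g h2)
  have himg : S.image (fun s : F × F => (g • s.1, g • s.2)) = S :=
    eq_of_subset_of_card_le (image_subset_iff.mpr hstab)
      (by rw [card_image_of_injective _ hinj])
  calc ∏ s ∈ S, Φ (g • s.1, g • s.2)
      = ∏ x ∈ S.image (fun s : F × F => (g • s.1, g • s.2)), Φ x :=
        (prod_image fun a _ b _ hab => hinj hab).symm
    _ = ∏ s ∈ S, Φ s := by rw [himg]

/-- every element of `G` has a positive power fixing `f`, when the orbit of `(ϖ, f)` is finite -/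
theorem exists_pow_smul_eq {S : Finset (F × F)} {ϖ f : F} (hmem : (ϖ, f) ∈ S)
    (hstab : ∀ g : G, ∀ s ∈ S, (g • s.1, g • s.2) ∈ S) (g : G) :
    ∃ n : ℕ, 0 < n ∧ g ^ n • f = f := by
  let φ : ℕ → S := fun i => ⟨(g ^ i • ϖ, g ^ i • f), hstab (g ^ i) (ϖ, f) hmem⟩
  obtain ⟨i, j, hij, h⟩ := Finite.exists_ne_map_eq_of_infinite φ
  have h2 : g ^ i • f = g ^ j • f := congrArg (fun s : S => s.1.2) h
  rcases lt_or_gt_of_ne hij with hlt | hlt
  · refine ⟨j - i, by omega, ?_⟩
    have hj : j = i + (j - i) := by omega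
    rw [hj, pow_add, mul_smul] at h2
    exact (smul_left_cancel (g ^ i) h2).symm
  · refine ⟨i - j, by omega, ?_⟩
    have hi : i = j + (i - j) := by omega
    rw [hi, pow_add, mul_smul] at h2
    exact smul_left_cancel (g ^ j) h2

/-- **(VG) on the fixed field of a subgroup of finite index.** -/
theorem exists_zpow_eq_of_fixed (hV : ∀ (g : G) (x : F), g • x ∈ V ↔ x ∈ V) (Hs : Subgroup G)
    (T : Finset G) {e' : ℕ} (hT : T.card ≤ e') (hcov : ∀ g : G, ∃ t ∈ T, t⁻¹ * g ∈ Hs)
    (ϖ p₀ : F) (hϖ0 : ϖ ≠ 0) (hϖ1 : V.valuation ϖ < 1)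
    (hp : V.valuation ϖ ^ e' = V.valuation p₀) (hϖH : ∀ h ∈ Hs, h • ϖ = ϖ)
    (hfix : ∀ x : F, (∀ g : G, g • x = x) → x ≠ 0 →
      ∃ n : ℤ, V.valuation x = V.valuation p₀ ^ n)
    {f : F} (hf : ∀ h ∈ Hs, h • f = f) (hf0 : f ≠ 0) :
    ∃ m : ℤ, V.valuation f = V.valuation ϖ ^ m := by
  classical
  obtain ⟨S, hScard, hmem, hform, hstab⟩ := exists_orbit Hs T hcov ϖ f hϖH hf
  -- the orbit polynomial of `ϖ`
  have hmon : ∀ s ∈ S, (X - C s.1 : F[X]).Monic := fun s _ => monic_X_sub_C s.1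
  have hqm : (∏ s ∈ S, (X - C s.1 : F[X])).Monic := monic_prod_of_monic _ _ hmon
  have hqdeg : (∏ s ∈ S, (X - C s.1 : F[X])).natDegree = S.card := by
    rw [natDegree_prod_of_monic _ _ hmon, sum_congr rfl fun s _ => natDegree_X_sub_C s.1]
    simp
  have hqroot : (∏ s ∈ S, (X - C s.1 : F[X])).eval ϖ = 0 := by
    rw [eval_prod]
    exact prod_eq_zero hmem (by simp)
  have hqfix : ∀ (g : G) (i : ℕ), g • (∏ s ∈ S, (X - C s.1 : F[X])).coeff i =
      (∏ s ∈ S, (X - C s.1 : F[X])).coeff i := by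
    intro g i
    have hmap : (∏ s ∈ S, (X - C s.1 : F[X])).map (MulSemiringAction.toRingHom G F g) =
        ∏ s ∈ S, (X - C s.1 : F[X]) := by
      rw [Polynomial.map_prod]
      have h1 : ∀ s ∈ S, (X - C s.1 : F[X]).map (MulSemiringAction.toRingHom G F g) =
          (fun s : F × F => (X - C s.1 : F[X])) (g • s.1, g • s.2) := by
        intro s _
        rw [Polynomial.map_sub, map_X, map_C]
        rfl
      rw [prod_congr rfl h1]
      exact prod_pair_smul_eq g (hstab g) fun s : F × F => (X - C s.1 : F[X])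
    have h2 := congrArg (fun r : F[X] => r.coeff i) hmap
    simp only [coeff_map] at h2
    exact h2
  -- lower bound for the orbit
  have hlow : e' ≤ S.card := by
    by_contra hlt
    rw [not_le] at hlt
    have hne := sum_ne_zero V.valuation ϖ p₀ hϖ0 hϖ1 hp {x | ∀ g : G, g • x = x}
      (fun x hx hx0 => hfix x hx hx0) (fun i => (∏ s ∈ S, (X - C s.1 : F[X])).coeff i)
      (fun i _ g => hqfix g i)
      ⟨S.card, hlt, by
        have := hqm.coeff_natDegree
        rw [hqdeg] at this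
        rw [this]
        exact one_ne_zero⟩
    apply hne
    rw [← eval_eq_sum_range' (by rw [hqdeg]; exact hlt)]
    exact hqroot
  have hcardS : S.card = e' := le_antisymm (hScard.trans hT) hlow
  -- the norm of `f`
  have hN0 : ∏ s ∈ S, s.2 ≠ 0 := by
    rw [prod_ne_zero_iff]
    intro s hs
    obtain ⟨g, rfl⟩ := hform s hs
    exact fun h => hf0 ((smul_eq_zero_iff_eq g).mp h)
  have hNfix : ∀ g : G, g • ∏ s ∈ S, s.2 = ∏ s ∈ S, s.2 := by
    intro g
    rw [Finset.smul_prod']
    exact prod_pair_smul_eq g (hstab g) fun s : F × F => s.2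
  obtain ⟨m, hm⟩ := hfix _ hNfix hN0
  have hval : ∀ s ∈ S, V.valuation s.2 = V.valuation f := by
    intro s hs
    obtain ⟨g, rfl⟩ := hform s hs
    obtain ⟨n, hn, hgn⟩ := exists_pow_smul_eq hmem hstab g
    exact valuation_smul_eq hV g hf0 hn hgn
  have hNval : V.valuation (∏ s ∈ S, s.2) = V.valuation f ^ e' := by
    rw [map_prod, prod_congr rfl hval, prod_const, hcardS]
  have he'0 : e' ≠ 0 := by
    rw [← hcardS]
    exact card_ne_zero_of_mem hmem
  refine ⟨m, ?_⟩
  have hpow : V.valuation f ^ e' = (V.valuation ϖ ^ m) ^ e' := by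
    rw [← hNval, hm, ← hp, ← zpow_natCast (V.valuation ϖ) e', ← zpow_mul, mul_comm, zpow_mul,
      zpow_natCast]
  exact (pow_left_inj₀ zero_le zero_le he'0).mp hpow

end Orbit

/-! ### covering a subgroup of finite index by cosets, in two steps -/

section Cover

variable {G : Type*} [Group G]

/-- if `G / Hs` injects into `Y × Z` in two steps (a homomorphism `φ : G → Y` and a map `ψ` on its
kernel whose fibres are cosets of `Hs`), then `G` is covered by at most `card Y * card Z` cosets of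
`Hs` -/
theorem exists_cover {Y Z : Type*} [Group Y] [Finite Y] [Finite Z] (Hs : Subgroup G) (φ : G →* Y)
    (ψ : G → Z) (hψ : ∀ a b : G, φ a = 1 → φ b = 1 → ψ a = ψ b → a⁻¹ * b ∈ Hs) :
    ∃ T : Finset G, T.card ≤ Nat.card Y * Nat.card Z ∧ ∀ g : G, ∃ t ∈ T, t⁻¹ * g ∈ Hs := by
  classical
  have := Fintype.ofFinite Y
  have := Fintype.ofFinite Z
  -- a section of `φ` on its range
  let r : Y → G := fun y => if h : ∃ g, φ g = y then h.choose else 1
  have hr : ∀ g : G, φ (r (φ g)) = φ g := by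
    intro g
    have h : ∃ g', φ g' = φ g := ⟨g, rfl⟩
    simp only [r, dif_pos h]
    exact h.choose_spec
  let Φ : G → Y × Z := fun g => (φ g, ψ ((r (φ g))⁻¹ * g))
  have hΦ : ∀ g g' : G, Φ g = Φ g' → g⁻¹ * g' ∈ Hs := by
    intro g g' h
    have h1 : φ g = φ g' := congrArg Prod.fst h
    have h2 : ψ ((r (φ g))⁻¹ * g) = ψ ((r (φ g'))⁻¹ * g') := congrArg Prod.snd h
    rw [← h1] at h2
    have ha : φ ((r (φ g))⁻¹ * g) = 1 := by rw [map_mul, map_inv, hr, inv_mul_cancel]
    have hb : φ ((r (φ g))⁻¹ * g') = 1 := by rw [map_mul, map_inv, hr, h1, inv_mul_cancel]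
    have := hψ _ _ ha hb h2
    have he : ((r (φ g))⁻¹ * g)⁻¹ * ((r (φ g))⁻¹ * g') = g⁻¹ * g' := by group
    rwa [he] at this
  -- a section of `Φ`
  let c : Y × Z → G := fun z => if h : ∃ g, Φ g = z then h.choose else 1
  have hc : ∀ g : G, Φ (c (Φ g)) = Φ g := by
    intro g
    have h : ∃ g', Φ g' = Φ g := ⟨g, rfl⟩
    simp only [c, dif_pos h]
    exact h.choose_spec
  refine ⟨(Finset.univ : Finset (Y × Z)).image c, ?_, ?_⟩
  · calc ((Finset.univ : Finset (Y × Z)).image c).card ≤ (Finset.univ : Finset (Y × Z)).card :=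
        card_image_le
      _ = Nat.card Y * Nat.card Z := by
        rw [card_univ, Fintype.card_prod, Nat.card_eq_fintype_card, Nat.card_eq_fintype_card]
  · intro g
    exact ⟨c (Φ g), mem_image.mpr ⟨Φ g, mem_univ _, rfl⟩, hΦ _ _ (hc g)⟩

end Cover

end Fermat.Agent.S44.Core.ValNorm
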