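import Mathlib
import Fermat.Prelude.Def_AlgebraicCurve_BaseChangeGalois
import Fermat.Agent.S18.NonSpecial
import Fermat.Agent.S18.A.RiemannBasic
import Fermat.Agent.S44.Core.TubeCount

/-!
# PROJECT P (S44), CORE, Core/Moving (helper10): THE MOVING LEMMA (F-f) AND THE STABLE REPRESENTATIVE

Abstract frame: `FL / L` a function field all of whose places have degree one, with principal
divisors and Riemann's theorem (`S18/NonSpecial.RiemannHyp`), `S` a set of semilinear
automorphisms of `FL / L` (at the instance: the image of a subgroup of the inertia group).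

* `exists_stable_rep` : **the stable representative, without Hilbert 90.**  A class `x` of
  `Pic⁰` fixed by every `τ ∈ S` is the class of a divisor `D` with `τ • D = D` for all `τ ∈ S`,
  as soon as ONE place `P0` is fixed by `S`.  (`E := D₁ + n₀ P0 + div f` with `n₀` minimal such
  that `ℓ (D₁ + n₀ P0) ≥ 1` is the unique effective divisor of its class.)
* `Separates T U` : the function `T` is a coordinate on the set `U` of places: for `P ∈ U` there
  is a constant `c` such that `T - c` has a simple zero at `P` and no other zero on `U`.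
* `exists_move` : **the moving lemma.**  `D₀` an `S`-stable divisor, `U` an `S`-stable set of
  places, `T` an `S`-fixed function separating `U`: there is a principal `S`-stable divisor `E`
  such that `D₀ + E` has no point on `U`.
* `separates_of_localCount` : **coordinates from the local count** (`Core/TubeCount.LocalCount`):
  a function of `O₁ ∩ O₂` without pole on finitely many pairwise disjoint tubes, whose two
  reductions take pairwise distinct simple values at the branch places of the tubes, separates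
  the union of the tubes.
* `exists_stable_rep_off` : the three statements together.
-/

set_option autoImplicit false
set_option linter.unusedSectionVars false
set_option linter.unusedVariables false

namespace Fermat.Agent.S44.Core.Moving

open AlgebraicCurve Fermat.Agent.S24.Ord Fermat.Agent.S34.NodalDefs Fermat.Agent.S34.NodalDisc
open Fermat.Agent.S44.Core.TubeCount

variable {L : Type*} [Field L] {FL : Type*} [Field FL] [Algebra L FL]

/-! ### semilinear automorphisms and orders -/

section Smul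

/-- `ord_{g⁻¹ w} f = ord_w (g f)` -/
theorem ord_inv_smul (g : SemilinearAut L FL) (w : Place L FL) (f : FL) :
    (g⁻¹ • w).ord f = w.ord (g • f) := by
  have h := SemilinearAut.ord_smul g (g⁻¹ • w) f
  rw [smul_inv_smul] at h
  exact h.symm

/-- the divisor of `g f` is `g` applied to the divisor of `f` -/
theorem smul_div_eq {g : SemilinearAut L FL} {f : FL} {E : Divisor L FL}
    (hE : ∀ v : Place L FL, E v = v.ord f) (w : Place L FL) : (g • E) w = w.ord (g • f) := by
  rw [SemilinearAut.divisor_smul_apply, hE, ord_inv_smul]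

/-- the divisor of a fixed function is stable -/
theorem smul_div_of_fixed {g : SemilinearAut L FL} {f : FL} {E : Divisor L FL}
    (hE : ∀ v : Place L FL, E v = v.ord f) (hg : g • f = f) : g • E = E := by
  ext w
  rw [smul_div_eq hE, hg, hE]

/-- a stable divisor takes the same value at `P` and `g P` -/
theorem apply_smul_of_stable {g : SemilinearAut L FL} {D : Divisor L FL} (hD : g • D = D)
    (P : Place L FL) : D (g • P) = D P := by
  have h := SemilinearAut.divisor_smul_apply_smul g D P
  rwa [hD] at h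

theorem smul_ne_zero {g : SemilinearAut L FL} {f : FL} (hf : f ≠ 0) : g • f ≠ 0 := by
  intro h
  apply hf
  have h1 : g⁻¹ • (g • f) = g⁻¹ • (0 : FL) := congrArg _ h
  rwa [inv_smul_smul, smul_zero] at h1

end Smul

/-! ### the stable representative -/

section StableRep

open Fermat.Agent.S18.NonSpecial

variable [HasPrincipalDivisors L FL]

/-- the three `ell` of main are the same number -/
theorem ell_eq (D : Divisor L FL) :
    Fermat.Agent.S18.NonSpecial.ell D = Fermat.Agent.S18.A.Riemann.ell D := rfl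

/-- **The stable representative.** -/
theorem exists_stable_rep {g : ℕ} (HL : RiemannHyp L FL g) (S : Set (SemilinearAut L FL))
    (P0 : Place L FL) (hP0 : ∀ τ ∈ S, τ • P0 = P0) (x : Pic0 L FL) (hx : ∀ τ ∈ S, τ • x = x) :
    ∃ D : Divisor.degZero (K := L) (F := FL), Pic0.mk D = x ∧
      ∀ τ ∈ S, τ • (D : Divisor L FL) = (D : Divisor L FL) := by
  classical
  obtain ⟨D₁, rfl⟩ := Pic0.mk_surjective x
  have hd1 : Divisor.degree (D₁ : Divisor L FL) = 0 := Divisor.mem_degZero.mp D₁.2
  have hdegP0 : Divisor.degree (Finsupp.single P0 (1 : ℤ)) = 1 := by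
    rw [Divisor.degree_single, HL.deg_one P0]
    norm_num
  -- the divisors `D₁ + n P0`
  set Dn : ℕ → Divisor L FL := fun n => (D₁ : Divisor L FL) + n • Finsupp.single P0 (1 : ℤ)
    with hDn
  have hdegn : ∀ n, Divisor.degree (Dn n) = n := by
    intro n
    rw [hDn]
    simp only
    rw [map_add, map_nsmul, hdegP0, hd1, zero_add, nsmul_eq_mul, mul_one]
  have hex : ∃ n, 1 ≤ ell (Dn n) := by
    refine ⟨g, ?_⟩
    have h := riemann_ineq HL (Dn g)
    rw [hdegn g] at h
    omega
  obtain ⟨n₀, hn₀1, hmin⟩ : ∃ n₀, 1 ≤ ell (Dn n₀) ∧ ∀ m < n₀, ¬ 1 ≤ ell (Dn m) :=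
    ⟨Nat.find hex, Nat.find_spec hex, fun m hm => Nat.find_min hex hm⟩
  -- `ℓ = 1`
  have hstep : Dn n₀ = (Dn n₀ - Finsupp.single P0 (1 : ℤ)) + Finsupp.single P0 (1 : ℤ) := by
    rw [sub_add_cancel]
  have hlow : ell (Dn n₀ - Finsupp.single P0 (1 : ℤ)) = 0 := by
    rcases Nat.eq_zero_or_pos n₀ with h0 | hpos
    · rw [ell_eq]
      apply Fermat.Agent.S18.A.Riemann.ell_eq_zero_of_degree_neg
      rw [map_sub, hdegn, hdegP0, h0]
      norm_num
    · have hlt : n₀ - 1 < n₀ := Nat.sub_lt hpos one_pos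
      have hmin' := hmin _ hlt
      have heq : Dn n₀ - Finsupp.single P0 (1 : ℤ) = Dn (n₀ - 1) := by
        rw [hDn]
        simp only
        have h1 : n₀ = (n₀ - 1) + 1 := by omega
        conv_lhs => rw [h1, succ_nsmul]
        abel
      rw [heq]
      omega
  have hell1 : ell (Dn n₀) = 1 := by
    have h := ell_add_single_le HL.finite (Dn n₀ - Finsupp.single P0 (1 : ℤ)) (HL.deg_one P0)
    rw [← hstep, hlow] at h
    omega
  -- a non-zero section and the effective divisor
  have hfin := HL.finite (Dn n₀)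
  have hpos : 0 < Module.finrank L (riemannRochSpace (Dn n₀)) := by
    have : ell (Dn n₀) = Module.finrank L (riemannRochSpace (Dn n₀)) := rfl
    omega
  have hnt : Nontrivial (riemannRochSpace (Dn n₀)) :=
    Module.nontrivial_of_finrank_pos (R := L) hpos
  obtain ⟨f, hf⟩ := exists_ne (0 : riemannRochSpace (Dn n₀))
  have hf0 : (f : FL) ≠ 0 := fun h0 => hf (Subtype.ext h0)
  obtain ⟨Pf, hPf, hPfdeg⟩ := HasPrincipalDivisors.exists_divisor (K := L) (f : FL) hf0
  set E : Divisor L FL := Dn n₀ + Pf with hE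
  have hE0 : 0 ≤ E := by
    rw [Finsupp.le_def]
    intro v
    have h1 := ((mem_riemannRochSpace_iff.mp f.2) v).resolve_left hf0
    rw [hE, Finsupp.add_apply, hPf v]
    simp only [Finsupp.coe_zero, Pi.zero_apply]
    omega
  have hellE : ell E = 1 := by
    rw [ell_eq, hE, Fermat.Agent.S18.A.Riemann.ell_add_div hf0 hPf, ← ell_eq, hell1]
  -- `E` is stable
  have hEst : ∀ τ ∈ S, τ • E = E := by
    intro τ hτ
    apply eq_of_effective_of_isPrincipal_sub hE0 hellE
    · -- effective
      rw [Finsupp.le_def]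
      intro v
      rw [SemilinearAut.divisor_smul_apply]
      exact Finsupp.le_def.mp hE0 _
    · -- `τ E - E` is principal
      have hxτ := hx τ hτ
      rw [SemilinearAut.pic0_smul_mk] at hxτ
      have hmem : (SemilinearAut.degZeroSMulHom τ D₁ - D₁ : Divisor.degZero (K := L) (F := FL)) ∈
          (Divisor.principal (K := L) (F := FL)).addSubgroupOf
            (Divisor.degZero (K := L) (F := FL)) := by
        have h2 : (QuotientAddGroup.mk (SemilinearAut.degZeroSMulHom τ D₁) : Pic0 L FL) =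
            QuotientAddGroup.mk D₁ := hxτ
        rw [QuotientAddGroup.eq] at h2
        have h3 : SemilinearAut.degZeroSMulHom τ D₁ - D₁ =
            -(-(SemilinearAut.degZeroSMulHom τ D₁) + D₁) := by abel
        rw [h3]
        exact neg_mem h2
      rw [AddSubgroup.mem_addSubgroupOf] at hmem
      have hmem' : τ • (D₁ : Divisor L FL) - (D₁ : Divisor L FL) ∈
          Divisor.principal (K := L) (F := FL) := by
        have h4 : ((SemilinearAut.degZeroSMulHom τ D₁ - D₁ : Divisor.degZero (K := L) (F := FL)) :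
            Divisor L FL) = τ • (D₁ : Divisor L FL) - (D₁ : Divisor L FL) := by
          rw [AddSubgroup.coe_sub, SemilinearAut.coe_degZeroSMulHom]
        rw [← h4]
        exact hmem
      have hPfmem : Pf ∈ Divisor.principal (K := L) (F := FL) := ⟨(f : FL), hf0, hPf⟩
      have hτPf : τ • Pf ∈ Divisor.principal (K := L) (F := FL) :=
        SemilinearAut.smul_mem_principal τ hPfmem
      have hτP0 : τ • (n₀ • Finsupp.single P0 (1 : ℤ) : Divisor L FL) =
          n₀ • Finsupp.single P0 (1 : ℤ) := by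
        rw [smul_comm, SemilinearAut.smul_single, hP0 τ hτ]
      have hdiff : τ • E - E =
          (τ • (D₁ : Divisor L FL) - (D₁ : Divisor L FL)) + (τ • Pf - Pf) := by
        rw [hE, hDn]
        simp only
        rw [smul_add, smul_add, hτP0]
        abel
      rw [hdiff]
      exact Divisor.mem_principal.mp (add_mem hmem' (sub_mem hτPf hPfmem))
  -- the representative
  set D : Divisor L FL := E - n₀ • Finsupp.single P0 (1 : ℤ) with hD
  have hDeq : D = (D₁ : Divisor L FL) + Pf := by
    rw [hD, hE, hDn]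
    simp only
    abel
  have hD0 : D ∈ Divisor.degZero (K := L) (F := FL) := by
    rw [Divisor.mem_degZero, hDeq, map_add, hd1, hPfdeg, add_zero]
  refine ⟨⟨D, hD0⟩, ?_, ?_⟩
  · show (QuotientAddGroup.mk (⟨D, hD0⟩ : Divisor.degZero (K := L) (F := FL)) : Pic0 L FL) =
      QuotientAddGroup.mk D₁
    rw [QuotientAddGroup.eq, AddSubgroup.mem_addSubgroupOf]
    have h5 : ((-(⟨D, hD0⟩ : Divisor.degZero (K := L) (F := FL)) + D₁ :
        Divisor.degZero (K := L) (F := FL)) : Divisor L FL) = -Pf := by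
      rw [AddSubgroup.coe_add, AddSubgroup.coe_neg]
      show -D + (D₁ : Divisor L FL) = -Pf
      rw [hDeq]
      abel
    rw [h5]
    exact neg_mem ⟨(f : FL), hf0, hPf⟩
  · intro τ hτ
    show τ • D = D
    rw [hD, smul_sub, hEst τ hτ, smul_comm, SemilinearAut.smul_single, hP0 τ hτ]

end StableRep

/-! ### the moving lemma -/

section Move

/-- `T` is a coordinate on the set `U` of places -/
def Separates (T : FL) (U : Set (Place L FL)) : Prop :=
  ∀ P ∈ U, ∃ c : L, P.ord (T - algebraMap L FL c) = 1 ∧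
    ∀ P' ∈ U, P' ≠ P → P'.ord (T - algebraMap L FL c) = 0

/-- two constants at which `T` has a zero at `P` coincide -/
theorem value_unique (P : Place L FL) {T : FL} {c c' : L}
    (h : 0 < P.ord (T - algebraMap L FL c)) (h' : 0 < P.ord (T - algebraMap L FL c')) :
    c = c' := by
  by_contra hne
  have h0 : T - algebraMap L FL c ≠ 0 := by
    intro h0
    rw [h0, Place.ord_zero] at h
    exact lt_irrefl _ h
  have h0' : T - algebraMap L FL c' ≠ 0 := by
    intro h0
    rw [h0, Place.ord_zero] at h'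
    exact lt_irrefl _ h'
  have h1 := (ord_pos_iff P h0).mp h
  have h1' := (ord_pos_iff P h0').mp h'
  have hsub : algebraMap L FL (c' - c) = (T - algebraMap L FL c) - (T - algebraMap L FL c') := by
    rw [map_sub]
    ring
  have hlt : P.adicValuation (algebraMap L FL (c' - c)) < 1 := by
    rw [hsub]
    exact (Valuation.map_sub _ _ _).trans_lt (max_lt h1 h1')
  have hcc : c' - c ≠ 0 := fun h => hne (sub_eq_zero.mp h).symm
  rw [adicValuation_algebraMap P hcc] at hlt
  exact lt_irrefl _ hlt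

/-- the order of a product of integral powers -/
theorem ord_prod_zpow (v : Place L FL) {J : Type*} (s : Finset J) (f : J → FL) (n : J → ℤ)
    (hf : ∀ i ∈ s, f i ≠ 0) :
    v.ord (∏ i ∈ s, f i ^ n i) = ∑ i ∈ s, n i * v.ord (f i) := by
  classical
  induction s using Finset.induction_on with
  | empty => simp
  | insert i s hi ih =>
    have hfi : f i ≠ 0 := hf i (Finset.mem_insert_self i s)
    have hrest : ∀ j ∈ s, f j ≠ 0 := fun j hj => hf j (Finset.mem_insert_of_mem hj)
    rw [Finset.prod_insert hi, Finset.sum_insert hi,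
      v.ord_mul (zpow_ne_zero _ hfi) (Finset.prod_ne_zero_iff.mpr fun j hj =>
        zpow_ne_zero _ (hrest j hj)), ih hrest, v.ord_zpow]

variable [HasPrincipalDivisors L FL]

/-- **The moving lemma.** -/
theorem exists_move (S : Set (SemilinearAut L FL)) (D₀ : Divisor L FL)
    (hD₀ : ∀ τ ∈ S, τ • D₀ = D₀) (U : Set (Place L FL))
    (hU : ∀ τ ∈ S, ∀ P ∈ U, τ • P ∈ U) {T : FL} (hT : ∀ τ ∈ S, τ • T = T)
    (hsep : Separates T U) :
    ∃ E : Divisor L FL, E ∈ Divisor.principal (K := L) (F := FL) ∧ Divisor.degree E = 0 ∧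
      (∀ τ ∈ S, τ • E = E) ∧ ∀ P ∈ U, (D₀ + E) P = 0 := by
  classical
  -- the values of `T` on `U`
  choose! val hval1 hval0 using hsep
  have hvalpos : ∀ P ∈ U, 0 < P.ord (T - algebraMap L FL (val P)) := fun P hP => by
    rw [hval1 P hP]
    exact one_pos
  have hTne : ∀ P ∈ U, T - algebraMap L FL (val P) ≠ 0 := by
    intro P hP h0
    have := hval1 P hP
    rw [h0, Place.ord_zero] at this
    exact zero_ne_one this
  -- equivariance of the values
  have hvalτ : ∀ τ ∈ S, ∀ P ∈ U, val (τ • P) = SemilinearAut.baseAut τ (val P) := by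
    intro τ hτ P hP
    have h1 : (τ • P).ord (T - algebraMap L FL (SemilinearAut.baseAut τ (val P))) = 1 := by
      have h2 : τ • (T - algebraMap L FL (val P)) =
          T - algebraMap L FL (SemilinearAut.baseAut τ (val P)) := by
        rw [smul_sub, hT τ hτ, SemilinearAut.smul_algebraMap]
      rw [← h2, SemilinearAut.ord_smul, hval1 P hP]
    exact value_unique (τ • P) (hvalpos _ (hU τ hτ P hP)) (by rw [h1]; exact one_pos)
  -- the finite set of points to be moved
  set I : Finset (Place L FL) := D₀.support.filter (· ∈ U) with hI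
  have hImem : ∀ P, P ∈ I ↔ D₀ P ≠ 0 ∧ P ∈ U := fun P => by
    rw [hI, Finset.mem_filter, Finsupp.mem_support_iff]
  set h : Place L FL → FL := fun P => (T - algebraMap L FL (val P)) ^ (-D₀ P) with hh
  set f : FL := ∏ P ∈ I, h P with hf
  have hfac : ∀ P ∈ I, T - algebraMap L FL (val P) ≠ 0 := fun P hP =>
    hTne P ((hImem P).mp hP).2
  have hf0 : f ≠ 0 := Finset.prod_ne_zero_iff.mpr fun P hP => zpow_ne_zero _ (hfac P hP)
  -- the orders of `f` on `U`
  have hord : ∀ P' ∈ U, P'.ord f = -D₀ P' := by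
    intro P' hP'
    rw [hf, ord_prod_zpow P' I (fun P => T - algebraMap L FL (val P)) (fun P => -D₀ P) hfac]
    have h1 : ∀ P ∈ I, -D₀ P * P'.ord (T - algebraMap L FL (val P)) =
        if P = P' then -D₀ P else 0 := by
      intro P hP
      have hPU := ((hImem P).mp hP).2
      split_ifs with he
      · subst he
        rw [hval1 P hPU, mul_one]
      · rw [hval0 P hPU P' hP' (fun h' => he h'.symm), mul_zero]
    rw [Finset.sum_congr rfl h1, Finset.sum_ite_eq']
    split_ifs with hmem
    · rfl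
    · have : D₀ P' = 0 := by
        by_contra hne
        exact hmem ((hImem P').mpr ⟨hne, hP'⟩)
      rw [this, neg_zero]
  -- `f` is fixed
  have hfix : ∀ τ ∈ S, τ • f = f := by
    intro τ hτ
    have hmaps : ∀ P ∈ I, τ • P ∈ I := by
      intro P hP
      obtain ⟨h1, h2⟩ := (hImem P).mp hP
      refine (hImem _).mpr ⟨?_, hU τ hτ P h2⟩
      rw [apply_smul_of_stable (hD₀ τ hτ)]
      exact h1
    have himg : I.image (fun P => τ • P) = I := by
      apply Finset.eq_of_subset_of_card_le
      · intro Q hQ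
        obtain ⟨P, hP, rfl⟩ := Finset.mem_image.mp hQ
        exact hmaps P hP
      · rw [Finset.card_image_of_injective _ (MulAction.injective τ)]
    have hstep : ∀ P ∈ I, τ • h P = h (τ • P) := by
      intro P hP
      have hPU := ((hImem P).mp hP).2
      rw [hh]
      simp only
      rw [SemilinearAut.smul_def, map_zpow₀, ← SemilinearAut.smul_def, smul_sub, hT τ hτ,
        SemilinearAut.smul_algebraMap, hvalτ τ hτ P hPU, apply_smul_of_stable (hD₀ τ hτ)]
    calc τ • f = ∏ P ∈ I, τ • h P := by rw [hf, Finset.smul_prod']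
      _ = ∏ P ∈ I, h (τ • P) := Finset.prod_congr rfl hstep
      _ = ∏ Q ∈ I.image (fun P => τ • P), h Q :=
          (Finset.prod_image fun P _ P' _ hPP' => MulAction.injective τ hPP').symm
      _ = f := by rw [himg]
  obtain ⟨E, hE, hEdeg⟩ := HasPrincipalDivisors.exists_divisor (K := L) f hf0
  refine ⟨E, ⟨f, hf0, hE⟩, hEdeg, fun τ hτ => smul_div_of_fixed hE (hfix τ hτ), fun P hP => ?_⟩
  rw [Finsupp.add_apply, hE P, hord P hP, add_neg_cancel]

end Move

/-! ### coordinates from the local count -/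

section LocalCount

variable {k : Type*} [Field k] {A : ValuationSubring L} {π : A →+* k}
variable {F1 : Type*} [Field F1] [Algebra k F1] {F2 : Type*} [Field F2] [Algebra k F2]
variable {R1 : Branch A π FL F1} {R2 : Branch A π FL F2}

/-- a function with a simple zero of `φ - γ` at `Q` has order `0` for any other constant -/
theorem ord_sub_const_eq_zero {K F : Type*} [Field K] [Field F] [Algebra K F] (Q : Place K F)
    {φ : F} {γ δ : K} (h : Q.ord (φ - algebraMap K F γ) = 1) (hne : γ ≠ δ) :
    φ - algebraMap K F δ ≠ 0 ∧ Q.ord (φ - algebraMap K F δ) = 0 := by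
  have h0 : φ - algebraMap K F γ ≠ 0 := by
    intro h0
    rw [h0, Place.ord_zero] at h
    exact zero_ne_one h
  have hlt : Q.adicValuation (φ - algebraMap K F γ) < 1 :=
    (ord_pos_iff Q h0).mp (by rw [h]; exact one_pos)
  have hc : γ - δ ≠ 0 := sub_ne_zero.mpr hne
  have hcv : Q.adicValuation (algebraMap K F (γ - δ)) = 1 := adicValuation_algebraMap Q hc
  have hsum : φ - algebraMap K F δ = (φ - algebraMap K F γ) + algebraMap K F (γ - δ) := by
    rw [map_sub]
    ring
  have hv : Q.adicValuation (φ - algebraMap K F δ) = 1 := by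
    rw [hsum, Valuation.map_add_eq_of_lt_right _ (by rw [hcv]; exact hlt), hcv]
  exact ⟨fun h1 => by rw [h1, map_zero] at hv; exact zero_ne_one hv,
    ord_eq_zero_of_adicValuation_eq_one Q hv⟩

variable [HasPrincipalDivisors L FL]

/-- the zeros of a function without pole on a tube, counted by `LocalCount`, when the count is
one: exactly one zero, and it is simple -/
theorem unique_zero_of_count_one {tube : Set (Place L FL)} {Q1 : Place k F1} {Q2 : Place k F2}
    (hLC : LocalCount R1 R2 tube Q1 Q2) {y : FL} {φ1 : F1} {φ2 : F2} (h1 : Red R1 y φ1)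
    (h2 : Red R2 y φ2) (hφ1 : φ1 ≠ 0) (hφ2 : φ2 ≠ 0) (hcount : Q1.ord φ1 + Q2.ord φ2 = 1)
    (hreg : ∀ P ∈ tube, 0 ≤ P.ord y) {P : Place L FL} (hP : P ∈ tube) (hpos : 0 < P.ord y) :
    P.ord y = 1 ∧ ∀ P' ∈ tube, P' ≠ P → P'.ord y = 0 := by
  classical
  have hy0 : y ≠ 0 := h1.ne_zero hφ1
  obtain ⟨D, hD, -⟩ := HasPrincipalDivisors.exists_divisor (K := L) y hy0
  set T : Finset (Place L FL) := D.support.filter (· ∈ tube) with hT
  have hTmem : ∀ P', P' ∈ T ↔ P'.ord y ≠ 0 ∧ P' ∈ tube := fun P' => by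
    rw [hT, Finset.mem_filter, Finsupp.mem_support_iff, hD]
  have hsum := hLC y φ1 φ2 h1 h2 hφ1 hφ2 T (fun P' hP' => ((hTmem P').mp hP').2)
    (fun P' hP' hne => (hTmem P').mpr ⟨hne, hP'⟩)
  rw [hcount] at hsum
  have hPT : P ∈ T := (hTmem P).mpr ⟨hpos.ne', hP⟩
  have hnn : ∀ P' ∈ T, 0 ≤ P'.ord y := fun P' hP' => hreg P' ((hTmem P').mp hP').2
  have hsplit : ∑ P' ∈ T, P'.ord y = P.ord y + ∑ P' ∈ T.erase P, P'.ord y :=
    (Finset.add_sum_erase T (fun P' => P'.ord y) hPT).symm
  have hrest : 0 ≤ ∑ P' ∈ T.erase P, P'.ord y :=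
    Finset.sum_nonneg fun P' hP' => hnn P' (Finset.mem_of_mem_erase hP')
  have hP1 : P.ord y = 1 := by omega
  have hrest0 : ∑ P' ∈ T.erase P, P'.ord y = 0 := by omega
  refine ⟨hP1, fun P' hP' hne => ?_⟩
  by_contra h0
  have hP'T : P' ∈ T.erase P := Finset.mem_erase.mpr ⟨hne, (hTmem P').mpr ⟨h0, hP'⟩⟩
  have hz := (Finset.sum_eq_zero_iff_of_nonneg
    (fun Q hQ => hnn Q (Finset.mem_of_mem_erase hQ))).mp hrest0 P' hP'T
  exact h0 hz

/-- **Coordinates from the local count.**  `T ∈ O₁ ∩ O₂` with reductions `φ1`, `φ2`, without pole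
on the pairwise disjoint tubes `tube j` (branch places `Q1 j`, `Q2 j`), such that `φ1 - γ1 j` has
a simple zero at `Q1 j`, `φ2 - γ2 j` a simple zero at `Q2 j`, all the constants `γ1 j`, `γ2 j`
pairwise distinct: `T` separates the union of the tubes. -/
theorem separates_of_localCount (hdeg : ∀ P : Place L FL, P.deg = 1) {J : Type*}
    (tube : J → Set (Place L FL)) (Q1 : J → Place k F1) (Q2 : J → Place k F2)
    (hLC : ∀ j, LocalCount R1 R2 (tube j) (Q1 j) (Q2 j))
    (hdisj : ∀ j j' P, P ∈ tube j → P ∈ tube j' → j = j')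
    {T : FL} {φ1 : F1} {φ2 : F2} (hT1 : Red R1 T φ1) (hT2 : Red R2 T φ2)
    (hreg : ∀ j, ∀ P ∈ tube j, P.adicValuation T ≤ 1)
    (γ1 γ2 : J → k)
    (hs1 : ∀ j, (Q1 j).ord (φ1 - algebraMap k F1 (γ1 j)) = 1)
    (hs2 : ∀ j, (Q2 j).ord (φ2 - algebraMap k F2 (γ2 j)) = 1)
    (h12 : ∀ j j', γ1 j ≠ γ2 j') (h11 : ∀ j j', j ≠ j' → γ1 j ≠ γ1 j')
    (h22 : ∀ j j', j ≠ j' → γ2 j ≠ γ2 j') :
    Separates T {P | ∃ j, P ∈ tube j} := by
  classical
  rintro P ⟨j, hPj⟩
  -- the value of `T` at `P`
  obtain ⟨c, hc⟩ := Fermat.Agent.S18.A.Riemann.exists_sub_const_lt_one P (hdeg P) (hreg j P hPj)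
  -- regularity of `T - c'` on the tubes
  have hregc : ∀ (c' : L) (j' : J), ∀ P' ∈ tube j', P'.adicValuation (T - algebraMap L FL c') ≤ 1 :=
    fun c' j' P' hP' => adicValuation_sub_const_le_one P' (hreg j' P' hP') c'
  -- `c ∈ A`
  have hcA : c ∈ A := by
    by_contra hcA
    have hc0 : c ≠ 0 := fun h => hcA (h ▸ A.zero_mem)
    obtain ⟨hinv, hnu⟩ := inv_mem_maximalIdeal_of_not_mem (A := A) hcA
    set y : FL := 1 - algebraMap L FL c⁻¹ * T with hy
    have hr1 : Red R1 y (1 - 0 * φ1) :=
      red_one.sub ((red_const_zero (R := R1) (a := ⟨c⁻¹, hinv⟩) hnu).mul hT1)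
    have hr2 : Red R2 y (1 - 0 * φ2) :=
      red_one.sub ((red_const_zero (R := R2) (a := ⟨c⁻¹, hinv⟩) hnu).mul hT2)
    rw [zero_mul, sub_zero] at hr1 hr2
    have hyeq : y = -(algebraMap L FL c⁻¹) * (T - algebraMap L FL c) := by
      have h1 : algebraMap L FL c⁻¹ * algebraMap L FL c = 1 := by
        rw [← map_mul, inv_mul_cancel₀ hc0, map_one]
      rw [hy]
      linear_combination -h1
    have hyval : ∀ P' : Place L FL, P'.adicValuation y =
        P'.adicValuation (T - algebraMap L FL c) := by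
      intro P'
      rw [hyeq, map_mul, Valuation.map_neg, adicValuation_algebraMap P' (inv_ne_zero hc0),
        one_mul]
    have hy0 : y ≠ 0 := hr1.ne_zero one_ne_zero
    have hz := (hLC j).ord_eq_zero hr1 hr2 one_ne_zero one_ne_zero (by rw [Place.ord_one])
      (by rw [Place.ord_one])
      (fun P' hP' => (ord_nonneg_iff P' hy0).mpr (by rw [hyval]; exact hregc c j P' hP')) P hPj
    have hpos : 0 < P.ord y := (ord_pos_iff P hy0).mpr (by rw [hyval]; exact hc)
    omega
  -- the function `T - c` and its reductions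
  set cA : A := ⟨c, hcA⟩ with hcAdef
  set y : FL := T - algebraMap L FL c with hy
  have hr1 : Red R1 y (φ1 - algebraMap k F1 (π cA)) := hT1.sub (red_const cA)
  have hr2 : Red R2 y (φ2 - algebraMap k F2 (π cA)) := hT2.sub (red_const cA)
  have hyreg : ∀ j', ∀ P' ∈ tube j', P'.adicValuation y ≤ 1 := fun j' P' hP' => hregc c j' P' hP'
  -- the residue of `c` is `γ1 j` or `γ2 j`
  have hcase : π cA = γ1 j ∨ π cA = γ2 j := by
    by_contra hcon
    rw [not_or] at hcon
    obtain ⟨hn1, hn2⟩ := hcon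
    obtain ⟨ha0, ha⟩ := ord_sub_const_eq_zero (Q1 j) (hs1 j) (Ne.symm hn1)
    obtain ⟨hb0, hb⟩ := ord_sub_const_eq_zero (Q2 j) (hs2 j) (Ne.symm hn2)
    have hy0 : y ≠ 0 := hr1.ne_zero ha0
    have hz := (hLC j).ord_eq_zero hr1 hr2 ha0 hb0 ha hb
      (fun P' hP' => (ord_nonneg_iff P' hy0).mpr (hyreg j P' hP')) P hPj
    have hpos : 0 < P.ord y := (ord_pos_iff P hy0).mpr hc
    omega
  -- in both cases: the first reduction is non-zero, the count is one on `tube j`, zero elsewhere
  have hmain : φ1 - algebraMap k F1 (π cA) ≠ 0 ∧ φ2 - algebraMap k F2 (π cA) ≠ 0 ∧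
      (Q1 j).ord (φ1 - algebraMap k F1 (π cA)) + (Q2 j).ord (φ2 - algebraMap k F2 (π cA)) = 1 ∧
      ∀ j', j' ≠ j → (Q1 j').ord (φ1 - algebraMap k F1 (π cA)) = 0 ∧
        (Q2 j').ord (φ2 - algebraMap k F2 (π cA)) = 0 := by
    rcases hcase with hγ | hγ
    · rw [hγ]
      have hne1 : φ1 - algebraMap k F1 (γ1 j) ≠ 0 := by
        intro h0
        have := hs1 j
        rw [h0, Place.ord_zero] at this
        exact zero_ne_one this
      obtain ⟨hb0, hb⟩ := ord_sub_const_eq_zero (Q2 j) (hs2 j) (Ne.symm (h12 j j))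
      refine ⟨hne1, hb0, by rw [hs1 j, hb, add_zero], fun j' hj' => ⟨?_, ?_⟩⟩
      · exact (ord_sub_const_eq_zero (Q1 j') (hs1 j') (h11 j' j hj')).2
      · exact (ord_sub_const_eq_zero (Q2 j') (hs2 j') (Ne.symm (h12 j j'))).2
    · rw [hγ]
      have hne2 : φ2 - algebraMap k F2 (γ2 j) ≠ 0 := by
        intro h0
        have := hs2 j
        rw [h0, Place.ord_zero] at this
        exact zero_ne_one this
      obtain ⟨ha0, ha⟩ := ord_sub_const_eq_zero (Q1 j) (hs1 j) (h12 j j)
      refine ⟨ha0, hne2, by rw [hs2 j, ha, zero_add], fun j' hj' => ⟨?_, ?_⟩⟩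
      · exact (ord_sub_const_eq_zero (Q1 j') (hs1 j') (h12 j' j)).2
      · exact (ord_sub_const_eq_zero (Q2 j') (hs2 j') (h22 j' j hj')).2
  obtain ⟨hφ1, hφ2, hcount, hother⟩ := hmain
  have hy0 : y ≠ 0 := hr1.ne_zero hφ1
  have hpos : 0 < P.ord y := (ord_pos_iff P hy0).mpr hc
  obtain ⟨hP1, hPother⟩ := unique_zero_of_count_one (hLC j) hr1 hr2 hφ1 hφ2 hcount
    (fun P' hP' => (ord_nonneg_iff P' hy0).mpr (hyreg j P' hP')) hPj hpos
  refine ⟨c, hP1, ?_⟩
  rintro P' ⟨j', hP'j'⟩ hne
  by_cases hjj : j' = j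
  · subst hjj
    exact hPother P' hP'j' hne
  · obtain ⟨ho1, ho2⟩ := hother j' hjj
    exact (hLC j').ord_eq_zero hr1 hr2 hφ1 hφ2 ho1 ho2
      (fun P'' hP'' => (ord_nonneg_iff P'' hy0).mpr (hyreg j' P'' hP'')) P' hP'j'

end LocalCount

/-! ### the three statements together -/

section Main

open Fermat.Agent.S18.NonSpecial

variable [HasPrincipalDivisors L FL]

/-- **A stable representative off a separated set.** -/
theorem exists_stable_rep_off {g : ℕ} (HL : RiemannHyp L FL g) (S : Set (SemilinearAut L FL))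
    (P0 : Place L FL) (hP0 : ∀ τ ∈ S, τ • P0 = P0) (U : Set (Place L FL))
    (hU : ∀ τ ∈ S, ∀ P ∈ U, τ • P ∈ U) {T : FL} (hT : ∀ τ ∈ S, τ • T = T)
    (hsep : Separates T U) (x : Pic0 L FL) (hx : ∀ τ ∈ S, τ • x = x) :
    ∃ D : Divisor.degZero (K := L) (F := FL), Pic0.mk D = x ∧
      (∀ τ ∈ S, τ • (D : Divisor L FL) = (D : Divisor L FL)) ∧
      ∀ P ∈ U, (D : Divisor L FL) P = 0 := by
  obtain ⟨D₀, hD₀x, hD₀S⟩ := exists_stable_rep HL S P0 hP0 x hx
  obtain ⟨E, hEp, hEdeg, hES, hEU⟩ := exists_move S (D₀ : Divisor L FL) hD₀S U hU hT hsep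
  have hD0 : (D₀ : Divisor L FL) + E ∈ Divisor.degZero (K := L) (F := FL) := by
    rw [Divisor.mem_degZero, map_add, hEdeg, add_zero]
    exact Divisor.mem_degZero.mp D₀.2
  refine ⟨⟨(D₀ : Divisor L FL) + E, hD0⟩, ?_, ?_, hEU⟩
  · rw [← hD₀x]
    show (QuotientAddGroup.mk (⟨(D₀ : Divisor L FL) + E, hD0⟩ :
      Divisor.degZero (K := L) (F := FL)) : Pic0 L FL) = QuotientAddGroup.mk D₀
    rw [QuotientAddGroup.eq, AddSubgroup.mem_addSubgroupOf]
    have h5 : ((-(⟨(D₀ : Divisor L FL) + E, hD0⟩ : Divisor.degZero (K := L) (F := FL)) + D₀ :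
        Divisor.degZero (K := L) (F := FL)) : Divisor L FL) = -E := by
      rw [AddSubgroup.coe_add, AddSubgroup.coe_neg]
      show -((D₀ : Divisor L FL) + E) + (D₀ : Divisor L FL) = -E
      abel
    rw [h5]
    exact neg_mem hEp
  · intro τ hτ
    show τ • ((D₀ : Divisor L FL) + E) = (D₀ : Divisor L FL) + E
    rw [smul_add, hD₀S τ hτ, hES τ hτ]

end Main

end Fermat.Agent.S44.Core.Moving
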