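import Mathlib
import Fermat.Agent.S18.A.RiemannBasic
import Fermat.Agent.S33.Nodal.Rigid3

/-!
# PROJECT P (S44), CORE, brick [MV-2] of the moving lemma: LIFTING OF GLUED PAIRS (the squeeze)

Frame `N : GNodalDatum A π FL F1 F2 ι` (Route G, `S34/NodalDefs`), `(R1b, R2b)` a rigid pair
(`S33/Nodal/Rigid3`), `E` a divisor of `FL` supported in good discs whose two push-forwards
dominate the rigid pair.  Then

  `deg E + 1 - g ≤ ℓ_L(E) ≤ dim Glued (push₁ E) (push₂ E) ≤ 1 + deg E - g`     (`g = g1 + m2`)

(Riemann upstairs, semicontinuity `S33/Nodal/SemiCont.ell_le_finrank_glued`, one for the rigid pair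
and at most one for each further point), so the reduction map
`red12 : O₁ ∩ O₂ ∩ L(E) → Glued (push₁ E) (push₂ E)` is ONTO.

* `finrank_glued_add_le₁`, `finrank_glued_add_le₂`, `finrank_glued_add_le` : adding an EFFECTIVE
  divisor raises `dim Glued` by at most its degree;
* `degree_eq_push` : `deg E = deg push₁ E + deg push₂ E` for `E` supported in good discs;
* `finrank_glued_push_le`, `ell_eq`, `finrank_glued_push_eq` : the squeeze;
* `exists_red12_eq_of_mem_glued'` (`push_i E = rigid_i + D_i'`, `0 ≤ D_i'`) and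
  `exists_red12_eq_of_mem_glued` (`rigid_i ≤ push_i E`) : **every glued pair of `O(push E)` is the
  pair of reductions of an element of `O₁ ∩ O₂ ∩ L(E)`**.
-/

set_option autoImplicit false
set_option linter.unusedSectionVars false
set_option linter.unusedVariables false
set_option linter.style.haveILetI false

namespace Fermat.Agent.S44.Core.LiftGlued

open AlgebraicCurve Fermat.Agent.S34.NodalDefs Fermat.Agent.S34.NodalDisc
  Fermat.Agent.S33.Nodal.Glued Fermat.Agent.S33.Nodal.SemiCont Fermat.Agent.S33.Nodal.Rigid3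
  Fermat.Agent.S18.NonSpecial

variable {L : Type*} [Field L] {FL : Type*} [Field FL] [Algebra L FL]
variable {k : Type*} [Field k] {F1 : Type*} [Field F1] [Algebra k F1]
  {F2 : Type*} [Field F2] [Algebra k F2]
variable {A : ValuationSubring L} {π : A →+* k} {ι : Type*}
variable (N : GNodalDatum A π FL F1 F2 ι)

/-! ### adding an effective divisor to a glued space -/

/-- adding an effective divisor on the first component raises `dim Glued` by at most its degree -/
theorem finrank_glued_add_le₁
    (hfin1 : ∀ D : Divisor k F1, Module.Finite k (riemannRochSpace D))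
    (hfin2 : ∀ D : Divisor k F2, Module.Finite k (riemannRochSpace D))
    (hdeg1 : ∀ Q : Place k F1, Q.deg = 1) (D1 : Divisor k F1) (D2 : Divisor k F2)
    (D' : Divisor k F1) (hD' : 0 ≤ D') :
    (Module.finrank k (Glued N (D1 + D') D2) : ℤ) ≤
      Module.finrank k (Glued N D1 D2) + Divisor.degree D' := by
  refine Fermat.Agent.S18.A.Riemann.effective_induction hdeg1
    (P := fun D' : Divisor k F1 => (Module.finrank k (Glued N (D1 + D') D2) : ℤ) ≤
      Module.finrank k (Glued N D1 D2) + Divisor.degree D') ?_ ?_ D' hD'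
  · rw [add_zero, map_zero, add_zero]
  · intro D Q hD ih
    have h1 := finrank_glued_add_single_le₁ N (D1 + D) D2 hfin1 hfin2 (hdeg1 Q)
    rw [← add_assoc, map_add, Divisor.degree_single, hdeg1 Q]
    push_cast
    omega

/-- adding an effective divisor on the second component raises `dim Glued` by at most its
degree -/
theorem finrank_glued_add_le₂
    (hfin1 : ∀ D : Divisor k F1, Module.Finite k (riemannRochSpace D))
    (hfin2 : ∀ D : Divisor k F2, Module.Finite k (riemannRochSpace D))
    (hdeg2 : ∀ Q : Place k F2, Q.deg = 1) (D1 : Divisor k F1) (D2 : Divisor k F2)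
    (D' : Divisor k F2) (hD' : 0 ≤ D') :
    (Module.finrank k (Glued N D1 (D2 + D')) : ℤ) ≤
      Module.finrank k (Glued N D1 D2) + Divisor.degree D' := by
  refine Fermat.Agent.S18.A.Riemann.effective_induction hdeg2
    (P := fun D' : Divisor k F2 => (Module.finrank k (Glued N D1 (D2 + D')) : ℤ) ≤
      Module.finrank k (Glued N D1 D2) + Divisor.degree D') ?_ ?_ D' hD'
  · rw [add_zero, map_zero, add_zero]
  · intro D Q hD ih
    have h1 := finrank_glued_add_single_le₂ N D1 (D2 + D) hfin1 hfin2 (hdeg2 Q)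
    rw [← add_assoc, map_add, Divisor.degree_single, hdeg2 Q]
    push_cast
    omega

/-- adding effective divisors on both components -/
theorem finrank_glued_add_le
    (hfin1 : ∀ D : Divisor k F1, Module.Finite k (riemannRochSpace D))
    (hfin2 : ∀ D : Divisor k F2, Module.Finite k (riemannRochSpace D))
    (hdeg1 : ∀ Q : Place k F1, Q.deg = 1) (hdeg2 : ∀ Q : Place k F2, Q.deg = 1)
    (D1 : Divisor k F1) (D2 : Divisor k F2) (D1' : Divisor k F1) (D2' : Divisor k F2)
    (h1' : 0 ≤ D1') (h2' : 0 ≤ D2') :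
    (Module.finrank k (Glued N (D1 + D1') (D2 + D2')) : ℤ) ≤
      Module.finrank k (Glued N D1 D2) + Divisor.degree D1' + Divisor.degree D2' := by
  have h1 := finrank_glued_add_le₁ N hfin1 hfin2 hdeg1 D1 (D2 + D2') D1' h1'
  have h2 := finrank_glued_add_le₂ N hfin1 hfin2 hdeg2 D1 D2 D2' h2'
  omega

/-! ### the degree of a divisor supported in good discs -/

/-- `deg E = deg push₁ E + deg push₂ E` for a divisor supported in good discs (all places of
degree one) -/
theorem degree_eq_push (hdegL : ∀ P : Place L FL, P.deg = 1)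
    (hdeg1 : ∀ Q : Place k F1, Q.deg = 1) (hdeg2 : ∀ Q : Place k F2, Q.deg = 1)
    (E : Divisor L FL) (hE : GoodSupp N E) :
    Divisor.degree E = Divisor.degree (push1 N E) + Divisor.degree (push2 N E) := by
  classical
  have hsum : E = ∑ P ∈ E.support, Finsupp.single P (E P) := by
    conv_lhs => rw [← Finsupp.sum_single E]
    rfl
  have key : ∀ P ∈ E.support, Divisor.degree (Finsupp.single P (E P)) =
      Divisor.degree (push1 N (Finsupp.single P (E P))) +
        Divisor.degree (push2 N (Finsupp.single P (E P))) := by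
    intro P hP
    rcases hE P (Finsupp.mem_support_iff.mp hP) with ⟨Q, -, hr⟩ | ⟨Q, -, hr⟩
    · rw [push1_single_of_some N hr, push2_single_of_some1 N hr, map_zero, add_zero,
        Divisor.degree_single, Divisor.degree_single, hdegL P, hdeg1 Q]
    · rw [push2_single_of_some N hr, push1_single_of_some2 N hr, map_zero, zero_add,
        Divisor.degree_single, Divisor.degree_single, hdegL P, hdeg2 Q]
  have h1 : Divisor.degree E = ∑ P ∈ E.support, Divisor.degree (Finsupp.single P (E P)) := by
    conv_lhs => rw [hsum]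
    rw [map_sum]
  have h2 : Divisor.degree (push1 N E) =
      ∑ P ∈ E.support, Divisor.degree (push1 N (Finsupp.single P (E P))) := by
    conv_lhs => rw [hsum]
    rw [push1_sum, map_sum]
  have h3 : Divisor.degree (push2 N E) =
      ∑ P ∈ E.support, Divisor.degree (push2 N (Finsupp.single P (E P))) := by
    conv_lhs => rw [hsum]
    rw [push2_sum, map_sum]
  rw [h1, h2, h3, ← Finset.sum_add_distrib]
  exact Finset.sum_congr rfl key

/-! ### the squeeze -/

section Squeeze

variable {N}
variable {g1 m2 : ℕ} {R1b : Fin g1 → Place k F1} {R2b : Fin m2 → Place k F2}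
variable [HasPrincipalDivisors L FL]
variable (hO : OrthoPair N) (hL : RiemannHyp L FL (g1 + m2))
variable (hRb : IsRigidPair N R1b R2b)
variable (hfin1 : ∀ D : Divisor k F1, Module.Finite k (riemannRochSpace D))
variable (hfin2 : ∀ D : Divisor k F2, Module.Finite k (riemannRochSpace D))
variable (hdeg1 : ∀ Q : Place k F1, Q.deg = 1) (hdeg2 : ∀ Q : Place k F2, Q.deg = 1)
variable (E : Divisor L FL) (hE : GoodSupp N E)
variable (D1' : Divisor k F1) (D2' : Divisor k F2) (h1' : 0 ≤ D1') (h2' : 0 ≤ D2')
variable (hp1 : push1 N E = (∑ j, Finsupp.single (R1b j) (1 : ℤ)) + D1')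
variable (hp2 : push2 N E = (∑ j, Finsupp.single (R2b j) (1 : ℤ)) + D2')

include hRb hfin1 hfin2 hdeg1 hdeg2 h1' h2' hp1 hp2 in
/-- the upper bound of the squeeze -/
theorem finrank_glued_push_le :
    (Module.finrank k (Glued N (push1 N E) (push2 N E)) : ℤ) ≤
      1 + Divisor.degree D1' + Divisor.degree D2' := by
  have h0 := finrank_glued_rigid_le_one hRb
  have h1 := finrank_glued_add_le N hfin1 hfin2 hdeg1 hdeg2
    (∑ j, Finsupp.single (R1b j) (1 : ℤ)) (∑ j, Finsupp.single (R2b j) (1 : ℤ)) D1' D2' h1' h2'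
  rw [hp1, hp2]
  omega

include hL hRb hdeg1 hdeg2 hE hp1 hp2 in
/-- the degree of `E` -/
theorem degree_E :
    Divisor.degree E = ((g1 + m2 : ℕ) : ℤ) + Divisor.degree D1' + Divisor.degree D2' := by
  rw [degree_eq_push N hL.deg_one hdeg1 hdeg2 E hE, hp1, hp2, map_add, map_add,
    Fermat.Agent.S19.InterpDatum.degree_sum_single' hdeg1,
    Fermat.Agent.S19.InterpDatum.degree_sum_single' hdeg2]
  push_cast
  ring

include hO hL hRb hfin1 hfin2 hdeg1 hdeg2 hE h1' h2' hp1 hp2 in
/-- **the squeeze**, generic side -/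
theorem ell_eq : (ell E : ℤ) = 1 + Divisor.degree D1' + Divisor.degree D2' := by
  have hfinL := hL.finite E
  have := hfin1 (push1 N E)
  have := hfin2 (push2 N E)
  have hfinG : Module.Finite k (Glued N (push1 N E) (push2 N E)) := finite_glued N _ _
  have hlow := riemann_ineq hL E
  have hmid := ell_le_finrank_glued N hO E hE
  have hup := finrank_glued_push_le hRb hfin1 hfin2 hdeg1 hdeg2 E D1' D2' h1' h2' hp1 hp2
  rw [degree_E hL hRb hdeg1 hdeg2 E hE D1' D2' hp1 hp2] at hlow
  push_cast at hlow
  omega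

include hO hL hRb hfin1 hfin2 hdeg1 hdeg2 hE h1' h2' hp1 hp2 in
/-- **the squeeze**, special side -/
theorem finrank_glued_push_eq :
    Module.finrank k (Glued N (push1 N E) (push2 N E)) = ell E := by
  have hfinL := hL.finite E
  have := hfin1 (push1 N E)
  have := hfin2 (push2 N E)
  have hfinG : Module.Finite k (Glued N (push1 N E) (push2 N E)) := finite_glued N _ _
  have hmid := ell_le_finrank_glued N hO E hE
  have hup := finrank_glued_push_le hRb hfin1 hfin2 hdeg1 hdeg2 E D1' D2' h1' h2' hp1 hp2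
  have heq := ell_eq hO hL hRb hfin1 hfin2 hdeg1 hdeg2 E hE D1' D2' h1' h2' hp1 hp2
  omega

include hO hL hRb hfin1 hfin2 hdeg1 hdeg2 hE h1' h2' hp1 hp2 in
/-- **lifting of glued pairs** (`push_i E = rigid_i + D_i'` form): every glued pair of sections of
`O(push₁ E)`, `O(push₂ E)` is the pair of reductions of an element of `O₁ ∩ O₂ ∩ L(E)`. -/
theorem exists_red12_eq_of_mem_glued' (hπ : Function.Surjective π) {y : F1 × F2}
    (hy : y ∈ Glued N (push1 N E) (push2 N E)) :
    ∃ u : O12 N, ((u : O12 N) : FL) ∈ riemannRochSpace E ∧ red12 N u = y := by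
  classical
  have hfinL := hL.finite E
  have := hfin1 (push1 N E)
  have := hfin2 (push2 N E)
  have hfinG : Module.Finite k (Glued N (push1 N E) (push2 N E)) := finite_glued N _ _
  obtain ⟨f, hfW, hli⟩ := hO (riemannRochSpace E)
  have hmem : ∀ a, red12 N (f a) ∈ Glued N (push1 N E) (push2 N E) := fun a =>
    red12_mem_glued N (f a) E hE (hfW a)
  have hspan : Submodule.span k (Set.range fun a => red12 N (f a)) =
      Glued N (push1 N E) (push2 N E) := by
    refine Submodule.eq_of_le_of_finrank_eq ?_ ?_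
    · rw [Submodule.span_le]
      rintro _ ⟨a, rfl⟩
      exact hmem a
    · rw [finrank_span_eq_card hli, Fintype.card_fin]
      exact (finrank_glued_push_eq hO hL hRb hfin1 hfin2 hdeg1 hdeg2 E hE D1' D2' h1' h2'
        hp1 hp2).symm
  have hy' : y ∈ Submodule.span k (Set.range fun a => red12 N (f a)) := by
    rw [hspan]
    exact hy
  obtain ⟨c, hc⟩ := (Submodule.mem_span_range_iff_exists_fun k).mp hy'
  choose a ha using fun i => hπ (c i)
  refine ⟨∑ i, const12 N (a i) * f i, ?_, ?_⟩
  · have h1 : ((∑ i, const12 N (a i) * f i : O12 N) : FL)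
        = ∑ i, ((a i : A) : L) • ((f i : O12 N) : FL) := by
      rw [← Subring.subtype_apply, map_sum]
      refine Finset.sum_congr rfl fun i _ => ?_
      rw [Algebra.smul_def]
      rfl
    rw [h1]
    exact Submodule.sum_mem _ fun i _ => Submodule.smul_mem _ _ (hfW i)
  · rw [map_sum, ← hc]
    refine Finset.sum_congr rfl fun i _ => ?_
    rw [map_mul, red12_const12, ha i]
    refine Prod.ext ?_ ?_
    · rw [Prod.fst_mul, Prod.smul_fst, Algebra.smul_def]
    · rw [Prod.snd_mul, Prod.smul_snd, Algebra.smul_def]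

end Squeeze

/-- **lifting of glued pairs** (`rigid_i ≤ push_i E` form). -/
theorem exists_red12_eq_of_mem_glued {N : GNodalDatum A π FL F1 F2 ι} {g1 m2 : ℕ}
    {R1b : Fin g1 → Place k F1} {R2b : Fin m2 → Place k F2} [HasPrincipalDivisors L FL]
    (hπ : Function.Surjective π) (hO : OrthoPair N) (hL : RiemannHyp L FL (g1 + m2))
    (hRb : IsRigidPair N R1b R2b)
    (hfin1 : ∀ D : Divisor k F1, Module.Finite k (riemannRochSpace D))
    (hfin2 : ∀ D : Divisor k F2, Module.Finite k (riemannRochSpace D))
    (hdeg1 : ∀ Q : Place k F1, Q.deg = 1) (hdeg2 : ∀ Q : Place k F2, Q.deg = 1)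
    (E : Divisor L FL) (hE : GoodSupp N E)
    (hp1 : (∑ j, Finsupp.single (R1b j) (1 : ℤ)) ≤ push1 N E)
    (hp2 : (∑ j, Finsupp.single (R2b j) (1 : ℤ)) ≤ push2 N E) {y : F1 × F2}
    (hy : y ∈ Glued N (push1 N E) (push2 N E)) :
    ∃ u : O12 N, ((u : O12 N) : FL) ∈ riemannRochSpace E ∧ red12 N u = y :=
  exists_red12_eq_of_mem_glued' hO hL hRb hfin1 hfin2 hdeg1 hdeg2 E hE
    (push1 N E - ∑ j, Finsupp.single (R1b j) (1 : ℤ))
    (push2 N E - ∑ j, Finsupp.single (R2b j) (1 : ℤ)) (sub_nonneg.mpr hp1) (sub_nonneg.mpr hp2)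
    (add_sub_cancel _ _).symm (add_sub_cancel _ _).symm hπ hy

end Fermat.Agent.S44.Core.LiftGlued
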