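/-
PROJECT P (S44), brick [MV-3] of the moving lemma (helper10's cut, helper27): SIMPLE VALUES ON ONE
FUNCTION FIELD.

`K` a field, `F / K` a field with its places.  For a finite set `S` of places and constants
`g Q ∈ K` there is a function `φ` such that `φ - g Q` has a SIMPLE zero at every `Q ∈ S`
(`exists_simple_values`); in particular `φ` is regular on `S` with the prescribed values and is a
local parameter up to the constant at each of them.  The proof uses the first-order weak
approximation theorem of `S34/WeakApprox` twice and the prescribed-order lemma of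
`S19/MovingLemma`.

`exists_pair_values` is the form consumed by the instance of the moving lemma: two function fields
over an infinite field, two finite sets of places with their subsets of node places; the values
are `0` at the node places and non-zero, pairwise distinct across BOTH sets elsewhere.
-/
import Mathlib
import Fermat.Agent.S19.MovingLemma
import Fermat.Agent.S34.WeakApprox

set_option autoImplicit false

namespace Fermat.Agent.S44.Core.SimpleValues

open AlgebraicCurve Fermat.Agent.S34.WeakApprox Fermat.Agent.S19.MovingLemma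

variable {K F : Type*} [Field K] [Field F] [Algebra K F]

/-- a quotient of two functions, the numerator in the maximal ideal and the denominator of order
one, is integral at the place -/
theorem div_mem_of_mem_nonunits (v : Place K F) {a z : F} (ha : a ∈ v.toValuationSubring.nonunits)
    (hz0 : z ≠ 0) (hz : v.ord z = 1) : a / z ∈ v.toValuationSubring := by
  rcases eq_or_ne a 0 with rfl | ha0
  · rw [zero_div]
    exact zero_mem _
  have haA : a ∈ v.toValuationSubring := v.toValuationSubring.nonunits_subset ha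
  have hpos : 0 < v.ord a := by
    rw [Fermat.Agent.S24.Ord.ord_pos_iff v ha0]
    have hle : v.adicValuation a ≤ 1 := (Fermat.Agent.S24.Ord.mem_iff v a).mp haA
    refine lt_of_le_of_ne hle fun h1 => ?_
    have hunit : IsUnit (⟨a, haA⟩ : v.toValuationSubring) :=
      (v.adicValuation_coe_eq_one_iff ⟨a, haA⟩).mp h1
    have hmem : ((⟨a, haA⟩ : v.toValuationSubring) : F) ∈ v.toValuationSubring.nonunits := ha
    rw [ValuationSubring.coe_mem_nonunits_iff] at hmem
    exact hmem hunit
  have hne : a / z ≠ 0 := div_ne_zero ha0 hz0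
  rw [mem_iff_ord_nonneg v hne, div_eq_mul_inv, v.ord_mul ha0 (inv_ne_zero hz0), v.ord_inv, hz]
  omega

/-- **simple values**: for finitely many places `Q` and constants `g Q` some function `φ` has
`φ - g Q` of order exactly one at every `Q` -/
theorem exists_simple_values (S : Finset (Place K F)) (g : Place K F → K) :
    ∃ φ : F, ∀ Q ∈ S, Q.ord (φ - algebraMap K F (g Q)) = 1 := by
  classical
  obtain ⟨z, hz0, hz⟩ := exists_ord_eq S (fun _ => (1 : ℤ))
  let O : S → ValuationSubring F := fun i => i.1.toValuationSubring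
  have hA : ∀ i, Arch (O i) := fun i => arch i.1
  have hinc : ∀ i j, i ≠ j → ¬ O i ≤ O j := fun i j hij =>
    not_le_of_ne (fun h => hij (Subtype.ext h))
  -- the values, to first order
  obtain ⟨w, hw⟩ := exists_approx O hA hinc (fun i => algebraMap K F (g i.1))
    (fun i => i.1.algebraMap_mem' (g i.1))
  -- the correction making the first-order term a unit
  have hr : ∀ i : S, 1 - (w - algebraMap K F (g i.1)) / z ∈ O i := fun i =>
    sub_mem (one_mem _) (div_mem_of_mem_nonunits i.1 (hw i) hz0 (hz i.1 i.2))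
  obtain ⟨y, hy⟩ := exists_approx O hA hinc
    (fun i => 1 - (w - algebraMap K F (g i.1)) / z) hr
  refine ⟨w + z * y, fun Q hQ => ?_⟩
  have h1 : w + z * y - algebraMap K F (g Q) =
      z * ((w - algebraMap K F (g Q)) / z + y) := by
    field_simp
    ring
  have h2 : (w - algebraMap K F (g Q)) / z + y - 1 ∈ Q.toValuationSubring.nonunits := by
    have h := hy ⟨Q, hQ⟩
    have heq : (w - algebraMap K F (g Q)) / z + y - 1 =
        y - (1 - (w - algebraMap K F (g Q)) / z) := by ring
    rw [heq]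
    exact h
  have h3 : Q.ord ((w - algebraMap K F (g Q)) / z + y) = 0 :=
    ord_eq_zero_of_sub_one_mem_nonunits Q h2
  have hne : (w - algebraMap K F (g Q)) / z + y ≠ 0 := by
    intro h0
    rw [h0, zero_sub] at h2
    have h4 : (1 : F) ∈ Q.toValuationSubring.nonunits := by
      have := Q.toValuationSubring.nonunits.neg_mem h2
      rwa [neg_neg] at this
    rw [Q.toValuationSubring.mem_nonunits_iff, map_one] at h4
    exact lt_irrefl _ h4
  rw [h1, Q.ord_mul hz0 hne, hz Q hQ, h3, add_zero]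

/-- a function with a simple value at `Q` is regular at `Q` -/
theorem mem_of_ord_sub_eq_one (Q : Place K F) {φ : F} {γ : K}
    (h : Q.ord (φ - algebraMap K F γ) = 1) : φ ∈ Q.toValuationSubring := by
  have hne : φ - algebraMap K F γ ≠ 0 := by
    intro h0
    rw [h0, Q.ord_zero] at h
    exact zero_ne_one h
  have h1 : φ - algebraMap K F γ ∈ Q.toValuationSubring := by
    rw [mem_iff_ord_nonneg Q hne, h]
    exact zero_le_one
  have h2 : φ = (φ - algebraMap K F γ) + algebraMap K F γ := by ring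
  rw [h2]
  exact add_mem h1 (Q.algebraMap_mem' γ)

/-- a function with the simple value `γ` at `Q` does not take another value `γ'` there: the order
of `φ - γ'` is zero -/
theorem ord_sub_eq_zero_of_ne (Q : Place K F) {φ : F} {γ γ' : K}
    (h : Q.ord (φ - algebraMap K F γ) = 1) (hγ : γ' ≠ γ) :
    Q.ord (φ - algebraMap K F γ') = 0 := by
  have hne : φ - algebraMap K F γ ≠ 0 := by
    intro h0
    rw [h0, Q.ord_zero] at h
    exact zero_ne_one h
  have hc : γ - γ' ≠ 0 := sub_ne_zero.mpr (Ne.symm hγ)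
  have hcF : algebraMap K F (γ - γ') ≠ 0 := (map_ne_zero _).mpr hc
  -- `u := (φ - γ') / (γ - γ')` is `≡ 1`
  have hu : (φ - algebraMap K F γ') / algebraMap K F (γ - γ') - 1 ∈
      Q.toValuationSubring.nonunits := by
    have heq : (φ - algebraMap K F γ') / algebraMap K F (γ - γ') - 1 =
        (φ - algebraMap K F γ) * (algebraMap K F (γ - γ'))⁻¹ := by
      rw [map_sub] at hcF ⊢
      field_simp
      ring
    rw [heq, Q.toValuationSubring.mem_nonunits_iff]
    have hne2 : (φ - algebraMap K F γ) * (algebraMap K F (γ - γ'))⁻¹ ≠ 0 :=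
      mul_ne_zero hne (inv_ne_zero hcF)
    have hpos : 0 < Q.ord ((φ - algebraMap K F γ) * (algebraMap K F (γ - γ'))⁻¹) := by
      rw [Q.ord_mul hne (inv_ne_zero hcF), Q.ord_inv, Fermat.Agent.S24.Ord.ord_algebraMap, h]
      norm_num
    have h5 := (Fermat.Agent.S24.Ord.ord_pos_iff Q hne2).mp hpos
    have h6 : Q.toValuationSubring.valuation
        ((φ - algebraMap K F γ) * (algebraMap K F (γ - γ'))⁻¹) < 1 ↔
        Q.adicValuation ((φ - algebraMap K F γ) * (algebraMap K F (γ - γ'))⁻¹) < 1 := by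
      rw [← Q.toValuationSubring.mem_nonunits_iff]
      constructor
      · intro _
        exact h5
      · intro _
        have hmemA : (φ - algebraMap K F γ) * (algebraMap K F (γ - γ'))⁻¹ ∈
            Q.toValuationSubring := by
          rw [mem_iff_ord_nonneg Q hne2]
          exact hpos.le
        have hnu : ¬ IsUnit (⟨_, hmemA⟩ : Q.toValuationSubring) := by
          intro hunit
          have h7 := (Q.adicValuation_coe_eq_one_iff ⟨_, hmemA⟩).mpr hunit
          rw [h7] at h5
          exact lt_irrefl _ h5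
        have : ((⟨_, hmemA⟩ : Q.toValuationSubring) : F) ∈ Q.toValuationSubring.nonunits :=
          (ValuationSubring.coe_mem_nonunits_iff).mpr hnu
        exact this
    exact h6.mpr h5
  have h0 := ord_eq_zero_of_sub_one_mem_nonunits Q hu
  have hne3 : φ - algebraMap K F γ' ≠ 0 := by
    intro h00
    rw [h00, zero_div, zero_sub] at hu
    have h4 : (1 : F) ∈ Q.toValuationSubring.nonunits := by
      have := Q.toValuationSubring.nonunits.neg_mem hu
      rwa [neg_neg] at this
    rw [Q.toValuationSubring.mem_nonunits_iff, map_one] at h4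
    exact lt_irrefl _ h4
  rw [div_eq_mul_inv, Q.ord_mul hne3 (inv_ne_zero hcF), Q.ord_inv,
    Fermat.Agent.S24.Ord.ord_algebraMap, neg_zero, add_zero] at h0
  exact h0

/-- finitely many non-zero, pairwise distinct constants of an infinite field -/
theorem exists_injective_ne_zero [Infinite K] (T : Type*) [Finite T] :
    ∃ c : T → K, Function.Injective c ∧ ∀ t, c t ≠ 0 := by
  classical
  have := Fintype.ofFinite T
  have hinf : ({0}ᶜ : Set K).Infinite := (Set.finite_singleton (0 : K)).infinite_compl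
  refine ⟨fun t => ((hinf.natEmbedding _ ((Fintype.equivFin T t : Fin _) : ℕ) : ({0}ᶜ : Set K)) : K),
    fun t t' h => ?_, fun t => ?_⟩
  · have h1 := (hinf.natEmbedding _).injective (Subtype.ext h)
    exact (Fintype.equivFin T).injective (Fin.ext h1)
  · exact (hinf.natEmbedding _ ((Fintype.equivFin T t : Fin _) : ℕ)).2

/-- **the pair of reductions of a separating function** ((b1) of the moving lemma): on two
function fields over an infinite field, for finite sets `S1`, `S2` of places and sets `N1`, `N2`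
(the node places), functions `φ1`, `φ2` with simple values `g1 Q`, `g2 Q` on `S1`, `S2`, the values
being `0` on the node places and non-zero, pairwise distinct across both sets elsewhere. -/
theorem exists_pair_values [Infinite K] {F1 F2 : Type*} [Field F1] [Algebra K F1] [Field F2]
    [Algebra K F2] (S1 : Finset (Place K F1)) (S2 : Finset (Place K F2))
    (N1 : Set (Place K F1)) (N2 : Set (Place K F2)) :
    ∃ (g1 : Place K F1 → K) (g2 : Place K F2 → K) (φ1 : F1) (φ2 : F2),
      (∀ Q ∈ S1, Q.ord (φ1 - algebraMap K F1 (g1 Q)) = 1) ∧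
      (∀ Q ∈ S2, Q.ord (φ2 - algebraMap K F2 (g2 Q)) = 1) ∧
      (∀ Q ∈ N1, g1 Q = 0) ∧ (∀ Q ∈ N2, g2 Q = 0) ∧
      (∀ Q ∈ S1, Q ∉ N1 → g1 Q ≠ 0) ∧ (∀ Q ∈ S2, Q ∉ N2 → g2 Q ≠ 0) ∧
      (∀ Q ∈ S1, Q ∉ N1 → ∀ Q' ∈ S1, Q' ∉ N1 → g1 Q = g1 Q' → Q = Q') ∧
      (∀ Q ∈ S2, Q ∉ N2 → ∀ Q' ∈ S2, Q' ∉ N2 → g2 Q = g2 Q' → Q = Q') ∧
      (∀ Q ∈ S1, Q ∉ N1 → ∀ Q' ∈ S2, Q' ∉ N2 → g1 Q ≠ g2 Q') := by
  classical
  have hf1 : Finite {Q : Place K F1 // Q ∈ S1 ∧ Q ∉ N1} :=
    Finite.of_injective (fun Q => (⟨Q.1, Q.2.1⟩ : S1)) (fun Q Q' h => Subtype.ext (by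
      have := congrArg Subtype.val h
      exact this))
  have hf2 : Finite {Q : Place K F2 // Q ∈ S2 ∧ Q ∉ N2} :=
    Finite.of_injective (fun Q => (⟨Q.1, Q.2.1⟩ : S2)) (fun Q Q' h => Subtype.ext (by
      have := congrArg Subtype.val h
      exact this))
  obtain ⟨c, hcinj, hc0⟩ := exists_injective_ne_zero (K := K)
    ({Q : Place K F1 // Q ∈ S1 ∧ Q ∉ N1} ⊕ {Q : Place K F2 // Q ∈ S2 ∧ Q ∉ N2})
  obtain ⟨g1, hg1⟩ : ∃ g1 : Place K F1 → K, g1 = fun Q =>
      if h : Q ∈ S1 ∧ Q ∉ N1 then c (Sum.inl ⟨Q, h⟩) else 0 := ⟨_, rfl⟩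
  obtain ⟨g2, hg2⟩ : ∃ g2 : Place K F2 → K, g2 = fun Q =>
      if h : Q ∈ S2 ∧ Q ∉ N2 then c (Sum.inr ⟨Q, h⟩) else 0 := ⟨_, rfl⟩
  have e1 : ∀ Q (h : Q ∈ S1 ∧ Q ∉ N1), g1 Q = c (Sum.inl ⟨Q, h⟩) := fun Q h => by
    rw [hg1]
    exact dif_pos h
  have e2 : ∀ Q (h : Q ∈ S2 ∧ Q ∉ N2), g2 Q = c (Sum.inr ⟨Q, h⟩) := fun Q h => by
    rw [hg2]
    exact dif_pos h
  obtain ⟨φ1, hφ1⟩ := exists_simple_values S1 g1
  obtain ⟨φ2, hφ2⟩ := exists_simple_values S2 g2
  refine ⟨g1, g2, φ1, φ2, hφ1, hφ2, fun Q hQ => ?_, fun Q hQ => ?_, fun Q hQ hN => ?_,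
    fun Q hQ hN => ?_, fun Q hQ hN Q' hQ' hN' h => ?_, fun Q hQ hN Q' hQ' hN' h => ?_,
    fun Q hQ hN Q' hQ' hN' h => ?_⟩
  · rw [hg1]
    exact dif_neg (fun h => h.2 hQ)
  · rw [hg2]
    exact dif_neg (fun h => h.2 hQ)
  · rw [e1 Q ⟨hQ, hN⟩]
    exact hc0 _
  · rw [e2 Q ⟨hQ, hN⟩]
    exact hc0 _
  · rw [e1 Q ⟨hQ, hN⟩, e1 Q' ⟨hQ', hN'⟩] at h
    have h1 := Sum.inl_injective (hcinj h)
    exact congrArg Subtype.val h1
  · rw [e2 Q ⟨hQ, hN⟩, e2 Q' ⟨hQ', hN'⟩] at h
    have h1 := Sum.inr_injective (hcinj h)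
    exact congrArg Subtype.val h1
  · rw [e1 Q ⟨hQ, hN⟩, e2 Q' ⟨hQ', hN'⟩] at h
    exact Sum.inl_ne_inr (hcinj h)

end Fermat.Agent.S44.Core.SimpleValues
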