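/-
PROJECT P (S44), CORE, Core/ExportArith (helper24, leaf [O4a] of the chief's table P-1): THE
ARITHMETIC OF THE EXPORT `w_a a_a(x) ≡ w_b a_b(x) mod p`.  Mathlib only.

Notation of the core page: `p D = div f`; at a node `a` the function `f` is
`c · (F⁺(ξ)/F⁻(ξ))^p · ξ^(n_a) · (unit)`; `V₁`, `V₂` the two Gauss valuations, `ϖ` the uniformiser
of the break datum, `v(p) = p (p - 1) v(ϖ)` (`e_abs`), `V₂(ξ) = w_a v(p)` (thickness), `μ_a` the
moment.  Everything is counted in units of `v(ϖ)`: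

  `Δ := ord₂ f - ord₁ f = n_a · w_a · (p (p - 1)) + p · μ_a`     for EVERY node `a`.

* PART 1 (integers): `dvd_sub_of_delta` : from the displayed identity at all nodes and
  `p ∣ μ_a - μ_b` conclude `p ∣ w_a n_a - w_b n_b`; `exists_const_zmod` / `exists_const_zmod_nat` : the
  same in the shape of the export `∃ c : ZMod p, ∀ e, (w e : ZMod p) * a e = c`;
  `dvd_sub_of_cast_eq` : the moments are compared in a field `k` of characteristic `p`
  (the output of `Induct.moment_eq`); `dvd_add_of_tame`, `exists_const_zmod_tame` : the tame twin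
  `p μ_e = w_e (p - 1) n_e - Δ ⟹ w_e n_e ≡ -Δ`.
* PART 2 (the `ϖ`-order in one valuation ring): `HasOrd O ϖ f n := O.valuation (f * ϖ^(-n)) = 1`
  (this IS `UnitA O (f * ϖ^(-n))` of `Core/Break`, by `Iff.rfl`), with `mul`, `inv`, `div`, `pow`,
  `zpow`, `of_unit`, `self`, `unique`.
* PART 3 (`delta_eq`): the displayed identity from the orders of the factors of `f` at the two ends.
-/
import Mathlib

set_option autoImplicit false

namespace Fermat.Agent.S44.Core.ExportArith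

/-! ### PART 1: integers -/

section Integers

variable {ι : Type*}

/-- **The arithmetic of the export.**  If `Δ = n_a w_a (p (p - 1)) + p μ_a` at every node and the
moments are congruent modulo `p`, then the `w_a n_a` are congruent modulo `p`. -/
theorem dvd_sub_of_delta {p : ℕ} (hp : p ≠ 0) (Δ : ℤ) (n w μ : ι → ℤ)
    (h : ∀ a, Δ = n a * w a * ((p : ℤ) * ((p : ℤ) - 1)) + (p : ℤ) * μ a)
    (hμ : ∀ a b, (p : ℤ) ∣ μ a - μ b) (a b : ι) :
    (p : ℤ) ∣ w a * n a - w b * n b := by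
  have hp0 : (p : ℤ) ≠ 0 := by exact_mod_cast hp
  have h1 : (p : ℤ) * (n a * w a * ((p : ℤ) - 1) + μ a) =
      (p : ℤ) * (n b * w b * ((p : ℤ) - 1) + μ b) := by
    have ha := h a
    have hb := h b
    linear_combination hb - ha
  have h2 := mul_left_cancel₀ hp0 h1
  obtain ⟨t, ht⟩ := hμ a b
  refine ⟨n a * w a - n b * w b + t, ?_⟩
  linear_combination -h2 + ht

/-- the moments are compared in a field of characteristic `p` -/
theorem dvd_sub_of_cast_eq {p : ℕ} {k : Type*} [Ring k] [CharP k p] {x y : ℤ}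
    (h : (x : k) = (y : k)) : (p : ℤ) ∣ x - y := by
  rw [← CharP.intCast_eq_zero_iff k p, Int.cast_sub, h, sub_self]

/-- **The export, integer thicknesses.** -/
theorem exists_const_zmod {p : ℕ} (hp : p ≠ 0) (Δ : ℤ) (n w μ : ι → ℤ)
    (h : ∀ a, Δ = n a * w a * ((p : ℤ) * ((p : ℤ) - 1)) + (p : ℤ) * μ a)
    (hμ : ∀ a b, (p : ℤ) ∣ μ a - μ b) (ord : ι → ZMod p) (hord : ∀ e, ord e = (n e : ZMod p)) :
    ∃ c : ZMod p, ∀ e, ((w e : ℤ) : ZMod p) * ord e = c := by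
  classical
  by_cases hne : Nonempty ι
  · obtain ⟨a⟩ := hne
    refine ⟨((w a : ℤ) : ZMod p) * ord a, fun e => ?_⟩
    have h1 := dvd_sub_of_delta hp Δ n w μ h hμ e a
    have h2 : (((w e * n e - w a * n a : ℤ)) : ZMod p) = 0 :=
      (ZMod.intCast_zmod_eq_zero_iff_dvd _ p).2 h1
    rw [hord e, hord a]
    push_cast at h2
    exact sub_eq_zero.mp h2
  · exact ⟨0, fun e => (hne ⟨e⟩).elim⟩

/-- **The export, natural thicknesses, moments compared in a field of characteristic `p`** (the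
literal shape of `w_mul_nodeOrd_const_of_peu`). -/
theorem exists_const_zmod_nat {p : ℕ} (hp : p ≠ 0) {k : Type*} [Ring k] [CharP k p]
    (Δ : ℤ) (n μ : ι → ℤ) (w : ι → ℕ)
    (h : ∀ a, Δ = n a * (w a : ℤ) * ((p : ℤ) * ((p : ℤ) - 1)) + (p : ℤ) * μ a)
    (hμ : ∀ a b, ((μ a : ℤ) : k) = ((μ b : ℤ) : k))
    (ord : ι → ZMod p) (hord : ∀ e, ord e = (n e : ZMod p)) :
    ∃ c : ZMod p, ∀ e, ((w e : ℕ) : ZMod p) * ord e = c := by
  obtain ⟨c, hc⟩ := exists_const_zmod hp Δ n (fun e => (w e : ℤ)) μ h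
    (fun a b => dvd_sub_of_cast_eq (k := k) (hμ a b)) ord hord
  refine ⟨c, fun e => ?_⟩
  have := hc e
  rwa [Int.cast_natCast] at this

/-- **The tame twin** (`K₁` with uniformiser `π₁`, `v(p) = (p - 1) v(π₁)`): the Abel summation gives
`p μ_e = w_e (p - 1) n_e - Δ` at every node, hence `w_e n_e ≡ -Δ` modulo `p`, with no hypothesis on
the moments. -/
theorem dvd_add_of_tame {p : ℕ} (Δ : ℤ) (n w μ : ι → ℤ)
    (h : ∀ e, (p : ℤ) * μ e = w e * ((p : ℤ) - 1) * n e - Δ) (e : ι) :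
    (p : ℤ) ∣ w e * n e + Δ := by
  refine ⟨w e * n e - μ e, ?_⟩
  linear_combination h e

/-- the tame export in the shape `∃ c : ZMod p, ∀ e, (w e : ZMod p) * a e = c` -/
theorem exists_const_zmod_tame {p : ℕ} (Δ : ℤ) (n μ : ι → ℤ) (w : ι → ℕ)
    (h : ∀ e, (p : ℤ) * μ e = (w e : ℤ) * ((p : ℤ) - 1) * n e - Δ)
    (ord : ι → ZMod p) (hord : ∀ e, ord e = (n e : ZMod p)) :
    ∃ c : ZMod p, ∀ e, ((w e : ℕ) : ZMod p) * ord e = c := by
  refine ⟨((-Δ : ℤ) : ZMod p), fun e => ?_⟩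
  have h1 := dvd_add_of_tame Δ n (fun e => (w e : ℤ)) μ h e
  have h2 : ((((w e : ℤ) * n e + Δ : ℤ)) : ZMod p) = 0 :=
    (ZMod.intCast_zmod_eq_zero_iff_dvd _ p).2 h1
  rw [hord e]
  push_cast at h2 ⊢
  exact eq_neg_of_add_eq_zero_left h2

/-- the tame twin in the sign convention of `delta_eq` (`ϖ := π₁`, thickness `T_a = w_a (p - 1)`):
`Δ = n_a w_a (p - 1) + p μ_a` at every node -/
theorem dvd_sub_of_delta_tame {p : ℕ} (Δ : ℤ) (n w μ : ι → ℤ)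
    (h : ∀ a, Δ = n a * w a * ((p : ℤ) - 1) + (p : ℤ) * μ a) (a b : ι) :
    (p : ℤ) ∣ w a * n a - w b * n b := by
  refine ⟨n a * w a - n b * w b + μ a - μ b, ?_⟩
  linear_combination h a - h b

/-- the tame export from `Δ = n_a w_a (p - 1) + p μ_a` -/
theorem exists_const_zmod_nat_tame {p : ℕ} (Δ : ℤ) (n μ : ι → ℤ) (w : ι → ℕ)
    (h : ∀ a, Δ = n a * (w a : ℤ) * ((p : ℤ) - 1) + (p : ℤ) * μ a)
    (ord : ι → ZMod p) (hord : ∀ e, ord e = (n e : ZMod p)) :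
    ∃ c : ZMod p, ∀ e, ((w e : ℕ) : ZMod p) * ord e = c := by
  classical
  by_cases hne : Nonempty ι
  · obtain ⟨a⟩ := hne
    refine ⟨((w a : ℕ) : ZMod p) * ord a, fun e => ?_⟩
    have h1 := dvd_sub_of_delta_tame Δ n (fun e => (w e : ℤ)) μ h e a
    have h2 : ((((w e : ℤ) * n e - (w a : ℤ) * n a : ℤ)) : ZMod p) = 0 :=
      (ZMod.intCast_zmod_eq_zero_iff_dvd _ p).2 h1
    rw [hord e, hord a]
    push_cast at h2
    exact sub_eq_zero.mp h2
  · exact ⟨0, fun e => (hne ⟨e⟩).elim⟩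

end Integers

/-! ### PART 2: the `ϖ`-order in one valuation ring -/

section Order

variable {E : Type*} [Field E]

/-- `f` has `ϖ`-order `n` in the valuation ring `O`: `f ϖ^(-n)` is a unit of `O`
(`= Core/Break.UnitA O (f * ϖ ^ (-n))`) -/
def HasOrd (O : ValuationSubring E) (ϖ f : E) (n : ℤ) : Prop :=
  O.valuation (f * ϖ ^ (-n)) = 1

variable {O : ValuationSubring E} {ϖ : E}

theorem hasOrd_iff {f : E} {n : ℤ} : HasOrd O ϖ f n ↔ O.valuation (f * ϖ ^ (-n)) = 1 := Iff.rfl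

/-- in terms of valuations -/
theorem hasOrd_iff_val (hϖ : ϖ ≠ 0) {f : E} {n : ℤ} :
    HasOrd O ϖ f n ↔ O.valuation f = O.valuation ϖ ^ n := by
  have h0 : O.valuation ϖ ^ n ≠ 0 := zpow_ne_zero _ ((Valuation.ne_zero_iff _).2 hϖ)
  rw [HasOrd, map_mul, map_zpow₀, zpow_neg, mul_inv_eq_one₀ h0]

theorem HasOrd.ne_zero {f : E} {n : ℤ} (h : HasOrd O ϖ f n) : f ≠ 0 := by
  rintro rfl
  rw [HasOrd, zero_mul, map_zero] at h
  exact zero_ne_one h

theorem HasOrd.of_unit {u : E} (hu : O.valuation u = 1) : HasOrd O ϖ u 0 := by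
  rw [HasOrd, neg_zero, zpow_zero, mul_one]
  exact hu

theorem hasOrd_one : HasOrd O ϖ (1 : E) 0 := HasOrd.of_unit (map_one _)

theorem hasOrd_self_zpow (hϖ : ϖ ≠ 0) (j : ℤ) : HasOrd O ϖ (ϖ ^ j) j := by
  rw [HasOrd, ← zpow_add₀ hϖ, add_neg_cancel, zpow_zero, map_one]

theorem hasOrd_self (hϖ : ϖ ≠ 0) : HasOrd O ϖ ϖ 1 := by
  have := hasOrd_self_zpow (O := O) hϖ 1
  rwa [zpow_one] at this

theorem HasOrd.mul (hϖ : ϖ ≠ 0) {f g : E} {n m : ℤ} (hf : HasOrd O ϖ f n)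
    (hg : HasOrd O ϖ g m) : HasOrd O ϖ (f * g) (n + m) := by
  rw [hasOrd_iff_val hϖ] at *
  rw [map_mul, hf, hg, zpow_add₀ ((Valuation.ne_zero_iff _).2 hϖ)]

theorem HasOrd.inv (hϖ : ϖ ≠ 0) {f : E} {n : ℤ} (hf : HasOrd O ϖ f n) :
    HasOrd O ϖ f⁻¹ (-n) := by
  rw [hasOrd_iff_val hϖ] at *
  rw [map_inv₀, hf, zpow_neg]

theorem HasOrd.div (hϖ : ϖ ≠ 0) {f g : E} {n m : ℤ} (hf : HasOrd O ϖ f n)
    (hg : HasOrd O ϖ g m) : HasOrd O ϖ (f / g) (n - m) := by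
  rw [div_eq_mul_inv, sub_eq_add_neg]
  exact hf.mul hϖ (hg.inv hϖ)

theorem HasOrd.zpow (hϖ : ϖ ≠ 0) {f : E} {n : ℤ} (hf : HasOrd O ϖ f n) (j : ℤ) :
    HasOrd O ϖ (f ^ j) (j * n) := by
  rw [hasOrd_iff_val hϖ] at *
  rw [map_zpow₀, hf, ← zpow_mul, mul_comm]

theorem HasOrd.pow (hϖ : ϖ ≠ 0) {f : E} {n : ℤ} (hf : HasOrd O ϖ f n) (j : ℕ) :
    HasOrd O ϖ (f ^ j) ((j : ℤ) * n) := by
  have := hf.zpow hϖ (j : ℤ)
  rwa [zpow_natCast] at this

/-- the order is unique as soon as `ϖ` is a non-unit -/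
theorem HasOrd.unique (hϖ : ϖ ≠ 0) (hlt : O.valuation ϖ < 1) {f : E} {n m : ℤ}
    (hf : HasOrd O ϖ f n) (hg : HasOrd O ϖ f m) : n = m := by
  rw [hasOrd_iff_val hϖ] at hf hg
  have hpos : 0 < O.valuation ϖ := zero_lt_iff.2 ((Valuation.ne_zero_iff _).2 hϖ)
  have h : O.valuation ϖ ^ n = O.valuation ϖ ^ m := hf.symm.trans hg
  exact le_antisymm ((zpow_le_zpow_iff_right_of_lt_one₀ hpos hlt).1 h.ge)
    ((zpow_le_zpow_iff_right_of_lt_one₀ hpos hlt).1 h.le)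

end Order

/-! ### PART 3: the identity `Δ = n w (p (p - 1)) + p μ` at one node -/

section Delta

variable {E : Type*} [Field E] {O1 O2 : ValuationSubring E} {ϖ : E}

/-- **The two-ended valuation count at one node.**  `f = c · (F⁺/F⁻)^p · ξ^n · u` with, at the first
Gauss ring, `F⁺ F⁻ ξ u` units and, at the second, `u` a unit, `ξ` of order `T` (the thickness, in
units of `v(ϖ)`), `F^±` of orders `μ^±` (the orders of their constant coefficients); the constant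
`c` has the same order at both ends.  Then `ord₂ f - ord₁ f = n T + p (μ⁺ - μ⁻)`. -/
theorem delta_eq (hϖ : ϖ ≠ 0) (hlt1 : O1.valuation ϖ < 1) (hlt2 : O2.valuation ϖ < 1)
    {f c Fp Fm ξ u : E} {p : ℕ} {n : ℤ} (hf : f = c * (Fp / Fm) ^ p * ξ ^ n * u)
    {n1 n2 nc T μp μm : ℤ}
    (h1 : HasOrd O1 ϖ f n1) (h2 : HasOrd O2 ϖ f n2)
    (hc1 : HasOrd O1 ϖ c nc) (hc2 : HasOrd O2 ϖ c nc)
    (hFp1 : O1.valuation Fp = 1) (hFm1 : O1.valuation Fm = 1) (hξ1 : O1.valuation ξ = 1)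
    (hu1 : O1.valuation u = 1) (hu2 : O2.valuation u = 1)
    (hξ2 : HasOrd O2 ϖ ξ T) (hFp2 : HasOrd O2 ϖ Fp μp) (hFm2 : HasOrd O2 ϖ Fm μm) :
    n2 - n1 = n * T + (p : ℤ) * (μp - μm) := by
  -- first end
  have e1 : HasOrd O1 ϖ f (nc + (p : ℤ) * (0 - 0) + n * 0 + 0) := by
    rw [hf]
    exact ((hc1.mul hϖ (((HasOrd.of_unit hFp1).div hϖ (HasOrd.of_unit hFm1)).pow hϖ p)).mul hϖ
      ((HasOrd.of_unit hξ1).zpow hϖ n)).mul hϖ (HasOrd.of_unit hu1)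
  -- second end
  have e2 : HasOrd O2 ϖ f (nc + (p : ℤ) * (μp - μm) + n * T + 0) := by
    rw [hf]
    exact ((hc2.mul hϖ ((hFp2.div hϖ hFm2).pow hϖ p)).mul hϖ (hξ2.zpow hϖ n)).mul hϖ
      (HasOrd.of_unit hu2)
  have hn1 := h1.unique hϖ hlt1 e1
  have hn2 := h2.unique hϖ hlt2 e2
  rw [hn1, hn2]
  ring

/-- the same with the thickness `T = w · (p (p - 1))`, in the shape consumed by
`dvd_sub_of_delta` -/
theorem delta_eq' (hϖ : ϖ ≠ 0) (hlt1 : O1.valuation ϖ < 1) (hlt2 : O2.valuation ϖ < 1)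
    {f c Fp Fm ξ u : E} {p : ℕ} {n : ℤ} (hf : f = c * (Fp / Fm) ^ p * ξ ^ n * u)
    {n1 n2 nc w μp μm : ℤ}
    (h1 : HasOrd O1 ϖ f n1) (h2 : HasOrd O2 ϖ f n2)
    (hc1 : HasOrd O1 ϖ c nc) (hc2 : HasOrd O2 ϖ c nc)
    (hFp1 : O1.valuation Fp = 1) (hFm1 : O1.valuation Fm = 1) (hξ1 : O1.valuation ξ = 1)
    (hu1 : O1.valuation u = 1) (hu2 : O2.valuation u = 1)
    (hξ2 : HasOrd O2 ϖ ξ (w * ((p : ℤ) * ((p : ℤ) - 1)))) (hFp2 : HasOrd O2 ϖ Fp μp)
    (hFm2 : HasOrd O2 ϖ Fm μm) :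
    n2 - n1 = n * w * ((p : ℤ) * ((p : ℤ) - 1)) + (p : ℤ) * (μp - μm) := by
  rw [delta_eq hϖ hlt1 hlt2 hf h1 h2 hc1 hc2 hFp1 hFm1 hξ1 hu1 hu2 hξ2 hFp2 hFm2]
  ring

end Delta

end Fermat.Agent.S44.Core.ExportArith
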