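/-
PROJECT P (S44), CORE, leaf [O4] (helper19): THE EXPORT `w_e a_e(x) = const` (items (d3) + (R4) of the
core page), abstract form on the two end valuations.

Frame: `(L, A)` with residue map `π : A →+* k`, two Gauss branches `R1 R2` of `FL`, a uniformiser
`ϖ0 : L` (non-zero non-unit of `A`), a prime `p = ϖ0 ^ E * unit`, and `u : R1.Oˣ` (the function with
`p D = div u`, normalised at the first Gauss valuation).  At every node `e` a `NodeDatum`:

* the point `Q1` of the first component, the subring `S` of the functions of `O₁` regular on the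
  tube, with the WEAK GLUING `glue` (a function of `S` with `V₂ < 1` has a first reduction vanishing
  at `Q1`: `FrameHyp.glue_node`);
* the coordinate `ξ` (`ξ, ξ⁻¹ ∈ S`, first reduction of order `1` at `Q1`, `V₂ ξ = V₂ (p ^ w)`);
* the two norm polynomials evaluated at `ξ`: `Fp`, `Fm`, units of `O₁`, and `Fp / cp`, `Fm / cm`
  units of `O₂` for constants `cp = ϖ0 ^ jp * unit`, `cm = ϖ0 ^ jm * unit`
  (`TubeFactor.unit_tube_lead`, `unit_tube_const`); the moment is `μ = jp - jm`;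
* `g = u / (Fp / Fm) ^ p` is a unit of the tube: `g, g⁻¹ ∈ S`.

Then with `n := ord_{Q1} (red₁ g)`: `g / ξ ^ n` is a unit at BOTH Gauss valuations (slope lemma,
`Core/Slope`), so `ord₂ u = n w E + p μ` in units of `v(ϖ0)` (`NodeDatum.hasOrd_two`) and
`ord_{Q1} (red₁ u) = n` modulo `p` (`NodeDatum.ord_red_eq`).  Comparing two nodes:

* `exists_const_of_wild` (`E = p (p - 1)`, the moments equal in `k`: `Induct.moment_eq`) and
* `exists_const_of_tame` (`E = p - 1`, no hypothesis on the moments):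
  `∃ c : ZMod p, ∀ e, (w e : ZMod p) * (ord_{Q1 e} (red₁ u) : ZMod p) = c`,
  which is the conclusion of `w_mul_nodeOrd_const_of_peu / _of_tame` in the vocabulary of
  `Core/NodeOrd` (`HasNodeOrd F x a`: `a e = ord_{e1 e} (red₁ u)` modulo `p`).

Mathlib + `S34/NodalDisc` (Branch API) + `Core/Break` (`UnitA`) + `Core/Slope` + `Core/ExportArith`.
-/
import Mathlib
import Fermat.Agent.S34.NodalDisc
import Fermat.Agent.S44.Core.Break
import Fermat.Agent.S44.Core.Slope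
import Fermat.Agent.S44.Core.ExportArith

set_option autoImplicit false
set_option linter.unusedSectionVars false
set_option linter.unusedVariables false

noncomputable section

namespace Fermat.Agent.S44.Core.Export

open AlgebraicCurve Fermat.Agent.S34.NodalDefs Fermat.Agent.S34.NodalDisc
open Fermat.Agent.S44.Core.Break Fermat.Agent.S44.Core.ExportArith

variable {L : Type*} [Field L] {k : Type*} [Field k] {A : ValuationSubring L} {π : A →+* k}
variable {FL : Type*} [Field FL] [Algebra L FL]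

/-! ### one branch: constants and units -/

section OneBranch

variable {Fk : Type*} [Field Fk] [Algebra k Fk] (R : Branch A π FL Fk)

/-- constants of `A` lie in `O` -/
theorem const_mem {a : L} (ha : a ∈ A) : algebraMap L FL a ∈ R.O := R.algebraMap_mem ⟨a, ha⟩

/-- unit constants are units of `O` -/
theorem const_unit {a : L} (ha : UnitA A a) : UnitA R.O (algebraMap L FL a) := by
  rw [unitA_iff]
  refine ⟨(map_ne_zero _).2 ha.ne_zero, const_mem R ha.mem, ?_⟩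
  rw [← map_inv₀]
  exact const_mem R ha.inv_mem

/-- a non-unit constant is a non-unit of `O` -/
theorem const_val_lt {a : L} (ha : a ∈ A.nonunits) : R.O.valuation (algebraMap L FL a) < 1 := by
  have haA : a ∈ A := by
    rw [A.mem_nonunits_iff] at ha
    exact (A.valuation_le_one_iff a).1 ha.le
  have hle : R.O.valuation (algebraMap L FL a) ≤ 1 :=
    (R.O.valuation_le_one_iff _).2 (const_mem R haA)
  refine lt_of_le_of_ne hle fun h1 => ?_
  have hu : UnitA R.O (algebraMap L FL a) := h1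
  have hinv : algebraMap L FL a⁻¹ ∈ R.O := by
    rw [map_inv₀]
    exact hu.inv_mem
  have hinvA : a⁻¹ ∈ A := R.mem_of_algebraMap_mem _ hinv
  rw [A.mem_nonunits_iff] at ha
  have h2 : A.valuation a⁻¹ ≤ 1 := (A.valuation_le_one_iff _).2 hinvA
  rw [map_inv₀] at h2
  rcases eq_or_ne a 0 with rfl | ha0
  · rw [map_zero, map_zero] at h1
    exact zero_ne_one h1
  · have hpos : 0 < A.valuation a := zero_lt_iff.2 ((Valuation.ne_zero_iff _).2 ha0)
    have h3 : 1 ≤ A.valuation a := (inv_le_one₀ hpos).1 h2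
    exact absurd ha (not_lt.2 h3)

/-- the `ϖ0`-order of a constant `ϖ0 ^ j * unit` -/
theorem hasOrd_const {ϖ0 : L} (hϖ0 : ϖ0 ≠ 0) {c β : L} {j : ℤ} (hβ : UnitA A β)
    (hc : c = ϖ0 ^ j * β) : HasOrd R.O (algebraMap L FL ϖ0) (algebraMap L FL c) j := by
  have hϖ' : algebraMap L FL ϖ0 ≠ 0 := (map_ne_zero _).2 hϖ0
  have h1 : algebraMap L FL c = algebraMap L FL ϖ0 ^ j * algebraMap L FL β := by
    rw [hc, map_mul, map_zpow₀]
  rw [h1]
  have h2 := (hasOrd_self_zpow (O := R.O) hϖ' j).mul hϖ' (HasOrd.of_unit (const_unit R hβ))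
  rwa [add_zero] at h2

/-- a unit of `O` from an element of valuation `1` -/
def unitOf {y : FL} (h : UnitA R.O y) : R.Oˣ where
  val := ⟨y, h.mem⟩
  inv := ⟨y⁻¹, h.inv_mem⟩
  val_inv := Subtype.ext (mul_inv_cancel₀ h.ne_zero)
  inv_val := Subtype.ext (inv_mul_cancel₀ h.ne_zero)

@[simp] theorem coe_unitOf {y : FL} (h : UnitA R.O y) :
    (((unitOf R h : R.Oˣ) : R.O) : FL) = y := rfl

/-- the coercion of a unit has valuation `1` -/
theorem unitA_coe (u : R.Oˣ) : UnitA R.O (((u : R.O) : FL)) := by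
  rw [unitA_iff]
  refine ⟨coe_unit_ne_zero R u, (u : R.O).2, ?_⟩
  rw [← coe_inv_unit R u]
  exact ((u⁻¹ : R.Oˣ) : R.O).2

/-- orders of the reduction of a product of units -/
theorem ord_red_mul (u v : R.Oˣ) (Q : Place k Fk) :
    Q.ord (R.red ((u * v : R.Oˣ) : R.O)) =
      Q.ord (R.red (u : R.O)) + Q.ord (R.red (v : R.O)) := by
  rw [Units.val_mul, map_mul, Q.ord_mul (red_unit_ne_zero R u) (red_unit_ne_zero R v)]

/-- orders of the reduction of the inverse of a unit -/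
theorem ord_red_inv (u : R.Oˣ) (Q : Place k Fk) :
    Q.ord (R.red ((u⁻¹ : R.Oˣ) : R.O)) = -Q.ord (R.red (u : R.O)) := by
  rw [red_inv_unit, Place.ord_inv]

/-- orders of the reduction of a power of a unit -/
theorem ord_red_zpow (u : R.Oˣ) (n : ℤ) (Q : Place k Fk) :
    Q.ord (R.red ((u ^ n : R.Oˣ) : R.O)) = n * Q.ord (R.red (u : R.O)) := by
  induction n using Int.induction_on with
  | zero => rw [zpow_zero, Units.val_one, map_one, Place.ord_one, zero_mul]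
  | succ i ih =>
    rw [zpow_add_one, ord_red_mul, ih]
    ring
  | pred i ih =>
    rw [zpow_sub_one, ord_red_mul, ord_red_inv, ih]
    ring

/-- the reduction depends on the element only -/
theorem red_congr' {y z : FL} (h : y = z) (hy : y ∈ R.O) (hz : z ∈ R.O) :
    R.red ⟨y, hy⟩ = R.red ⟨z, hz⟩ := by
  subst h
  rfl

end OneBranch

/-! ### the data at one node -/

variable {F1 : Type*} [Field F1] [Algebra k F1] {F2 : Type*} [Field F2] [Algebra k F2]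

/-- **The data at one node seen by the export** (see the header). -/
structure NodeDatum (R1 : Branch A π FL F1) (R2 : Branch A π FL F2) (ϖ0 : L) (p : ℕ)
    (u : R1.Oˣ) where
  /-- the point of the first component -/
  Q1 : Place k F1
  /-- the functions of `O₁` regular on the tube -/
  S : Subring FL
  /-- the coordinate -/
  ξ : FL
  /-- the thickness, in units of `v(p)` -/
  w : ℕ
  /-- the norm polynomial of the zeros, evaluated at `ξ` -/
  Fp : FL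
  /-- the norm polynomial of the poles, evaluated at `ξ` -/
  Fm : FL
  /-- the constant term of the first polynomial -/
  cp : L
  /-- the constant term of the second polynomial -/
  cm : L
  /-- the order of `cp` -/
  jp : ℤ
  /-- the order of `cm` -/
  jm : ℤ
  S_le : ∀ y ∈ S, y ∈ R1.O
  glue : ∀ (y : FL) (hy : y ∈ S), y ∈ R2.O.nonunits →
    R1.red ⟨y, S_le y hy⟩ = 0 ∨ 0 < Q1.ord (R1.red ⟨y, S_le y hy⟩)
  ξ_mem : ξ ∈ S
  ξ_inv_mem : ξ⁻¹ ∈ S
  ξ_ne : ξ ≠ 0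
  ξ_ord : Q1.ord (R1.red ⟨ξ, S_le ξ ξ_mem⟩) = 1
  ξ_val : R2.O.valuation ξ = R2.O.valuation (algebraMap L FL ((p : L) ^ w))
  Fp_one : UnitA R1.O Fp
  Fm_one : UnitA R1.O Fm
  Fp_two : UnitA R2.O (Fp / algebraMap L FL cp)
  Fm_two : UnitA R2.O (Fm / algebraMap L FL cm)
  cp_eq : ∃ β, UnitA A β ∧ cp = ϖ0 ^ jp * β
  cm_eq : ∃ β, UnitA A β ∧ cm = ϖ0 ^ jm * β
  g_mem : ((u : R1.O) : FL) / (Fp / Fm) ^ p ∈ S
  g_inv_mem : (((u : R1.O) : FL) / (Fp / Fm) ^ p)⁻¹ ∈ S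

namespace NodeDatum

variable {R1 : Branch A π FL F1} {R2 : Branch A π FL F2} {ϖ0 : L} {p : ℕ} {u : R1.Oˣ}
variable (d : NodeDatum R1 R2 ϖ0 p u)

/-- the moment at the node -/
def μ : ℤ := d.jp - d.jm

/-- the coordinate as a unit of `O₁` -/
def ξU : R1.Oˣ :=
  unitOf R1 (unitA_iff.2 ⟨d.ξ_ne, d.S_le _ d.ξ_mem, d.S_le _ d.ξ_inv_mem⟩)

/-- the quotient `Fp / Fm` as a unit of `O₁` -/
def FU : R1.Oˣ := unitOf R1 (d.Fp_one.div d.Fm_one)

/-- `g = u / (Fp / Fm) ^ p` as a unit of `O₁` -/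
def gU : R1.Oˣ := u * (d.FU ^ p)⁻¹

/-- the order at the node of the first reduction of `g` -/
def n : ℤ := d.Q1.ord (R1.red (d.gU : R1.O))

/-- the unit of the tube `g / ξ ^ n` -/
def vU : R1.Oˣ := d.gU * (d.ξU ^ d.n)⁻¹

theorem coe_ξU : (((d.ξU : R1.Oˣ) : R1.O) : FL) = d.ξ := rfl

theorem coe_FU : (((d.FU : R1.Oˣ) : R1.O) : FL) = d.Fp / d.Fm := rfl

theorem coe_gU : (((d.gU : R1.Oˣ) : R1.O) : FL) = ((u : R1.O) : FL) / (d.Fp / d.Fm) ^ p := by
  rw [gU, Units.val_mul, MulMemClass.coe_mul, coe_inv_unit R1, Units.val_pow_eq_pow_val,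
    SubmonoidClass.coe_pow, coe_FU]
  exact (div_eq_mul_inv _ _).symm

theorem coe_zpow_unit (x : R1.Oˣ) (m : ℤ) :
    ((((x ^ m : R1.Oˣ)) : R1.O) : FL) = (((x : R1.O)) : FL) ^ m := by
  induction m using Int.induction_on with
  | zero => rw [zpow_zero, zpow_zero, Units.val_one, OneMemClass.coe_one]
  | succ i ih =>
    rw [zpow_add_one, Units.val_mul, MulMemClass.coe_mul, ih,
      zpow_add_one₀ (coe_unit_ne_zero R1 x)]
  | pred i ih =>
    rw [zpow_sub_one, Units.val_mul, MulMemClass.coe_mul, ih, coe_inv_unit R1,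
      zpow_sub_one₀ (coe_unit_ne_zero R1 x)]

theorem coe_vU : (((d.vU : R1.Oˣ) : R1.O) : FL) =
    ((u : R1.O) : FL) / (d.Fp / d.Fm) ^ p * (d.ξ ^ d.n)⁻¹ := by
  rw [vU, Units.val_mul, MulMemClass.coe_mul, coe_inv_unit R1, coe_zpow_unit, coe_gU, coe_ξU]

/-- integral powers of the coordinate are regular on the tube -/
theorem ξ_zpow_mem (m : ℤ) : d.ξ ^ m ∈ d.S := by
  obtain ⟨i, rfl | rfl⟩ := m.eq_nat_or_neg
  · rw [zpow_natCast]
    exact d.S.pow_mem d.ξ_mem i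
  · rw [zpow_neg, zpow_natCast, ← inv_pow]
    exact d.S.pow_mem d.ξ_inv_mem i

theorem vU_mem : (((d.vU : R1.Oˣ) : R1.O) : FL) ∈ d.S := by
  rw [coe_vU, ← zpow_neg]
  exact d.S.mul_mem d.g_mem (d.ξ_zpow_mem _)

theorem vU_inv_mem : ((((d.vU : R1.Oˣ) : R1.O) : FL))⁻¹ ∈ d.S := by
  rw [coe_vU, mul_inv, inv_inv]
  exact d.S.mul_mem d.g_inv_mem (d.ξ_zpow_mem _)

/-- the first reduction of the coordinate has order `1` at the node -/
theorem ord_red_ξU : d.Q1.ord (R1.red (d.ξU : R1.O)) = 1 := d.ξ_ord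

/-- the first reduction of `g / ξ ^ n` has order `0` at the node -/
theorem ord_red_vU : d.Q1.ord (R1.red (d.vU : R1.O)) = 0 := by
  rw [vU, ord_red_mul, ord_red_inv, ord_red_zpow, ord_red_ξU, n]
  ring

/-- **the order of the first reduction of `u` at the node is `n` modulo `p`** -/
theorem ord_red_eq : d.Q1.ord (R1.red (u : R1.O)) =
    d.n + (p : ℤ) * d.Q1.ord (R1.red (d.FU : R1.O)) := by
  have h1 : u = d.gU * d.FU ^ (p : ℤ) := by rw [zpow_natCast, gU, inv_mul_cancel_right]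
  have h2 : d.Q1.ord (R1.red (u : R1.O)) =
      d.Q1.ord (R1.red ((d.gU * d.FU ^ (p : ℤ) : R1.Oˣ) : R1.O)) := by rw [← h1]
  rw [h2, ord_red_mul, ord_red_zpow, n]

/-- the set of the functions whose first reduction vanishes at the node -/
def q : Set FL := {y | ∀ h : y ∈ R1.O, R1.red ⟨y, h⟩ = 0 ∨ 0 < d.Q1.ord (R1.red ⟨y, h⟩)}

theorem glue_q : ∀ f ∈ d.S, f ∈ R2.O.nonunits → f ∈ d.q := fun f hf h2 h => d.glue f hf h2

theorem unit_not_mem_q (x : R1.Oˣ) (hx : d.Q1.ord (R1.red (x : R1.O)) = 0) :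
    (((x : R1.O)) : FL) ∉ d.q := by
  intro hq
  rcases hq (x : R1.O).2 with h0 | hpos
  · exact red_unit_ne_zero R1 x h0
  · have : d.Q1.ord (R1.red (x : R1.O)) = d.Q1.ord (R1.red ⟨((x : R1.O) : FL), (x : R1.O).2⟩) := rfl
    rw [← this, hx] at hpos
    exact lt_irrefl _ hpos

/-- **`g / ξ ^ n` is a unit of the second Gauss valuation** (the slope lemma) -/
theorem vU_two : UnitA R2.O ((((d.vU : R1.Oˣ) : R1.O)) : FL) := by
  refine Fermat.Agent.S44.Core.Slope.valuation_eq_one_of_unit_at_node R2.O d.S d.q d.glue_q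
    d.vU_mem d.vU_inv_mem (d.unit_not_mem_q d.vU d.ord_red_vU) ?_
  have h1 : ((((d.vU : R1.Oˣ) : R1.O)) : FL)⁻¹ = ((((d.vU⁻¹ : R1.Oˣ)) : R1.O) : FL) :=
    (coe_inv_unit R1 d.vU).symm
  rw [h1]
  refine d.unit_not_mem_q d.vU⁻¹ ?_
  rw [ord_red_inv, ord_red_vU, neg_zero]

/-- the factorisation of `u` at the node -/
theorem coe_eq : ((u : R1.O) : FL) =
    (((d.vU : R1.Oˣ) : R1.O) : FL) * d.ξ ^ d.n * (d.Fp / d.Fm) ^ p := by
  have hF0 : (d.Fp / d.Fm) ^ p ≠ 0 :=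
    pow_ne_zero _ (div_ne_zero d.Fp_one.ne_zero d.Fm_one.ne_zero)
  have hξ0 : d.ξ ^ d.n ≠ 0 := zpow_ne_zero _ d.ξ_ne
  rw [coe_vU]
  field_simp

variable (hϖ0 : ϖ0 ≠ 0)
include hϖ0

/-- the `ϖ0`-order of `Fp` at the second valuation -/
theorem hasOrd_Fp : HasOrd R2.O (algebraMap L FL ϖ0) d.Fp d.jp := by
  obtain ⟨β, hβ, hc⟩ := d.cp_eq
  have hϖ' : algebraMap L FL ϖ0 ≠ 0 := (map_ne_zero _).2 hϖ0
  have hc0 : algebraMap L FL d.cp ≠ 0 := (hasOrd_const R2 hϖ0 hβ hc).ne_zero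
  have h1 : d.Fp = algebraMap L FL d.cp * (d.Fp / algebraMap L FL d.cp) := by
    rw [mul_div_cancel₀ _ hc0]
  rw [h1]
  have h2 := (hasOrd_const R2 hϖ0 hβ hc).mul hϖ' (HasOrd.of_unit d.Fp_two)
  rwa [add_zero] at h2

/-- the `ϖ0`-order of `Fm` at the second valuation -/
theorem hasOrd_Fm : HasOrd R2.O (algebraMap L FL ϖ0) d.Fm d.jm := by
  obtain ⟨β, hβ, hc⟩ := d.cm_eq
  have hϖ' : algebraMap L FL ϖ0 ≠ 0 := (map_ne_zero _).2 hϖ0
  have hc0 : algebraMap L FL d.cm ≠ 0 := (hasOrd_const R2 hϖ0 hβ hc).ne_zero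
  have h1 : d.Fm = algebraMap L FL d.cm * (d.Fm / algebraMap L FL d.cm) := by
    rw [mul_div_cancel₀ _ hc0]
  rw [h1]
  have h2 := (hasOrd_const R2 hϖ0 hβ hc).mul hϖ' (HasOrd.of_unit d.Fm_two)
  rwa [add_zero] at h2

/-- the `ϖ0`-order of the coordinate at the second valuation -/
theorem hasOrd_ξ {E : ℕ} (hE : ∃ v, UnitA A v ∧ (p : L) = ϖ0 ^ E * v) :
    HasOrd R2.O (algebraMap L FL ϖ0) d.ξ ((d.w : ℤ) * E) := by
  obtain ⟨v, hv, hp⟩ := hE
  have hϖ' : algebraMap L FL ϖ0 ≠ 0 := (map_ne_zero _).2 hϖ0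
  have hpw : (p : L) ^ d.w = ϖ0 ^ ((d.w : ℤ) * E) * v ^ d.w := by
    rw [hp, mul_pow, ← pow_mul, mul_comm E d.w, ← zpow_natCast ϖ0 (d.w * E)]
    push_cast
    rfl
  have hvw : UnitA A (v ^ d.w) := by
    have := hv.zpow (d.w : ℤ)
    rwa [zpow_natCast] at this
  have h1 := hasOrd_const R2 hϖ0 hvw hpw
  rw [hasOrd_iff_val hϖ'] at h1 ⊢
  rw [d.ξ_val, h1]

/-- **the `ϖ0`-order of `u` at the second valuation: `n w E + p μ`** -/
theorem hasOrd_two {E : ℕ} (hE : ∃ v, UnitA A v ∧ (p : L) = ϖ0 ^ E * v) :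
    HasOrd R2.O (algebraMap L FL ϖ0) ((u : R1.O) : FL)
      (d.n * ((d.w : ℤ) * E) + (p : ℤ) * d.μ) := by
  have hϖ' : algebraMap L FL ϖ0 ≠ 0 := (map_ne_zero _).2 hϖ0
  rw [d.coe_eq]
  have h1 := ((HasOrd.of_unit (ϖ := algebraMap L FL ϖ0) d.vU_two).mul hϖ'
    ((d.hasOrd_ξ hϖ0 hE).zpow hϖ' d.n)).mul hϖ'
    (((d.hasOrd_Fp hϖ0).div hϖ' (d.hasOrd_Fm hϖ0)).pow hϖ' p)
  rw [zero_add] at h1
  exact h1

end NodeDatum


/-! ### the two ramification hypotheses from a wild frame -/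

section Wild

variable {Γ : Type*} [Group Γ] [MulSemiringAction Γ L] {σ : L ≃+* L} {p : ℕ} {G H : Subgroup Γ}

/-- the wild hypothesis `p = ϖ ^ (p (p - 1)) * unit` -/
theorem hE_wild (W : WildDatum A σ p G H) :
    ∃ v, UnitA A v ∧ (p : L) = W.ϖ ^ (p * (p - 1)) * v := W.e_abs

/-- the tame hypothesis `p = π1 ^ (p - 1) * unit` -/
theorem hE_tame (W : WildDatum A σ p G H) :
    ∃ v, UnitA A v ∧ (p : L) = W.π1 ^ (p - 1) * v := by
  obtain ⟨v, hv, hp⟩ := W.e_abs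
  obtain ⟨v1, hv1, hπ⟩ := W.π1_eq
  refine ⟨v * (v1 ^ (p - 1))⁻¹, hv.mul ?_, ?_⟩
  · have := (hv1.zpow ((p - 1 : ℕ) : ℤ)).inv
    rwa [zpow_natCast] at this
  · have h0 : v1 ^ (p - 1) ≠ 0 := pow_ne_zero _ hv1.ne_zero
    rw [hπ, mul_pow, ← pow_mul, hp]
    field_simp

/-- a constant of `K'` is `ϖ ^ ordK * unit` -/
theorem exists_unit_of_mem_K' (B : BreakDatum A σ) {c : L} (hc : c ∈ B.K') (h0 : c ≠ 0) :
    ∃ β, UnitA A β ∧ c = B.ϖ ^ B.ordK c * β := by
  obtain ⟨β, -, hβ, h⟩ := B.ordK_spec hc h0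
  exact ⟨β, hβ, h⟩

end Wild

/-! ### the two exports -/

section Exports

variable {R1 : Branch A π FL F1} {R2 : Branch A π FL F2} {ϖ0 : L} {p : ℕ} {u : R1.Oˣ}

/-- the comparison of two nodes -/
theorem delta_eq_delta (hϖ0 : ϖ0 ≠ 0) (hnon : ϖ0 ∈ A.nonunits) {E : ℕ}
    (hE : ∃ v, UnitA A v ∧ (p : L) = ϖ0 ^ E * v) (d d' : NodeDatum R1 R2 ϖ0 p u) :
    d.n * ((d.w : ℤ) * E) + (p : ℤ) * d.μ = d'.n * ((d'.w : ℤ) * E) + (p : ℤ) * d'.μ :=
  (d.hasOrd_two hϖ0 hE).unique ((map_ne_zero _).2 hϖ0) (const_val_lt R2 hnon)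
    (d'.hasOrd_two hϖ0 hE)

/-- **THE EXPORT, WILD CASE** (`p = ϖ0 ^ (p (p - 1)) * unit`, the moments equal in `k`). -/
theorem exists_const_of_wild [CharP k p] (hp : p ≠ 0) (hϖ0 : ϖ0 ≠ 0) (hnon : ϖ0 ∈ A.nonunits)
    (hE : ∃ v, UnitA A v ∧ (p : L) = ϖ0 ^ (p * (p - 1)) * v) {ι : Type*}
    (d : ι → NodeDatum R1 R2 ϖ0 p u)
    (hμ : ∀ e e', (((d e).μ : ℤ) : k) = (((d e').μ : ℤ) : k)) :
    ∃ c : ZMod p, ∀ e, (((d e).w : ℕ) : ZMod p) *
      ((((d e).Q1.ord (R1.red (u : R1.O)) : ℤ)) : ZMod p) = c := by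
  classical
  by_cases hne : Nonempty ι
  · obtain ⟨e0⟩ := hne
    have hp1 : ((p * (p - 1) : ℕ) : ℤ) = (p : ℤ) * ((p : ℤ) - 1) := by
      have h1 : 1 ≤ p := Nat.one_le_iff_ne_zero.2 hp
      push_cast [Nat.cast_sub h1]
      ring
    refine exists_const_zmod_nat (k := k) hp
      ((d e0).n * (((d e0).w : ℤ) * (p * (p - 1) : ℕ)) + (p : ℤ) * (d e0).μ)
      (fun e => (d e).n) (fun e => (d e).μ) (fun e => (d e).w) (fun a => ?_) hμ _ (fun e => ?_)
    · rw [delta_eq_delta hϖ0 hnon hE (d e0) (d a), hp1]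
      ring
    · rw [(d e).ord_red_eq]
      push_cast
      rw [ZMod.natCast_self, zero_mul, add_zero]
  · exact ⟨0, fun e => (hne ⟨e⟩).elim⟩

/-- **THE EXPORT, TAME CASE** (`p = ϖ0 ^ (p - 1) * unit`, no hypothesis on the moments). -/
theorem exists_const_of_tame (hp : p ≠ 0) (hϖ0 : ϖ0 ≠ 0) (hnon : ϖ0 ∈ A.nonunits)
    (hE : ∃ v, UnitA A v ∧ (p : L) = ϖ0 ^ (p - 1) * v) {ι : Type*}
    (d : ι → NodeDatum R1 R2 ϖ0 p u) :
    ∃ c : ZMod p, ∀ e, (((d e).w : ℕ) : ZMod p) *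
      ((((d e).Q1.ord (R1.red (u : R1.O)) : ℤ)) : ZMod p) = c := by
  classical
  by_cases hne : Nonempty ι
  · obtain ⟨e0⟩ := hne
    have hp1 : ((p - 1 : ℕ) : ℤ) = (p : ℤ) - 1 := by
      have h1 : 1 ≤ p := Nat.one_le_iff_ne_zero.2 hp
      push_cast [Nat.cast_sub h1]
      ring
    refine exists_const_zmod_tame
      ((d e0).n * (((d e0).w : ℤ) * (p - 1 : ℕ)) + (p : ℤ) * (d e0).μ)
      (fun e => (d e).n) (fun e => -(d e).μ) (fun e => (d e).w) (fun a => ?_) _ (fun e => ?_)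
    · have h := delta_eq_delta hϖ0 hnon hE (d e0) (d a)
      rw [hp1] at h ⊢
      linear_combination h
    · rw [(d e).ord_red_eq]
      push_cast
      rw [ZMod.natCast_self, zero_mul, add_zero]
  · exact ⟨0, fun e => (hne ⟨e⟩).elim⟩

end Exports

end Fermat.Agent.S44.Core.Export
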