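/-
PROJECT P (S44), CORE, Core/ExportTube (helper19): THE NODE DATUM OF THE EXPORT FROM A TUBE FUNCTION.

Frame of `Core/Export` and `Core/NodeFrame`: two Gauss branches `R1 R2` of `FL`, the two places
`Q1 Q2` of a node, its tube, node coordinates `IsNodeCoord R1 R2 Q1 Q2 tube ξ ζ thick` with
`thick = p ^ w`, the gluing of `O₁ ∩ O₂` at the node for the functions without pole on the tube
(`FrameHyp.NodeHyp.glue_node`), a unit `u` of `O₁` with `p D = div u` on the tube and a tube
function `G` of `D` (`Core/NodeFrame.exists_tubeFunction` or `Core/TubeTame.exists_tubeFunction_sub`: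
`ord G = D` on the tube, `G` a unit of `O₁`, `G / c` a unit of `O₂`, `c = ϖ0 ^ j * unit`).

* `tubeRing R1 tube` : the subring of the functions of `O₁` regular on the tube;
* `glue_tubeRing` : the weak gluing `NodeDatum.glue` for `tubeRing`;
* `exists_nodeDatum` : a `NodeDatum R1 R2 ϖ0 p u` (`Core/Export`) with `Q1`, `w` the given ones and
  moment `μ = j`.
-/
import Fermat.Agent.S44.Core.Export
import Fermat.Agent.S44.Core.NodeFrame

set_option autoImplicit false
set_option linter.unusedSectionVars false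
set_option linter.unusedVariables false

noncomputable section

namespace Fermat.Agent.S44.Core.ExportTube

open AlgebraicCurve Fermat.Agent.S24.Ord Fermat.Agent.S34.NodalDefs Fermat.Agent.S34.NodalDisc
open Fermat.Agent.S44.Core.Break Fermat.Agent.S44.Core.Export Fermat.Agent.S44.Core.NodeFrame

variable {L : Type*} [Field L] {k : Type*} [Field k] {A : ValuationSubring L} {π : A →+* k}
variable {FL : Type*} [Field FL] [Algebra L FL]
variable {F1 : Type*} [Field F1] [Algebra k F1] {F2 : Type*} [Field F2] [Algebra k F2]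

/-- the functions of `O₁` which are regular at every place of the tube -/
def tubeRing (R1 : Branch A π FL F1) (tube : Set (Place L FL)) : Subring FL where
  carrier := {y | y ∈ R1.O ∧ ∀ P ∈ tube, y ∈ P.toValuationSubring}
  mul_mem' := fun ha hb => ⟨R1.O.mul_mem _ _ ha.1 hb.1, fun P hP =>
    P.toValuationSubring.mul_mem _ _ (ha.2 P hP) (hb.2 P hP)⟩
  one_mem' := ⟨R1.O.one_mem, fun P _ => P.toValuationSubring.one_mem⟩
  add_mem' := fun ha hb => ⟨R1.O.add_mem _ _ ha.1 hb.1, fun P hP =>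
    P.toValuationSubring.add_mem _ _ (ha.2 P hP) (hb.2 P hP)⟩
  zero_mem' := ⟨R1.O.zero_mem, fun P _ => P.toValuationSubring.zero_mem⟩
  neg_mem' := fun ha => ⟨R1.O.neg_mem _ ha.1, fun P hP =>
    P.toValuationSubring.neg_mem _ (ha.2 P hP)⟩

theorem mem_tubeRing {R1 : Branch A π FL F1} {tube : Set (Place L FL)} {y : FL} :
    y ∈ tubeRing R1 tube ↔ y ∈ R1.O ∧ ∀ P ∈ tube, y ∈ P.toValuationSubring := Iff.rfl

/-- a function without zero or pole at `P` lies in the valuation ring of `P` -/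
theorem mem_of_ord_eq_zero (P : Place L FL) {y : FL} (h : P.ord y = 0) :
    y ∈ P.toValuationSubring := by
  rcases eq_or_ne y 0 with rfl | hy
  · exact P.toValuationSubring.zero_mem
  · rw [mem_iff, ← ord_nonneg_iff P hy, h]

/-- a function of the valuation ring of `P` has no pole at `P` -/
theorem not_ord_neg_of_mem (P : Place L FL) {y : FL} (h : y ∈ P.toValuationSubring) :
    ¬ P.ord y < 0 := by
  rcases eq_or_ne y 0 with rfl | hy
  · rw [Place.ord_zero]
    exact lt_irrefl _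
  · rw [mem_iff, ← ord_nonneg_iff P hy] at h
    exact not_lt.2 h

/-- a unit of `O₁` without zero or pole on the tube is a unit of the tube ring -/
theorem mem_tubeRing_of_ord_eq_zero {R1 : Branch A π FL F1} {tube : Set (Place L FL)} {y : FL}
    (hy : UnitA R1.O y) (h : ∀ P ∈ tube, P.ord y = 0) :
    y ∈ tubeRing R1 tube ∧ y⁻¹ ∈ tubeRing R1 tube := by
  refine ⟨⟨hy.mem, fun P hP => mem_of_ord_eq_zero P (h P hP)⟩, hy.inv_mem, fun P hP => ?_⟩
  refine mem_of_ord_eq_zero P ?_
  rw [Place.ord_inv, h P hP, neg_zero]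

variable {R1 : Branch A π FL F1} {R2 : Branch A π FL F2} {Q1 : Place k F1} {Q2 : Place k F2}
  {tube : Set (Place L FL)}

/-- **the weak gluing on the tube ring**: a function of `O₁` regular on the tube which is a non-unit
of `O₂` has a first reduction vanishing at the node. -/
theorem glue_tubeRing
    (hglue : ∀ (h1 : R1.O) (h2 : R2.O), ((h1 : R1.O) : FL) = ((h2 : R2.O) : FL) →
      (∀ P : Place L FL, P.ord ((h1 : R1.O) : FL) < 0 → P ∉ tube) →
      ∃ γ : k, HasValue Q1 (R1.red h1) γ ∧ HasValue Q2 (R2.red h2) γ)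
    (y : FL) (hy : y ∈ tubeRing R1 tube) (h2 : y ∈ R2.O.nonunits) :
    R1.red ⟨y, hy.1⟩ = 0 ∨ 0 < Q1.ord (R1.red ⟨y, hy.1⟩) := by
  have hy2 : y ∈ R2.O := by
    rw [R2.O.mem_nonunits_iff] at h2
    exact (R2.O.valuation_le_one_iff y).1 h2.le
  obtain ⟨γ, hγ1, hγ2⟩ := hglue ⟨y, hy.1⟩ ⟨y, hy2⟩ rfl
    (fun P hP hPt => not_ord_neg_of_mem P (hy.2 P hPt) hP)
  have hred2 : R2.red ⟨y, hy2⟩ = 0 := by
    rw [R2.red_eq_zero_iff]
    intro hu
    rw [R2.O.mem_nonunits_iff] at h2
    exact (ne_of_lt h2) ((R2.O.valuation_eq_one_iff ⟨y, hy2⟩).1 hu)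
  have hγ0 : algebraMap k F2 γ = 0 := by
    rw [hred2] at hγ2
    rcases hγ2 with h | h
    · exact h.symm
    · by_contra hne
      rw [zero_sub, ← map_neg, ord_algebraMap] at h
      exact lt_irrefl _ h
  have hγ : γ = 0 := by
    by_contra hne
    exact ((_root_.map_ne_zero (algebraMap k F2)).2 hne) hγ0
  rw [hγ] at hγ1
  rcases hγ1 with h | h
  · left
    rw [h, map_zero]
  · right
    rwa [map_zero, sub_zero] at h

variable {ξ ζ : FL} {thick : A}

/-- **The node datum of the export from a tube function.** -/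
theorem exists_nodeDatum (hC : IsNodeCoord R1 R2 Q1 Q2 tube ξ ζ thick) {p w : ℕ}
    (hthick : (thick : L) = (p : L) ^ w)
    (hglue : ∀ (h1 : R1.O) (h2 : R2.O), ((h1 : R1.O) : FL) = ((h2 : R2.O) : FL) →
      (∀ P : Place L FL, P.ord ((h1 : R1.O) : FL) < 0 → P ∉ tube) →
      ∃ γ : k, HasValue Q1 (R1.red h1) γ ∧ HasValue Q2 (R2.red h2) γ)
    {ϖ0 : L} (u : R1.Oˣ) (D : Divisor L FL)
    (hD : ∀ P ∈ tube, (p : ℤ) * D P = P.ord (((u : R1.O)) : FL))
    {G : FL} (hG0 : G ≠ 0) (hGD : ∀ P ∈ tube, P.ord G = D P) (hG1 : UnitA R1.O G)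
    {c : L} {j : ℤ} (hc : ∃ β, UnitA A β ∧ c = ϖ0 ^ j * β)
    (hG2 : UnitA R2.O (G / algebraMap L FL c)) :
    ∃ d : NodeDatum R1 R2 ϖ0 p u, d.Q1 = Q1 ∧ d.w = w ∧ d.μ = j := by
  obtain ⟨hξm, hξo⟩ := hC.ord1
  have hξS := mem_tubeRing_of_ord_eq_zero hC.unit_one hC.ord_eq_zero
  have hu1 : UnitA R1.O (((u : R1.O)) : FL) := unitA_coe R1 u
  have hGp : UnitA R1.O ((G / 1) ^ p) := by
    rw [div_one]
    have := hG1.zpow (p : ℤ)
    rwa [zpow_natCast] at this
  have hg : UnitA R1.O ((((u : R1.O)) : FL) / (G / 1) ^ p) := hu1.div hGp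
  have hg0 : ∀ P ∈ tube, P.ord ((((u : R1.O)) : FL) / (G / 1) ^ p) = 0 := by
    intro P hP
    have hpow : P.ord (G ^ p) = (p : ℤ) * P.ord G := by
      have := P.ord_zpow G (p : ℤ)
      rwa [zpow_natCast] at this
    rw [div_one, Fermat.Agent.S44.Core.TubeFactor.ord_div' P hu1.ne_zero (pow_ne_zero _ hG0),
      hpow, hGD P hP, ← hD P hP]
    ring
  have hgS := mem_tubeRing_of_ord_eq_zero hg hg0
  refine ⟨{ Q1 := Q1, S := tubeRing R1 tube, ξ := ξ, w := w, Fp := G, Fm := 1, cp := c, cm := 1,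
            jp := j, jm := 0,
            S_le := fun y hy => hy.1,
            glue := fun y hy h2 => glue_tubeRing hglue y hy h2,
            ξ_mem := hξS.1, ξ_inv_mem := hξS.2, ξ_ne := hC.ξ_ne, ξ_ord := hξo,
            ξ_val := by rw [hC.val_two, hthick],
            Fp_one := hG1, Fm_one := unitA_one, Fp_two := hG2,
            Fm_two := by rw [map_one, div_one]; exact unitA_one,
            cp_eq := hc, cm_eq := ⟨1, unitA_one, by rw [zpow_zero, one_mul]⟩,
            g_mem := hgS.1, g_inv_mem := hgS.2 }, rfl, rfl, ?_⟩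
  show j - 0 = j
  rw [sub_zero]

end Fermat.Agent.S44.Core.ExportTube

end
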