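/-
PROJECT P (S44), CORE, Core/TubeTame (helper19): THE TUBE FUNCTION OF A DIVISOR WITHOUT BREAK DATUM
(the tame twin of `Core/NodeFrame.exists_tubeFunction`).

Frame of `Core/NodeFrame`: `(L, A)`, `π : A →+* k`, two Gauss branches `R1 R2` of `FL`, node
coordinates `IsNodeCoord R1 R2 Q1 Q2 tube ξ ζ thick`, the local count.  For a group `Hs` of
semilinear automorphisms fixing `ξ` and the tube whose fixed constants lie in a subfield `K1` of `L`
and an `Hs`-stable divisor `D`:

* `unitA_aeval_ofRoots` : `F(ξ)` is a unit of `O` when `ξ` is and the roots are non-units of `A`;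
* `unitA_aeval_div_coeff` : `F(ξ) / F(0)` is a unit of `O` when `ξ ζ = thick`, `ζ⁻¹ ∈ O` and
  `thick / z` is a non-unit of `A` for every root `z`;
* `exists_tubeFunction_sub` : `G = F⁺(ξ) / F⁻(ξ)` has divisor `D` on the tube, is a unit of `O₁`,
  and `G / c` is a unit of `O₂` for a non-zero constant `c ∈ K1`.

No `σ`, no displacement: this is all the tame export needs.
-/
import Fermat.Agent.S44.Core.NodeFrame

set_option autoImplicit false
set_option linter.unusedSectionVars false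
set_option linter.unusedVariables false

namespace Fermat.Agent.S44.Core.TubeTame

open Polynomial AlgebraicCurve Fermat.Agent.S24.Ord Fermat.Agent.S34.NodalDefs
  Fermat.Agent.S34.NodalDisc
open Fermat.Agent.S44.Core.Break Fermat.Agent.S44.Core.NormPoly Fermat.Agent.S44.Core.Induct
  Fermat.Agent.S44.Core.TubeFactor Fermat.Agent.S44.Core.TubeCount
  Fermat.Agent.S44.Core.TubeCoord Fermat.Agent.S44.Core.NodeFrame

variable {L : Type*} [Field L] {k : Type*} [Field k] {A : ValuationSubring L} {π : A →+* k}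
variable {FL : Type*} [Field FL] [Algebra L FL]

/-! ### one branch -/

section OneBranch

variable {Fk : Type*} [Field Fk] [Algebra k Fk] (R : Branch A π FL Fk)

/-- `F(ξ)` is a unit as soon as `ξ` is and the roots of `F` are non-units of `A` -/
theorem unitA_aeval_ofRoots {ξ : FL} (hξu : UnitA R.O ξ) (s : Multiset L)
    (hsA : ∀ y ∈ s, y ∈ A.nonunits) : UnitA R.O (aeval ξ (ofRoots s)) := by
  induction s using Multiset.induction_on with
  | empty =>
    rw [ofRoots_zero, map_one]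
    exact unitA_one
  | cons z s ih =>
    have hz : z ∈ A.nonunits := hsA z (Multiset.mem_cons_self z s)
    have ih' := ih fun y hy => hsA y (Multiset.mem_cons_of_mem hy)
    rw [ofRoots_cons, map_mul, map_sub, aeval_X, aeval_C]
    refine ih'.mul ?_
    have hξ0 := hξu.ne_zero
    have h1 : ξ - algebraMap L FL z = ξ * (1 + -(algebraMap L FL z * ξ⁻¹)) := by
      field_simp
      ring
    rw [h1]
    exact hξu.mul (unitA_one_add (non_neg (non_mul_mem (const_non R hz) hξu.inv_mem)))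

/-- `F(ξ) / F(0)` is a unit when `ξ ζ = thick`, `ζ⁻¹ ∈ O` and `thick / z` is a non-unit of `A` for
every root `z` of `F` -/
theorem unitA_aeval_div_coeff {ξ ζ : FL} {thick : L} (hξ0 : ξ ≠ 0)
    (hmul : ξ * ζ = algebraMap L FL thick) (hζ0 : ζ ≠ 0) (hζi : ζ⁻¹ ∈ R.O)
    (s : Multiset L) (hs0 : ∀ y ∈ s, y ≠ 0) (hst : ∀ y ∈ s, thick / y ∈ A.nonunits) :
    UnitA R.O (aeval ξ (ofRoots s) / algebraMap L FL ((ofRoots s).coeff 0)) := by
  induction s using Multiset.induction_on with
  | empty =>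
    rw [ofRoots_zero, map_one, coeff_one_zero, map_one, div_one]
    exact unitA_one
  | cons z s ih =>
    have hz0 : z ≠ 0 := hs0 z (Multiset.mem_cons_self z s)
    have hzt : thick / z ∈ A.nonunits := hst z (Multiset.mem_cons_self z s)
    have hs0' : ∀ y ∈ s, y ≠ 0 := fun y hy => hs0 y (Multiset.mem_cons_of_mem hy)
    have ih' := ih hs0' fun y hy => hst y (Multiset.mem_cons_of_mem hy)
    have hc0 : (ofRoots s).coeff 0 ≠ 0 := coeff_zero_ofRoots_ne_zero s hs0'
    have hcE : algebraMap L FL ((ofRoots s).coeff 0) ≠ 0 := (_root_.map_ne_zero _).2 hc0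
    have hzE : algebraMap L FL z ≠ 0 := (_root_.map_ne_zero _).2 hz0
    have hξ : ξ = algebraMap L FL thick * ζ⁻¹ := by
      rw [← hmul]
      field_simp
    have h1 : aeval ξ (ofRoots (z ::ₘ s)) / algebraMap L FL ((ofRoots (z ::ₘ s)).coeff 0) =
        aeval ξ (ofRoots s) / algebraMap L FL ((ofRoots s).coeff 0) *
          (1 + -(algebraMap L FL (thick / z) * ζ⁻¹)) := by
      rw [coeff_ofRoots_cons_zero, ofRoots_cons, map_mul, map_sub, aeval_X, aeval_C, map_neg,
        map_mul, map_div₀]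
      conv_lhs => rw [hξ]
      conv_rhs => rw [hξ]
      field_simp
      ring
    rw [h1]
    exact ih'.mul (unitA_one_add (non_neg (non_mul_mem (const_non R hzt) hζi)))

end OneBranch

/-! ### the tube function -/

section Node

variable {F1 : Type*} [Field F1] [Algebra k F1] {F2 : Type*} [Field F2] [Algebra k F2]
variable [HasPrincipalDivisors L FL]
variable {R1 : Branch A π FL F1} {R2 : Branch A π FL F2} {Q1 : Place k F1} {Q2 : Place k F2}
  {tube : Set (Place L FL)} {ξ ζ : FL} {thick : A}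

/-- **The tube function of `D` over a subfield of constants**: `G = F⁺(ξ) / F⁻(ξ)` has divisor `D`
on the tube, is a unit of `O₁`, and `G / c` is a unit of `O₂` for a non-zero constant `c ∈ K1`. -/
theorem exists_tubeFunction_sub (K1 : Subfield L)
    (hC : IsNodeCoord R1 R2 Q1 Q2 tube ξ ζ thick)
    (hLC : LocalCount R1 R2 tube Q1 Q2) (hcomm : Commens A) (hdeg : ∀ P : Place L FL, P.deg = 1)
    (Hs : Subgroup (SemilinearAut L FL))
    (hfix : ∀ c : L, (∀ g' ∈ Hs, SemilinearAut.baseAut g' c = c) → c ∈ K1)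
    (hHξ : ∀ g' ∈ Hs, g' • ξ = ξ) (hHt : ∀ g' ∈ Hs, ∀ P, g' • P ∈ tube ↔ P ∈ tube)
    (D : Divisor L FL) (hHD : ∀ g' ∈ Hs, g' • D = D) :
    ∃ G : FL, G ≠ 0 ∧ (∀ P ∈ tube, P.ord G = D P) ∧ UnitA R1.O G ∧
      ∃ c ∈ K1, c ≠ 0 ∧ UnitA R2.O (G / algebraMap L FL c) := by
  classical
  set S := tubeSupport tube D with hS
  have hST : ∀ P ∈ S, P ∈ tube := fun P hP => (mem_tubeSupport.1 hP).2
  have hco := fun P (hP : P ∈ S) => hC.coord hLC hcomm hdeg (hST P hP)
  have hK : ∀ (n : ℤ → ℕ) (j : ℕ),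
      (ofRoots (rootsOf S (val ξ) fun P => n (D P))).coeff j ∈ K1 := by
    intro n j
    refine hfix _ fun g' hg' => ?_
    have hDg : ∀ P, D (g' • P) = D P := by
      intro P
      have h1 := SemilinearAut.divisor_smul_apply_smul g' D P
      rw [hHD g' hg'] at h1
      exact h1
    have heS : ∀ P, P ∈ S ↔ (MulAction.toPerm g' : Place L FL ≃ Place L FL) P ∈ S := by
      intro P
      rw [hS, mem_tubeSupport, mem_tubeSupport, MulAction.toPerm_apply, hDg P, hHt g' hg' P]
    exact coeff_fixed S (val ξ) (fun P => n (D P))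
      ((SemilinearAut.baseAut g' : L ≃+* L) : L →+* L) (MulAction.toPerm g') heS
      (fun P _ => by rw [MulAction.toPerm_apply, hDg P])
      (fun P hP => by
        rw [MulAction.toPerm_apply,
          val_smul g' (hHξ g' hg') (c := val ξ P) (by rw [(hco P hP).2.2.2.1]; exact one_pos)]
        rfl) j
  have hmem : ∀ {n : Place L FL → ℕ} {y : L}, y ∈ rootsOf S (val ξ) n → ∃ P ∈ S, y = val ξ P :=
    fun hy => mem_rootsOf hy
  have hA : ∀ (n : Place L FL → ℕ), ∀ y ∈ rootsOf S (val ξ) n, y ∈ A.nonunits := by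
    intro n y hy
    obtain ⟨P, hP, rfl⟩ := hmem hy
    exact (hco P hP).2.1
  have h0 : ∀ (n : Place L FL → ℕ), ∀ y ∈ rootsOf S (val ξ) n, y ≠ 0 := by
    intro n y hy
    obtain ⟨P, hP, rfl⟩ := hmem hy
    exact (hco P hP).1
  have ht : ∀ (n : Place L FL → ℕ), ∀ y ∈ rootsOf S (val ξ) n,
      (thick : L) / y ∈ A.nonunits := by
    intro n y hy
    obtain ⟨P, hP, rfl⟩ := hmem hy
    exact (hco P hP).2.2.1
  set np : Place L FL → ℕ := fun P => (D P).toNat with hnp
  set nm : Place L FL → ℕ := fun P => (-D P).toNat with hnm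
  set Fp : L[X] := ofRoots (rootsOf S (val ξ) np) with hFp
  set Fm : L[X] := ofRoots (rootsOf S (val ξ) nm) with hFm
  have hKp : ∀ j, Fp.coeff j ∈ K1 := hK fun m => m.toNat
  have hKm : ∀ j, Fm.coeff j ∈ K1 := hK fun m => (-m).toNat
  have hup := unitA_aeval_ofRoots R1 hC.unit_one _ (hA np)
  have hum := unitA_aeval_ofRoots R1 hC.unit_one _ (hA nm)
  have hcp := unitA_aeval_div_coeff R2 hC.ξ_ne hC.mul hC.ζ_ne hC.unit_two.inv_mem _ (h0 np) (ht np)
  have hcm := unitA_aeval_div_coeff R2 hC.ξ_ne hC.mul hC.ζ_ne hC.unit_two.inv_mem _ (h0 nm) (ht nm)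
  have hp0 : Fp.coeff 0 ≠ 0 := coeff_zero_ofRoots_ne_zero _ (h0 np)
  have hm0 : Fm.coeff 0 ≠ 0 := coeff_zero_ofRoots_ne_zero _ (h0 nm)
  have hf4 : ∀ P0 ∈ S, P0.ord (ξ - algebraMap L FL (val ξ P0)) = 1 ∧
      ∀ P ∈ tube, P ≠ P0 → P.ord (ξ - algebraMap L FL (val ξ P0)) = 0 :=
    fun P hP => (hco P hP).2.2.2
  refine ⟨aeval ξ Fp / aeval ξ Fm, div_ne_zero hup.ne_zero hum.ne_zero, fun P hP => ?_,
    hup.div hum, Fp.coeff 0 / Fm.coeff 0, K1.div_mem (hKp 0) (hKm 0), div_ne_zero hp0 hm0, ?_⟩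
  · obtain ⟨hp_in, hp_out⟩ := ord_aeval_rootsOf S (val ξ) hf4 np hP
    obtain ⟨hm_in, hm_out⟩ := ord_aeval_rootsOf S (val ξ) hf4 nm hP
    rw [ord_div' P hup.ne_zero hum.ne_zero]
    by_cases hPS : P ∈ S
    · rw [hp_in hPS, hm_in hPS]
      exact Int.toNat_sub_toNat_neg (D P)
    · rw [hp_out hPS, hm_out hPS, sub_zero]
      by_contra hne
      exact hPS (mem_tubeSupport.2 ⟨fun h => hne h.symm, hP⟩)
  · have h1 : aeval ξ Fp / aeval ξ Fm / algebraMap L FL (Fp.coeff 0 / Fm.coeff 0) =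
        (aeval ξ Fp / algebraMap L FL (Fp.coeff 0)) /
          (aeval ξ Fm / algebraMap L FL (Fm.coeff 0)) := by
      have e1 : algebraMap L FL (Fp.coeff 0) ≠ 0 := (_root_.map_ne_zero _).2 hp0
      have e2 : algebraMap L FL (Fm.coeff 0) ≠ 0 := (_root_.map_ne_zero _).2 hm0
      have e3 := hum.ne_zero
      rw [map_div₀]
      field_simp
    rw [h1]
    exact hcp.div hcm

end Node

end Fermat.Agent.S44.Core.TubeTame
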