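import Mathlib
import Fermat.Agent.S34.PcgCusp
import Fermat.Agent.S44.Core.Factor
import Fermat.Agent.S44.Core.FrameHyp

/-!
# PROJECT P (S44), CORE, leaf [O1]: THE THREE ORACLES OF `Core/Induct` FROM LOCAL FACTORS

Frame of Route G (`S34/PcgCusp.Hyp`): two components `R1 R2 : SmoothRed A π FL κ`, total
specialisation maps `sp1 sp2`, the Frobenius `Fr`, the node set `N`, pole control `pc1 pc2` at one
place and the local gluing `FrameHyp.glue_at` at one node.  `B : BreakDatum A σ` (`Core/Break`).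
The vocabulary `IsFactor R1 R2 B T h ρ θ j₁ j₂` is the one of `Core/Factor` (helper6), imported.

A LEVEL FUNCTION of `h` (`IsLevel B h y`) is `y = h / c` or `y = Y r c = (h / c - 1) / ϖ^r`
(`1 ≤ r ≤ s`) with `c ∈ K'`, `c ≠ 0`; every level function is `y = c' h + c''` with the twist
`a := -(c'' ϖ^s) ∈ A` (`IsLevel.exists_lin`).

* `red_transfer`, `transfer_one` : ONE branch `R`, `θ ∈ O` with `red θ = j` constant,
  `ρ = 1 + ϖ^s θ`, `y = c' h + c'' ∈ O` : then `G := c' (h / ρ) + c'' ∈ O` and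
  `red G = red y - π a * j`;  `reg_lin` : `G` has no pole where `h / ρ` has none;
* `value_at_node` : at a node `b`, from a factor on the tube `{P | sp1 P = Fr b}` with jumps
  `(0, j₂)`: the two reductions of `y` have values `γ` at `Fr b` and `γ + π a * j₂` at `b`
  (`FrameHyp.glue_at`);
* `regular_of_disc_factor` : ONE branch `R`, a GOOD place `Q`, a factor on the DISC
  `{P | R.r P = some Q}` (any constant jumps): `red y` is regular at `Q`
  (`S34/NodalDisc.red_regular`, no second branch, no pole control);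
* `regular1_of_regular`, `regular2_of_regular` : if `h` itself has no pole over `Q` then
  `red_i y` is regular at `Q` (`H.pc1`, `H.pc2`);
* `exists_consts` : node factors + regularity of the two reductions of `y` off the nodes
  => both reductions are constants `κ₁`, `κ₂` with `κ₁ = κ₂ - π a * jmp b` at every node `b`;
* `or0`, `orr`, `ors` : the three oracles of `Core/Induct.moment_eq`, verbatim
  (`ι := {b // b ∈ N}`, `jmp b = ᾱ μ_b`), from the node factors `hnode` and the regularity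
  `hoff1`, `hoff2` of the reductions of the LEVEL FUNCTIONS at the places which are not nodes;
* `levelRegular1`, `levelRegular2` : `hoff1`, `hoff2` from disc factors at the good places and
  `h` pole-free over the other places which are not nodes;
* `moment_eq_of_factors` (from `hnode`, `hoff1`, `hoff2`) and `moment_eq_of_disc_factors` (from
  `hnode`, the disc factors and the pole-free clause): `μ_b = μ_b'` in `k` for all nodes.
-/

set_option autoImplicit false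
set_option linter.unusedSectionVars false
set_option linter.unusedVariables false

namespace Fermat.Agent.S44.Core.Oracle

open AlgebraicCurve Fermat.Agent.S34.NodalDefs Fermat.Agent.S34.NodalDisc
open Fermat.Agent.S34.Generic.Dich Fermat.Agent.S34.PcgOfSandwich
open Fermat.Agent.S44.Core.Break Fermat.Agent.S44.Core.NormPoly Fermat.Agent.S44.Core.Induct
open Fermat.Agent.S44.Core.Factor

variable {L : Type*} [Field L] {k : Type*} [Field k] {A : ValuationSubring L} {π : A →+* k}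
variable {FL : Type*} [Field FL] [Algebra L FL]
variable {σ : L ≃+* L}

/-! ### places -/

/-- a function regular at `P` has no pole at `P` -/
theorem not_ord_neg {P : Place L FL} {G : FL} (hG : P.adicValuation G ≤ 1) : ¬ P.ord G < 0 :=
  fun hneg => (P.not_adicValuation_le_one_iff.mpr hneg) hG

/-- `c' x + c''` is regular where `x` is -/
theorem reg_lin {T : Set (Place L FL)} {x : FL} (hreg : ∀ P ∈ T, P.adicValuation x ≤ 1)
    (c' c'' : L) :
    ∀ P ∈ T, P.adicValuation (algebraMap L FL c' * x + algebraMap L FL c'') ≤ 1 := by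
  intro P hP
  refine Valuation.map_add_le _ ?_ (P.adicValuation_algebraMap_le_one c'')
  rw [map_mul]
  exact mul_le_one' (P.adicValuation_algebraMap_le_one c') (hreg P hP)

/-! ### one branch -/

section OneBranch

variable {Fk : Type*} [Field Fk] [Algebra k Fk] (R : Branch A π FL Fk) (B : BreakDatum A σ)

/-- `ϖ^s θ` is a non-unit of `O` -/
theorem pow_mul_non {θ : FL} (hθ : θ ∈ R.O) :
    algebraMap L FL (B.ϖ ^ B.s) * θ ∈ R.O.nonunits := by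
  have h3 : B.ϖ ^ B.s ∈ A.nonunits := by
    rw [A.mem_nonunits_iff, map_pow]
    exact pow_lt_one₀ zero_le B.val_ϖ_lt B.s_pos.ne'
  exact non_mul_mem (const_non R h3) hθ

/-- the explicit factor is a unit of `O` -/
theorem unit_factor {θ ρ : FL} (hθ : θ ∈ R.O)
    (hρ : ρ = 1 + algebraMap L FL (B.ϖ ^ B.s) * θ) : UnitA R.O ρ := by
  rw [hρ]
  exact unitA_one_add (pow_mul_non R B hθ)

/-- the explicit factor reduces to `1` -/
theorem red_factor {θ ρ : FL} (hθ : θ ∈ R.O)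
    (hρ : ρ = 1 + algebraMap L FL (B.ϖ ^ B.s) * θ) (hm : ρ ∈ R.O) : R.red ⟨ρ, hm⟩ = 1 := by
  have hx := pow_mul_non R B hθ
  have h1 : (⟨ρ, hm⟩ : R.O) = 1 + ⟨algebraMap L FL (B.ϖ ^ B.s) * θ, mem_of_non hx⟩ :=
    Subtype.ext hρ
  rw [h1, map_add, map_one, (red_eq_zero_iff_non R _).2 hx, add_zero]

/-- **division by the explicit factor**: `(y - a θ) / ρ ∈ O` with reduction
`red y - π a * red θ` -/
theorem red_transfer {θ ρ y : FL} {a : L} (ha : a ∈ A) (hθ : θ ∈ R.O)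
    (hρ : ρ = 1 + algebraMap L FL (B.ϖ ^ B.s) * θ) (hy : y ∈ R.O) :
    ∃ hG : (y - algebraMap L FL a * θ) / ρ ∈ R.O,
      R.red ⟨_, hG⟩ = R.red ⟨y, hy⟩ - algebraMap k Fk (π ⟨a, ha⟩) * R.red ⟨θ, hθ⟩ := by
  have hu := unit_factor R B hθ hρ
  have hnum : y - algebraMap L FL a * θ ∈ R.O := sub_mem hy (mul_mem (const_mem R ha) hθ)
  have hG : (y - algebraMap L FL a * θ) / ρ ∈ R.O := by
    rw [div_eq_mul_inv]
    exact mul_mem hnum hu.inv_mem
  refine ⟨hG, ?_⟩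
  have h1 : (⟨(y - algebraMap L FL a * θ) / ρ, hG⟩ : R.O) =
      (⟨y, hy⟩ - ⟨algebraMap L FL a, const_mem R ha⟩ * ⟨θ, hθ⟩) * ⟨ρ⁻¹, hu.inv_mem⟩ :=
    Subtype.ext (div_eq_mul_inv _ _)
  have h2 : R.red ⟨ρ⁻¹, hu.inv_mem⟩ = 1 := by
    have h3 : (⟨ρ, hu.mem⟩ : R.O) * ⟨ρ⁻¹, hu.inv_mem⟩ = 1 :=
      Subtype.ext (mul_inv_cancel₀ hu.ne_zero)
    have h4 := congrArg R.red h3
    rwa [map_mul, red_factor R B hθ hρ hu.mem, one_mul, map_one] at h4
  rw [h1, map_mul, h2, mul_one, map_sub, map_mul, red_const R ha (const_mem R ha)]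

variable {B}

/-- the algebraic identity `(y - a θ) / ρ = c' (h / ρ) + c''` for `y = c' h + c''`,
`a = -(c'' ϖ^s)` -/
theorem div_factor_eq {h ρ θ : FL} {c' c'' a : L} (ha : a = -(c'' * B.ϖ ^ B.s))
    (hρ : ρ = 1 + algebraMap L FL (B.ϖ ^ B.s) * θ) (hρ0 : ρ ≠ 0) :
    (algebraMap L FL c' * h + algebraMap L FL c'' - algebraMap L FL a * θ) / ρ =
      algebraMap L FL c' * (h / ρ) + algebraMap L FL c'' := by
  rw [div_eq_iff hρ0, add_mul, mul_assoc, div_mul_cancel₀ _ hρ0, ha, map_neg, map_mul]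
  conv_rhs => rw [hρ]
  ring

/-- **division of `y = c' h + c''` by the explicit factor, one branch**:
`G := c' (h / ρ) + c'' ∈ O` and `red G = red y - π a * j` -/
theorem transfer_one {h ρ θ : FL} {j : k} {c' c'' a : L} (haA : a ∈ A)
    (ha : a = -(c'' * B.ϖ ^ B.s)) (hθ : θ ∈ R.O)
    (hρ : ρ = 1 + algebraMap L FL (B.ϖ ^ B.s) * θ)
    (hred : R.red ⟨θ, hθ⟩ = algebraMap k Fk j)
    (hy : algebraMap L FL c' * h + algebraMap L FL c'' ∈ R.O) :
    ∃ hG : algebraMap L FL c' * (h / ρ) + algebraMap L FL c'' ∈ R.O,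
      R.red ⟨_, hG⟩ = R.red ⟨_, hy⟩ - algebraMap k Fk (π ⟨a, haA⟩ * j) := by
  have hρ0 : ρ ≠ 0 := (unit_factor R B hθ hρ).ne_zero
  obtain ⟨g, hg⟩ := red_transfer R B haA hθ hρ hy
  have hid := div_factor_eq (h := h) (c' := c') ha hρ hρ0
  have hG : algebraMap L FL c' * (h / ρ) + algebraMap L FL c'' ∈ R.O := hid ▸ g
  refine ⟨hG, ?_⟩
  rw [← red_congr R hid g hG, hg, hred, map_mul]

end OneBranch

/-! ### the level functions -/

section Level

variable {B : BreakDatum A σ} {h : FL}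

/-- **the level functions of `h`** : `h / c` and `Y r c = (h / c - 1) / ϖ^r`, `1 ≤ r ≤ s`,
for the non-zero constants `c` of `K'` -/
def IsLevel (B : BreakDatum A σ) (h y : FL) : Prop :=
  (∃ c ∈ B.K', c ≠ 0 ∧ y = h / algebraMap L FL c) ∨
    ∃ r : ℕ, 1 ≤ r ∧ r ≤ B.s ∧ ∃ c ∈ B.K', c ≠ 0 ∧ y = Y B h r c

theorem isLevel_div {c : L} (hc : c ∈ B.K') (hc0 : c ≠ 0) :
    IsLevel B h (h / algebraMap L FL c) :=
  Or.inl ⟨c, hc, hc0, rfl⟩

theorem isLevel_Y {r : ℕ} (hr1 : 1 ≤ r) (hrs : r ≤ B.s) {c : L} (hc : c ∈ B.K') (hc0 : c ≠ 0) :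
    IsLevel B h (Y B h r c) :=
  Or.inr ⟨r, hr1, hrs, c, hc, hc0, rfl⟩

/-- `h / c = c⁻¹ h + 0` -/
theorem div_const_eq (c : L) :
    h / algebraMap L FL c = algebraMap L FL c⁻¹ * h + algebraMap L FL 0 := by
  rw [map_zero, add_zero, map_inv₀, div_eq_inv_mul]

/-- `Y r c = (c⁻¹ (ϖ^r)⁻¹) h + (-(ϖ^r)⁻¹)` -/
theorem Y_eq (r : ℕ) (c : L) :
    Y B h r c = algebraMap L FL (c⁻¹ * (B.ϖ ^ r)⁻¹) * h + algebraMap L FL (-(B.ϖ ^ r)⁻¹) := by
  rw [Y, map_mul, map_neg, map_inv₀, map_inv₀]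
  ring

/-- the twist `a = ϖ^(s - r)` of the level `r ≤ s` -/
theorem twist_eq {r : ℕ} (hr : r ≤ B.s) :
    B.ϖ ^ (B.s - r) = -(-(B.ϖ ^ r)⁻¹ * B.ϖ ^ B.s) := by
  have h0 : B.ϖ ^ r ≠ 0 := pow_ne_zero r B.ϖ_ne
  have h1 : B.ϖ ^ B.s = B.ϖ ^ (B.s - r) * B.ϖ ^ r := by
    rw [← pow_add, Nat.sub_add_cancel hr]
  rw [h1]
  field_simp

/-- every level function is `c' h + c''` with the twist `a = -(c'' ϖ^s)` in `A` -/
theorem IsLevel.exists_lin {y : FL} (hy : IsLevel B h y) :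
    ∃ c' c'' a : L, a ∈ A ∧ a = -(c'' * B.ϖ ^ B.s) ∧
      y = algebraMap L FL c' * h + algebraMap L FL c'' := by
  rcases hy with ⟨c, -, -, rfl⟩ | ⟨r, -, hrs, c, -, -, rfl⟩
  · exact ⟨c⁻¹, 0, 0, A.zero_mem, by rw [zero_mul, neg_zero], div_const_eq c⟩
  · exact ⟨_, _, B.ϖ ^ (B.s - r), pow_mem B.ϖ_memA _, twist_eq hrs, Y_eq r c⟩

end Level

/-! ### the frame of Route G -/

section Frame

variable {κ : Type*} [Field κ] [Algebra k κ]
variable {R1 R2 : SmoothRed A π FL κ} {Fr : Place k κ → Place k κ}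
  {sp1 sp2 : Place L FL → Place k κ} {cuspL : Set (Place L FL)} {N : Finset (Place k κ)}
variable {B : BreakDatum A σ} {h : FL}

/-- a function with a value is regular -/
theorem ord_nonneg_of_hasValue {Q : Place k κ} {φ : κ} {γ : k} (hv : HasValue Q φ γ) :
    0 ≤ Q.ord φ := by
  have h1 := ((hasValue_iff Q φ γ).mp hv).le_one
  rcases Q.adicValuation_le_one_iff.mp h1 with h0 | h0
  · rw [h0, Place.ord_zero]
  · exact h0

/-- the value of a constant -/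
theorem eq_of_hasValue_const {Q : Place k κ} {c γ : k}
    (hv : HasValue Q (algebraMap k κ c) γ) : c = γ :=
  (hasVal_const Q c).unique ((hasValue_iff Q _ γ).mp hv)

/-- **at a node**: the two reductions of `y = c' h + c''` have the values `γ`, `γ + π a * j₂` -/
theorem value_at_node (H : Fermat.Agent.S34.PcgCusp.Hyp R1 R2 Fr sp1 sp2 cuspL N)
    {b : Place k κ} (hb : b ∈ N) {ρ θ : FL} {j2 : k}
    (hF : IsFactor R1.toBranch R2.toBranch B {P | sp1 P = Fr b} h ρ θ 0 j2) {c' c'' a : L}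
    (haA : a ∈ A) (ha : a = -(c'' * B.ϖ ^ B.s))
    (hy1 : algebraMap L FL c' * h + algebraMap L FL c'' ∈ R1.O)
    (hy2 : algebraMap L FL c' * h + algebraMap L FL c'' ∈ R2.O) :
    ∃ γ : k, HasValue (Fr b) (R1.red ⟨_, hy1⟩) γ ∧
      HasValue b (R2.red ⟨_, hy2⟩) (γ + π ⟨a, haA⟩ * j2) := by
  obtain ⟨g1, hr1⟩ := transfer_one R1.toBranch haA ha hF.mem1 hF.eq hF.red1 hy1
  obtain ⟨g2, hr2⟩ := transfer_one R2.toBranch haA ha hF.mem2 hF.eq hF.red2 hy2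
  have hreg := reg_lin hF.reg c' c''
  obtain ⟨γ, hγ1, hγ2⟩ := Fermat.Agent.S44.Core.FrameHyp.glue_at H ⟨_, g1⟩ ⟨_, g2⟩ rfl hb
    (fun P hP hsp => not_ord_neg (hreg P hsp) hP)
  refine ⟨γ, ?_, ?_⟩
  · have h1 : R1.red ⟨_, g1⟩ = R1.red ⟨_, hy1⟩ := by
      have := hr1
      rwa [mul_zero, map_zero, sub_zero] at this
    rw [← h1]
    exact hγ1
  · have h2 : R2.red ⟨_, hy2⟩ = R2.red ⟨_, g2⟩ + algebraMap k κ (π ⟨a, haA⟩ * j2) := by
      have : R2.red ⟨_, g2⟩ = R2.red ⟨_, hy2⟩ - algebraMap k κ (π ⟨a, haA⟩ * j2) := hr2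
      rw [this, sub_add_cancel]
    rw [h2, hasValue_iff]
    exact ((hasValue_iff _ _ _).mp hγ2).add (hasVal_const b _)

/-- **at a good place, ONE branch**: from a factor on the DISC `{P | R.r P = some Q}` (any
constant jumps, any second branch) the reduction of `y = c' h + c''` is regular at `Q` -/
theorem regular_of_disc_factor [HasPrincipalDivisors L FL] (R : SmoothRed A π FL κ)
    {F2 : Type*} [Field F2] [Algebra k F2] {R' : Branch A π FL F2} {Q : Place k κ} (hQ : Q ∈ R.good) {ρ θ : FL} {j1 j2 : k}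
    (hF : IsFactor R.toBranch R' B {P | R.r P = some Q} h ρ θ j1 j2) {c' c'' a : L}
    (haA : a ∈ A) (ha : a = -(c'' * B.ϖ ^ B.s))
    (hy : algebraMap L FL c' * h + algebraMap L FL c'' ∈ R.O) :
    0 ≤ Q.ord (R.red ⟨_, hy⟩) := by
  obtain ⟨g, hr⟩ := transfer_one R.toBranch haA ha hF.mem1 hF.eq hF.red1 hy
  have hreg : RegOn R.r (algebraMap L FL c' * (h / ρ) + algebraMap L FL c'') Q :=
    fun P hP => reg_lin hF.reg c' c'' P hP
  have h1 : Q.adicValuation (R.red ⟨_, g⟩) ≤ 1 := red_regular R ⟨_, g⟩ Q hQ hreg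
  have h2 : Q.adicValuation (R.red ⟨_, hy⟩) ≤ 1 := by
    have h3 := Valuation.map_add_le _ h1
      (Q.adicValuation_algebraMap_le_one (π ⟨a, haA⟩ * j1))
    rwa [hr, sub_add_cancel] at h3
  rcases Q.adicValuation_le_one_iff.mp h2 with h0 | h0
  · rw [h0, Place.ord_zero]
  · exact h0

/-- **first component, `h` pole-free over `Q`**: the first reduction of `y` is regular at `Q` -/
theorem regular1_of_regular (H : Fermat.Agent.S34.PcgCusp.Hyp R1 R2 Fr sp1 sp2 cuspL N)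
    {Q : Place k κ} (hreg : ∀ P : Place L FL, sp1 P = Q → P.adicValuation h ≤ 1) {c' c'' : L}
    (hy1 : algebraMap L FL c' * h + algebraMap L FL c'' ∈ R1.O)
    (hy2 : algebraMap L FL c' * h + algebraMap L FL c'' ∈ R2.O) :
    0 ≤ Q.ord (R1.red ⟨_, hy1⟩) :=
  H.pc1 Q ⟨_, hy1⟩ ⟨_, hy2⟩ rfl
    (fun P hP hsp => not_ord_neg (reg_lin (T := {P | sp1 P = Q}) hreg c' c'' P hsp) hP)

/-- **second component, `h` pole-free over `Q`**: the second reduction of `y` is regular at `Q` -/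
theorem regular2_of_regular (H : Fermat.Agent.S34.PcgCusp.Hyp R1 R2 Fr sp1 sp2 cuspL N)
    {Q : Place k κ} (hreg : ∀ P : Place L FL, sp2 P = Q → P.adicValuation h ≤ 1) {c' c'' : L}
    (hy1 : algebraMap L FL c' * h + algebraMap L FL c'' ∈ R1.O)
    (hy2 : algebraMap L FL c' * h + algebraMap L FL c'' ∈ R2.O) :
    0 ≤ Q.ord (R2.red ⟨_, hy2⟩) :=
  H.pc2 Q ⟨_, hy1⟩ ⟨_, hy2⟩ rfl
    (fun P hP hsp => not_ord_neg (reg_lin (T := {P | sp2 P = Q}) hreg c' c'' P hsp) hP)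

/-- **the two reductions of `y = c' h + c''` are constants, with the jump at every node** -/
theorem exists_consts (H : Fermat.Agent.S34.PcgCusp.Hyp R1 R2 Fr sp1 sp2 cuspL N)
    (hconst : ∀ φ : κ, (∀ Q : Place k κ, 0 ≤ Q.ord φ) → ∃ c : k, φ = algebraMap k κ c)
    (jmp : Place k κ → k)
    (hnode : ∀ b ∈ N, ∃ ρ θ : FL,
      IsFactor R1.toBranch R2.toBranch B {P | sp1 P = Fr b} h ρ θ 0 (jmp b))
    {c' c'' a : L} (haA : a ∈ A) (ha : a = -(c'' * B.ϖ ^ B.s))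
    (hy1 : algebraMap L FL c' * h + algebraMap L FL c'' ∈ R1.O)
    (hy2 : algebraMap L FL c' * h + algebraMap L FL c'' ∈ R2.O)
    (hoff1 : ∀ Q : Place k κ, (∀ b ∈ N, Q ≠ Fr b) → 0 ≤ Q.ord (R1.red ⟨_, hy1⟩))
    (hoff2 : ∀ Q : Place k κ, (∀ b ∈ N, Q ≠ b) → 0 ≤ Q.ord (R2.red ⟨_, hy2⟩)) :
    ∃ κ1 κ2 : k, R1.red ⟨_, hy1⟩ = algebraMap k κ κ1 ∧ R2.red ⟨_, hy2⟩ = algebraMap k κ κ2 ∧
      ∀ b ∈ N, κ1 = κ2 - π ⟨a, haA⟩ * jmp b := by
  classical
  -- the values at the nodes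
  have hval : ∀ b ∈ N, ∃ γ : k, HasValue (Fr b) (R1.red ⟨_, hy1⟩) γ ∧
      HasValue b (R2.red ⟨_, hy2⟩) (γ + π ⟨a, haA⟩ * jmp b) := by
    intro b hb
    obtain ⟨ρ, θ, hF⟩ := hnode b hb
    exact value_at_node H hb hF haA ha hy1 hy2
  -- the first reduction is regular everywhere
  have hreg1 : ∀ Q : Place k κ, 0 ≤ Q.ord (R1.red ⟨_, hy1⟩) := by
    intro Q
    by_cases hQ : ∃ b ∈ N, Q = Fr b
    · obtain ⟨b, hb, rfl⟩ := hQ
      obtain ⟨γ, hγ, -⟩ := hval b hb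
      exact ord_nonneg_of_hasValue hγ
    · exact hoff1 Q (fun b hb hqb => hQ ⟨b, hb, hqb⟩)
  -- the second reduction is regular everywhere
  have hreg2 : ∀ Q : Place k κ, 0 ≤ Q.ord (R2.red ⟨_, hy2⟩) := by
    intro Q
    by_cases hQ : ∃ b ∈ N, Q = b
    · obtain ⟨b, hb, rfl⟩ := hQ
      obtain ⟨γ, -, hγ⟩ := hval Q hb
      exact ord_nonneg_of_hasValue hγ
    · exact hoff2 Q (fun b hb hqb => hQ ⟨b, hb, hqb⟩)
  obtain ⟨κ1, hκ1⟩ := hconst _ hreg1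
  obtain ⟨κ2, hκ2⟩ := hconst _ hreg2
  refine ⟨κ1, κ2, hκ1, hκ2, fun b hb => ?_⟩
  obtain ⟨γ, hγ1, hγ2⟩ := hval b hb
  rw [hκ1] at hγ1
  rw [hκ2] at hγ2
  have e1 : κ1 = γ := eq_of_hasValue_const hγ1
  have e2 : κ2 = γ + π ⟨a, haA⟩ * jmp b := eq_of_hasValue_const hγ2
  rw [e1, e2, add_sub_cancel_right]

/-- `exists_consts` for a function given by an equation `y = c' h + c''` -/
theorem exists_consts_of_eq (H : Fermat.Agent.S34.PcgCusp.Hyp R1 R2 Fr sp1 sp2 cuspL N)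
    (hconst : ∀ φ : κ, (∀ Q : Place k κ, 0 ≤ Q.ord φ) → ∃ c : k, φ = algebraMap k κ c)
    (jmp : Place k κ → k)
    (hnode : ∀ b ∈ N, ∃ ρ θ : FL,
      IsFactor R1.toBranch R2.toBranch B {P | sp1 P = Fr b} h ρ θ 0 (jmp b))
    {y : FL} {c' c'' a : L} (hyeq : y = algebraMap L FL c' * h + algebraMap L FL c'')
    (haA : a ∈ A) (ha : a = -(c'' * B.ϖ ^ B.s)) (hy1 : y ∈ R1.O) (hy2 : y ∈ R2.O)
    (hoff1 : ∀ Q : Place k κ, (∀ b ∈ N, Q ≠ Fr b) → 0 ≤ Q.ord (R1.red ⟨y, hy1⟩))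
    (hoff2 : ∀ Q : Place k κ, (∀ b ∈ N, Q ≠ b) → 0 ≤ Q.ord (R2.red ⟨y, hy2⟩)) :
    ∃ κ1 κ2 : k, R1.red ⟨y, hy1⟩ = algebraMap k κ κ1 ∧ R2.red ⟨y, hy2⟩ = algebraMap k κ κ2 ∧
      ∀ b ∈ N, κ1 = κ2 - π ⟨a, haA⟩ * jmp b := by
  subst hyeq
  exact exists_consts H hconst jmp hnode haA ha hy1 hy2 hoff1 hoff2

/-- **`hoff1` from the disc factors**: a factor on the side-1 disc of every good place, and `h`
pole-free over every other place which is not `Fr` of a node -/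
theorem levelRegular1 [HasPrincipalDivisors L FL]
    (H : Fermat.Agent.S34.PcgCusp.Hyp R1 R2 Fr sp1 sp2 cuspL N) {F2 : Type*} [Field F2] [Algebra k F2] {R' : Branch A π FL F2}
    (hgood : ∀ Q ∈ R1.good, ∃ (ρ θ : FL) (j1 j2 : k),
      IsFactor R1.toBranch R' B {P | R1.r P = some Q} h ρ θ j1 j2)
    (hbad : ∀ Q : Place k κ, Q ∉ R1.good → (∀ b ∈ N, Q ≠ Fr b) →
      ∀ P : Place L FL, sp1 P = Q → P.adicValuation h ≤ 1) :
    ∀ Q : Place k κ, (∀ b ∈ N, Q ≠ Fr b) → ∀ y : FL, IsLevel B h y →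
      ∀ (h1 : y ∈ R1.O), y ∈ R2.O → 0 ≤ Q.ord (R1.red ⟨y, h1⟩) := by
  intro Q hQN y hy h1 h2
  obtain ⟨c', c'', a, haA, ha, rfl⟩ := hy.exists_lin
  by_cases hQ : Q ∈ R1.good
  · obtain ⟨ρ, θ, j1, j2, hF⟩ := hgood Q hQ
    exact regular_of_disc_factor R1 hQ hF haA ha h1
  · exact regular1_of_regular H (hbad Q hQ hQN) h1 h2

/-- **`hoff2` from the disc factors**: a factor on the side-2 disc of every good place, and `h`
pole-free over every other place which is not a node -/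
theorem levelRegular2 [HasPrincipalDivisors L FL]
    (H : Fermat.Agent.S34.PcgCusp.Hyp R1 R2 Fr sp1 sp2 cuspL N) {F2 : Type*} [Field F2] [Algebra k F2] {R' : Branch A π FL F2}
    (hgood : ∀ Q ∈ R2.good, ∃ (ρ θ : FL) (j1 j2 : k),
      IsFactor R2.toBranch R' B {P | R2.r P = some Q} h ρ θ j1 j2)
    (hbad : ∀ Q : Place k κ, Q ∉ R2.good → (∀ b ∈ N, Q ≠ b) →
      ∀ P : Place L FL, sp2 P = Q → P.adicValuation h ≤ 1) :
    ∀ Q : Place k κ, (∀ b ∈ N, Q ≠ b) → ∀ y : FL, IsLevel B h y →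
      y ∈ R1.O → ∀ (h2 : y ∈ R2.O), 0 ≤ Q.ord (R2.red ⟨y, h2⟩) := by
  intro Q hQN y hy h1 h2
  obtain ⟨c', c'', a, haA, ha, rfl⟩ := hy.exists_lin
  by_cases hQ : Q ∈ R2.good
  · obtain ⟨ρ, θ, j1, j2, hF⟩ := hgood Q hQ
    exact regular_of_disc_factor R2 hQ hF haA ha h2
  · exact regular2_of_regular H (hbad Q hQ hQN) h1 h2

end Frame

/-! ### the three oracles of `Core/Induct` -/

section Oracles

variable {κ : Type*} [Field κ] [Algebra k κ]
variable {R1 R2 : SmoothRed A π FL κ} {Fr : Place k κ → Place k κ}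
  {sp1 sp2 : Place L FL → Place k κ} {cuspL : Set (Place L FL)} {N : Finset (Place k κ)}
variable {B : BreakDatum A σ} {h : FL}

/-- `π` kills the non-units -/
theorem pi_non (R : Branch A π FL κ) {a : L} (haA : a ∈ A) (ha : a ∈ A.nonunits) :
    π ⟨a, haA⟩ = 0 := by
  rw [pi_eq_zero_iff R, IsLocalRing.mem_maximalIdeal, mem_nonunits_iff]
  intro hu
  rw [A.mem_nonunits_iff] at ha
  exact (ne_of_lt ha) ((A.valuation_eq_one_iff ⟨a, haA⟩).1 hu)

variable (H : Fermat.Agent.S34.PcgCusp.Hyp R1 R2 Fr sp1 sp2 cuspL N)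
  (hconst : ∀ φ : κ, (∀ Q : Place k κ, 0 ≤ Q.ord φ) → ∃ c : k, φ = algebraMap k κ c)
  (μ : Place k κ → ℤ)
  (hnode : ∀ b ∈ N, ∃ ρ θ : FL, IsFactor R1.toBranch R2.toBranch B {P | sp1 P = Fr b} h ρ θ 0
    (π ⟨B.α, B.α_unit.mem⟩ * ((μ b : ℤ) : k)))
  (hoff1 : ∀ Q : Place k κ, (∀ b ∈ N, Q ≠ Fr b) → ∀ y : FL, IsLevel B h y →
    ∀ (h1 : y ∈ R1.O), y ∈ R2.O → 0 ≤ Q.ord (R1.red ⟨y, h1⟩))
  (hoff2 : ∀ Q : Place k κ, (∀ b ∈ N, Q ≠ b) → ∀ y : FL, IsLevel B h y →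
    y ∈ R1.O → ∀ (h2 : y ∈ R2.O), 0 ≤ Q.ord (R2.red ⟨y, h2⟩))

include H hconst hnode hoff1 hoff2

/-- **the oracle `or0`** of `Core/Induct.moment_eq` -/
theorem or0 (hN : N.Nonempty) :
    ∀ c ∈ B.K', c ≠ 0 → SameConst R1.toBranch R2.toBranch (h / algebraMap L FL c) := by
  intro c hc hc0 h1 h2
  obtain ⟨b, hb⟩ := hN
  have hlev : IsLevel B h (h / algebraMap L FL c) := isLevel_div hc hc0
  obtain ⟨κ1, κ2, e1, e2, hj⟩ := exists_consts_of_eq H hconst _ hnode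
    (div_const_eq c) A.zero_mem (by rw [zero_mul, neg_zero]) h1 h2
    (fun Q hQ => hoff1 Q hQ _ hlev h1 h2) (fun Q hQ => hoff2 Q hQ _ hlev h1 h2)
  refine ⟨κ2, ?_, e2⟩
  have h3 := hj b hb
  have h4 : π ⟨0, A.zero_mem⟩ = 0 := map_zero π
  rw [h4, zero_mul, sub_zero] at h3
  rw [e1, h3]

/-- **the oracle `orr`** of `Core/Induct.moment_eq` -/
theorem orr (hN : N.Nonempty) :
    ∀ r, 1 ≤ r → r < B.s → ∀ c ∈ B.K', c ≠ 0 →
      SameConst R1.toBranch R2.toBranch (Y B h r c) := by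
  intro r hr1 hrs c hc hc0 h1 h2
  obtain ⟨b, hb⟩ := hN
  have haA : B.ϖ ^ (B.s - r) ∈ A := pow_mem B.ϖ_memA _
  have hlev : IsLevel B h (Y B h r c) := isLevel_Y hr1 hrs.le hc hc0
  obtain ⟨κ1, κ2, e1, e2, hj⟩ := exists_consts_of_eq H hconst _ hnode
    (Y_eq r c) haA (twist_eq hrs.le) h1 h2
    (fun Q hQ => hoff1 Q hQ _ hlev h1 h2) (fun Q hQ => hoff2 Q hQ _ hlev h1 h2)
  refine ⟨κ2, ?_, e2⟩
  have h3 := hj b hb
  have hnon : B.ϖ ^ (B.s - r) ∈ A.nonunits := by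
    rw [A.mem_nonunits_iff, map_pow]
    exact pow_lt_one₀ zero_le B.val_ϖ_lt (by omega)
  rw [pi_non R1.toBranch haA hnon, zero_mul, sub_zero] at h3
  rw [e1, h3]

/-- **the oracle `ors`** of `Core/Induct.moment_eq` -/
theorem ors :
    ∀ c ∈ B.K', c ≠ 0 → ∀ (h1 : Y B h B.s c ∈ R1.O) (h2 : Y B h B.s c ∈ R2.O),
      ∃ κ1 κ2 : k, R1.red ⟨_, h1⟩ = algebraMap k κ κ1 ∧ R2.red ⟨_, h2⟩ = algebraMap k κ κ2 ∧
        ∀ e : {b // b ∈ N}, κ1 = κ2 - π ⟨B.α, B.α_unit.mem⟩ * ((μ e.1 : ℤ) : k) := by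
  intro c hc hc0 h1 h2
  have haA : B.ϖ ^ (B.s - B.s) ∈ A := pow_mem B.ϖ_memA _
  have hlev : IsLevel B h (Y B h B.s c) := isLevel_Y B.s_pos le_rfl hc hc0
  obtain ⟨κ1, κ2, e1, e2, hj⟩ := exists_consts_of_eq H hconst _ hnode
    (Y_eq B.s c) haA (twist_eq le_rfl) h1 h2
    (fun Q hQ => hoff1 Q hQ _ hlev h1 h2) (fun Q hQ => hoff2 Q hQ _ hlev h1 h2)
  refine ⟨κ1, κ2, e1, e2, fun e => ?_⟩
  have h3 := hj e.1 e.2
  have h4 : π ⟨B.ϖ ^ (B.s - B.s), haA⟩ = 1 := by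
    have h5 : (⟨B.ϖ ^ (B.s - B.s), haA⟩ : A) = 1 :=
      Subtype.ext (show B.ϖ ^ (B.s - B.s) = (1 : L) by rw [Nat.sub_self, pow_zero])
    rw [h5, map_one]
  rw [h4, one_mul] at h3
  exact h3

/-- **the equality of the moments from the node factors and the regularity off the nodes**, one
call: `Core/Induct.moment_eq` fed with the three oracles -/
theorem moment_eq_of_factors (hN : N.Nonempty) (FK : Subfield FL)
    (hKFK : ∀ c ∈ B.K', algebraMap L FL c ∈ FK)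
    (hres : ∀ κ' : k, ∃ c ∈ B.K', ∃ hc : c ∈ A, π ⟨c, hc⟩ = κ')
    (hVG1 : ∀ f ∈ FK, f ≠ 0 → ∃ n : ℤ, UnitA R1.O (f * algebraMap L FL (B.ϖ ^ (-n))))
    (hVG2 : ∀ f ∈ FK, f ≠ 0 → ∃ n : ℤ, UnitA R2.O (f * algebraMap L FL (B.ϖ ^ (-n))))
    (hh : h ∈ FK) (hh0 : h ≠ 0) :
    ∀ b ∈ N, ∀ b' ∈ N, ((μ b : ℤ) : k) = ((μ b' : ℤ) : k) := by
  intro b hb b' hb'
  exact moment_eq (R1 := R1.toBranch) (R2 := R2.toBranch) (B := B)
    (fun e : {b // b ∈ N} => μ e.1) FK hKFK hres hVG1 hVG2 hh hh0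
    (or0 H hconst μ hnode hoff1 hoff2 hN) (orr H hconst μ hnode hoff1 hoff2 hN)
    (ors H hconst μ hnode hoff1 hoff2) ⟨b, hb⟩ ⟨b', hb'⟩

end Oracles

/-! ### the disc form -/

section DiscForm

variable {κ : Type*} [Field κ] [Algebra k κ]
variable {R1 R2 : SmoothRed A π FL κ} {Fr : Place k κ → Place k κ}
  {sp1 sp2 : Place L FL → Place k κ} {cuspL : Set (Place L FL)} {N : Finset (Place k κ)}
variable {B : BreakDatum A σ} {h : FL}

/-- **the equality of the moments from the node factors, the disc factors at the good places and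
the pole-free clause at the remaining places** -/
theorem moment_eq_of_disc_factors [HasPrincipalDivisors L FL]
    (H : Fermat.Agent.S34.PcgCusp.Hyp R1 R2 Fr sp1 sp2 cuspL N)
    (hconst : ∀ φ : κ, (∀ Q : Place k κ, 0 ≤ Q.ord φ) → ∃ c : k, φ = algebraMap k κ c)
    (μ : Place k κ → ℤ)
    (hnode : ∀ b ∈ N, ∃ ρ θ : FL, IsFactor R1.toBranch R2.toBranch B {P | sp1 P = Fr b} h ρ θ 0
      (π ⟨B.α, B.α_unit.mem⟩ * ((μ b : ℤ) : k)))
    {F2 : Type*} [Field F2] [Algebra k F2] {R' : Branch A π FL F2}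
    {F2' : Type*} [Field F2'] [Algebra k F2'] {R'' : Branch A π FL F2'}
    (hgood1 : ∀ Q ∈ R1.good, ∃ (ρ θ : FL) (j1 j2 : k),
      IsFactor R1.toBranch R' B {P | R1.r P = some Q} h ρ θ j1 j2)
    (hgood2 : ∀ Q ∈ R2.good, ∃ (ρ θ : FL) (j1 j2 : k),
      IsFactor R2.toBranch R'' B {P | R2.r P = some Q} h ρ θ j1 j2)
    (hbad1 : ∀ Q : Place k κ, Q ∉ R1.good → (∀ b ∈ N, Q ≠ Fr b) →
      ∀ P : Place L FL, sp1 P = Q → P.adicValuation h ≤ 1)
    (hbad2 : ∀ Q : Place k κ, Q ∉ R2.good → (∀ b ∈ N, Q ≠ b) →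
      ∀ P : Place L FL, sp2 P = Q → P.adicValuation h ≤ 1)
    (hN : N.Nonempty) (FK : Subfield FL)
    (hKFK : ∀ c ∈ B.K', algebraMap L FL c ∈ FK)
    (hres : ∀ κ' : k, ∃ c ∈ B.K', ∃ hc : c ∈ A, π ⟨c, hc⟩ = κ')
    (hVG1 : ∀ f ∈ FK, f ≠ 0 → ∃ n : ℤ, UnitA R1.O (f * algebraMap L FL (B.ϖ ^ (-n))))
    (hVG2 : ∀ f ∈ FK, f ≠ 0 → ∃ n : ℤ, UnitA R2.O (f * algebraMap L FL (B.ϖ ^ (-n))))
    (hh : h ∈ FK) (hh0 : h ≠ 0) :
    ∀ b ∈ N, ∀ b' ∈ N, ((μ b : ℤ) : k) = ((μ b' : ℤ) : k) :=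
  moment_eq_of_factors H hconst μ hnode (levelRegular1 H hgood1 hbad1)
    (levelRegular2 H hgood2 hbad2) hN FK hKFK hres hVG1 hVG2 hh hh0

end DiscForm

end Fermat.Agent.S44.Core.Oracle
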