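import Mathlib
import Fermat.Agent.S44.Core.Oracle
import Fermat.Agent.S44.Core.TubeCount

/-!
# PROJECT P (S44), CORE, `Core/OracleLC` (helper1): THE SECOND COMPONENT FROM THE LOCAL COUNT

`Core/Oracle.levelRegular2` obtains the regularity of the second reductions of the level functions
at the places `Q` which are neither good nor nodes from the pole control `Hyp.pc2`, i.e. from the
absence of poles of `h` on the fibre `{P | sp2 P = Q}` of the SECOND total specialisation map.  The
producers of the representative (the moving lemma) only speak about the fibres of `sp1`, and the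
frame relates `sp1` and `sp2` on the good discs only.

This file removes `sp2`: the LOCAL COUNT (`Core/TubeCount.LocalCount`) on the tube
`{P | sp1 P = Fr Q}` with branches `Fr Q` (first component) and `Q` (second component) gives, for a
function `y` of `O₁ ∩ O₂` without pole on that tube, the regularity of BOTH reductions at `Fr Q`,
`Q`: after a shift by a constant `c ∈ {0, 1}` the first reduction has order `≤ 0` at `Fr Q`, so a
pole of the second one at `Q` would make the count negative.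

* `count_nonneg` : the count of a two-sided unit without pole on the tube is `≥ 0`;
* `shift_cases` : `φ` or `φ + 1` is non-zero of order `≤ 0` at a given place;
* `regular2_of_localCount`, `regular1_of_localCount` : the two regularities;
* `levelRegular2_lc` : the hypothesis `hoff2` of `Core/Oracle.moment_eq_of_factors` from the disc
  factors of the second kind, the pole-free clause `hbad1` (in `sp1`-form) and the local count
  (consumer: `X0/MomentLC`).
-/

set_option autoImplicit false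
set_option linter.unusedSectionVars false
set_option linter.unusedVariables false

namespace Fermat.Agent.S44.Core.OracleLC

open AlgebraicCurve Fermat.Agent.S24.Ord Fermat.Agent.S34.NodalDefs Fermat.Agent.S34.NodalDisc
open Fermat.Agent.S44.Core.Break Fermat.Agent.S44.Core.NormPoly Fermat.Agent.S44.Core.Induct
open Fermat.Agent.S44.Core.Factor Fermat.Agent.S44.Core.Oracle Fermat.Agent.S44.Core.TubeCount

variable {L : Type*} [Field L] {k : Type*} [Field k] {A : ValuationSubring L} {π : A →+* k}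
variable {FL : Type*} [Field FL] [Algebra L FL]
variable {σ : L ≃+* L}

/-! ### two branches and a tube -/

section Count

variable {F1 : Type*} [Field F1] [Algebra k F1] {F2 : Type*} [Field F2] [Algebra k F2]
variable {R1 : Branch A π FL F1} {R2 : Branch A π FL F2} {tube : Set (Place L FL)}
  {Q1 : Place k F1} {Q2 : Place k F2}

/-- the count of a two-sided unit without pole on the tube is non-negative -/
theorem count_nonneg [HasPrincipalDivisors L FL] (hLC : LocalCount R1 R2 tube Q1 Q2)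
    {y : FL} {φ1 : F1} {φ2 : F2} (h1 : Red R1 y φ1) (h2 : Red R2 y φ2) (hφ1 : φ1 ≠ 0)
    (hφ2 : φ2 ≠ 0) (hreg : ∀ P ∈ tube, P.adicValuation y ≤ 1) :
    0 ≤ Q1.ord φ1 + Q2.ord φ2 := by
  classical
  have hy0 : y ≠ 0 := h1.ne_zero hφ1
  obtain ⟨D, hD, -⟩ := HasPrincipalDivisors.exists_divisor (K := L) y hy0
  have hsum := hLC y φ1 φ2 h1 h2 hφ1 hφ2 (D.support.filter (· ∈ tube))
    (fun P hP => (Finset.mem_filter.mp hP).2)
    (fun P hP hne => Finset.mem_filter.mpr
      ⟨Finsupp.mem_support_iff.mpr (by rw [hD]; exact hne), hP⟩)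
  rw [← hsum]
  exact Finset.sum_nonneg fun P hP =>
    ord_nonneg_of_le_one P (hreg P (Finset.mem_filter.mp hP).2)

/-- `φ` or `φ + 1` is non-zero of order `≤ 0` at a given place -/
theorem shift_cases {K : Type*} [Field K] {E : Type*} [Field E] [Algebra K E] (Q : Place K E)
    (φ : E) : (φ ≠ 0 ∧ Q.ord φ ≤ 0) ∨ (φ + 1 ≠ 0 ∧ Q.ord (φ + 1) ≤ 0) := by
  by_cases h : φ ≠ 0 ∧ Q.ord φ ≤ 0
  · exact Or.inl h
  · right
    have hv : Q.adicValuation φ < 1 := by
      by_cases h0 : φ = 0
      · rw [h0, map_zero]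
        exact zero_lt_one
      · have h1 : ¬ Q.ord φ ≤ 0 := fun h1 => h ⟨h0, h1⟩
        exact (ord_pos_iff Q h0).mp (not_le.mp h1)
    have hv1 : Q.adicValuation (φ + 1) = 1 := by
      have := Valuation.map_add_eq_of_lt_right Q.adicValuation
        (x := φ) (y := 1) (by rw [map_one]; exact hv)
      rw [this, map_one]
    refine ⟨fun h0 => ?_, (ord_eq_zero_of_adicValuation_eq_one Q hv1).le⟩
    rw [h0, map_zero] at hv1
    exact zero_ne_one hv1

/-- **the second reduction is regular at `Q2`** if `y ∈ O₁ ∩ O₂` has no pole on the tube -/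
theorem regular2_of_localCount [HasPrincipalDivisors L FL] (hLC : LocalCount R1 R2 tube Q1 Q2)
    {y : FL} (h1 : y ∈ R1.O) (h2 : y ∈ R2.O) (hreg : ∀ P ∈ tube, P.adicValuation y ≤ 1) :
    0 ≤ Q2.ord (R2.red ⟨y, h2⟩) := by
  by_contra hneg
  rw [not_le] at hneg
  have hφ2 : R2.red ⟨y, h2⟩ ≠ 0 := by
    intro h0
    rw [h0, Place.ord_zero] at hneg
    exact lt_irrefl _ hneg
  have hv2 : 1 < Q2.adicValuation (R2.red ⟨y, h2⟩) := (ord_neg_iff Q2 hφ2).mp hneg
  rcases shift_cases Q1 (R1.red ⟨y, h1⟩) with ⟨hφ1, ho⟩ | ⟨hφ1, ho⟩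
  · have := count_nonneg hLC (red_of_mem h1) (red_of_mem h2) hφ1 hφ2 hreg
    omega
  · have hr1 : Red R1 (y + 1) (R1.red ⟨y, h1⟩ + 1) := (red_of_mem h1).add red_one
    have hr2 : Red R2 (y + 1) (R2.red ⟨y, h2⟩ + 1) := (red_of_mem h2).add red_one
    have hv : Q2.adicValuation (R2.red ⟨y, h2⟩ + 1) = Q2.adicValuation (R2.red ⟨y, h2⟩) :=
      Valuation.map_add_eq_of_lt_left Q2.adicValuation (by rw [map_one]; exact hv2)
    have hφ2' : R2.red ⟨y, h2⟩ + 1 ≠ 0 := by
      intro h0
      rw [h0, map_zero] at hv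
      rw [← hv] at hv2
      exact not_lt_of_ge zero_le_one hv2
    have hneg' : Q2.ord (R2.red ⟨y, h2⟩ + 1) < 0 := by
      rw [ord_neg_iff Q2 hφ2', hv]
      exact hv2
    have hreg' : ∀ P ∈ tube, P.adicValuation (y + 1) ≤ 1 := fun P hP =>
      Valuation.map_add_le _ (hreg P hP) (by rw [map_one])
    have := count_nonneg hLC hr1 hr2 hφ1 hφ2' hreg'
    omega

/-- **the first reduction is regular at `Q1`** if `y ∈ O₁ ∩ O₂` has no pole on the tube -/
theorem regular1_of_localCount [HasPrincipalDivisors L FL] (hLC : LocalCount R1 R2 tube Q1 Q2)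
    {y : FL} (h1 : y ∈ R1.O) (h2 : y ∈ R2.O) (hreg : ∀ P ∈ tube, P.adicValuation y ≤ 1) :
    0 ≤ Q1.ord (R1.red ⟨y, h1⟩) := by
  by_contra hneg
  rw [not_le] at hneg
  have hφ1 : R1.red ⟨y, h1⟩ ≠ 0 := by
    intro h0
    rw [h0, Place.ord_zero] at hneg
    exact lt_irrefl _ hneg
  have hv1 : 1 < Q1.adicValuation (R1.red ⟨y, h1⟩) := (ord_neg_iff Q1 hφ1).mp hneg
  rcases shift_cases Q2 (R2.red ⟨y, h2⟩) with ⟨hφ2, ho⟩ | ⟨hφ2, ho⟩
  · have := count_nonneg hLC (red_of_mem h1) (red_of_mem h2) hφ1 hφ2 hreg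
    omega
  · have hr1 : Red R1 (y + 1) (R1.red ⟨y, h1⟩ + 1) := (red_of_mem h1).add red_one
    have hr2 : Red R2 (y + 1) (R2.red ⟨y, h2⟩ + 1) := (red_of_mem h2).add red_one
    have hv : Q1.adicValuation (R1.red ⟨y, h1⟩ + 1) = Q1.adicValuation (R1.red ⟨y, h1⟩) :=
      Valuation.map_add_eq_of_lt_left Q1.adicValuation (by rw [map_one]; exact hv1)
    have hφ1' : R1.red ⟨y, h1⟩ + 1 ≠ 0 := by
      intro h0
      rw [h0, map_zero] at hv
      rw [← hv] at hv1
      exact not_lt_of_ge zero_le_one hv1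
    have hneg' : Q1.ord (R1.red ⟨y, h1⟩ + 1) < 0 := by
      rw [ord_neg_iff Q1 hφ1', hv]
      exact hv1
    have hreg' : ∀ P ∈ tube, P.adicValuation (y + 1) ≤ 1 := fun P hP =>
      Valuation.map_add_le _ (hreg P hP) (by rw [map_one])
    have := count_nonneg hLC hr1 hr2 hφ1' hφ2 hreg'
    omega

end Count

/-! ### the frame of Route G -/

section Frame

variable {κ : Type*} [Field κ] [Algebra k κ]
variable {R1 R2 : SmoothRed A π FL κ} {Fr : Place k κ → Place k κ}
  {sp1 sp2 : Place L FL → Place k κ} {cuspL : Set (Place L FL)} {N : Finset (Place k κ)}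
variable {B : BreakDatum A σ} {h : FL}

/-- **`hoff2` from the disc factors and the local count**: a factor on the side-2 disc of every
good place, `h` pole-free on the `sp1`-fibre of every place which is neither good nor `Fr` of a
node, and the local count on every tube `{P | sp1 P = Fr Q}` with branches `Fr Q`, `Q`.
No `sp2`, no `pc2`. -/
theorem levelRegular2_lc [HasPrincipalDivisors L FL]
    (H : Fermat.Agent.S34.PcgCusp.Hyp R1 R2 Fr sp1 sp2 cuspL N)
    (hfr : ∀ Q : Place k κ, Fr Q ∈ R1.good ↔ Q ∈ R1.good) (hinj : Function.Injective Fr)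
    (hLC : ∀ Q : Place k κ,
      LocalCount R1.toBranch R2.toBranch {P | sp1 P = Fr Q} (Fr Q) Q)
    {F2 : Type*} [Field F2] [Algebra k F2] {R' : Branch A π FL F2}
    (hgood : ∀ Q ∈ R2.good, ∃ (ρ θ : FL) (j1 j2 : k),
      IsFactor R2.toBranch R' B {P | R2.r P = some Q} h ρ θ j1 j2)
    (hbad : ∀ Q : Place k κ, Q ∉ R1.good → (∀ b ∈ N, Q ≠ Fr b) →
      ∀ P : Place L FL, sp1 P = Q → P.adicValuation h ≤ 1) :
    ∀ Q : Place k κ, (∀ b ∈ N, Q ≠ b) → ∀ y : FL, IsLevel B h y →
      y ∈ R1.O → ∀ (h2 : y ∈ R2.O), 0 ≤ Q.ord (R2.red ⟨y, h2⟩) := by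
  intro Q hQN y hy h1 h2
  obtain ⟨c', c'', a, haA, ha, rfl⟩ := hy.exists_lin
  by_cases hQ : Q ∈ R2.good
  · obtain ⟨ρ, θ, j1, j2, hF⟩ := hgood Q hQ
    exact regular_of_disc_factor R2 hQ hF haA ha h2
  · have hQ1 : Fr Q ∉ R1.good := by
      rw [hfr, ← H.good_eq]
      exact hQ
    have hne : ∀ b ∈ N, Fr Q ≠ Fr b := fun b hb e => hQN b hb (hinj e)
    exact regular2_of_localCount (R1 := R1.toBranch) (R2 := R2.toBranch) (hLC Q) h1 h2
      (reg_lin (T := {P | sp1 P = Fr Q}) (hbad (Fr Q) hQ1 hne) c' c'')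

end Frame

end Fermat.Agent.S44.Core.OracleLC
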